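import Fermat.Agent.CAR.Unit.Interface3
import Fermat.Agent.S36.Val.GVApi
import Fermat.Agent.S36.Val.GVOps

/-!
# S36 / CAR / Unit, UNIT-Q3 : `β = t₄(q^(r²)) - t₄(q)`, `β^(r-1) / aM ≡ ± t₄^(r-1)` on the middle
component (`Stmt_beta4`)
-/

set_option autoImplicit false

namespace Fermat.Agent.CAR.Unit

open Fermat.Agent.S24 (Qbar FF)
open Fermat.Agent.S36.Val (ALData ALMap MidData deltaMat Ctx phiA phiM phiC jE GInt gred resA)
open Fermat.Agent.S36.Base (IE AE FE emb cmE)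
open Fermat.Agent.INJ.Inst (kA)
open Fermat.Agent.INJ.Inst.Gauss (rho inc)
open Fermat.Agent.ES.Mid (tw)
open Fermat.Agent.KL.Haupt (lau)
open Fermat.Agent.S36.Val

/-- the final computation in the residue field of series. -/
theorem Q3_field {L : Type*} [Field L] (s : ℕ) (hs : Even s) (e tb fb gb a : L) (hfb : fb ≠ 0)
    (hg : fb ^ (s + 1) * gb = 1) (ha : fb * a = 1) :
    e * (-1) * (-(tb * fb ^ 2)) ^ s * fb * gb * (fb ^ (s + 1) * a)⁻¹ + e * tb ^ s = 0 := by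
  have hgb : gb = (fb ^ (s + 1))⁻¹ := eq_inv_of_mul_eq_one_right hg
  have haa : a = fb⁻¹ := eq_inv_of_mul_eq_one_right ha
  rw [hgb, haa, hs.neg_pow]
  field_simp
  ring

theorem beta4 (hS : Stmt_serCalc) (hG : Stmt_gaussEta) (hW1 : Stmt_W1) (hMU : Stmt_MU)
    (hE : Stmt_eltE) (hX : Stmt_phiX) (hT : Stmt_phiT) (hth : Stmt_twTheta) (hw : Stmt_wilson)
    (hst : Stmt_star4) : Stmt_beta4 := by
  intro A r M _ _ _ _ C X1 X2 T0 T2 h4 hX1 hX2 hT0 hT2
  obtain ⟨-, hS2, hS3, -, hS5, hS6⟩ := hS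
  obtain ⟨-, -, hMU3, hMU4, -, hMUt4, -⟩ := hMU
  have hr := C.hr
  have hA := C.hA
  have : Fact r.Prime := ⟨hr⟩
  have hchar : CharP (kA A) r := ES.Mid.HF3.charP_residue A r hA
  have hrk : ((r : ℕ) : kA A) = 0 := CharP.cast_eq_zero _ _
  -- `r` is odd
  have hr2 : r ≠ 2 := by
    rintro rfl
    exact C.hrM (Dvd.dvd.trans (by norm_num) h4)
  have heven : Even (r - 1) := by
    rcases hr.eq_two_or_odd' with h | h
    · exact absurd h hr2
    · obtain ⟨m, hm⟩ := h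
      exact ⟨m, by omega⟩
  have hr1 : r - 1 + 1 = r := Nat.sub_add_cancel hr.one_le
  -- the auxiliary element `T1`
  obtain ⟨T1, hT1⟩ : ∃ T1 : FE A (r ^ 2 * M), IsEta A T1 (r * (-1)) (scaleL r lt4) := by
    apply hE
    refine hMU3 (r * 4) _ _ _ ?_ (hMU4 4 r (-1) lt4 hr.pos hMUt4)
    rw [pow_two, mul_assoc]
    exact Nat.mul_dvd_mul_left r (Dvd.dvd.mul_left h4 r)
  obtain ⟨-, ⟨hMT0, -, hMT2⟩, -⟩ := hT A r M C 4 (-1) lt4 T0 T1 T2 hMUt4 h4 hT0 hT1 hT2
  obtain ⟨-, -, hMX1, ⟨ε, hε, hMX2⟩, -, -⟩ := hX A r M C 4 lf4 chi4 X1 X2 hW1.1 h4 hX1 hX2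
  have hζr : C.D.ζ ^ r = 1 := C.D.prim.pow_eq_one
  obtain ⟨h, hh1, hh2⟩ := hth A r hr hA C.D.ζ hζr (-1) (etaLps lt4)
  obtain ⟨c, hc1, hc2⟩ := hw A r hr hA C.D.ζ C.D.prim
  -- the inverse of `c`
  obtain ⟨d, hd⟩ : ∃ d : A, c * d = 1 := by
    have hu : IsUnit c := by
      rw [← IsLocalRing.residue_ne_zero_iff_isUnit, show IsLocalRing.residue A c = resA A c from rfl,
        hc2]
      exact neg_ne_zero.2 one_ne_zero
    obtain ⟨u, rfl⟩ := hu
    exact ⟨((u⁻¹ : Aˣ) : A), u.mul_inv⟩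
  have hd2 : resA A d = -1 := by
    have h1 := congrArg (resA A) hd
    rw [map_mul, hc2, map_one] at h1
    linear_combination -h1
  have hdQ : (c : Qbar) * (d : Qbar) = 1 := congrArg Subtype.val hd
  -- signs
  obtain ⟨εF, εA, hF, hFA, hAQ⟩ : ∃ (εF : FE A (r ^ 2 * M)) (εA : A), (εF = 1 ∨ εF = -1) ∧
      phiM A C.D εF = algebraMap Qbar (LaurentSeries Qbar) ε ∧ (εA : Qbar) = ε := by
    rcases hε with rfl | rfl
    · exact ⟨1, 1, Or.inl rfl, by rw [map_one, map_one], rfl⟩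
    · exact ⟨-1, -1, Or.inr rfl, by rw [map_neg, map_one, map_neg, map_one], rfl⟩
  refine ⟨-εF, ?_, ?_⟩
  · rcases hF with rfl | rfl
    · exact Or.inr rfl
    · exact Or.inl (neg_neg _)
  -- notation
  set t : LaurentSeries Qbar := etaLser Qbar (-1) lt4 with ht
  set f : LaurentSeries Qbar := etaLser Qbar 0 lf4 with hf
  set g : LaurentSeries Qbar := etaLser Qbar 0 (negL (scaleL r lf4)) with hg
  set x1 : LaurentSeries Qbar := etaLser Qbar 0 (lx1 lf4 r) with hx1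
  set tb : LaurentSeries (kA A) := etaLser (kA A) (-1) lt4 with htb
  set fb : LaurentSeries (kA A) := etaLser (kA A) 0 lf4 with hfb
  set gb : LaurentSeries (kA A) := etaLser (kA A) 0 (negL (scaleL r lf4)) with hgb
  set ab : LaurentSeries (kA A) := etaLser (kA A) 0 (negL lf4) with hab
  have hfb0 : fb ≠ 0 := hS6 _ _ _
  have hfa : fb * ab = 1 := by
    have := hS3 (kA A) 0 lf4
    rwa [neg_zero] at this
  have hfr : etaLser (kA A) 0 (scaleL r lf4) = fb ^ r := by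
    have := hS5 (kA A) r 0 lf4 hr hrk hW1.1.pos
    rwa [mul_zero] at this
  have hfg : fb ^ r * gb = 1 := by
    have := hS3 (kA A) 0 (scaleL r lf4)
    rwa [neg_zero, hfr] at this
  have hx1b : etaLser (kA A) 0 (lx1 lf4 r) = fb ^ r * ab := by
    rw [lx1, ← hfr, hS2, add_zero]
  -- the reduction of `h`
  have hrho : rho (resA A) h = -(tb * fb ^ 2) := by
    have h1 : Fermat.Agent.S16.theta (etaLps lt4) + ((-1 : ℤ) : PowerSeries ℤ) * etaLps lt4
        = -(etaLps lt4 * etaLps lf4 ^ 2) := by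
      rw [← hst]
      push_cast
      ring
    rw [hh2, h1, map_neg, map_mul, map_pow, htb, hfb, etaLser, etaLser]
    have h2 : (HahnSeries.single (0 : ℤ) (1 : kA A)) = 1 := rfl
    rw [h2, one_mul]
    ring
  -- the image of the main term
  have hz0 : ((C.D.ζ : Qbar) - 1) ^ (r - 1) ≠ 0 := by
    intro h0
    rw [h0, mul_zero] at hc1
    exact (Nat.cast_ne_zero.2 hr.ne_zero) hc1.symm
  have hconst : ((C.D.ζ : Qbar) - 1) ^ (r - 1) * (ε * (r : Qbar)⁻¹) = ((εA * d : A) : Qbar) := by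
    have hc0 : (c : Qbar) ≠ 0 := left_ne_zero_of_mul_eq_one hdQ
    have hdd : (d : Qbar) = (c : Qbar)⁻¹ := eq_inv_of_mul_eq_one_right hdQ
    rw [← hc1]
    show _ = (εA : Qbar) * (d : Qbar)
    rw [hAQ, hdd]
    field_simp
  have hmain : phiM A C.D ((T2 - T0) ^ (r - 1) * (X2 / X1))
      = algebraMap Qbar (LaurentSeries Qbar) ((εA * d : A) : Qbar) * inc A h ^ (r - 1)
        * tw C.D.ζ f * g * x1⁻¹ := by
    have hsm : ∀ (a : Qbar) (y : LaurentSeries Qbar),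
        a • y = algebraMap Qbar (LaurentSeries Qbar) a * y := by
      intro a y
      rw [ModularCurve.algebraMap_laurentSeries_eq_single, HahnSeries.single_zero_mul_eq_smul]
    rw [map_mul, map_pow, map_sub, map_div₀, hMT0, hMT2, hMX1, hMX2, ← hconst,
      show tw C.D.ζ t - t = algebraMap Qbar (LaurentSeries Qbar) ((C.D.ζ : Qbar) - 1) * inc A h
        from hh1, hsm, mul_pow, div_eq_mul_inv]
    simp only [map_mul, map_pow]
    ring
  -- Gauss calculus
  have gE : GInt A (algebraMap Qbar (LaurentSeries Qbar) ((εA * d : A) : Qbar)) :=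
    gint_const (Subtype.property _)
  have rE : gred A (algebraMap Qbar (LaurentSeries Qbar) ((εA * d : A) : Qbar))
      = algebraMap (kA A) (LaurentSeries (kA A)) (resA A εA) * (-1) := by
    rw [gred_const (Subtype.property _)]
    show algebraMap (kA A) (LaurentSeries (kA A)) (resA A (εA * d)) = _
    rw [map_mul, hd2, map_mul, map_neg, map_one]
  have gH : GInt A (inc A h ^ (r - 1)) := (gint_inc h).pow _
  have rH : gred A (inc A h ^ (r - 1)) = (-(tb * fb ^ 2)) ^ (r - 1) := by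
    rw [gred_pow (gint_inc h), gred_inc, hrho]
  obtain ⟨gF, rF⟩ := stmt_GVTw A r hr hA C.D.ζ hζr f (hG A 0 lf4).1
  rw [(hG A 0 lf4).2] at rF
  obtain ⟨gg, rg⟩ := hG A 0 (negL (scaleL r lf4))
  obtain ⟨gx, rx⟩ := hG A 0 (lx1 lf4 r)
  rw [hx1b] at rx
  have hx0 : gred A x1 ≠ 0 := by
    rw [rx]
    exact mul_ne_zero (pow_ne_zero _ hfb0) (right_ne_zero_of_mul_eq_one hfa)
  have gxi : GInt A x1⁻¹ := GInt.inv gx hx0
  have rxi : gred A x1⁻¹ = (fb ^ r * ab)⁻¹ := by rw [gred_inv gx hx0, rx]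
  obtain ⟨gt, rt⟩ := hG A (-1) lt4
  have gε : GInt A (algebraMap Qbar (LaurentSeries Qbar) ε) := by
    rw [← hAQ]; exact gint_const (Subtype.property _)
  have rε : gred A (algebraMap Qbar (LaurentSeries Qbar) ε)
      = algebraMap (kA A) (LaurentSeries (kA A)) (resA A εA) := by
    rw [← hAQ, gred_const (Subtype.property _)]
  have g1 := gE.mul gH
  have g2 := g1.mul gF
  have g3 := g2.mul gg
  have g4 := g3.mul gxi
  have g5 := gε.mul (gt.pow (r - 1))
  have hO1 : C.O 1 = OM A C.D C.hS := rfl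
  rw [hO1]
  refine (gv_lt_one_iff (phiM A C.D) _ _).2 ?_
  have himg : phiM A C.D ((T2 - T0) ^ (r - 1) * (X2 / X1) - -εF * T0 ^ (r - 1))
      = algebraMap Qbar (LaurentSeries Qbar) ((εA * d : A) : Qbar) * inc A h ^ (r - 1)
        * tw C.D.ζ f * g * x1⁻¹ + algebraMap Qbar (LaurentSeries Qbar) ε * t ^ (r - 1) := by
    rw [map_sub, hmain, map_mul, map_neg, hFA, map_pow, hMT0]
    ring
  rw [himg]
  refine ⟨g4.add g5, ?_⟩
  rw [gred_add g4 g5, gred_mul g3 gxi, gred_mul g2 gg, gred_mul g1 gF, gred_mul gE gH,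
    gred_mul gε (gt.pow _), gred_pow gt, rE, rH, rF, rg, rxi, rt, rε]
  have key := Q3_field (r - 1) heven (algebraMap (kA A) (LaurentSeries (kA A)) (resA A εA)) tb fb gb
    ab hfb0 (by rw [hr1]; exact hfg) hfa
  rw [hr1] at key
  exact key

end Fermat.Agent.CAR.Unit
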