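import Mathlib
import Fermat.Agent.S24.QExpHom
import Fermat.Agent.KL.HauptL
import Fermat.Agent.KL.HauptQ
import Fermat.Agent.ES.Mid.Interface2
import Fermat.Agent.ES.Mid.HeckeDefs
import Fermat.Agent.S16.EisP

/-!
# S36 / CAR / Unit : the analytic half of [UNIT] (sub-architect: helper37).  Definitions.

Weight one modular units of level `4` (for `r` odd) and `9` (for `r = 2`), as eta quotients.
All functions are functions of a COMPLEX variable (`ModularForm.eta : ℂ → ℂ`), statements are for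
`z` in the upper half plane; so `f (r * z)`, `f (z + 1 / 2)`, `f (-1 / (4 * z))` need no coercions.

* `etaG l z = ∏_{(A, B, D, e) ∈ l} η((A z + B) / D) ^ e`  (generalised eta quotient),
* `etaL l z = ∏_{(d, e) ∈ l} η(d z) ^ e`                  (eta quotient),
* `etaLps l = ∏ E(q^d)^e ∈ 1 + q ℤ⟦q⟧`, `E = ∏ (1 - q^n)` (the prelude's `etaProd`).
-/

set_option autoImplicit false

namespace Fermat.Agent.CAR.Unit

open CongruenceSubgroup Complex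
open UpperHalfPlane hiding I
open scoped MatrixGroups Real

noncomputable section

local notation "η" => ModularForm.eta

/-! ### eta quotients -/

/-- `∏ η(d z) ^ e` over the list of pairs `(d, e)`. -/
def etaL (l : List (ℕ × ℤ)) (z : ℂ) : ℂ :=
  (l.map fun p => η ((p.1 : ℂ) * z) ^ p.2).prod

/-- `∏ η((A z + B) / D) ^ e` over the list of `(A, B, D, e)`. -/
def etaG (l : List (ℕ × ℤ × ℕ × ℤ)) (z : ℂ) : ℂ :=
  (l.map fun p => η (((p.1 : ℂ) * z + (p.2.1 : ℂ)) / (p.2.2.1 : ℂ)) ^ p.2.2.2).prod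

/-- an eta quotient as a generalised eta quotient. -/
def toG (l : List (ℕ × ℤ)) : List (ℕ × ℤ × ℕ × ℤ) := l.map fun p => (p.1, 0, 1, p.2)

/-- twice the weight. -/
def wt2 (l : List (ℕ × ℤ)) : ℤ := (l.map Prod.snd).sum

def wt2G (l : List (ℕ × ℤ × ℕ × ℤ)) : ℤ := (l.map fun p => p.2.2.2).sum

/-- `∑ d e` (`24 ×` the order at `∞`). -/
def deg24 (l : List (ℕ × ℤ)) : ℤ := (l.map fun p => (p.1 : ℤ) * p.2).sum

/-- `24 ×` the order of `etaG l` at the cusp `a / c` (in the variable `q = e(z)`):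
`∑ e gcd(A a + B c, D c)² / (A D)`. -/
def ordG (l : List (ℕ × ℤ × ℕ × ℤ)) (a c : ℤ) : ℝ :=
  (l.map fun p => (p.2.2.2 : ℝ) *
    ((Int.gcd ((p.1 : ℤ) * a + p.2.1 * c) ((p.2.2.1 : ℤ) * c) : ℕ) : ℝ) ^ 2 /
      ((p.1 : ℝ) * (p.2.2.1 : ℝ))).sum

/-- the Fricke dual `d ↦ a / d`. -/
def dualL (a : ℕ) (l : List (ℕ × ℤ)) : List (ℕ × ℤ) := l.map fun p => (a / p.1, p.2)

/-- the positive real constant `∏ (a / d) ^ (e / 2)`. -/
def frkConst (a : ℕ) (l : List (ℕ × ℤ)) : ℝ :=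
  (l.map fun p => (((a / p.1 : ℕ) : ℝ)) ^ ((p.2 : ℝ) / 2)).prod

def PosL (l : List (ℕ × ℤ)) : Prop := ∀ p ∈ l, 0 < p.1

def PosG (l : List (ℕ × ℤ × ℕ × ℤ)) : Prop := ∀ p ∈ l, 0 < p.1 ∧ 0 < p.2.2.1

/-! ### formal eta quotients -/

/-- `E(q^d)`. -/
def Eps (d : ℕ) : PowerSeries ℤ :=
  if h : d = 0 then 1 else PowerSeries.expand d h ModularCurve.etaProd

/-- `E(q^d)⁻¹`. -/
def EpsInv (d : ℕ) : PowerSeries ℤ := (Eps d).invOfUnit 1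

/-- `∏ E(q^d) ^ e`. -/
def etaLps (l : List (ℕ × ℤ)) : PowerSeries ℤ :=
  (l.map fun p => if 0 ≤ p.2 then Eps p.1 ^ p.2.toNat else EpsInv p.1 ^ (-p.2).toNat).prod

/-- the Laurent series `q^n ∏ E(q^d) ^ e` over any ring. -/
def etaLser (R : Type*) [CommRing R] (n : ℤ) (l : List (ℕ × ℤ)) : LaurentSeries R :=
  HahnSeries.single n 1 * Fermat.Agent.KL.Haupt.lau R (etaLps l)

/-! ### the lists -/

def lf4 : List (ℕ × ℤ) := [(2, 10), (1, -4), (4, -4)]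
def lt4 : List (ℕ × ℤ) := [(1, 8), (4, -8)]
def lu4 : List (ℕ × ℤ) := [(2, 24), (1, -8), (4, -16)]
/-- `θ₃⁴ = f4 ^ 2`, `θ₄⁴`, `θ₂⁴ / 16` (in the variable `2 z`). -/
def lA3 : List (ℕ × ℤ) := [(2, 20), (1, -8), (4, -8)]
def lA4 : List (ℕ × ℤ) := [(1, 8), (2, -4)]
def lA2 : List (ℕ × ℤ) := [(4, 8), (2, -4)]
def lt2 : List (ℕ × ℤ) := [(1, 24), (2, -24)]

def lf9 : List (ℕ × ℤ) := [(1, 3), (3, -1)]
def lf3s : List (ℕ × ℤ) := [(3, 3), (1, -1)]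
def lf9s : List (ℕ × ℤ) := [(9, 3), (3, -1)]
def lt9 : List (ℕ × ℤ) := [(1, 3), (9, -3)]
def lu9 : List (ℕ × ℤ) := [(3, 12), (1, -3), (9, -9)]
def lG9 : List (ℕ × ℤ) := [(3, 10), (1, -3), (9, -3)]
def lt3 : List (ℕ × ℤ) := [(1, 12), (3, -12)]

/-! ### the functions -/

/-- weight one unit of level `4`: `θ(2z)² = η(2z)^10 / (η(z)^4 η(4z)^4)`. -/
def f4 : ℂ → ℂ := etaL lf4
/-- Hauptmodul of level `4`: `η(z)^8 / η(4z)^8 = q⁻¹ - 8 + 20 q - ...`. -/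
def t4 : ℂ → ℂ := etaL lt4
/-- `t4 + 16`. -/
def u4 : ℂ → ℂ := etaL lu4
/-- `b(q) = η(z)^3 / η(3z)`, weight one on `Γ₀(9)`, with a multiplier of order `3` on `Γ₀(3)`. -/
def f9 : ℂ → ℂ := etaL lf9
/-- `η(3z)^3 / η(z) = q^{1/3} (...)`, the Fricke dual of `f9` at level `3`. -/
def f3s : ℂ → ℂ := etaL lf3s
/-- `η(9z)^3 / η(3z) = q (...)`. -/
def f9s : ℂ → ℂ := etaL lf9s
/-- the translates `b(ω q)`, `b(ω⁻¹ q)`: weight one units of level `9`, nonzero at `∞` and at `0`. -/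
def f9p (z : ℂ) : ℂ := f9 (z + 1 / 3)
def f9m (z : ℂ) : ℂ := f9 (z - 1 / 3)
/-- Hauptmodul of level `9`: `η(z)^3 / η(9z)^3 = q⁻¹ - 3 + ...`. -/
def t9 : ℂ → ℂ := etaL lt9
/-- `t9 ^ 2 + 9 t9 + 27`. -/
def u9 : ℂ → ℂ := etaL lu9
def t3 : ℂ → ℂ := etaL lt3
def t2 : ℂ → ℂ := etaL lt2

/-- `e(x) = exp(2 π i x)`. -/
def ee (x : ℂ) : ℂ := cexp (2 * π * I * x)

/-! ### matrices and multipliers -/

/-- `[[1, 0], [a, 1]]`. -/
def Ua (a : ℤ) : SL(2, ℤ) := ⟨!![1, 0; a, 1], by simp [Matrix.det_fin_two]⟩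

/-- `χ₋₄(d)` for odd `d`. -/
def chi4 (d : ℤ) : ℂ := if d % 4 = 1 then 1 else -1

/-- `χ₋₃(d)` for `3 ∤ d`. -/
def chi3 (d : ℤ) : ℂ := if d % 3 = 1 then 1 else -1

/-- restriction of a function of a complex variable to `ℍ`. -/
def onH (f : ℂ → ℂ) : ℍ → ℂ := fun z => f (z : ℂ)

/-- the automorphy factor `c z + d`. -/
def den (γ : SL(2, ℤ)) (z : ℂ) : ℂ := ((γ 1 0 : ℤ) : ℂ) * z + ((γ 1 1 : ℤ) : ℂ)

/-- multiplier of `f4` on `Γ₀(4)`. -/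
def mu4 (γ : SL(2, ℤ)) : ℂ := chi4 (γ 1 1)

/-- multiplier of `f9` on `Γ₀(3)`: `e(-(c/3) d / 3) χ₋₃(d)`. -/
def mu3 (γ : SL(2, ℤ)) : ℂ := ee (-(((γ 1 0 / 3 * γ 1 1 : ℤ) : ℂ)) / 3) * chi3 (γ 1 1)

/-- multiplier of `f3s` on `Γ₀(3)`: `e(a b / 3) χ₋₃(d)`. -/
def mu3s (γ : SL(2, ℤ)) : ℂ := ee (((γ 0 0 * γ 0 1 : ℤ) : ℂ) / 3) * chi3 (γ 1 1)

/-- `∑ σ₁(n) q^n`. -/
def sig1 : PowerSeries ℤ := PowerSeries.mk fun n => ∑ d ∈ n.divisors, (d : ℤ)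

end

end Fermat.Agent.CAR.Unit
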