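import Fermat.Agent.CAR.Unit.Interface

/-!
# S36 / CAR / Unit : task UNIT-B1.  `η(z+1)`, holomorphy and nonvanishing of eta quotients, `T`-rule
-/

set_option autoImplicit false

namespace Fermat.Agent.CAR.Unit

open CongruenceSubgroup Complex Filter Asymptotics
open UpperHalfPlane hiding I
open scoped MatrixGroups Real Manifold ModularForm

noncomputable section

/-! ### `e(x)` -/

theorem B1_ee_add (x y : ℂ) : ee (x + y) = ee x * ee y := by
  rw [ee, ee, ee, mul_add, Complex.exp_add]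

theorem B1_ee_zero : ee 0 = 1 := by rw [ee, mul_zero, Complex.exp_zero]

theorem B1_ee_ne_zero (x : ℂ) : ee x ≠ 0 := Complex.exp_ne_zero _

theorem B1_ee_zpow (x : ℂ) (n : ℤ) : ee x ^ n = ee (n * x) := by
  rw [ee, ee, ← Complex.exp_int_mul]
  congr 1
  ring

theorem B1_ee_pow (x : ℂ) (n : ℕ) : ee x ^ n = ee (n * x) := by
  rw [ee, ee, ← Complex.exp_nat_mul]
  congr 1
  ring

theorem B1_ee_one : ee 1 = 1 := by rw [ee, mul_one, Complex.exp_two_pi_mul_I]

/-! ### `η(z + 1)` -/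

theorem etaT : Stmt_etaT := by
  intro z
  have h1 : Function.Periodic.qParam 24 (z + 1) = ee (1 / 24) * Function.Periodic.qParam 24 z := by
    rw [Function.Periodic.qParam, Function.Periodic.qParam, ee, ← Complex.exp_add]
    congr 1
    push_cast
    ring
  have h2 : ∀ n, ModularForm.eta_q n (z + 1) = ModularForm.eta_q n z := by
    intro n
    rw [ModularForm.eta_q_eq_pow, ModularForm.eta_q_eq_pow, mul_add, Complex.exp_add, mul_one,
      Complex.exp_two_pi_mul_I, mul_one]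
  rw [ModularForm.eta, ModularForm.eta, h1, mul_assoc]
  simp only [h2]

/-- `η(z + d) = e(d / 24) η(z)`. -/
theorem B1_eta_add_nat (h : Stmt_etaT) (z : ℂ) (d : ℕ) : η (z + d) = ee ((d : ℂ) / 24) * η z := by
  induction d with
  | zero => rw [Nat.cast_zero, add_zero, zero_div, B1_ee_zero, one_mul]
  | succ d ih =>
    rw [Nat.cast_succ, ← add_assoc, h, ih, ← mul_assoc, ← B1_ee_add]
    congr 2
    ring

/-! ### generalised eta quotients -/

theorem B1_etaG_nil (z : ℂ) : etaG [] z = 1 := rfl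

theorem B1_etaG_cons (p : ℕ × ℤ × ℕ × ℤ) (l : List (ℕ × ℤ × ℕ × ℤ)) (z : ℂ) :
    etaG (p :: l) z =
      η (((p.1 : ℂ) * z + (p.2.1 : ℂ)) / (p.2.2.1 : ℂ)) ^ p.2.2.2 * etaG l z := by
  rw [etaG, List.map_cons, List.prod_cons]
  rfl

theorem B1_im_pos {A D : ℕ} (hA : 0 < A) (hD : 0 < D) (B : ℤ) {z : ℂ} (hz : 0 < z.im) :
    0 < (((A : ℂ) * z + (B : ℂ)) / (D : ℂ)).im := by
  rw [Complex.div_natCast_im]
  have h1 : ((A : ℂ) * z + (B : ℂ)).im = A * z.im := by
    simp [Complex.add_im, Complex.mul_im]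
  rw [h1]
  have hA' : (0 : ℝ) < A := by exact_mod_cast hA
  have hD' : (0 : ℝ) < D := by exact_mod_cast hD
  positivity

theorem B1_etaG_ne_zero {l : List (ℕ × ℤ × ℕ × ℤ)} (hl : PosG l) {z : ℂ} (hz : 0 < z.im) :
    etaG l z ≠ 0 := by
  induction l with
  | nil => rw [B1_etaG_nil]; exact one_ne_zero
  | cons p l ih =>
    rw [B1_etaG_cons]
    have hp := hl p List.mem_cons_self
    exact mul_ne_zero (zpow_ne_zero _ (ModularForm.eta_ne_zero (B1_im_pos hp.1 hp.2 _ hz)))
      (ih fun q hq => hl q (List.mem_cons_of_mem _ hq))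

theorem B1_etaG_differentiableAt {l : List (ℕ × ℤ × ℕ × ℤ)} (hl : PosG l) {z : ℂ}
    (hz : 0 < z.im) : DifferentiableAt ℂ (etaG l) z := by
  induction l with
  | nil =>
    have : etaG [] = fun _ => (1 : ℂ) := funext B1_etaG_nil
    rw [this]
    exact differentiableAt_const _
  | cons p l ih =>
    have : etaG (p :: l) = fun z =>
        η (((p.1 : ℂ) * z + (p.2.1 : ℂ)) / (p.2.2.1 : ℂ)) ^ p.2.2.2 * etaG l z :=
      funext (B1_etaG_cons p l)
    rw [this]
    have hp := hl p List.mem_cons_self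
    have him := B1_im_pos hp.1 hp.2 p.2.1 hz
    have h0 : DifferentiableAt ℂ
        (fun z : ℂ => ((p.1 : ℂ) * z + (p.2.1 : ℂ)) / (p.2.2.1 : ℂ)) z := by fun_prop
    have h1 : DifferentiableAt ℂ
        (fun z : ℂ => η (((p.1 : ℂ) * z + (p.2.1 : ℂ)) / (p.2.2.1 : ℂ))) z :=
      DifferentiableAt.comp (g := ModularForm.eta) z
        (ModularForm.differentiableAt_eta_of_mem_upperHalfPlaneSet him) h0
    exact (h1.zpow (Or.inl (ModularForm.eta_ne_zero him))).mul
      (ih fun q hq => hl q (List.mem_cons_of_mem _ hq))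

theorem etaG_basic : Stmt_etaG_basic := fun _ hl =>
  ⟨fun _ hz => (B1_etaG_differentiableAt hl hz).differentiableWithinAt,
    fun _ hz => B1_etaG_ne_zero hl hz⟩

/-! ### eta quotients -/

theorem etaL_nil (z : ℂ) : etaL [] z = 1 := rfl

theorem etaL_cons (p : ℕ × ℤ) (l : List (ℕ × ℤ)) (z : ℂ) :
    etaL (p :: l) z = η ((p.1 : ℂ) * z) ^ p.2 * etaL l z := by
  rw [etaL, List.map_cons, List.prod_cons]
  rfl

theorem etaL_toG : Stmt_etaL_toG := by
  intro l z
  induction l with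
  | nil => rfl
  | cons p l ih =>
    have : toG (p :: l) = (p.1, 0, 1, p.2) :: toG l := rfl
    rw [this, etaL_cons, B1_etaG_cons, ih]
    simp

theorem B1_posG_toG {l : List (ℕ × ℤ)} (hl : PosL l) : PosG (toG l) := by
  intro q hq
  obtain ⟨p, hp, rfl⟩ := List.mem_map.1 hq
  exact ⟨hl p hp, Nat.one_pos⟩

theorem etaL_ne_zero {l : List (ℕ × ℤ)} (hl : PosL l) {z : ℂ} (hz : 0 < z.im) : etaL l z ≠ 0 := by
  rw [etaL_toG]
  exact B1_etaG_ne_zero (B1_posG_toG hl) hz

theorem etaL_differentiableAt {l : List (ℕ × ℤ)} (hl : PosL l) {z : ℂ} (hz : 0 < z.im) :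
    DifferentiableAt ℂ (etaL l) z := by
  have : etaL l = etaG (toG l) := funext (etaL_toG l)
  rw [this]
  exact B1_etaG_differentiableAt (B1_posG_toG hl) hz

theorem etaL_differentiableOn {l : List (ℕ × ℤ)} (hl : PosL l) :
    DifferentiableOn ℂ (etaL l) {z : ℂ | 0 < z.im} :=
  fun _ hz => (etaL_differentiableAt hl hz).differentiableWithinAt

theorem etaL_T (h : Stmt_etaT) : Stmt_etaL_T := by
  intro l z
  induction l with
  | nil =>
    have : deg24 [] = 0 := rfl
    rw [etaL_nil, etaL_nil, this, Int.cast_zero, zero_div, B1_ee_zero, one_mul]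
  | cons p l ih =>
    have hd : deg24 (p :: l) = (p.1 : ℤ) * p.2 + deg24 l := by
      rw [deg24, List.map_cons, List.sum_cons]
      rfl
    rw [etaL_cons, etaL_cons, ih, hd, mul_add, mul_one, B1_eta_add_nat h, mul_zpow, B1_ee_zpow]
    have : ee ((((p.1 : ℤ) * p.2 + deg24 l : ℤ) : ℂ) / 24) =
        ee ((p.2 : ℂ) * ((p.1 : ℂ) / 24)) * ee ((deg24 l : ℂ) / 24) := by
      rw [← B1_ee_add]
      congr 1
      push_cast
      ring
    rw [this]
    ring

/-! ### restriction to `ℍ` -/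

theorem mdiff_onH {f : ℂ → ℂ} (hf : DifferentiableOn ℂ f {z : ℂ | 0 < z.im}) : MDiff (onH f) := by
  rw [UpperHalfPlane.mdifferentiable_iff]
  refine hf.congr fun z hz => ?_
  simp only [Function.comp_apply, onH, ofComplex_apply_of_im_pos hz]

end

end Fermat.Agent.CAR.Unit
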