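import Fermat.Agent.CAR.Unit.Interface2
import Fermat.Agent.CAR.Unit.EtaBasic

/-!
# S36 / CAR / Unit / L7 : the elements of `FF N` attached to invariant eta quotients (helper54)
-/

set_option autoImplicit false

namespace Fermat.Agent.CAR.Unit

open CongruenceSubgroup Complex Filter Asymptotics
open UpperHalfPlane hiding I
open scoped MatrixGroups Real Manifold ModularForm
open Fermat.Agent.S24 (Qbar FF funAlg iota jF)
open Fermat.Agent.S24.QX (qExpHom cmI Rep Nice)
open Fermat.Agent.KL.Haupt (lau)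
open Fermat.Agent.ES.Mid (Growth)
attribute [local instance] Fermat.Agent.S24.algQbarComplex

theorem L7_wt2G_toG (l : List (ℕ × ℤ)) : wt2G (toG l) = wt2 l := by
  simp [wt2G, toG, wt2, List.map_map, Function.comp_def]

theorem L7_posL_negL {l : List (ℕ × ℤ)} (hl : PosL l) : PosL (negL l) := by
  intro p hp
  obtain ⟨q, hq, rfl⟩ := List.mem_map.1 hp
  exact hl q hq

theorem L7_wt2_negL (l : List (ℕ × ℤ)) : wt2 (negL l) = - wt2 l := by
  induction l with
  | nil => simp [wt2, negL]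
  | cons p l ih =>
    simp only [wt2, negL, List.map_cons, List.sum_cons] at ih ⊢
    rw [ih]; ring

theorem L7_deg24_negL (l : List (ℕ × ℤ)) : deg24 (negL l) = - deg24 l := by
  induction l with
  | nil => simp [deg24, negL]
  | cons p l ih =>
    simp only [deg24, negL, List.map_cons, List.sum_cons] at ih ⊢
    rw [ih]; ring

theorem L7_onH_toG (l : List (ℕ × ℤ)) : onH (etaG (toG l)) = onH (etaL l) := by
  funext z
  exact (etaL_toG l z).symm

/-- existence and integrality. -/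
theorem L7_core (hg : Stmt_etaL_good) (hI : Stmt_IntJ) (hM : Stmt_etaG_mem)
    (N : ℕ) [NeZero N] (l : List (ℕ × ℤ)) (n : ℤ) (hpos : PosL l) (hw : wt2 l = 0)
    (hd : deg24 l = 24 * n)
    (hinv : ∀ γ ∈ Gamma0 N, ∀ z : ℍ, etaL l ((γ • z : ℍ) : ℂ) = etaL l z) :
    ∃ y : FF N, (y : LaurentSeries Qbar) = etaLser Qbar n l ∧
      IsIntegral (Algebra.adjoin Qbar ({jF N} : Set (FF N))) y := by
  obtain ⟨h1, h2, h3⟩ := hg l n hpos hw hd
  have hmem := (hM N (toG l) (etaLser Qbar n l) (B1_posG_toG hpos)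
    (by rw [L7_wt2G_toG, hw])
    (fun γ hγ z => by rw [← etaL_toG, ← etaL_toG]; exact hinv γ hγ z)
    (by rw [L7_onH_toG]; exact h3)).1
  refine ⟨⟨etaLser Qbar n l, hmem⟩, rfl, ?_⟩
  exact hI N (onH (etaL l)) ⟨etaLser Qbar n l, hmem⟩ h1 (fun γ hγ z => hinv γ hγ z) h2 h3

theorem L7_mul (hL : Stmt_listCalc) (l : List (ℕ × ℤ)) (n : ℤ) (hpos : PosL l) :
    etaLser Qbar n l * etaLser Qbar (-n) (negL l) = 1 := by
  have h1 : lau Qbar (etaLps (negL l)) * lau Qbar (etaLps l) = 1 := by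
    rw [← map_mul, hL.2.2.2.2.1 l hpos, map_one]
  have h2 : (HahnSeries.single n (1 : Qbar) : LaurentSeries Qbar) * HahnSeries.single (-n) 1 = 1 := by
    rw [HahnSeries.single_mul_single, add_neg_cancel, mul_one]
    rfl
  calc etaLser Qbar n l * etaLser Qbar (-n) (negL l)
      = ((HahnSeries.single n (1 : Qbar) : LaurentSeries Qbar) * HahnSeries.single (-n) 1) *
        (lau Qbar (etaLps (negL l)) * lau Qbar (etaLps l)) := by
        rw [etaLser, etaLser]; ring
    _ = 1 := by rw [h1, h2, mul_one]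

theorem etaL_elt (hL : Stmt_listCalc) (hg : Stmt_etaL_good) (hI : Stmt_IntJ)
    (hM : Stmt_etaG_mem) : Stmt_etaL_elt := by
  intro N _ l n hpos hw hd hinv
  obtain ⟨y, hy, hyint⟩ := L7_core hg hI hM N l n hpos hw hd hinv
  obtain ⟨y', hy', hyint'⟩ := L7_core hg hI hM N (negL l) (-n) (L7_posL_negL hpos)
    (by rw [L7_wt2_negL, hw, neg_zero]) (by rw [L7_deg24_negL, hd]; ring)
    (fun γ hγ z => by rw [hL.2.1, hL.2.1, hinv γ hγ z])
  have hmul : y * y' = 1 := by
    apply Subtype.ext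
    show (y : LaurentSeries Qbar) * (y' : LaurentSeries Qbar) = 1
    rw [hy, hy', L7_mul hL l n hpos]
  refine ⟨y, hy, left_ne_zero_of_mul_eq_one hmul, hyint, ?_⟩
  rw [← eq_inv_of_mul_eq_one_right hmul]
  exact hyint'

end Fermat.Agent.CAR.Unit
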