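import Fermat.Agent.CAR.Unit.Interface3

/-!
# S36 / CAR / Unit : UNIT-N2, existence of the elements of `F_E` (`Stmt_eltE`)
-/

set_option autoImplicit false

namespace Fermat.Agent.CAR.Unit

open Fermat.Agent.S24 (Qbar FF)
open Fermat.Agent.S36.Base (IE AE FE emb cmE)
open ModularCurve (coeffMap)

theorem eltE (hS : Stmt_serCalc) (hE : Stmt_etaL_elt) (hD : S36.Base.Stmt_Descent) :
    Stmt_eltE := by
  intro A N _ n l hMU
  obtain ⟨y, hy, -, -, -⟩ := hE N l n hMU.pos hMU.wt hMU.deg hMU.inv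
  have hfix : ∀ σ ∈ A.inertiaSubgroupIn ℚ, Fermat.Agent.ES.Mid.gal N σ y = y := by
    intro σ _
    apply Subtype.ext
    rw [Fermat.Agent.ES.Mid.coe_gal, hy]
    exact hS.1 Qbar Qbar _ n l
  obtain ⟨x, hx⟩ := hD A N y hfix
  refine ⟨x, ?_⟩
  apply S36.Base.cmE_injective A
  rw [← S36.Base.coe_emb, hx, hy]
  exact (hS.1 (IE A) Qbar _ n l).symm

end Fermat.Agent.CAR.Unit
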