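import Fermat.Agent.CAR.Unit.Interface

/-!
# S36 / CAR / Unit, task UNIT-G2:
`|η(γ z)|² = |c z + d| |η z|²` and `η(α z + β) = Θ(exp(-π α im z / 12))`.
-/

set_option autoImplicit false

namespace Fermat.Agent.CAR.Unit

open CongruenceSubgroup Complex Filter Topology Asymptotics
open UpperHalfPlane hiding I
open scoped MatrixGroups Real

noncomputable section

local notation "η" => ModularForm.eta

theorem G2_disc_smul (γ : SL(2, ℤ)) (z : ℍ) :
    ModularForm.discriminant (γ • z) = den γ z ^ 12 * ModularForm.discriminant z := by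
  have h := congrFun (SlashInvariantForm.slash_action_generators_SL2Z
    ModularForm.discriminant_S_invariant ModularForm.discriminant_T_invariant γ) z
  rw [ModularForm.SL_slash_apply] at h
  have hd : denom γ z = den γ z := by
    simp [den, denom]
  have hne : denom γ z ≠ 0 := denom_ne_zero _ z
  rw [← hd, ← h, zpow_neg, mul_comm, mul_assoc]
  have : ((denom γ z) ^ (12 : ℤ))⁻¹ * denom γ z ^ 12 = 1 := by
    rw [← zpow_natCast]
    exact inv_mul_cancel₀ (zpow_ne_zero _ hne)
  rw [this, mul_one]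

theorem etaAbs : Stmt_etaAbs := by
  intro γ z
  have h := G2_disc_smul γ z
  simp only [ModularForm.discriminant] at h
  have h2 := congrArg norm h
  rw [norm_mul, norm_pow, norm_pow, norm_pow] at h2
  have h3 : (‖η ((γ • z : ℍ) : ℂ)‖ ^ 2) ^ 12 = (‖den γ z‖ * ‖η z‖ ^ 2) ^ 12 := by
    rw [mul_pow, ← pow_mul, ← pow_mul]
    exact h2
  exact (pow_left_inj₀ (by positivity) (by positivity) (by norm_num)).mp h3

/-- `∏ (1 - q^(n+1)) → 1` as `q → 0`. -/
theorem G2_tendsto_tprod :
    Tendsto (fun q : ℂ ↦ ∏' (n : ℕ), (1 - q ^ (n + 1))) (𝓝 0) (𝓝 1) := by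
  have hc : ContinuousAt (fun q : ℂ ↦ ∏' (n : ℕ), (1 - q ^ (n + 1))) 0 :=
    (ModularForm.differentiableOn_tprod_one_sub_pow.differentiableAt
      (Metric.ball_mem_nhds 0 one_pos)).continuousAt
  have h0 : (∏' (n : ℕ), (1 - (0 : ℂ) ^ (n + 1))) = 1 := by simp
  have := hc.tendsto
  rwa [h0] at this

theorem etaTheta : Stmt_etaTheta := by
  intro α β hα
  -- the `q`-parameter tends to `0`
  have hq : Tendsto (fun z : ℍ => Function.Periodic.qParam 1 ((α : ℂ) * z + β)) atImInfty (𝓝 0) := by
    rw [tendsto_zero_iff_norm_tendsto_zero]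
    have hn : ∀ z : ℍ, ‖Function.Periodic.qParam 1 ((α : ℂ) * z + β)‖ =
        Real.exp (-(2 * π * α) * z.im) := by
      intro z
      rw [Function.Periodic.norm_qParam]
      congr 1
      simp
      ring
    simp_rw [hn]
    have h1 : Tendsto (fun z : ℍ => (2 * π * α) * z.im) atImInfty atTop :=
      Tendsto.const_mul_atTop (by positivity) tendsto_comap
    have h2 := Real.tendsto_exp_neg_atTop_nhds_zero.comp h1
    refine h2.congr fun z => ?_
    simp [Function.comp]
  have hP : Tendsto (fun z : ℍ => ∏' (n : ℕ), (1 - ModularForm.eta_q n ((α : ℂ) * z + β)))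
      atImInfty (𝓝 1) := G2_tendsto_tprod.comp hq
  have hP' : (fun z : ℍ => ∏' (n : ℕ), (1 - ModularForm.eta_q n ((α : ℂ) * z + β)))
      =Θ[atImInfty] fun _ : ℍ => (1 : ℝ) := by
    refine ⟨hP.isBigO_one ℝ, ?_⟩
    have hev := hP.eventually (Metric.ball_mem_nhds 1 (by norm_num : (0 : ℝ) < 1 / 2))
    refine IsBigO.of_bound 2 ?_
    filter_upwards [hev] with z hz
    rw [Complex.dist_eq] at hz
    have h1 := norm_sub_norm_le 1 (∏' (n : ℕ), (1 - ModularForm.eta_q n ((α : ℂ) * z + β)))
    rw [norm_sub_rev, norm_one] at h1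
    rw [norm_one]
    linarith
  have hQ : (fun z : ℍ => Function.Periodic.qParam 24 ((α : ℂ) * z + β)) =Θ[atImInfty]
      fun z : ℍ => Real.exp (-(π * α * z.im / 12)) := by
    refine IsTheta.of_norm_eventuallyEq (Eventually.of_forall fun z => ?_)
    show ‖Function.Periodic.qParam 24 ((α : ℂ) * z + β)‖ = _
    rw [Function.Periodic.norm_qParam]
    congr 1
    simp
    ring
  have := hQ.mul hP'
  simpa [ModularForm.eta] using this

end

end Fermat.Agent.CAR.Unit
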