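import Fermat.Agent.CAR.Unit.Interface
import Fermat.Agent.CAR.Unit.EtaBasic
import Fermat.Agent.Common.QExpDelta

/-!
# S36 / CAR / Unit, task UNIT-H1 : `q`-expansions of eta quotients
-/

set_option autoImplicit false

namespace Fermat.Agent.CAR.Unit

open CongruenceSubgroup Complex Filter Asymptotics Function
open UpperHalfPlane hiding I
open scoped MatrixGroups Real Manifold ModularForm Topology
open Fermat.Agent.S24.QX (Rep Nice qL scale)
open Fermat.Agent.KL.Haupt (lau toC)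
open Fermat.Agent.Common (eulerFun taylorPS)

noncomputable section

local notation "𝕢" => Periodic.qParam

/-! ### functions of `q` -/

/-- `τ ↦ G(q)`, `q = e(τ)`. -/
def H1_ofQ (G : ℂ → ℂ) : ℍ → ℂ := fun τ => G (𝕢 1 (τ : ℂ))

theorem H1_norm_q_lt (τ : ℍ) : 𝕢 1 (τ : ℂ) ∈ Metric.ball (0 : ℂ) 1 := by
  simpa using norm_qParam_lt_one 1 τ

theorem H1_nice_ofQ {G : ℂ → ℂ} (hG : DifferentiableOn ℂ G (Metric.ball 0 1)) :
    Nice (H1_ofQ G) where
  mdiff := by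
    rw [UpperHalfPlane.mdifferentiable_iff]
    have h2 : DifferentiableOn ℂ (G ∘ fun z : ℂ => 𝕢 1 z) {z | 0 < z.im} := by
      refine hG.comp (by fun_prop) ?_
      intro z hz
      exact H1_norm_q_lt ⟨z, hz⟩
    refine h2.congr ?_
    intro z hz
    simp only [comp_apply, H1_ofQ]
    rw [ofComplex_apply_of_im_pos hz]
  per := by
    intro z
    by_cases hz : 0 < z.im
    · have hz' : 0 < (z + 1).im := by simpa using hz
      simp only [comp_apply, H1_ofQ]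
      rw [ofComplex_apply_of_im_pos hz, ofComplex_apply_of_im_pos hz']
      show G (𝕢 1 (z + 1)) = G (𝕢 1 z)
      congr 1
      simp only [Periodic.qParam, Complex.ofReal_one, div_one]
      rw [mul_add, mul_one, Complex.exp_add, Complex.exp_two_pi_mul_I, mul_one]
    · have hz0 : z.im ≤ 0 := not_lt.mp hz
      have hz' : (z + 1).im ≤ 0 := by simpa using hz0
      simp only [comp_apply]
      rw [ofComplex_apply_of_im_nonpos hz0, ofComplex_apply_of_im_nonpos hz']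
  bdd := by
    have h0 : ContinuousAt G 0 :=
      (hG.differentiableAt (Metric.ball_mem_nhds 0 one_pos)).continuousAt
    have h1 : Tendsto (H1_ofQ G) atImInfty (𝓝 (G 0)) :=
      h0.tendsto.comp (qParam_tendsto_atImInfty zero_lt_one)
    exact h1.isBigO_one ℝ

theorem H1_tendsto_ofQ {G : ℂ → ℂ} (hG : DifferentiableOn ℂ G (Metric.ball 0 1)) :
    Tendsto (H1_ofQ G) atImInfty (𝓝 (G 0)) :=
  ((hG.differentiableAt (Metric.ball_mem_nhds 0 one_pos)).continuousAt).tendsto.comp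
    (qParam_tendsto_atImInfty zero_lt_one)

theorem H1_qExpansion_ofQ {G : ℂ → ℂ} (hG : DifferentiableOn ℂ G (Metric.ball 0 1)) :
    qExpansion 1 (H1_ofQ G) = taylorPS G := by
  have hGa : AnalyticAt ℂ G 0 := hG.analyticAt (Metric.ball_mem_nhds 0 one_pos)
  have h1 : ∀ᶠ q in 𝓝[≠] (0 : ℂ), cuspFunction 1 (H1_ofQ G) q = G q := by
    have hb : ∀ᶠ q in 𝓝[≠] (0 : ℂ), q ∈ Metric.ball (0 : ℂ) 1 :=
      nhdsWithin_le_nhds (Metric.ball_mem_nhds 0 one_pos)
    filter_upwards [hb, self_mem_nhdsWithin] with q hq hq0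
    have him := Periodic.im_invQParam_pos_of_norm_lt_one one_pos
      (by simpa [dist_zero_right] using hq) hq0
    simp [cuspFunction, Periodic.cuspFunction_eq_of_nonzero 1 _ hq0,
      ofComplex_apply_of_im_pos him, H1_ofQ, Periodic.qParam_right_inv one_ne_zero hq0]
  have h2 : cuspFunction 1 (H1_ofQ G) =ᶠ[𝓝 0] G :=
    ((H1_nice_ofQ hG).analyticAt.frequently_eq_iff_eventually_eq hGa).1 h1.frequently
  rw [Fermat.Agent.Common.qExpansion_eq_taylorPS, Fermat.Agent.Common.taylorPS_congr h2]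

/-! ### `q` and `P = ∏ (1 - q^n)` -/

/-- `τ ↦ q`. -/
def H1_qq : ℍ → ℂ := H1_ofQ id

/-- `τ ↦ ∏ (1 - q^n)`. -/
def H1_PP : ℍ → ℂ := H1_ofQ eulerFun

theorem H1_nice_qq : Nice H1_qq := H1_nice_ofQ differentiableOn_id

theorem H1_qq_ne_zero (τ : ℍ) : H1_qq τ ≠ 0 := Periodic.qParam_ne_zero _

theorem H1_qL_qq : qL H1_qq = HahnSeries.single (1 : ℤ) 1 := by
  rw [qL, H1_qq, H1_qExpansion_ofQ differentiableOn_id, Fermat.Agent.Common.taylorPS_id,
    HahnSeries.ofPowerSeries_X]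

theorem H1_diff_euler : DifferentiableOn ℂ eulerFun (Metric.ball 0 1) :=
  ModularForm.differentiableOn_tprod_one_sub_pow

theorem H1_nice_PP : Nice H1_PP := H1_nice_ofQ H1_diff_euler

theorem H1_PP_ne_zero (τ : ℍ) : H1_PP τ ≠ 0 := ModularForm.eta_tprod_ne_zero τ.2

theorem H1_euler_zero : eulerFun 0 = 1 := by
  simp [eulerFun]

theorem H1_tendsto_PP : Tendsto H1_PP atImInfty (𝓝 1) := by
  have := H1_tendsto_ofQ H1_diff_euler
  rwa [H1_euler_zero] at this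

theorem H1_qExpansion_PP : qExpansion 1 H1_PP = toC ModularCurve.etaProd := by
  rw [H1_PP, H1_qExpansion_ofQ H1_diff_euler, Fermat.Agent.Common.taylorPS_eulerFun,
    ← Fermat.Agent.Common.map_etaProd]

theorem H1_eta_eq (τ : ℍ) : ModularForm.eta (τ : ℂ) = 𝕢 24 (τ : ℂ) * H1_PP τ := rfl

/-! ### inverses -/

theorem H1_nice_inv {g : ℍ → ℂ} (hg : Nice g) (h0 : ∀ τ, g τ ≠ 0) {c : ℂ} (hc : c ≠ 0)
    (ht : Tendsto g atImInfty (𝓝 c)) : Nice g⁻¹ where
  mdiff := by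
    rw [UpperHalfPlane.mdifferentiable_iff]
    have h1 := UpperHalfPlane.mdifferentiable_iff.mp hg.mdiff
    have h2 : DifferentiableOn ℂ (fun z => ((g ∘ ofComplex) z)⁻¹) {z | 0 < z.im} :=
      h1.inv fun z _ => h0 _
    exact h2
  per := fun z => by
    have h1 := hg.per z
    simp only [comp_apply, Pi.inv_apply] at h1 ⊢
    rw [h1]
  bdd := (ht.inv₀ hc).isBigO_one ℝ

theorem H1_qL_inv {g : ℍ → ℂ} (hg : Nice g) (h0 : ∀ τ, g τ ≠ 0) (hi : Nice g⁻¹) :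
    qL g⁻¹ * qL g = 1 := by
  rw [← Fermat.Agent.S24.QX.qL_mul hi hg]
  have : g⁻¹ * g = fun _ => (1 : ℂ) := by
    funext τ
    simp [h0 τ]
  rw [this, Fermat.Agent.S24.QX.qL_const, map_one]

/-! ### the factors `P(d τ) ^ e` -/

theorem H1_const_Eps (d : ℕ) : PowerSeries.constantCoeff (Eps d) = 1 := by
  unfold Eps
  split_ifs with h
  · simp
  · rw [PowerSeries.constantCoeff_expand, ModularCurve.constantCoeff_etaProd]

theorem H1_Eps_mul_inv (d : ℕ) : Eps d * EpsInv d = 1 :=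
  PowerSeries.mul_invOfUnit _ _ (by rw [H1_const_Eps]; rfl)

theorem H1_nice_scale {d : ℕ} (hd : 0 < d) : Nice (scale d H1_PP) := H1_nice_PP.scale hd

theorem H1_scale_ne_zero (d : ℕ) (τ : ℍ) : scale d H1_PP τ ≠ 0 := H1_PP_ne_zero _

theorem H1_tendsto_scale {d : ℕ} (hd : 0 < d) : Tendsto (scale d H1_PP) atImInfty (𝓝 1) :=
  H1_tendsto_PP.comp (Fermat.Agent.S24.QX.tendsto_scale_atImInfty hd)

theorem H1_nice_scale_inv {d : ℕ} (hd : 0 < d) : Nice (scale d H1_PP)⁻¹ :=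
  H1_nice_inv (H1_nice_scale hd) (H1_scale_ne_zero d) one_ne_zero (H1_tendsto_scale hd)

theorem H1_qL_scale {d : ℕ} (hd : 0 < d) : qL (scale d H1_PP) = lau ℂ (Eps d) := by
  rw [qL, Fermat.Agent.KL.Haupt.lau_apply]
  congr 1
  ext n
  rw [Fermat.Agent.S24.QX.qExpansion_scale_coeff H1_nice_PP hd, H1_qExpansion_PP, Eps,
    dif_neg hd.ne', PowerSeries.coeff_map, PowerSeries.coeff_map]
  split_ifs with h
  · obtain ⟨m, rfl⟩ := h
    rw [Nat.mul_div_cancel_left _ hd, PowerSeries.coeff_expand_mul]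
  · rw [PowerSeries.coeff_expand_of_not_dvd _ _ _ h, map_zero]

theorem H1_qL_scale_inv {d : ℕ} (hd : 0 < d) : qL (scale d H1_PP)⁻¹ = lau ℂ (EpsInv d) := by
  have h1 := H1_qL_inv (H1_nice_scale hd) (H1_scale_ne_zero d) (H1_nice_scale_inv hd)
  have h2 : lau ℂ (Eps d) * lau ℂ (EpsInv d) = 1 := by
    rw [← map_mul, H1_Eps_mul_inv, map_one]
  rw [H1_qL_scale hd] at h1
  calc qL (scale d H1_PP)⁻¹ = qL (scale d H1_PP)⁻¹ * (lau ℂ (Eps d) * lau ℂ (EpsInv d)) := by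
        rw [h2, mul_one]
    _ = lau ℂ (EpsInv d) := by rw [← mul_assoc, h1, one_mul]

/-- `τ ↦ P(d τ) ^ e`. -/
def H1_fac (p : ℕ × ℤ) : ℍ → ℂ := fun τ => scale p.1 H1_PP τ ^ p.2

/-- the formal factor. -/
def H1_facS (p : ℕ × ℤ) : PowerSeries ℤ :=
  if 0 ≤ p.2 then Eps p.1 ^ p.2.toNat else EpsInv p.1 ^ (-p.2).toNat

theorem H1_fac_spec (p : ℕ × ℤ) (hp : 0 < p.1) :
    Nice (H1_fac p) ∧ qL (H1_fac p) = lau ℂ (H1_facS p) := by
  obtain ⟨d, e⟩ := p
  simp only at hp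
  by_cases he : 0 ≤ e
  · have h1 : H1_fac (d, e) = scale d H1_PP ^ e.toNat := by
      funext τ
      show scale d H1_PP τ ^ e = scale d H1_PP τ ^ e.toNat
      conv_lhs => rw [← Int.toNat_of_nonneg he]
      rw [zpow_natCast]
    rw [h1, H1_facS, if_pos he, Fermat.Agent.S24.QX.qL_pow (H1_nice_scale hp), H1_qL_scale hp,
      map_pow]
    exact ⟨(H1_nice_scale hp).pow _, rfl⟩
  · have he' : 0 ≤ -e := by omega
    have h1 : H1_fac (d, e) = (scale d H1_PP)⁻¹ ^ (-e).toNat := by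
      funext τ
      show scale d H1_PP τ ^ e = ((scale d H1_PP τ)⁻¹) ^ (-e).toNat
      rw [inv_pow, ← zpow_natCast, Int.toNat_of_nonneg he', zpow_neg, inv_inv]
    rw [h1, H1_facS, if_neg he, Fermat.Agent.S24.QX.qL_pow (H1_nice_scale_inv hp),
      H1_qL_scale_inv hp, map_pow]
    exact ⟨(H1_nice_scale_inv hp).pow _, rfl⟩

/-- `τ ↦ ∏ P(d τ) ^ e`. -/
def H1_QQ (l : List (ℕ × ℤ)) : ℍ → ℂ := (l.map H1_fac).prod

theorem H1_QQ_spec (l : List (ℕ × ℤ)) (hl : PosL l) :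
    Nice (H1_QQ l) ∧ qL (H1_QQ l) = lau ℂ (etaLps l) := by
  induction l with
  | nil =>
    have h1 : H1_QQ [] = fun _ => (1 : ℂ) := rfl
    have h2 : etaLps [] = 1 := rfl
    rw [h1, h2, Fermat.Agent.S24.QX.qL_const, map_one, map_one]
    exact ⟨Nice.const 1, rfl⟩
  | cons p l ih =>
    obtain ⟨i1, i2⟩ := ih fun q hq => hl q (List.mem_cons_of_mem _ hq)
    obtain ⟨j1, j2⟩ := H1_fac_spec p (hl p List.mem_cons_self)
    have h1 : H1_QQ (p :: l) = H1_fac p * H1_QQ l := by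
      rw [H1_QQ, List.map_cons, List.prod_cons]; rfl
    have h2 : etaLps (p :: l) = H1_facS p * etaLps l := by
      rw [etaLps, List.map_cons, List.prod_cons]; rfl
    rw [h1, h2, Fermat.Agent.S24.QX.qL_mul j1 i1, j2, i2, map_mul]
    exact ⟨j1.mul i1, rfl⟩

/-! ### the eta quotient -/

theorem H1_q24_nat (d : ℕ) (z : ℂ) : 𝕢 24 ((d : ℂ) * z) = 𝕢 24 z ^ d := by
  unfold Periodic.qParam
  rw [← Complex.exp_nat_mul]
  congr 1
  ring

theorem H1_q24_pow (z : ℂ) : 𝕢 24 z ^ 24 = 𝕢 1 z := by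
  unfold Periodic.qParam
  rw [← Complex.exp_nat_mul]
  congr 1
  push_cast
  ring

theorem H1_etaL_eq (l : List (ℕ × ℤ)) (hl : PosL l) (τ : ℍ) :
    etaL l (τ : ℂ) = 𝕢 24 (τ : ℂ) ^ (deg24 l) * H1_QQ l τ := by
  induction l with
  | nil =>
    have h1 : H1_QQ [] τ = 1 := rfl
    have h2 : deg24 [] = 0 := rfl
    rw [etaL_nil, h1, h2, zpow_zero, one_mul]
  | cons p l ih =>
    have hp := hl p List.mem_cons_self
    have hd : deg24 (p :: l) = (p.1 : ℤ) * p.2 + deg24 l := by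
      rw [deg24, List.map_cons, List.sum_cons]
      rfl
    have h1 : H1_QQ (p :: l) τ = scale p.1 H1_PP τ ^ p.2 * H1_QQ l τ := by
      rw [H1_QQ, List.map_cons, List.prod_cons]; rfl
    have h3 : ModularForm.eta ((p.1 : ℂ) * (τ : ℂ)) = 𝕢 24 (τ : ℂ) ^ p.1 * scale p.1 H1_PP τ := by
      have := H1_eta_eq (ofComplex ((p.1 : ℂ) * (τ : ℂ)))
      rw [Fermat.Agent.S24.QX.coe_ofComplex_natCast_mul hp] at this
      rw [this, H1_q24_nat]
      rfl
    rw [etaL_cons, ih fun q hq => hl q (List.mem_cons_of_mem _ hq), h3, mul_zpow, hd,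
      zpow_add₀ (Periodic.qParam_ne_zero _), zpow_mul, zpow_natCast, h1]
    ring

theorem H1_onH_eq (l : List (ℕ × ℤ)) (n : ℤ) (hl : PosL l) (hn : deg24 l = 24 * n) (τ : ℍ) :
    onH (etaL l) τ = H1_qq τ ^ n * H1_QQ l τ := by
  show etaL l (τ : ℂ) = 𝕢 1 (τ : ℂ) ^ n * H1_QQ l τ
  rw [H1_etaL_eq l hl, hn, zpow_mul, ← H1_q24_pow]
  norm_cast

theorem H1_single_pow (m : ℕ) :
    (HahnSeries.single (1 : ℤ) (1 : ℂ)) ^ m = HahnSeries.single (m : ℤ) 1 := by
  induction m with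
  | zero => simp
  | succ m ih =>
    rw [pow_succ, ih, HahnSeries.single_mul_single, mul_one]
    push_cast
    rfl

theorem H1_nat (l : List (ℕ × ℤ)) (m : ℕ) (hl : PosL l) (hn : deg24 l = 24 * m) :
    Nice (onH (etaL l)) ∧ qL (onH (etaL l)) = etaLser ℂ m l := by
  obtain ⟨i1, i2⟩ := H1_QQ_spec l hl
  have h1 : onH (etaL l) = H1_qq ^ m * H1_QQ l := by
    funext τ
    rw [H1_onH_eq l m hl hn, zpow_natCast]
    rfl
  rw [h1, Fermat.Agent.S24.QX.qL_mul (H1_nice_qq.pow m) i1, Fermat.Agent.S24.QX.qL_pow H1_nice_qq,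
    H1_qL_qq, H1_single_pow, i2]
  exact ⟨(H1_nice_qq.pow m).mul i1, rfl⟩

/-- **UNIT-H1 (Rep)**. -/
theorem etaL_rep : Stmt_etaL_rep := by
  intro l n hl hn
  by_cases h0 : 0 ≤ n
  · obtain ⟨m, rfl⟩ := Int.eq_ofNat_of_zero_le h0
    obtain ⟨j1, j2⟩ := H1_nat l m hl hn
    rw [← j2]
    exact Rep.of_nice j1
  · obtain ⟨i1, i2⟩ := H1_QQ_spec l hl
    obtain ⟨m, hm⟩ := Int.eq_ofNat_of_zero_le (show 0 ≤ -n by omega)
    have hnm : n = -(m : ℤ) := by omega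
    refine Rep.of_mul_eq (g := H1_qq ^ m) (F := H1_QQ l) (H1_nice_qq.pow m)
      (fun τ => pow_ne_zero _ (H1_qq_ne_zero τ)) i1 ?_ ?_
    · funext τ
      show onH (etaL l) τ * H1_qq τ ^ m = H1_QQ l τ
      rw [H1_onH_eq l n hl hn, hnm, zpow_neg, zpow_natCast]
      field_simp [H1_qq_ne_zero τ]
    · rw [Fermat.Agent.S24.QX.qL_pow H1_nice_qq, H1_qL_qq, H1_single_pow, i2, etaLser, hnm,
        mul_right_comm, HahnSeries.single_mul_single]
      simp

/-- **UNIT-H1 (qExpansion)**. -/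
theorem etaL_qexp : Stmt_etaL_qexp := by
  intro l n hl hn
  obtain ⟨j1, j2⟩ := H1_nat l n hl hn
  refine ⟨j1, ?_⟩
  apply HahnSeries.ofPowerSeries_injective (Γ := ℤ)
  have h1 : etaLser ℂ (n : ℤ) l = lau ℂ (PowerSeries.X ^ n * etaLps l) := by
    rw [etaLser, map_mul, map_pow, Fermat.Agent.KL.Haupt.lau_X, H1_single_pow]
  rw [h1] at j2
  exact j2

end

end Fermat.Agent.CAR.Unit
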