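import Fermat.Agent.CAR.Unit.Interface

/-!
# S36 / CAR / Unit, task UNIT-B2 (helper81): the Fricke rule for eta quotients (`Stmt_etaL_W`).
-/

set_option autoImplicit false

namespace Fermat.Agent.CAR.Unit

open Complex
open scoped Real

noncomputable section

local notation "η" => ModularForm.eta

theorem EtaW_sq_sqrt (w : ℂ) : sqrt w ^ 2 = w := by
  simp [Complex.sqrt]

theorem EtaW_sqrt_ne_zero {w : ℂ} (hw : w ≠ 0) : sqrt w ≠ 0 := by
  intro h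
  apply hw
  rw [← EtaW_sq_sqrt w, h]
  simp

/-- `√(x z) = √x √z` for a real `x > 0`. -/
theorem EtaW_sqrt_ofReal_mul {x : ℝ} (hx : 0 < x) {z : ℂ} (hz : z ≠ 0) :
    sqrt ((x : ℂ) * z) = sqrt (x : ℂ) * sqrt z := by
  have hx' : (x : ℂ) ≠ 0 := by exact_mod_cast hx.ne'
  rw [sqrt_eq_exp (mul_ne_zero hx' hz), sqrt_eq_exp hx', sqrt_eq_exp hz, ← Complex.exp_add,
    Complex.log_ofReal_mul hx hz, Complex.ofReal_log hx.le]
  congr 1
  ring

/-- `(x ^ (e / 2) : ℝ) = (√x) ^ e`. -/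
theorem EtaW_rpow {x : ℝ} (hx : 0 < x) (e : ℤ) :
    ((x ^ ((e : ℝ) / 2) : ℝ) : ℂ) = sqrt (x : ℂ) ^ e := by
  rw [Complex.ofReal_cpow hx.le, Complex.sqrt, ← Complex.cpow_int_mul]
  congr 1
  push_cast
  ring

/-- the transformation of `η` under `w ↦ -1 / w`. -/
theorem EtaW_eta_S {w : ℂ} (hw : 0 < w.im) : η (-1 / w) = (sqrt I)⁻¹ * (sqrt w * η w) := by
  have := ModularForm.eta_comp_eq_csqrt_I_inv (show w ∈ UpperHalfPlane.upperHalfPlaneSet from hw)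
  simpa using this

/-- one factor. -/
theorem EtaW_factor (a d : ℕ) (e : ℤ) (hd : 0 < d) (hda : d ∣ a) (ha : 0 < a) {z : ℂ}
    (hz : 0 < z.im) :
    η ((d : ℂ) * (-1 / ((a : ℂ) * z))) ^ e =
      ((sqrt I)⁻¹ * sqrt z) ^ e * ((((a / d : ℕ) : ℝ) ^ ((e : ℝ) / 2) : ℝ) : ℂ)
        * η (((a / d : ℕ) : ℂ) * z) ^ e := by
  obtain ⟨x, rfl⟩ := hda
  have hx : 0 < x := Nat.pos_of_mul_pos_left ha
  rw [Nat.mul_div_cancel_left x hd]
  have hz0 : z ≠ 0 := by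
    rintro rfl
    simp at hz
  have hxR : (0 : ℝ) < (x : ℝ) := by exact_mod_cast hx
  have hdC : (d : ℂ) ≠ 0 := by exact_mod_cast hd.ne'
  have hxC : (x : ℂ) ≠ 0 := by exact_mod_cast hx.ne'
  have e1 : (d : ℂ) * (-1 / (((d * x : ℕ) : ℂ) * z)) = -1 / ((x : ℂ) * z) := by
    push_cast
    field_simp
  have him : 0 < ((x : ℂ) * z).im := by
    have := mul_pos hxR hz
    simpa using this
  have e2 : sqrt ((x : ℂ) * z) = sqrt (((x : ℝ) : ℂ)) * sqrt z := by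
    have := EtaW_sqrt_ofReal_mul hxR hz0
    simpa using this
  rw [e1, EtaW_eta_S him, e2, EtaW_rpow hxR, ← mul_zpow, ← mul_zpow]
  congr 1
  ring

/-- the general formula. -/
theorem EtaW_general (a : ℕ) (ha : 0 < a) {z : ℂ} (hz : 0 < z.im) (l : List (ℕ × ℤ))
    (hl : ∀ p ∈ l, 0 < p.1 ∧ p.1 ∣ a) :
    etaL l (-1 / ((a : ℂ) * z)) =
      ((sqrt I)⁻¹ * sqrt z) ^ (wt2 l) * (frkConst a l : ℂ) * etaL (dualL a l) z := by
  have hz0 : z ≠ 0 := by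
    rintro rfl
    simp at hz
  have hc : (sqrt I)⁻¹ * sqrt z ≠ 0 :=
    mul_ne_zero (inv_ne_zero (EtaW_sqrt_ne_zero I_ne_zero)) (EtaW_sqrt_ne_zero hz0)
  induction l with
  | nil => simp [etaL, wt2, frkConst, dualL]
  | cons p l ih =>
    have ih' := ih fun q hq => hl q (List.mem_cons_of_mem p hq)
    obtain ⟨hp1, hp2⟩ := hl p List.mem_cons_self
    have h1 : etaL (p :: l) (-1 / ((a : ℂ) * z))
        = η ((p.1 : ℂ) * (-1 / ((a : ℂ) * z))) ^ p.2 * etaL l (-1 / ((a : ℂ) * z)) := by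
      simp [etaL]
    have h2 : wt2 (p :: l) = p.2 + wt2 l := by simp [wt2]
    have h3 : frkConst a (p :: l) = (((a / p.1 : ℕ) : ℝ)) ^ ((p.2 : ℝ) / 2) * frkConst a l := by
      simp [frkConst]
    have h4 : etaL (dualL a (p :: l)) z
        = η (((a / p.1 : ℕ) : ℂ) * z) ^ p.2 * etaL (dualL a l) z := by
      simp [etaL, dualL]
    rw [h1, h2, h3, h4, ih', EtaW_factor a p.1 p.2 hp1 hp2 ha hz, zpow_add₀ hc]
    push_cast
    ring

theorem etaL_W : Stmt_etaL_W := by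
  intro a l k ha hl hk z hz
  rw [EtaW_general a ha hz l hl, hk, zpow_mul]
  congr 3
  rw [zpow_ofNat, mul_pow, inv_pow, EtaW_sq_sqrt, EtaW_sq_sqrt, Complex.inv_I]

end

end Fermat.Agent.CAR.Unit
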