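import Fermat.Agent.CAR.Unit.Interface4

/-!
# S36 / CAR / Unit : assembly of `Reg.FactsB` and of the final `Stmt_Facts`
-/

set_option autoImplicit false

namespace Fermat.Agent.CAR.Unit

open Fermat.Agent.S24 (Qbar FF)
open Fermat.Agent.S36 (VPos VUnit)
open Fermat.Agent.S36.Val (Ctx jE ordOf)
open Fermat.Agent.S36.Base (IE AE FE emb cmE)
open Fermat.Agent.S36.Reg (IntJ FactsX FactsB OrdIs)
open Fermat.Agent.S36.Dict (auxLevel)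
open Fermat.Agent.CAR (NR.IsUnif)

theorem factsB2 : Stmt_factsB2 := by
  intro A₀ F _ _ _ ord j X
  have h0 : X.aM ≠ 0 := X.ordM.1
  refine ⟨{ β := X.aM, τ := 1, ordB := ?_, cong := ?_, intB := X.intM, τ_ne := one_ne_zero,
            intT := isIntegral_one, intT' := ?_ }⟩
  · have h := X.ordM
    norm_num at h
    exact h
  · left
    norm_num
    rw [div_self h0, sub_self]
  · rw [inv_one]
    exact isIntegral_one

/-- the abstract form of `factsB4`. -/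
theorem R6_abs (hO : Fermat.Agent.S36.Val.Stmt_OrdOf) {A₀ F : Type} [CommRing A₀] [Field F]
    [Algebra A₀ F] (r : ℕ) (hr : 2 ≤ r) (O : Fin 3 → ValuationSubring F) (u : Fin 3 → F)
    (hu : ∀ X, NR.IsUnif (O X) (u X)) (j aM T0 T2 ε : F) (hε : ε = 1 ∨ ε = -1)
    (hcong : (O 1).valuation ((T2 - T0) ^ (r - 1) / aM - ε * T0 ^ (r - 1)) < 1)
    (hv0 : (O 0).valuation (T2 - T0) = 1) (hv2 : (O 2).valuation (T2 - T0) = 1)
    (hT : (O 1).valuation T0 = 1) (haM : aM ≠ 0) (hordM : ordOf (O 1) (u 1) aM = (r : ℤ) - 1)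
    (hintB : IntJ A₀ r j (T2 - T0)) (hT0 : IsIntegral (Algebra.adjoin A₀ ({j} : Set F)) T0)
    (hT0' : IsIntegral (Algebra.adjoin A₀ ({j} : Set F)) T0⁻¹) :
    Nonempty (FactsB A₀ F r (fun X => ordOf (O X) (u X)) j aM) := by
  obtain ⟨h1, h2, -, h4, -, -⟩ := hO F (O 1) (u 1) (hu 1)
  obtain ⟨-, -, -, -, h05, -⟩ := hO F (O 0) (u 0) (hu 0)
  obtain ⟨-, -, -, -, h25, -⟩ := hO F (O 2) (u 2) (hu 2)
  set β := T2 - T0 with hβ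
  have hvε : (O 1).valuation ε = 1 := by
    rcases hε with rfl | rfl
    · exact map_one _
    · rw [Valuation.map_neg, map_one]
  have hvτ : (O 1).valuation (ε * T0 ^ (r - 1)) = 1 := by
    rw [map_mul, map_pow, hvε, hT, one_pow, one_mul]
  have hvq : (O 1).valuation (β ^ (r - 1) / aM) = 1 := by
    rw [← hvτ]
    apply Valuation.map_eq_of_sub_lt
    rw [hvτ]
    exact hcong
  have hβ0 : β ≠ 0 := (h05 β).2 hv0 |>.1
  have hvp : (O 1).valuation (β ^ (r - 1)) = (O 1).valuation (u 1) ^ ((r : ℤ) - 1) := by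
    have e1 : β ^ (r - 1) = β ^ (r - 1) / aM * aM := by
      rw [div_mul_cancel₀ _ haM]
    rw [e1, map_mul, hvq, one_mul, h1 aM haM, hordM]
  have hvp' : (O 1).valuation (β ^ (r - 1)) =
      (O 1).valuation (u 1) ^ (ordOf (O 1) (u 1) β * ((r - 1 : ℕ) : ℤ)) := by
    rw [map_pow, h1 β hβ0, zpow_mul, zpow_natCast]
  have e2 := h2 _ _ hvp
  have e3 := h2 _ _ hvp'
  have hord1 : ordOf (O 1) (u 1) β = 1 := by
    rw [e2] at e3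
    have hc : ((r - 1 : ℕ) : ℤ) = (r : ℤ) - 1 := by
      rw [Nat.cast_sub (by omega)]; simp
    rw [hc] at e3
    have hne : (r : ℤ) - 1 ≠ 0 := by
      have : (2 : ℤ) ≤ r := by exact_mod_cast hr
      omega
    have : (ordOf (O 1) (u 1) β - 1) * ((r : ℤ) - 1) = 0 := by
      rw [sub_mul, one_mul, ← e3, sub_self]
    rcases mul_eq_zero.1 this with h | h
    · omega
    · exact absurd h hne
  have hT00 : T0 ≠ 0 := by
    rintro rfl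
    rw [map_zero] at hT
    exact zero_ne_one hT
  have hε0 : ε ≠ 0 := by
    rcases hε with rfl | rfl <;> norm_num
  have hεint : IsIntegral (Algebra.adjoin A₀ ({j} : Set F)) ε := by
    rcases hε with rfl | rfl
    · exact isIntegral_one
    · exact isIntegral_one.neg
  have hεinv : ε⁻¹ = ε := by
    rcases hε with rfl | rfl <;> norm_num
  refine ⟨{ β := β, τ := ε * T0 ^ (r - 1), ordB := ⟨hβ0, ((h05 β).2 hv0).2, hord1,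
              ((h25 β).2 hv2).2⟩, cong := (h4 _).2 hcong, intB := hintB,
            τ_ne := mul_ne_zero hε0 (pow_ne_zero _ hT00), intT := hεint.mul (hT0.pow _),
            intT' := ?_ }⟩
  rw [mul_inv, hεinv, ← inv_pow]
  exact hεint.mul (hT0'.pow _)

/-- the modular units used below, at level `r ^ 2 * M`. -/
theorem R6_MU (hM : Stmt_MU) (r M : ℕ) (hr : 0 < r) (hM0 : 0 < M) :
    (∀ (a : ℕ) lf χ, W1 a lf χ → a ∣ M →
      MU (r ^ 2 * M) 0 (lx1 lf r) ∧ MU (r ^ 2 * M) 0 (lx2 lf r)) ∧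
    (4 ∣ M → MU (r ^ 2 * M) (-1) lt4 ∧ MU (r ^ 2 * M) (r * (-1)) (scaleL r lt4) ∧
      MU (r ^ 2 * M) (r ^ 2 * (-1)) (scaleL (r ^ 2) lt4)) := by
  obtain ⟨-, -, h3, h4, h5, h6, -⟩ := hM
  refine ⟨fun a lf χ hW ha => ?_, fun h => ⟨?_, ?_, ?_⟩⟩
  · obtain ⟨e1, e2⟩ := h5 a lf χ r M hW ha hr hM0
    exact ⟨h3 _ _ _ _ ⟨r, by ring⟩ e1, e2⟩
  · exact h3 _ _ _ _ (Dvd.dvd.mul_left h _) h6
  · obtain ⟨c, rfl⟩ := h
    exact h3 _ _ _ _ ⟨r * c, by ring⟩ (h4 4 r _ _ hr h6)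
  · obtain ⟨c, rfl⟩ := h
    have := h3 _ (r ^ 2 * (4 * c)) _ _ ⟨c, by ring⟩ (h4 4 (r ^ 2) _ _ (pow_pos hr 2) h6)
    push_cast at this
    exact this

theorem factsB4 (hB : Stmt_beta4) (hVB : Stmt_valBeta) (hVT : Stmt_valT) (hOX : Stmt_ordX)
    (hW : Stmt_W1) (hI : Stmt_intE) (hJA : Stmt_IntJA) (hT4 : Stmt_intT4) (hM : Stmt_MU)
    (hE : Stmt_eltE) (hO : Fermat.Agent.S36.Val.Stmt_OrdOf)
    (hM1 : Fermat.Agent.S36.Val.Stmt_Main1) : Stmt_factsB4 := by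
  intro A r M _ _ _ _ C X1 X2 T0 T2 h4 hX1 hX2 hT0 hT2
  have hr : r.Prime := C.hr
  have hr2 : r ≠ 2 := by
    rintro rfl
    exact C.hrM (Dvd.dvd.trans ⟨2, by norm_num⟩ h4)
  obtain ⟨hMX, hMT⟩ := R6_MU hM r M hr.pos (Nat.pos_of_ne_zero (NeZero.ne M))
  obtain ⟨mX1, mX2⟩ := hMX 4 lf4 chi4 hW.1 h4
  obtain ⟨mT0, mT1, mT2⟩ := hMT h4
  obtain ⟨T1, hT1⟩ := hE A (r ^ 2 * M) _ _ mT1
  obtain ⟨ε, hε, hcong⟩ := hB A r M C X1 X2 T0 T2 h4 hX1 hX2 hT0 hT2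
  obtain ⟨hv0, hv2⟩ := hVB A r M C 4 (-1) lt4 T0 T2 hM.2.2.2.2.2.1 h4 (by norm_num) hT0 hT2
  obtain ⟨hvT, -⟩ := hVT A r M C 4 (-1) lt4 T0 T1 T2 hM.2.2.2.2.2.1 h4 hT0 hT1 hT2
  obtain ⟨-, -, -, hordM, -⟩ := hOX A r M C 4 lf4 chi4 X1 X2 hW.1 h4 hX1 hX2
  obtain ⟨hX10, -, -⟩ := hI A (r ^ 2 * M) _ _ X1 mX1 hX1
  obtain ⟨hX20, -, -⟩ := hI A (r ^ 2 * M) _ _ X2 mX2 hX2
  obtain ⟨-, iT0, -⟩ := hI A (r ^ 2 * M) _ _ T0 mT0 hT0
  obtain ⟨-, iT2, -⟩ := hI A (r ^ 2 * M) _ _ T2 mT2 hT2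
  obtain ⟨jT0, jT0'⟩ := hT4 A r (r ^ 2 * M) hr hr2 C.hA T0 hT0
  have hcong' : (C.O 1).valuation ((T2 - T0) ^ (r - 1) / (X1 / X2) - ε * T0 ^ (r - 1)) < 1 := by
    rw [div_eq_mul_inv _ (X1 / X2), inv_div]
    exact hcong
  exact R6_abs hO r hr.two_le C.O C.unif (hM1 A r M C).1 (jE A (r ^ 2 * M) 1) (X1 / X2) T0 T2 ε hε
    hcong' hv0 hv2 (hvT 1).1 (div_ne_zero hX10 hX20) hordM
    (hJA A r (r ^ 2 * M) hr C.hA _ (iT2.sub iT0)) jT0 jT0'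

theorem facts (hX : Stmt_factsX) (h4 : Stmt_factsB4) (h2 : Stmt_factsB2) (hW : Stmt_W1)
    (hE : Stmt_eltE) (hM : Stmt_MU) : Stmt_Facts := by
  intro A r M _ _ _ _ C haux
  have hr : r.Prime := C.hr
  obtain ⟨hMX, hMT⟩ := R6_MU hM r M hr.pos (Nat.pos_of_ne_zero (NeZero.ne M))
  by_cases hr2 : r = 2
  · subst hr2
    have h9 : 9 ∣ M := by simpa [auxLevel] using haux
    obtain ⟨mX1, mX2⟩ := hMX 9 lf9 chi3 hW.2 h9
    obtain ⟨X1, hX1⟩ := hE A (2 ^ 2 * M) _ _ mX1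
    obtain ⟨X2, hX2⟩ := hE A (2 ^ 2 * M) _ _ mX2
    obtain ⟨X, -, -, -⟩ := hX A 2 M C 9 lf9 chi3 X1 X2 hW.2 h9 hX1 hX2
    exact ⟨X, h2 _ _ _ _ X⟩
  · have h4M : 4 ∣ M := by simpa [auxLevel, hr2] using haux
    obtain ⟨mX1, mX2⟩ := hMX 4 lf4 chi4 hW.1 h4M
    obtain ⟨mT0, -, mT2⟩ := hMT h4M
    obtain ⟨X1, hX1⟩ := hE A (r ^ 2 * M) _ _ mX1
    obtain ⟨X2, hX2⟩ := hE A (r ^ 2 * M) _ _ mX2
    obtain ⟨T0, hT0⟩ := hE A (r ^ 2 * M) _ _ mT0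
    obtain ⟨T2, hT2⟩ := hE A (r ^ 2 * M) _ _ mT2
    obtain ⟨X, -, -, hXM⟩ := hX A r M C 4 lf4 chi4 X1 X2 hW.1 h4M hX1 hX2
    refine ⟨X, ?_⟩
    rw [hXM]
    exact h4 A r M C X1 X2 T0 T2 h4M hX1 hX2 hT0 hT2

end Fermat.Agent.CAR.Unit
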