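import Fermat.Agent.CAR.Unit.Interface4

/-!
# S36 / CAR / Unit : assembly of `Reg.FactsX` (task UNIT-R5, helper37)
-/

set_option autoImplicit false

namespace Fermat.Agent.CAR.Unit

open Fermat.Agent.S24 (Qbar FF)
open Fermat.Agent.S36 (VPos VUnit)
open Fermat.Agent.S36.Val (Ctx jE)
open Fermat.Agent.S36.Base (IE AE FE emb cmE)
open Fermat.Agent.S36.Reg (IntJ FactsX FactsB OrdIs)

theorem R5_prod {F : Type*} [Field F] (c x1 x2 : F) (h1 : x1 ≠ 0) (h2 : x2 ≠ 0) :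
    c * x2 * x1⁻¹ * (x1 / x2) = c := by
  field_simp

/-- abstract form of the assembly. -/
theorem R5_mk {A₀ E F : Type} [CommRing A₀] [Field E] [Field F] [CharZero F] [Algebra A₀ F]
    [Algebra E F] (r : ℕ) (hr : r ≠ 0) (ord : Fin 3 → F → ℤ) (j X1 X2 ε : F)
    (hJA : ∀ x : F, IsIntegral (Algebra.adjoin E ({j} : Set F)) x → IntJ A₀ r j x)
    (hX1 : X1 ≠ 0) (hX2 : X2 ≠ 0)
    (i1 : IsIntegral (Algebra.adjoin E ({j} : Set F)) X1)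
    (i1' : IsIntegral (Algebra.adjoin E ({j} : Set F)) X1⁻¹)
    (i2 : IsIntegral (Algebra.adjoin E ({j} : Set F)) X2)
    (i2' : IsIntegral (Algebra.adjoin E ({j} : Set F)) X2⁻¹)
    (hA : ord 0 ((r : F) * X2) = 1 ∧ ord 1 ((r : F) * X2) = 0 ∧ ord 2 ((r : F) * X2) = 0)
    (hC : ord 0 X1⁻¹ = 0 ∧ ord 1 X1⁻¹ = 0 ∧ ord 2 X1⁻¹ = 1)
    (hM : ord 0 (X1 / X2) = 0 ∧ ord 1 (X1 / X2) = (r : ℤ) - 1 ∧ ord 2 (X1 / X2) = 0)
    (hε : ε = 1 ∨ ε = -1) (hcM : VPos (ord 1) ((r : F) * X2 - ε * X1⁻¹))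
    (hcA : VPos (ord 0) (X1 / X2 - X1⁻¹ ^ (r - 1))) :
    ∃ X : FactsX A₀ F r ord j, X.aA = (r : F) * X2 ∧ X.aC = X1⁻¹ ∧ X.aM = X1 / X2 := by
  have hr' : (r : F) ≠ 0 := Nat.cast_ne_zero.2 hr
  refine ⟨{ aA := (r : F) * X2, aC := X1⁻¹, aM := X1 / X2, ε := ε
            prod := R5_prod _ _ _ hX1 hX2
            ordA := ⟨mul_ne_zero hr' hX2, hA⟩
            ordC := ⟨inv_ne_zero hX1, hC⟩
            ordM := ⟨div_ne_zero hX1 hX2, hM⟩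
            hε := hε
            congM := hcM
            congA := hcA
            intA := hJA _ (IsIntegral.mul (isIntegral_natCast r) i2)
            intC := hJA _ i1'
            intM := hJA _ (by rw [div_eq_mul_inv]; exact i1.mul i2') }, rfl, rfl, rfl⟩

theorem factsX (hV : Stmt_valX) (hOX : Stmt_ordX) (hI : Stmt_intE) (hJA : Stmt_IntJA)
    (hM : Stmt_MU) (hO : Fermat.Agent.S36.Val.Stmt_OrdOf)
    (hM1 : Fermat.Agent.S36.Val.Stmt_Main1) : Stmt_factsX := by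
  intro A r M _ _ _ _ C a lf χ X1 X2 hW haM h1 h2
  have hr0 : 0 < r := C.hr.pos
  have hM0 : 0 < M := Nat.pos_of_ne_zero (NeZero.ne M)
  obtain ⟨mu1, mu2⟩ := hM.2.2.2.2.1 a lf χ r M hW haM hr0 hM0
  have mu1' : MU (r ^ 2 * M) 0 (lx1 lf r) :=
    hM.2.2.1 (r * M) (r ^ 2 * M) 0 _ ⟨r, by ring⟩ mu1
  obtain ⟨hX1, i1, i1'⟩ := hI A (r ^ 2 * M) 0 _ X1 mu1' h1
  obtain ⟨hX2, i2, i2'⟩ := hI A (r ^ 2 * M) 0 _ X2 mu2 h2
  obtain ⟨-, -, -, ⟨ε, hε, hcM⟩, hcA⟩ := hV A r M C a lf χ X1 X2 hW haM h1 h2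
  obtain ⟨hA, hC, hMM⟩ := hOX A r M C a lf χ X1 X2 hW haM h1 h2
  have hun := (hM1 A r M C).1
  have vpos : ∀ (X : Fin 3) (z : FE A (r ^ 2 * M)), (C.O X).valuation z < 1 → VPos (C.ord X) z :=
    fun X z h => ((hO _ (C.O X) (C.unif X) (hun X)).2.2.2.1 z).2 h
  exact R5_mk (A₀ := AE A) (E := IE A) r hr0.ne' C.ord (jE A (r ^ 2 * M) 1) X1 X2 ε
    (fun x hx => hJA A r (r ^ 2 * M) C.hr C.hA x hx) hX1 hX2 i1 i1' i2 i2' hA hC hMM hε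
    (vpos 1 _ hcM) (vpos 0 _ hcA)

end Fermat.Agent.CAR.Unit
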