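import Fermat.Agent.CAR.Unit.Interface
import Fermat.Agent.KL.HauptTrunc

/-!
# S36 / CAR / Unit, task UNIT-I3 (helper86):
Jacobi's four squares theorem `3 f4² = 4 E₂(4z) - E₂(z)` (Sturm bound at level `4`) and
(*) `θ T4 = - T4 F4²`.
-/

set_option autoImplicit false

namespace Fermat.Agent.CAR.Unit

open CongruenceSubgroup Complex
open UpperHalfPlane hiding I
open scoped MatrixGroups Real Manifold ModularForm
open Fermat.Agent.KL.Haupt (HasQ lau toC)
open Fermat.Agent.S16 (theta coeff_theta)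
open PowerSeries

noncomputable section

/-! ### `θ` is a derivation -/

theorem FourSq_theta_eq (a : PowerSeries ℤ) : theta a = X * d⁄dX ℤ a := by
  ext n
  rw [coeff_theta]
  cases n with
  | zero => simp
  | succ n =>
    rw [mul_comm X, coeff_succ_mul_X, coeff_derivative]
    push_cast
    ring

theorem FourSq_theta_mul (a b : PowerSeries ℤ) : theta (a * b) = theta a * b + a * theta b := by
  rw [FourSq_theta_eq, FourSq_theta_eq, FourSq_theta_eq, Derivation.leibniz, smul_eq_mul,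
    smul_eq_mul]
  ring

theorem FourSq_theta_one : theta (1 : PowerSeries ℤ) = 0 := by
  rw [FourSq_theta_eq, derivative_one, mul_zero]

theorem FourSq_theta_pow (a : PowerSeries ℤ) (n : ℕ) :
    theta (a ^ (n + 1)) = ((n + 1 : ℕ) : PowerSeries ℤ) * a ^ n * theta a := by
  induction n with
  | zero => simp
  | succ n ih =>
    rw [pow_succ, FourSq_theta_mul, ih]
    push_cast
    ring

theorem FourSq_theta_expand (d : ℕ) (hd : d ≠ 0) (a : PowerSeries ℤ) :
    theta (expand d hd a) = (d : PowerSeries ℤ) * expand d hd (theta a) := by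
  ext n
  have hc : (d : PowerSeries ℤ) = C (d : ℤ) := by simp
  rw [coeff_theta, hc, coeff_C_mul, coeff_expand, coeff_expand]
  split_ifs with h
  · obtain ⟨m, rfl⟩ := h
    rw [Nat.mul_div_cancel_left _ (Nat.pos_of_ne_zero hd), coeff_theta]
    push_cast
    ring
  · simp

/-! ### `Eps`, `EpsInv` -/

theorem FourSq_Eps (d : ℕ) (hd : d ≠ 0) : Eps d = expand d hd ModularCurve.etaProd := dif_neg hd

theorem FourSq_const_Eps (d : ℕ) : constantCoeff (Eps d) = 1 := by
  by_cases hd : d = 0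
  · rw [Eps, dif_pos hd, map_one]
  · rw [FourSq_Eps d hd, constantCoeff_expand, ModularCurve.constantCoeff_etaProd]

theorem FourSq_Eps_mul_inv (d : ℕ) : Eps d * EpsInv d = 1 :=
  mul_invOfUnit _ _ (by rw [FourSq_const_Eps]; rfl)

theorem FourSq_theta_Eps (hE : Stmt_thetaEta) (d : ℕ) (hd : d ≠ 0) :
    theta (Eps d) = - ((d : PowerSeries ℤ) * (Eps d * expand d hd sig1)) := by
  rw [FourSq_Eps d hd, FourSq_theta_expand, hE, map_neg, map_mul]
  ring

theorem FourSq_theta_EpsInv (hE : Stmt_thetaEta) (d : ℕ) (hd : d ≠ 0) :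
    theta (EpsInv d) = (d : PowerSeries ℤ) * (EpsInv d * expand d hd sig1) := by
  have h1 := FourSq_theta_mul (Eps d) (EpsInv d)
  rw [FourSq_Eps_mul_inv, FourSq_theta_one, FourSq_theta_Eps hE d hd] at h1
  have h2 := FourSq_Eps_mul_inv d
  -- multiply `h1` by `EpsInv d`
  have h3 : theta (EpsInv d) = (Eps d * EpsInv d) * theta (EpsInv d) := by rw [h2, one_mul]
  rw [h3]
  linear_combination (-EpsInv d) * h1 +
    ((d : PowerSeries ℤ) * EpsInv d * expand d hd sig1) * h2

theorem FourSq_lt4 : etaLps lt4 = Eps 1 ^ 8 * EpsInv 4 ^ 8 := by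
  simp [etaLps, lt4]

theorem FourSq_lf4 : etaLps lf4 = Eps 2 ^ 10 * (EpsInv 1 ^ 4 * EpsInv 4 ^ 4) := by
  simp [etaLps, lf4]

theorem FourSq_lA3 : etaLps lA3 = Eps 2 ^ 20 * (EpsInv 1 ^ 8 * EpsInv 4 ^ 8) := by
  simp [etaLps, lA3]

theorem FourSq_three_ne : (3 : PowerSeries ℤ) ≠ 0 := by
  intro h
  have hc : (3 : PowerSeries ℤ) = C (3 : ℤ) := by simp
  rw [hc] at h
  have h1 := congrArg (coeff 0) h
  rw [coeff_zero_C, map_zero] at h1
  exact absurd h1 (by norm_num)

/-- (*) -/
theorem star4 (h4 : Stmt_fourSq) (hE : Stmt_thetaEta) : Stmt_star4 := by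
  unfold Stmt_star4
  unfold Stmt_fourSq at h4
  have hF : etaLps lf4 ^ 2 = 1 + 8 * (sig1 - 4 * expand 4 four_ne_zero sig1) := by
    apply mul_left_cancel₀ FourSq_three_ne
    rw [h4]
    ring
  rw [hF, FourSq_lt4, FourSq_theta_mul, FourSq_theta_pow, FourSq_theta_pow,
    FourSq_theta_Eps hE 1 one_ne_zero, FourSq_theta_EpsInv hE 4 four_ne_zero, expand_one_apply]
  push_cast
  ring

/-! ### coefficients `0` and `1` -/

/-- `a = 1 + c q + O(q²)`. -/
def FourSq_lin (a : PowerSeries ℤ) (c : ℤ) : Prop := constantCoeff a = 1 ∧ coeff 1 a = c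

theorem FourSq_coeff_one_mul (a b : PowerSeries ℤ) :
    coeff 1 (a * b) = constantCoeff a * coeff 1 b + coeff 1 a * constantCoeff b := by
  rw [coeff_mul, Finset.Nat.antidiagonal_succ]
  simp

theorem FourSq_lin.mul {a b : PowerSeries ℤ} {c d : ℤ} (ha : FourSq_lin a c)
    (hb : FourSq_lin b d) : FourSq_lin (a * b) (c + d) := by
  refine ⟨?_, ?_⟩
  · rw [map_mul, ha.1, hb.1, mul_one]
  · rw [FourSq_coeff_one_mul, ha.1, ha.2, hb.1, hb.2]
    ring

theorem FourSq_lin_one : FourSq_lin 1 0 := ⟨map_one _, by simp [coeff_one]⟩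

theorem FourSq_lin.pow {a : PowerSeries ℤ} {c : ℤ} (ha : FourSq_lin a c) (n : ℕ) :
    FourSq_lin (a ^ n) (n * c) := by
  induction n with
  | zero => simpa using FourSq_lin_one
  | succ n ih =>
    rw [pow_succ]
    have := ih.mul ha
    convert this using 1
    push_cast
    ring

theorem FourSq_lin_Eps_one : FourSq_lin (Eps 1) (-1) := by
  refine ⟨FourSq_const_Eps 1, ?_⟩
  rw [FourSq_Eps 1 one_ne_zero, expand_one_apply, Fermat.Agent.KL.Haupt.etaProd_eq]
  have := coeff_pentagonalSeries_pentagonal (R := ℤ) 1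
  simpa [pentagonal] using this

theorem FourSq_lin_Eps (d : ℕ) (hd : 2 ≤ d) : FourSq_lin (Eps d) 0 := by
  refine ⟨FourSq_const_Eps d, ?_⟩
  rw [FourSq_Eps d (by omega), coeff_expand_of_not_dvd]
  intro h
  have := Nat.le_of_dvd one_pos h
  omega

theorem FourSq_lin_EpsInv {d : ℕ} {c : ℤ} (h : FourSq_lin (Eps d) c) :
    FourSq_lin (EpsInv d) (-c) := by
  have h1 := FourSq_Eps_mul_inv d
  have h0 : constantCoeff (EpsInv d) = 1 := by
    have := congrArg constantCoeff h1
    rwa [map_mul, h.1, one_mul, map_one] at this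
  refine ⟨h0, ?_⟩
  have h2 := congrArg (coeff 1) h1
  rw [FourSq_coeff_one_mul, h.1, h.2, h0, coeff_one] at h2
  simp at h2
  linarith

theorem FourSq_lin_lA3 : FourSq_lin (etaLps lA3) 8 := by
  rw [FourSq_lA3]
  have := ((FourSq_lin_Eps 2 le_rfl).pow 20).mul
    (((FourSq_lin_EpsInv FourSq_lin_Eps_one).pow 8).mul
      ((FourSq_lin_EpsInv (FourSq_lin_Eps 4 (by norm_num))).pow 8))
  convert this using 1
  norm_num

/-! ### the Eisenstein series -/

theorem FourSq_coeff_sig1 (m : ℕ) : coeff m sig1 = (ArithmeticFunction.sigma 1 m : ℤ) := by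
  rw [sig1, coeff_mk, ArithmeticFunction.sigma_one_apply]
  push_cast
  rfl

theorem FourSq_coeff_rhs (m : ℕ) :
    coeff m (3 + 24 * (sig1 - 4 * expand 4 four_ne_zero sig1) : PowerSeries ℤ) =
      (if m = 0 then 3 else 0) + 24 * ((ArithmeticFunction.sigma 1 m : ℤ) -
        (if 4 ∣ m then 4 * (ArithmeticFunction.sigma 1 (m / 4) : ℤ) else 0)) := by
  have h3 : (3 : PowerSeries ℤ) = C (3 : ℤ) := by simp
  have h24 : (24 : PowerSeries ℤ) = C (24 : ℤ) := by simp
  have h4 : (4 : PowerSeries ℤ) = C (4 : ℤ) := by simp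
  rw [h3, h24, h4, map_add, coeff_C, coeff_C_mul, map_sub, coeff_C_mul, coeff_expand,
    FourSq_coeff_sig1, FourSq_coeff_sig1]
  split_ifs <;> simp

theorem FourSq_hasQ_eis : HasQ 4 2 (Fermat.Agent.S16.eisP 4)
    (3 + 24 * (sig1 - 4 * expand 4 four_ne_zero sig1)) := by
  refine ⟨Fermat.Agent.S16.eisP_isMF (by norm_num), ?_⟩
  ext m
  rw [Fermat.Agent.S16.eisP_qExpansion_coeff (by norm_num), coeff_map, FourSq_coeff_rhs]
  by_cases hm : m = 0
  · subst hm
    simp
    norm_num
  · rw [if_neg hm, if_neg hm, Fermat.Agent.S16.eisP_sum_divisors_not_dvd (by norm_num)]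
    simp

theorem FourSq_psi4 : ModularCurve.dedekindPsi 4 = 6 := by
  have h : Nat.divisors 4 = {1, 2, 4} := by decide
  have h4 : ¬ Squarefree 4 := by
    intro hs
    have := hs 2 ⟨1, by norm_num⟩
    simp at this
  rw [ModularCurve.dedekindPsi, h, Finset.sum_filter]
  simp [Nat.squarefree_two, h4]

/-- **Jacobi's four squares theorem.** -/
theorem fourSq (h : Stmt_HasQ4) : Stmt_fourSq := by
  unfold Stmt_fourSq
  have hsq : etaLps lA3 = etaLps lf4 ^ 2 := by
    rw [FourSq_lA3, FourSq_lf4]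
    ring
  have hG := (h.1.intSmul 3).sub FourSq_hasQ_eis
  have h0 := hG.eq_zero (by
    intro n hn
    rw [FourSq_psi4] at hn
    have hn' : n ≤ 1 := le_trans hn (by decide)
    have h3 : ((3 : ℤ) : PowerSeries ℤ) = C (3 : ℤ) := by simp
    rw [map_sub, FourSq_coeff_rhs, h3, coeff_C_mul]
    interval_cases n
    · rw [coeff_zero_eq_constantCoeff_apply, FourSq_lin_lA3.1]
      simp
    · rw [FourSq_lin_lA3.2]
      simp)
  rw [← hsq]
  push_cast at h0
  linear_combination h0

end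

end Fermat.Agent.CAR.Unit
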