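import Fermat.Agent.CAR.Unit.Interface

/-!
# S36 / CAR / Unit : (C1) a Fricke pair gives the transformation under `[[1,0],[a,1]]`
-/

set_option autoImplicit false

namespace Fermat.Agent.CAR.Unit

open Complex

/-- `w z = -1 / (a z)` maps the upper half plane to itself. -/
theorem FrickeStep_im_pos (a : ℕ) (ha : 0 < a) (z : ℂ) (hz : 0 < z.im) :
    0 < (-1 / ((a : ℂ) * z)).im := by
  have ha' : (0 : ℝ) < a := by exact_mod_cast ha
  have hz0 : z ≠ 0 := by
    rintro rfl
    simp at hz
  have haz : (a : ℂ) * z ≠ 0 := mul_ne_zero (by exact_mod_cast ha.ne') hz0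
  have him : ((a : ℂ) * z).im = a * z.im := by simp
  rw [div_im]
  have hn : 0 < normSq ((a : ℂ) * z) := normSq_pos.2 haz
  simp only [neg_im, one_im, neg_zero, zero_mul, zero_div, neg_re, one_re, him, zero_sub]
  rw [neg_mul, neg_div, neg_neg, one_mul]
  exact div_pos (mul_pos ha' hz) hn

theorem frickeStep : Stmt_FrickeStep := by
  intro a k f fs C ξ ha hC hξ hW hT z hz
  have ha0 : (a : ℂ) ≠ 0 := by exact_mod_cast ha.ne'
  have hz0 : z ≠ 0 := by
    rintro rfl
    simp at hz
  have haz1 : (a : ℂ) * z + 1 ≠ 0 := by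
    intro h
    have h2 := congrArg Complex.im h
    have ha' : (0 : ℝ) < a := by exact_mod_cast ha
    simp at h2
    rcases h2 with h2 | h2
    · exact ha.ne' h2
    · exact hz.ne' h2
  set w : ℂ := -1 / ((a : ℂ) * z) with hw
  have hwim : 0 < w.im := FrickeStep_im_pos a ha z hz
  set u : ℂ := w - 1 with hu
  have huim : 0 < u.im := by
    rw [hu]
    simpa using hwim
  have e1 : z / ((a : ℂ) * z + 1) = -1 / ((a : ℂ) * u) := by
    have hu' : u = -((a : ℂ) * z + 1) / ((a : ℂ) * z) := by
      rw [hu, hw]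
      field_simp
      ring
    rw [hu']
    field_simp
  have e2 : z = -1 / ((a : ℂ) * w) := by
    rw [hw]
    field_simp
  have e3 : u = ((a : ℂ) * z + 1) * w := by
    rw [hu, hw]
    field_simp
    ring
  have h1 : f (z / ((a : ℂ) * z + 1)) = C * u ^ k * fs u := by
    rw [e1]
    exact hW u huim
  have h2 : fs w = ξ * fs u := by
    have := hT u huim
    rwa [hu, sub_add_cancel, ← hu] at this
  have h3 : f z = C * w ^ k * fs w := by
    conv_lhs => rw [e2]
    exact hW w hwim
  rw [h1, h3, h2, e3, mul_zpow]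
  field_simp

end Fermat.Agent.CAR.Unit

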