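import Fermat.Agent.CAR.Unit.Interface3
import Fermat.Agent.S36.Val.GVApi
import Fermat.Agent.S36.Val.GVOps

/-!
# S36 / CAR / Unit / M2 : Gauss valuation of the eta series (helper54)
-/

set_option autoImplicit false

namespace Fermat.Agent.CAR.Unit

open Fermat.Agent.S24 (Qbar)
open Fermat.Agent.S36.Val (GInt gred resA gint_inc gred_inc)
open Fermat.Agent.INJ.Inst (kA)
open Fermat.Agent.INJ.Inst.Gauss (rho inc)
open Fermat.Agent.ES.Mid (tw)
open ModularCurve (coeffMap)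

theorem M2_inc (hS : Stmt_serCalc) (A : ValuationSubring Qbar) (n : ℤ) (l : List (ℕ × ℤ)) :
    inc A (etaLser A n l) = etaLser Qbar n l := hS.1 A Qbar A.subtype n l

theorem M2_rho (hS : Stmt_serCalc) (A : ValuationSubring Qbar) (n : ℤ) (l : List (ℕ × ℤ)) :
    rho (resA A) (etaLser A n l) = etaLser (kA A) n l := hS.1 A (kA A) (resA A) n l

theorem gaussEta (hS : Stmt_serCalc) : Stmt_gaussEta := by
  intro A n l
  rw [← M2_inc hS A n l]
  exact ⟨gint_inc _, by rw [gred_inc, M2_rho hS]⟩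

/-- the eta series are Gauss units. -/
theorem M2_unit (hS : Stmt_serCalc) (A : ValuationSubring Qbar) (n : ℤ) (l : List (ℕ × ℤ)) :
    GInt A (etaLser Qbar n l) ∧ gred A (etaLser Qbar n l) ≠ 0 := by
  obtain ⟨h1, h2⟩ := gaussEta hS A n l
  exact ⟨h1, by rw [h2]; exact hS.2.2.2.2.2 (kA A) n l⟩

/-- the twisted eta series: same reduction. -/
theorem M2_tw (hS : Stmt_serCalc) (A : ValuationSubring Qbar) (r : ℕ) (hr : r.Prime)
    (hA : A.LiesOverPrime r) (ζ : Qbarˣ) (hζ : ζ ^ r = 1) (n : ℤ) (l : List (ℕ × ℤ)) :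
    GInt A (tw ζ (etaLser Qbar n l)) ∧ gred A (tw ζ (etaLser Qbar n l)) = etaLser (kA A) n l := by
  obtain ⟨h1, h2⟩ := gaussEta hS A n l
  obtain ⟨h3, h4⟩ := Fermat.Agent.S36.Val.stmt_GVTw A r hr hA ζ hζ _ h1
  exact ⟨h3, by rw [h4, h2]⟩

/-- the twisted eta series are Gauss units. -/
theorem M2_unit_tw (hS : Stmt_serCalc) (A : ValuationSubring Qbar) (r : ℕ) (hr : r.Prime)
    (hA : A.LiesOverPrime r) (ζ : Qbarˣ) (hζ : ζ ^ r = 1) (n : ℤ) (l : List (ℕ × ℤ)) :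
    GInt A (tw ζ (etaLser Qbar n l)) ∧ gred A (tw ζ (etaLser Qbar n l)) ≠ 0 := by
  obtain ⟨h1, h2⟩ := M2_tw hS A r hr hA ζ hζ n l
  exact ⟨h1, by rw [h2]; exact hS.2.2.2.2.2 (kA A) n l⟩

end Fermat.Agent.CAR.Unit
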