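import Fermat.Agent.CAR.Unit.Interface

/-!
# S36 / CAR / Unit : (A) `Γ₀(a) = ⟨T, [[1, 0], [a, 1]], -1⟩` for `a = 2, 3, 4`

Euclidean descent on the bottom row.
-/

set_option autoImplicit false

namespace Fermat.Agent.CAR.Unit

open CongruenceSubgroup
open scoped MatrixGroups

theorem gen_coe_Ua (x : ℤ) : (Ua x : Matrix (Fin 2) (Fin 2) ℤ) = !![1, 0; x, 1] := rfl

theorem gen_Ua_mul (x y : ℤ) : Ua x * Ua y = Ua (x + y) := by
  ext i j
  rw [Matrix.SpecialLinearGroup.coe_mul, gen_coe_Ua, gen_coe_Ua, gen_coe_Ua]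
  fin_cases i <;> fin_cases j <;>
    simp [Matrix.mul_apply, Fin.sum_univ_two]

theorem gen_Ua_zero : Ua 0 = 1 := by
  ext i j
  rw [gen_coe_Ua]
  fin_cases i <;> fin_cases j <;> simp

theorem gen_Ua_inv (x : ℤ) : (Ua x)⁻¹ = Ua (-x) := by
  rw [inv_eq_iff_mul_eq_one, gen_Ua_mul, add_neg_cancel, gen_Ua_zero]

theorem gen_Ua_zpow (a m : ℤ) : (Ua a) ^ m = Ua (m * a) := by
  induction m using Int.induction_on with
  | zero => rw [zpow_zero, zero_mul, gen_Ua_zero]
  | succ n ih => rw [zpow_add_one, ih, gen_Ua_mul]; congr 1; ring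
  | pred n ih => rw [zpow_sub_one, ih, gen_Ua_inv, gen_Ua_mul]; congr 1; ring

theorem gen_mul_T (γ : SL(2, ℤ)) (n : ℤ) :
    (γ * ModularGroup.T ^ n) 1 0 = γ 1 0 ∧ (γ * ModularGroup.T ^ n) 1 1 = γ 1 1 + n * γ 1 0 := by
  constructor
  · simp [Matrix.SpecialLinearGroup.coe_mul, ModularGroup.coe_T_zpow, Matrix.mul_apply,
      Fin.sum_univ_two]
  · simp [Matrix.SpecialLinearGroup.coe_mul, ModularGroup.coe_T_zpow, Matrix.mul_apply,
      Fin.sum_univ_two]
    ring

theorem gen_mul_Ua (γ : SL(2, ℤ)) (x : ℤ) :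
    (γ * Ua x) 1 0 = γ 1 0 + x * γ 1 1 ∧ (γ * Ua x) 1 1 = γ 1 1 := by
  rw [Matrix.SpecialLinearGroup.coe_mul, gen_coe_Ua]
  constructor
  · simp [Matrix.mul_apply, Fin.sum_univ_two]
    ring
  · simp [Matrix.mul_apply, Fin.sum_univ_two]

theorem gen_det (γ : SL(2, ℤ)) : γ 0 0 * γ 1 1 - γ 0 1 * γ 1 0 = 1 := by
  have h := Matrix.SpecialLinearGroup.det_coe γ
  rwa [Matrix.det_fin_two] at h

/-- division with least absolute remainder. -/
theorem gen_round (x m : ℤ) (hm : m ≠ 0) : ∃ n : ℤ, 2 * |x + n * m| ≤ |m| := by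
  have h0 : 0 ≤ x % m := Int.emod_nonneg x hm
  have h1 : x % m < |m| := Int.emod_lt_abs x hm
  have h2 : m * (x / m) + x % m = x := Int.mul_ediv_add_emod x m
  by_cases h : 2 * (x % m) ≤ |m|
  · refine ⟨-(x / m), ?_⟩
    have : x + -(x / m) * m = x % m := by linarith
    rw [this, abs_of_nonneg h0]
    exact h
  · push Not at h
    rcases abs_cases m with ⟨h3, _⟩ | ⟨h3, _⟩
    · refine ⟨-(x / m) - 1, ?_⟩
      have : x + (-(x / m) - 1) * m = x % m - m := by linarith
      rw [this, abs_of_nonpos (by linarith)]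
      linarith
    · refine ⟨-(x / m) + 1, ?_⟩
      have : x + (-(x / m) + 1) * m = x % m + m := by linarith
      rw [this, abs_of_nonpos (by linarith)]
      linarith

theorem gen_aux (a : ℕ) (ha : a = 2 ∨ a = 3 ∨ a = 4) : ∀ (k : ℕ) (γ : SL(2, ℤ)),
    (γ 1 0).natAbs = k → (a : ℤ) ∣ γ 1 0 →
    γ ∈ Subgroup.closure ({ModularGroup.T, Ua a, -1} : Set SL(2, ℤ)) := by
  set H := Subgroup.closure ({ModularGroup.T, Ua a, -1} : Set SL(2, ℤ)) with hH
  have hT : ModularGroup.T ∈ H := Subgroup.subset_closure (by simp)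
  have hU : Ua a ∈ H := Subgroup.subset_closure (by simp)
  have hN : (-1 : SL(2, ℤ)) ∈ H := Subgroup.subset_closure (by simp)
  intro k
  induction k using Nat.strong_induction_on with
  | _ k ih =>
    intro γ hk hdvd
    have hdet := gen_det γ
    by_cases hc : γ 1 0 = 0
    · rw [hc, mul_zero, sub_zero] at hdet
      rcases Int.mul_eq_one_iff_eq_one_or_neg_one.1 hdet with ⟨h00, h11⟩ | ⟨h00, h11⟩
      · have : γ = ModularGroup.T ^ (γ 0 1) := by
          ext i j
          fin_cases i <;> fin_cases j <;> simp [ModularGroup.coe_T_zpow, h00, h11, hc]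
        rw [this]
        exact H.zpow_mem hT _
      · have : γ = -1 * ModularGroup.T ^ (-γ 0 1) := by
          ext i j
          fin_cases i <;> fin_cases j <;> simp [ModularGroup.coe_T_zpow, h00, h11, hc]
        rw [this]
        exact H.mul_mem hN (H.zpow_mem hT _)
    · -- first step
      obtain ⟨n, hn⟩ := gen_round (γ 1 1) (γ 1 0) hc
      set γ' := γ * ModularGroup.T ^ n with hγ'
      obtain ⟨h10, h11⟩ := gen_mul_T γ n
      rw [← hγ'] at h10 h11
      rw [← h11] at hn
      have hdet' := gen_det γ'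
      have ha2 : (2 : ℤ) ≤ a := by rcases ha with rfl | rfl | rfl <;> norm_num
      have hcabs : (a : ℤ) ≤ |γ 1 0| := by
        have := Int.le_of_dvd (abs_pos.2 hc) ((dvd_abs _ _).2 hdvd)
        exact this
      have hd' : γ' 1 1 ≠ 0 := by
        intro h0
        rw [h0, mul_zero, zero_sub, h10] at hdet'
        have h1 : γ 1 0 ∣ 1 := ⟨-γ' 0 1, by linarith⟩
        have h2 : |γ 1 0| ≤ 1 := Int.le_of_dvd one_pos ((abs_dvd _ _).2 h1)
        omega
      -- second step
      have had : (a : ℤ) * γ' 1 1 ≠ 0 := mul_ne_zero (by omega) hd'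
      obtain ⟨m, hm⟩ := gen_round (γ' 1 0) ((a : ℤ) * γ' 1 1) had
      set γ'' := γ' * Ua (m * a) with hγ''
      obtain ⟨k10, -⟩ := gen_mul_Ua γ' (m * a)
      rw [← hγ''] at k10
      have e1 : γ'' 1 0 = γ' 1 0 + m * (a * γ' 1 1) := by rw [k10]; ring
      rw [← e1, abs_mul, abs_of_nonneg (by omega : (0 : ℤ) ≤ a)] at hm
      have hcpos : 0 < |γ 1 0| := abs_pos.2 hc
      have hlt : |γ'' 1 0| < |γ 1 0| := by
        rcases ha with rfl | rfl | rfl
        · push_cast at hm
          generalize |γ'' 1 0| = X at *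
          generalize |γ' 1 1| = Y at *
          generalize |γ 1 0| = Z at *
          omega
        · push_cast at hm
          generalize |γ'' 1 0| = X at *
          generalize |γ' 1 1| = Y at *
          generalize |γ 1 0| = Z at *
          omega
        · have h2c : (2 : ℤ) ∣ γ' 1 0 := by
            rw [h10]
            exact Dvd.dvd.trans (by norm_num) hdvd
          have hodd : ¬ (2 : ℤ) ∣ γ' 1 1 := by
            intro h2d
            have h21 : (2 : ℤ) ∣ 1 := by
              rw [← hdet']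
              exact dvd_sub (Dvd.dvd.mul_left h2d _) (Dvd.dvd.mul_left h2c _)
            omega
          have hne : 2 * |γ' 1 1| ≠ |γ 1 0| := by
            intro he
            apply hodd
            obtain ⟨c₁, hc₁⟩ := hdvd
            rw [hc₁, abs_mul] at he
            have h4 : |((4 : ℕ) : ℤ)| = 4 := by norm_num
            rw [h4] at he
            have h5 : |γ' 1 1| = 2 * |c₁| := by linarith
            exact (dvd_abs _ _).1 ⟨_, h5⟩
          push_cast at hm
          generalize |γ'' 1 0| = X at *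
          generalize |γ' 1 1| = Y at *
          generalize |γ 1 0| = Z at *
          omega
      have hmem'' : γ'' ∈ H := by
        refine ih (γ'' 1 0).natAbs ?_ γ'' rfl ?_
        · rw [← hk]
          zify
          exact hlt
        · rw [e1, h10]
          exact dvd_add hdvd (Dvd.dvd.mul_left (Dvd.intro _ rfl) _)
      have hfin : γ = γ'' * (Ua (m * a))⁻¹ * (ModularGroup.T ^ n)⁻¹ := by
        rw [hγ'', hγ']
        group
      rw [hfin]
      exact H.mul_mem (H.mul_mem hmem'' (H.inv_mem (by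
        rw [← gen_Ua_zpow]; exact H.zpow_mem hU _))) (H.inv_mem (H.zpow_mem hT _))

theorem gen : Stmt_Gen := by
  intro a ha γ hγ
  refine gen_aux a ha _ γ rfl ?_
  rw [Gamma0_mem] at hγ
  exact (ZMod.intCast_zmod_eq_zero_iff_dvd _ _).1 hγ

end Fermat.Agent.CAR.Unit
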