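import Fermat.Agent.CAR.Unit.Interface2
import Fermat.Agent.CAR.Unit.EtaBasic

/-!
# S36 / CAR / Unit : UNIT-L4, analytic properties of weight `0` eta quotients
-/

set_option autoImplicit false

namespace Fermat.Agent.CAR.Unit

open CongruenceSubgroup Complex Filter Asymptotics
open UpperHalfPlane hiding I
open scoped MatrixGroups Real Manifold ModularForm
open Fermat.Agent.S24 (Qbar FF funAlg iota jF)
open Fermat.Agent.S24.QX (qExpHom cmI Rep Nice)
open Fermat.Agent.ES.Mid (tw Growth)
attribute [local instance] Fermat.Agent.S24.algQbarComplex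

theorem L4_coeffMap_etaLser {R S : Type*} [CommRing R] [CommRing S] (f : R →+* S) (n : ℤ)
    (l : List (ℕ × ℤ)) : ModularCurve.coeffMap f (etaLser R n l) = etaLser S n l := by
  rw [etaLser, etaLser, map_mul, ModularCurve.coeffMap_single, map_one,
    Fermat.Agent.KL.Haupt.coeffMap_lau]

theorem L4_cmI_etaLser (n : ℤ) (l : List (ℕ × ℤ)) :
    cmI (etaLser Qbar n l) = etaLser ℂ n l :=
  L4_coeffMap_etaLser _ n l

theorem L4_wt2G (l : List (ℕ × ℤ)) : wt2G (toG l) = wt2 l := by
  simp [wt2G, toG, wt2, List.map_map, Function.comp_def]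

theorem etaL_good (hG : Stmt_etaG_growth) (hR : Stmt_etaL_rep) : Stmt_etaL_good := by
  intro l n hl hw hd
  refine ⟨mdiff_onH (etaL_differentiableOn hl), ?_, ?_⟩
  · have h := hG (toG l) (B1_posG_toG hl) (by rw [L4_wt2G, hw])
    have e : onH (etaL l) = onH (etaG (toG l)) := by
      funext z
      exact etaL_toG l z
    rw [e]
    exact h
  · rw [L4_cmI_etaLser]
    exact hR l n hl hd

end Fermat.Agent.CAR.Unit
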