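import Fermat.Agent.CAR.Unit.Interface

/-!
# S36 / CAR / Unit / G4 : moderate growth and boundedness at the cusps of generalised eta quotients.
helper83
-/

set_option autoImplicit false

namespace Fermat.Agent.CAR.Unit

open CongruenceSubgroup Complex Filter Asymptotics
open UpperHalfPlane hiding I
open scoped MatrixGroups Real Manifold ModularForm

local notation "η" => ModularForm.eta

theorem G4_denom_eq (g : SL(2, ℤ)) (z : ℍ) : denom g z = den g z := by
  rw [ModularGroup.denom_apply]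
  simp [den]

theorem G4_den_ne_zero (g : SL(2, ℤ)) (z : ℍ) : den g z ≠ 0 := by
  rw [← G4_denom_eq]
  exact denom_ne_zero _ z

theorem etaG_bdd (h : Stmt_etaG_theta) : Stmt_etaG_bdd := by
  intro l k g hl hw hord
  have hΘ := (h l hl g).isBigO
  unfold IsBoundedAtImInfty BoundedAtFilter
  rw [ModularForm.SL_slash_def]
  have h1 := hΘ.mul (isBigO_refl (fun z : ℍ => denom g z ^ (-k)) atImInfty).norm_right
  refine h1.trans (IsBigO.of_bound 1 ?_)
  filter_upwards with z
  have hd : ‖den g z‖ ≠ 0 := norm_ne_zero_iff.2 (G4_den_ne_zero g z)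
  have hw' : (wt2G l : ℝ) / 2 = ((k : ℤ) : ℝ) := by
    rw [hw]; push_cast; ring
  have e1 : ‖den g z‖ ^ ((wt2G l : ℝ) / 2) * ‖denom g z ^ (-k)‖ = 1 := by
    rw [hw', Real.rpow_intCast, norm_zpow, G4_denom_eq, ← zpow_add₀ hd, add_neg_cancel, zpow_zero]
  have e2 : ‖den g z‖ ^ ((wt2G l : ℝ) / 2) *
      Real.exp (-(π * ordG l (g 0 0) (g 1 0) * z.im / 12)) * ‖denom g z ^ (-k)‖ =
      Real.exp (-(π * ordG l (g 0 0) (g 1 0) * z.im / 12)) := by
    rw [mul_right_comm, e1, one_mul]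
  rw [e2, Real.norm_eq_abs, abs_of_pos (Real.exp_pos _)]
  simp only [Pi.one_apply, norm_one, mul_one]
  rw [Real.exp_le_one_iff, neg_nonpos]
  have := z.im_pos
  positivity

theorem etaG_growth (h : Stmt_etaG_theta) (h3 : Stmt_etaTheta) : Stmt_etaG_growth := by
  intro l hl hw g
  obtain ⟨k, hk⟩ : ∃ k : ℕ, 0 ≤ ordG l (g 0 0) (g 1 0) + 24 * (k : ℝ) := by
    obtain ⟨k, hk⟩ := exists_nat_ge (-ordG l (g 0 0) (g 1 0))
    have : (0 : ℝ) ≤ k := Nat.cast_nonneg k
    exact ⟨k, by linarith⟩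
  refine ⟨k, ?_⟩
  have h1 := (h l hl g).isBigO
  have h2 := (h3 1 0 one_pos).isBigO
  have h2' : (fun z : ℍ => ModularForm.discriminant z ^ k) =O[atImInfty]
      fun z : ℍ => Real.exp (-(π * 1 * z.im / 12)) ^ (24 * k) :=
    (h2.pow (24 * k)).congr_left (fun z => by
      simp [ModularForm.discriminant, pow_mul])
  unfold IsBoundedAtImInfty BoundedAtFilter
  refine (h1.mul h2').trans (IsBigO.of_bound 1 ?_)
  filter_upwards with z
  have e2 : ‖den g z‖ ^ ((wt2G l : ℝ) / 2) *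
      Real.exp (-(π * ordG l (g 0 0) (g 1 0) * z.im / 12)) *
        Real.exp (-(π * 1 * z.im / 12)) ^ (24 * k) =
      Real.exp (-(π * (ordG l (g 0 0) (g 1 0) + 24 * (k : ℝ)) * z.im / 12)) := by
    rw [hw, Int.cast_zero, zero_div, Real.rpow_zero, one_mul, ← Real.exp_nat_mul, ← Real.exp_add]
    congr 1
    push_cast
    ring
  rw [e2, Real.norm_eq_abs, abs_of_pos (Real.exp_pos _)]
  simp only [Pi.one_apply, norm_one, mul_one]
  rw [Real.exp_le_one_iff, neg_nonpos]
  have := z.im_pos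
  positivity

end Fermat.Agent.CAR.Unit
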