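import Fermat.Agent.CAR.Unit.Interface

/-!
# S36 / CAR / Unit, task UNIT-G1 : Hermite normal form (`Stmt_HNF`)
-/

set_option autoImplicit false

namespace Fermat.Agent.CAR.Unit

open scoped MatrixGroups

theorem hnf : Stmt_HNF := by
  intro A B D g hA hD
  have hdet : g 0 0 * g 1 1 - g 0 1 * g 1 0 = 1 := by
    have := g.det_coe
    rwa [Matrix.det_fin_two] at this
  obtain ⟨a, ha⟩ : ∃ a, a = g 0 0 := ⟨_, rfl⟩
  obtain ⟨b, hb⟩ : ∃ b, b = g 0 1 := ⟨_, rfl⟩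
  obtain ⟨c, hc⟩ : ∃ c, c = g 1 0 := ⟨_, rfl⟩
  obtain ⟨d, hd⟩ : ∃ d, d = g 1 1 := ⟨_, rfl⟩
  rw [← ha, ← hb, ← hc, ← hd] at hdet
  have hg : (g : Matrix (Fin 2) (Fin 2) ℤ) = !![a, b; c, d] := by
    rw [ha, hb, hc, hd]
    exact Matrix.eta_fin_two _
  rw [← ha, ← hc, hg]
  have hA' : (0 : ℤ) < A := by exact_mod_cast hA
  have hD' : (0 : ℤ) < D := by exact_mod_cast hD
  obtain ⟨x, hx⟩ : ∃ x, x = (A : ℤ) * a + B * c := ⟨_, rfl⟩
  obtain ⟨y, hy⟩ : ∃ y, y = (D : ℤ) * c := ⟨_, rfl⟩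
  rw [← hx, ← hy]
  have hG0 : 0 < Int.gcd x y := by
    rw [Int.gcd_pos_iff]
    by_contra hcon
    push Not at hcon
    obtain ⟨hx0, hy0⟩ := hcon
    have hc0 : c = 0 := by
      rw [hy0] at hy
      rcases mul_eq_zero.1 hy.symm with h | h
      · omega
      · exact h
    have ha0 : a = 0 := by
      rw [hx0, hc0, mul_zero, add_zero] at hx
      rcases mul_eq_zero.1 hx.symm with h | h
      · omega
      · exact h
    rw [ha0, hc0] at hdet
    simp at hdet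
  obtain ⟨x', hx'⟩ := Int.gcd_dvd_left x y
  obtain ⟨y', hy'⟩ := Int.gcd_dvd_right x y
  have hbez := Int.gcd_eq_gcd_ab x y
  obtain ⟨u, hu⟩ : ∃ u, u = Int.gcdA x y := ⟨_, rfl⟩
  obtain ⟨v, hv⟩ : ∃ v, v = Int.gcdB x y := ⟨_, rfl⟩
  obtain ⟨G, hGdef⟩ : ∃ G : ℕ, G = Int.gcd x y := ⟨_, rfl⟩
  rw [← hu, ← hv, ← hGdef] at hbez
  rw [← hGdef] at hx' hy' hG0
  have hGpos : (0 : ℤ) < G := by exact_mod_cast hG0
  have hbez' : x' * u + y' * v = 1 := by
    have h1 : (G : ℤ) * (x' * u + y' * v) = (G : ℤ) * 1 := by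
      linear_combination (-1 : ℤ) * hbez - u * hx' - v * hy'
    exact mul_left_cancel₀ hGpos.ne' h1
  obtain ⟨β, hβ⟩ : ∃ β, β = (A : ℤ) * b + B * d := ⟨_, rfl⟩
  obtain ⟨δ, hδ⟩ : ∃ δ, δ = (D : ℤ) * d := ⟨_, rfl⟩
  have hGD : (G : ℤ) * (x' * δ - y' * β) = (A : ℤ) * D := by
    have h1 : (G : ℤ) * (x' * δ - y' * β) = x * δ - y * β := by
      rw [hx', hy']; ring
    rw [h1, hx, hy, hβ, hδ]
    linear_combination (A : ℤ) * D * hdet
  have hDpos : 0 < x' * δ - y' * β := by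
    have h2 : 0 < (G : ℤ) * (x' * δ - y' * β) := by
      rw [hGD]; positivity
    exact (mul_pos_iff_of_pos_left hGpos).1 h2
  refine ⟨⟨!![x', -v; y', u], ?_⟩, G, u * β + v * δ, (x' * δ - y' * β).toNat, hG0, ?_, ?_, hGdef, ?_⟩
  · rw [Matrix.det_fin_two_of]
    linear_combination hbez'
  · omega
  · have h3 : ((G * (x' * δ - y' * β).toNat : ℕ) : ℤ) = ((A * D : ℕ) : ℤ) := by
      push_cast
      rw [Int.toNat_of_nonneg hDpos.le, hGD]
    exact_mod_cast h3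
  · rw [Int.toNat_of_nonneg hDpos.le]
    simp only [Matrix.mul_fin_two, mul_zero, add_zero, zero_mul, zero_add]
    rw [← hx, ← hy, ← hβ, ← hδ]
    have e1 : x' * (G : ℤ) = x := by rw [hx']; ring
    have e2 : y' * (G : ℤ) = y := by rw [hy']; ring
    have e3 : x' * (u * β + v * δ) + -v * (x' * δ - y' * β) = β := by
      linear_combination β * hbez'
    have e4 : y' * (u * β + v * δ) + u * (x' * δ - y' * β) = δ := by
      linear_combination δ * hbez'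
    rw [e1, e2, e3, e4]

end Fermat.Agent.CAR.Unit
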