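import Fermat.Agent.CAR.Unit.Interface

/-!
# S36 / CAR / Unit : UNIT-I1.  `θ₂⁴, θ₃⁴, θ₄⁴` are modular forms of weight `2` on `Γ₀(4)`.
-/

set_option autoImplicit false

namespace Fermat.Agent.CAR.Unit

open CongruenceSubgroup Complex Filter Asymptotics
open UpperHalfPlane hiding I
open scoped MatrixGroups Real Manifold ModularForm
open Fermat.Agent.S24.QX (Nice)
open Fermat.Agent.KL.Haupt (HasQ toC)

theorem HasQ4_gcd (c : ℤ) :
    (Int.gcd 2 c = 1 ∧ Int.gcd 4 c = 1) ∨ (Int.gcd 2 c = 2 ∧ Int.gcd 4 c = 2) ∨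
      (Int.gcd 2 c = 2 ∧ Int.gcd 4 c = 4) := by
  obtain ⟨k, r, hr, rfl⟩ : ∃ k r : ℤ, (r = 0 ∨ r = 1 ∨ r = 2 ∨ r = 3) ∧ c = r + 4 * k := by
    refine ⟨c / 4, c % 4, ?_, by omega⟩
    omega
  have h4 : Int.gcd 4 (r + 4 * k) = Int.gcd 4 r := Int.gcd_add_mul_left_right 4 r k
  have h2 : Int.gcd 2 (r + 4 * k) = Int.gcd 2 r := by
    have : r + 4 * k = r + 2 * (2 * k) := by ring
    rw [this]
    exact Int.gcd_add_mul_left_right 2 r (2 * k)
  rw [h4, h2]
  rcases hr with rfl | rfl | rfl | rfl <;> decide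

theorem HasQ4_den (γ : SL(2, ℤ)) (z : ℍ) :
    denom (Matrix.SpecialLinearGroup.toGL ((Matrix.SpecialLinearGroup.map (Int.castRingHom ℝ)) γ))
      (z : ℂ) = den γ z := by
  simp [denom, den]

theorem HasQ4_aux (h1 : Stmt_slash4) (h2 : Stmt_etaG_bdd) (h3 : Stmt_ordG_toG)
    (h4 : Stmt_etaL_qexp) (h6 : Stmt_etaL_toG) (l : List (ℕ × ℤ)) (n : ℕ)
    (hl : l = lA2 ∨ l = lA3 ∨ l = lA4) (hpos : PosL l) (hdeg : deg24 l = 24 * n)
    (hw : wt2 l = 2 * 2)
    (hord : ∀ c : ℤ, 0 ≤ (l.map fun p => (p.2 : ℝ) * ((Int.gcd (p.1 : ℤ) c : ℕ) : ℝ) ^ 2 /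
      (p.1 : ℝ)).sum) :
    HasQ 4 2 (onH (etaL l)) (PowerSeries.X ^ n * etaLps l) := by
  obtain ⟨hN, hq⟩ := h4 l n hpos hdeg
  refine ⟨⟨hN.1, ?_, ?_⟩, hq⟩
  · intro γ hγ
    ext z
    rw [ModularForm.SL_slash_apply, HasQ4_den]
    have h := h1 l 2 (Or.inr ⟨hl, rfl⟩) γ hγ z
    have hne : den γ z ≠ 0 := by
      rw [← HasQ4_den]
      exact denom_ne_zero _ z
    change etaL l ((γ • z : ℍ) : ℂ) * _ = etaL l z
    rw [h, zpow_neg]
    field_simp
  · intro g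
    have he : onH (etaL l) = onH (etaG (toG l)) := by
      funext z
      exact h6 l z
    rw [he]
    refine h2 (toG l) 2 g ?_ ?_ ?_
    · intro p hp
      simp only [toG, List.mem_map] at hp
      obtain ⟨a, ha, rfl⟩ := hp
      exact ⟨hpos a ha, Nat.one_pos⟩
    · rw [← hw]
      simp [wt2G, wt2, toG, Function.comp_def]
    · rw [h3 l g hpos]
      exact hord _

theorem hasQ4 (h1 : Stmt_slash4) (h2 : Stmt_etaG_bdd) (h3 : Stmt_ordG_toG) (h4 : Stmt_etaL_qexp)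
    (_h5 : Stmt_etaG_basic) (h6 : Stmt_etaL_toG) : Stmt_HasQ4 := by
  refine ⟨?_, ?_, ?_⟩
  · have := HasQ4_aux h1 h2 h3 h4 h6 lA3 0 (Or.inr (Or.inl rfl)) (by simp [PosL, lA3])
      (by simp [deg24, lA3]) (by simp [wt2, lA3]) ?_
    · simpa using this
    · intro c
      simp only [lA3, List.map_cons, List.map_nil, List.sum_cons, List.sum_nil]
      rcases HasQ4_gcd c with ⟨a, b⟩ | ⟨a, b⟩ | ⟨a, b⟩
      all_goals
        push_cast
        rw [a, b, Int.one_gcd]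
        norm_num
  · have := HasQ4_aux h1 h2 h3 h4 h6 lA4 0 (Or.inr (Or.inr rfl)) (by simp [PosL, lA4])
      (by simp [deg24, lA4]) (by simp [wt2, lA4]) ?_
    · simpa using this
    · intro c
      simp only [lA4, List.map_cons, List.map_nil, List.sum_cons, List.sum_nil]
      rcases HasQ4_gcd c with ⟨a, b⟩ | ⟨a, b⟩ | ⟨a, b⟩
      all_goals
        push_cast
        rw [a, Int.one_gcd]
        norm_num
  · have := HasQ4_aux h1 h2 h3 h4 h6 lA2 1 (Or.inl rfl) (by simp [PosL, lA2])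
      (by simp [deg24, lA2]) (by simp [wt2, lA2]) ?_
    · simpa using this
    · intro c
      simp only [lA2, List.map_cons, List.map_nil, List.sum_cons, List.sum_nil]
      rcases HasQ4_gcd c with ⟨a, b⟩ | ⟨a, b⟩ | ⟨a, b⟩
      all_goals
        push_cast
        rw [a, b]
        norm_num

end Fermat.Agent.CAR.Unit
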