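import Fermat.Agent.CAR.Unit.Interface

/-!
# S36 / CAR / Unit : UNIT-I4, the weight two forms of level `9`
-/

set_option autoImplicit false

namespace Fermat.Agent.CAR.Unit

open CongruenceSubgroup Complex Filter Asymptotics
open UpperHalfPlane hiding I
open scoped MatrixGroups Real Manifold ModularForm
open Fermat.Agent.S24.QX (Nice)
open Fermat.Agent.KL.Haupt (HasQ lau toC)


theorem I4_posG {l : List (ℕ × ℤ)} (h : PosL l) : PosG (toG l) := by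
  intro p hp
  obtain ⟨q, hq, rfl⟩ := List.mem_map.1 hp
  exact ⟨h q hq, one_pos⟩

theorem I4_wt2G (l : List (ℕ × ℤ)) : wt2G (toG l) = wt2 l := by
  simp [wt2G, toG, wt2, List.map_map, Function.comp_def]

theorem I4_denom (γ : SL(2, ℤ)) (z : ℍ) : denom γ z = den γ z := by
  rw [ModularGroup.denom_apply, den]

/-- an eta quotient with the right transformation law and nonnegative orders is a modular form. -/
theorem I4_hasQ (h2 : Stmt_etaG_bdd) (h3 : Stmt_ordG_toG) (h4 : Stmt_etaL_qexp)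
    (h6 : Stmt_etaL_toG) (N : ℕ) (l : List (ℕ × ℤ)) (k : ℤ) (n : ℕ) (hpos : PosL l)
    (hwt : wt2 l = 2 * k) (hdeg : deg24 l = 24 * n)
    (hinv : ∀ γ ∈ Gamma0 N, ∀ z : ℍ, etaL l ((γ • z : ℍ) : ℂ) = den γ z ^ k * etaL l z)
    (hord : ∀ c : ℤ, 0 ≤ (l.map fun p => (p.2 : ℝ) * ((Int.gcd (p.1 : ℤ) c : ℕ) : ℝ) ^ 2 /
      (p.1 : ℝ)).sum) :
    HasQ N k (onH (etaL l)) (PowerSeries.X ^ n * etaLps l) := by
  obtain ⟨hnice, hq⟩ := h4 l n hpos hdeg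
  refine ⟨⟨hnice.mdiff, fun γ hγ => ?_, fun g => ?_⟩, hq⟩
  · funext z
    rw [ModularForm.SL_slash_apply, I4_denom]
    show etaL l ((γ • z : ℍ) : ℂ) * den γ z ^ (-k) = etaL l z
    have hd : den γ z ≠ 0 := by
      rw [← I4_denom]
      exact denom_ne_zero _ _
    rw [hinv γ hγ z, zpow_neg]
    field_simp
  · have e : onH (etaL l) = onH (etaG (toG l)) := by
      funext z
      exact h6 l z
    rw [e]
    refine h2 (toG l) k g (I4_posG hpos) (by rw [I4_wt2G, hwt]) ?_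
    rw [h3 l g hpos]
    exact hord _

theorem I4_gcd (c : ℤ) : (Int.gcd 3 c = 1 ∧ Int.gcd 9 c = 1) ∨ (Int.gcd 3 c = 3 ∧ Int.gcd 9 c = 3) ∨
    (Int.gcd 3 c = 3 ∧ Int.gcd 9 c = 9) := by
  obtain ⟨m, hm0, hm9, h3, h9⟩ : ∃ m : ℤ, 0 ≤ m ∧ m < 9 ∧ Int.gcd 3 c = Int.gcd 3 m ∧
      Int.gcd 9 c = Int.gcd 9 m := by
    refine ⟨c % 9, Int.emod_nonneg _ (by norm_num), Int.emod_lt_of_pos _ (by norm_num), ?_, ?_⟩
    · rw [Int.gcd_comm 3 c, Int.gcd_comm 3 (c % 9), ← Int.gcd_emod c 3, ← Int.gcd_emod (c % 9) 3,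
        Int.emod_emod_of_dvd c (by norm_num : (3 : ℤ) ∣ 9)]
    · rw [Int.gcd_comm 9 c, Int.gcd_comm 9 (c % 9), Int.gcd_emod]
  rw [h3, h9]
  interval_cases m <;> decide

/-- `f9 ^ 2`, `f9 * f9s`, `f9s ^ 2` as eta quotients. -/
def I4_l1 : List (ℕ × ℤ) := [(1, 6), (3, -2)]
def I4_l2 : List (ℕ × ℤ) := [(1, 3), (9, 3), (3, -2)]
def I4_l3 : List (ℕ × ℤ) := [(9, 6), (3, -2)]

theorem I4_f9_sq : f9 ^ 2 = etaL I4_l1 := by
  funext z
  simp only [Pi.pow_apply, f9, etaL, lf9, I4_l1, List.map_cons, List.map_nil, List.prod_cons,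
    List.prod_nil, mul_one]
  rw [mul_pow, ← zpow_natCast, ← zpow_mul, ← zpow_natCast (η _ ^ (-1 : ℤ)), ← zpow_mul]
  norm_num

theorem I4_f9s_sq : f9s ^ 2 = etaL I4_l3 := by
  funext z
  simp only [Pi.pow_apply, f9s, etaL, lf9s, I4_l3, List.map_cons, List.map_nil, List.prod_cons,
    List.prod_nil, mul_one]
  rw [mul_pow, ← zpow_natCast, ← zpow_mul, ← zpow_natCast (η _ ^ (-1 : ℤ)), ← zpow_mul]
  norm_num

theorem I4_f9_f9s : f9 * f9s = etaL I4_l2 := by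
  funext z
  simp only [Pi.mul_apply, f9, f9s, etaL, lf9, lf9s, I4_l2, List.map_cons, List.map_nil,
    List.prod_cons, List.prod_nil, mul_one]
  have h : η (((3 : ℕ) : ℂ) * z) ^ (-2 : ℤ) =
      η (((3 : ℕ) : ℂ) * z) ^ (-1 : ℤ) * η (((3 : ℕ) : ℂ) * z) ^ (-1 : ℤ) := by
    rw [← mul_zpow, ← sq, ← zpow_natCast, ← zpow_mul]
    norm_num
  rw [h]
  ring

theorem I4_ps1 : etaLps I4_l1 = etaLps lf9 ^ 2 := by
  simp [etaLps, I4_l1, lf9]
  ring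

theorem I4_ps2 : etaLps I4_l2 = etaLps lf9 * etaLps lf9s := by
  simp [etaLps, I4_l2, lf9, lf9s]
  ring

theorem I4_ps3 : etaLps I4_l3 = etaLps lf9s ^ 2 := by
  simp [etaLps, I4_l3, lf9s]
  ring

theorem I4_chi3_sq (d : ℤ) : chi3 d ^ 2 = 1 := by
  unfold chi3
  split_ifs <;> norm_num

theorem hasQ9 (h1 : Stmt_slash9) (h1' : Stmt_inv9) (h2 : Stmt_etaG_bdd) (h3 : Stmt_ordG_toG)
    (h4 : Stmt_etaL_qexp) (h6 : Stmt_etaL_toG) : Stmt_HasQ9 := by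
  refine ⟨?_, ?_, ?_, ?_⟩
  · have h := I4_hasQ h2 h3 h4 h6 9 I4_l1 2 0 (by simp [PosL, I4_l1]) (by simp [wt2, I4_l1])
      (by simp [deg24, I4_l1]) (fun γ hγ z => ?_) (fun c => ?_)
    · rw [pow_zero, one_mul, I4_ps1, ← I4_f9_sq] at h
      exact h
    · rw [← I4_f9_sq]
      show f9 _ ^ 2 = den γ z ^ (2 : ℤ) * f9 z ^ 2
      rw [h1 f9 (Or.inl rfl) γ hγ z, zpow_ofNat]
      linear_combination (den γ z ^ 2 * f9 z ^ 2) * I4_chi3_sq (γ 1 1)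
    · simp only [I4_l1, List.map_cons, List.map_nil, List.sum_cons, List.sum_nil]
      rcases I4_gcd c with ⟨g3, g9⟩ | ⟨g3, g9⟩ | ⟨g3, g9⟩ <;> simp [g3] <;> norm_num
  · have h := I4_hasQ h2 h3 h4 h6 9 I4_l2 2 1 (by simp [PosL, I4_l2]) (by simp [wt2, I4_l2])
      (by simp [deg24, I4_l2]) (fun γ hγ z => ?_) (fun c => ?_)
    · rw [pow_one, I4_ps2, ← I4_f9_f9s] at h
      exact h
    · rw [← I4_f9_f9s]
      show f9 _ * f9s _ = den γ z ^ (2 : ℤ) * (f9 z * f9s z)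
      rw [h1 f9 (Or.inl rfl) γ hγ z, h1 f9s (Or.inr (Or.inl rfl)) γ hγ z, zpow_ofNat]
      linear_combination (den γ z ^ 2 * f9 z * f9s z) * I4_chi3_sq (γ 1 1)
    · simp only [I4_l2, List.map_cons, List.map_nil, List.sum_cons, List.sum_nil]
      rcases I4_gcd c with ⟨g3, g9⟩ | ⟨g3, g9⟩ | ⟨g3, g9⟩ <;> simp [g3, g9] <;> norm_num
  · have h := I4_hasQ h2 h3 h4 h6 9 I4_l3 2 2 (by simp [PosL, I4_l3]) (by simp [wt2, I4_l3])
      (by simp [deg24, I4_l3]) (fun γ hγ z => ?_) (fun c => ?_)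
    · rw [I4_ps3, ← I4_f9s_sq] at h
      exact h
    · rw [← I4_f9s_sq]
      show f9s _ ^ 2 = den γ z ^ (2 : ℤ) * f9s z ^ 2
      rw [h1 f9s (Or.inr (Or.inl rfl)) γ hγ z, zpow_ofNat]
      linear_combination (den γ z ^ 2 * f9s z ^ 2) * I4_chi3_sq (γ 1 1)
    · simp only [I4_l3, List.map_cons, List.map_nil, List.sum_cons, List.sum_nil]
      rcases I4_gcd c with ⟨g3, g9⟩ | ⟨g3, g9⟩ | ⟨g3, g9⟩ <;> simp [g3, g9] <;> norm_num
  · have h := I4_hasQ h2 h3 h4 h6 9 lG9 2 0 (by simp [PosL, lG9]) (by simp [wt2, lG9])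
      (by simp [deg24, lG9]) (fun γ hγ z => ?_) (fun c => ?_)
    · rw [pow_zero, one_mul] at h
      exact h
    · exact (h1' γ hγ z).2.2
    · simp only [lG9, List.map_cons, List.map_nil, List.sum_cons, List.sum_nil]
      rcases I4_gcd c with ⟨g3, g9⟩ | ⟨g3, g9⟩ | ⟨g3, g9⟩ <;> simp [g3, g9] <;> norm_num

end Fermat.Agent.CAR.Unit
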