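import Fermat.Agent.CAR.Unit.Interface
import Fermat.Agent.KL.HauptMem
import Fermat.Agent.INJ.Inst.Basic
import Fermat.Agent.S24.FFGen

/-!
# S36 / CAR / Unit, task UNIT-J1 : the Hauptmodul of level `4`: `FF(4) = ℚ̄(T4)`.
-/

set_option autoImplicit false

namespace Fermat.Agent.CAR.Unit

open ModularCurve PowerSeries
open Fermat.Agent.S24 (Qbar)
open Fermat.Agent.KL.Haupt

noncomputable section

/-! ### formal eta algebra -/

theorem J1_constantCoeff_Eps (d : ℕ) : constantCoeff (Eps d) = 1 := by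
  unfold Eps
  split_ifs with h
  · simp
  · rw [constantCoeff_expand, constantCoeff_etaProd]

theorem J1_Eps_mul_inv (d : ℕ) : Eps d * EpsInv d = 1 :=
  PowerSeries.mul_invOfUnit _ _ (by rw [J1_constantCoeff_Eps]; rfl)

theorem J1_Eps_one : Eps 1 = etaProd := by
  rw [Eps, dif_neg one_ne_zero, expand_one_apply]

theorem J1_expand_Eps (d : ℕ) (hd : d ≠ 0) : expand 2 two_ne_zero (Eps d) = Eps (2 * d) := by
  rw [Eps, dif_neg hd, Eps, dif_neg (Nat.mul_ne_zero two_ne_zero hd)]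
  exact (expand_mul 2 two_ne_zero d hd etaProd).symm

theorem J1_lt4 : etaLps lt4 = Eps 1 ^ 8 * EpsInv 4 ^ 8 := by
  simp [etaLps, lt4]

theorem J1_lu4 : etaLps lu4 = Eps 2 ^ 24 * (EpsInv 1 ^ 8 * EpsInv 4 ^ 16) := by
  simp [etaLps, lu4]

theorem J1_lt2 : etaLps lt2 = Eps 1 ^ 24 * EpsInv 2 ^ 24 := by
  simp [etaLps, lt2]

theorem J1_Ds : Ds = X * Eps 1 ^ 24 := by
  rw [Ds, dedekindEtaUnit, J1_Eps_one]

theorem J1_Ds2 : Ds2 = X ^ 2 * Eps 2 ^ 24 := by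
  rw [Ds2, J1_Ds, map_mul, map_pow, expand_X, J1_expand_Eps 1 one_ne_zero]

/-! ### field algebra -/

theorem J1_alg {F : Type*} [Field F] (x e1 e2 e4 T U T2 S : F) (hx : x ≠ 0) (h1 : e1 ≠ 0)
    (h2 : e2 ≠ 0) (h4 : e4 ≠ 0) (hT : T = x⁻¹ * (e1 ^ 8 * e4⁻¹ ^ 8))
    (hU : U = x⁻¹ * (e2 ^ 24 * (e1⁻¹ ^ 8 * e4⁻¹ ^ 16)))
    (hT2 : T2 = x⁻¹ * (e1 ^ 24 * e2⁻¹ ^ 24)) (hS : S = (x ^ 2)⁻¹ * (e2 ^ 24 * e4⁻¹ ^ 24)) :
    T ^ 2 = T2 * U ∧ T * U = S := by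
  subst hT hU hT2 hS
  constructor
  · field_simp
  · field_simp

/-! ### the series in `ℚ̄((q))` -/

theorem J1_lau_X_ne : lau Qbar X ≠ 0 :=
  right_ne_zero_of_mul_eq_one (single_neg_one_mul_lau_X Qbar)

theorem J1_single : (HahnSeries.single (-1 : ℤ) (1 : Qbar) : LaurentSeries Qbar) = (lau Qbar X)⁻¹ :=
  eq_inv_of_mul_eq_one_left (single_neg_one_mul_lau_X Qbar)

theorem J1_lau_Eps_mul (d : ℕ) : lau Qbar (Eps d) * lau Qbar (EpsInv d) = 1 := by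
  rw [← map_mul, J1_Eps_mul_inv, map_one]

theorem J1_lau_Eps_ne (d : ℕ) : lau Qbar (Eps d) ≠ 0 :=
  left_ne_zero_of_mul_eq_one (J1_lau_Eps_mul d)

theorem J1_lau_EpsInv (d : ℕ) : lau Qbar (EpsInv d) = (lau Qbar (Eps d))⁻¹ :=
  eq_inv_of_mul_eq_one_right (J1_lau_Eps_mul d)

/-- `T2 = Δ(q) / Δ(q²)`. -/
def J1_T2 : LaurentSeries Qbar := etaLser Qbar (-1) lt2

theorem J1_T4s_eq : T4s = (lau Qbar X)⁻¹ *
    (lau Qbar (Eps 1) ^ 8 * (lau Qbar (Eps 4))⁻¹ ^ 8) := by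
  rw [T4s, etaLser, J1_lt4, J1_single, map_mul, map_pow, map_pow, J1_lau_EpsInv]

theorem J1_U_eq (hu : Stmt_u4) : T4s + 16 = (lau Qbar X)⁻¹ *
    (lau Qbar (Eps 2) ^ 24 * ((lau Qbar (Eps 1))⁻¹ ^ 8 * (lau Qbar (Eps 4))⁻¹ ^ 16)) := by
  have h := congrArg (lau Qbar) hu.2
  rw [J1_lu4, map_add, map_mul, map_mul, map_mul, map_pow, map_pow, map_pow, J1_lau_EpsInv,
    J1_lau_EpsInv, map_ofNat] at h
  rw [h, T4s, etaLser, J1_single, mul_add, ← mul_assoc _ 16, mul_comm _ 16, mul_assoc 16,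
    inv_mul_cancel₀ J1_lau_X_ne, mul_one]

theorem J1_T2_eq : J1_T2 = (lau Qbar X)⁻¹ *
    (lau Qbar (Eps 1) ^ 24 * (lau Qbar (Eps 2))⁻¹ ^ 24) := by
  rw [J1_T2, etaLser, J1_lt2, J1_single, map_mul, map_pow, map_pow, J1_lau_EpsInv]

theorem J1_VT2_eq : qExpand Qbar 2 J1_T2 = (lau Qbar X ^ 2)⁻¹ *
    (lau Qbar (Eps 2) ^ 24 * (lau Qbar (Eps 4))⁻¹ ^ 24) := by
  rw [J1_T2_eq, map_mul, map_mul, map_inv₀, map_pow, map_pow, map_inv₀, qExpand_lau, qExpand_lau,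
    qExpand_lau, expand_X, map_pow, J1_expand_Eps 1 one_ne_zero, J1_expand_Eps 2 two_ne_zero]

/-- `T² = T2 (T + 16)` and `T (T + 16) = T2(q²)`. -/
theorem J1_rel (hu : Stmt_u4) :
    T4s ^ 2 = J1_T2 * (T4s + 16) ∧ T4s * (T4s + 16) = qExpand Qbar 2 J1_T2 :=
  J1_alg (lau Qbar X) (lau Qbar (Eps 1)) (lau Qbar (Eps 2)) (lau Qbar (Eps 4)) _ _ _ _
    J1_lau_X_ne (J1_lau_Eps_ne 1) (J1_lau_Eps_ne 2) (J1_lau_Eps_ne 4) J1_T4s_eq (J1_U_eq hu)
    J1_T2_eq J1_VT2_eq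

/-- `T2 = x₂ - 64`. -/
theorem J1_T2_xq2 : J1_T2 = xq2 Qbar - 64 := by
  have hx := xq2_mul Qbar
  have h1 := congrArg (lau Qbar) Ds_eq_two
  have h2 := congrArg (lau Qbar) Ds2_eq_two
  rw [J1_Ds] at h1
  rw [J1_Ds2] at h2
  simp only [map_mul, map_pow, map_sub, map_ofNat] at h1 h2
  have hB : lau Qbar (bS 2) ≠ 0 := by
    intro h
    rw [h, zero_mul] at h1
    exact mul_ne_zero J1_lau_X_ne (pow_ne_zero 24 (J1_lau_Eps_ne 1)) h1
  have hD2 : lau Qbar X ^ 2 * lau Qbar (Eps 2) ^ 24 ≠ 0 :=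
    mul_ne_zero (pow_ne_zero 2 J1_lau_X_ne) (pow_ne_zero 24 (J1_lau_Eps_ne 2))
  apply mul_right_cancel₀ (mul_ne_zero hD2 hB)
  have e1 : J1_T2 * (lau Qbar X ^ 2 * lau Qbar (Eps 2) ^ 24 * lau Qbar (bS 2))
      = lau Qbar X * lau Qbar (Eps 1) ^ 24 * lau Qbar (bS 2) := by
    rw [J1_T2_eq]
    have := J1_lau_X_ne
    have := J1_lau_Eps_ne 2
    field_simp
  rw [e1, h1, h2, ← hx]
  ring

/-! ### the two inclusions -/

theorem J1_jBar (d : ℕ) [NeZero d] : S24.jBarSeries d = qExpand Qbar d (jqModC Qbar) := by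
  rw [S24.jBarSeries, coeffEmb, coeffMap_qExpand, ← jqModC_rat, coeffMap_jqModC]

theorem J1_T2_ne : J1_T2 ≠ 0 := by
  rw [J1_T2_xq2]
  have := sub_ne_zero_of_lead (coeff_xq2_neg_one Qbar) 64
  exact_mod_cast this

theorem J1_T2_add_ne : J1_T2 + 16 ≠ 0 := by
  have h : J1_T2 + 16 = xq2 Qbar - 48 := by rw [J1_T2_xq2]; ring
  rw [h]
  have := sub_ne_zero_of_lead (coeff_xq2_neg_one Qbar) 48
  exact_mod_cast this

theorem J1_U_ne (hu : Stmt_u4) : T4s + 16 ≠ 0 := by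
  intro h
  have h1 := (J1_rel hu).1
  rw [h, mul_zero] at h1
  have h2 : T4s = 0 := by simpa using h1
  rw [h2, zero_add] at h
  have h16 : algebraMap Qbar (LaurentSeries Qbar) 16 = 0 := by rw [map_ofNat]; exact h
  have h3 := (map_eq_zero (algebraMap Qbar (LaurentSeries Qbar))).1 h16
  norm_num at h3

/-- `j T2² = (T2 + 256)³`. -/
theorem J1_j1 : jqModC Qbar * J1_T2 ^ 2 = (J1_T2 + 256) ^ 3 := by
  have h := rel2_j Qbar
  rw [J1_T2_xq2, h]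
  ring

/-- `j(q²) T2 = (T2 + 16)³`. -/
theorem J1_j2 : qExpand Qbar 2 (jqModC Qbar) * J1_T2 = (J1_T2 + 16) ^ 3 := by
  have h := rel2_j2 Qbar
  rw [J1_T2_xq2, h]
  ring

/-- `j(q⁴) T2(q²) = (T2(q²) + 16)³`. -/
theorem J1_j4 : qExpand Qbar 4 (jqModC Qbar) * qExpand Qbar 2 J1_T2
    = (qExpand Qbar 2 J1_T2 + 16) ^ 3 := by
  have h := congrArg (qExpand Qbar 2) J1_j2
  rw [map_mul, map_pow, map_add, map_ofNat, qExpand_qExpand] at h
  exact h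

theorem J1_le (hu : Stmt_u4) :
    modularFunctionFieldBar 4 ≤ IntermediateField.adjoin Qbar {T4s} := by
  have hT : T4s ∈ IntermediateField.adjoin Qbar {T4s} :=
    IntermediateField.subset_adjoin _ _ rfl
  have hn : ∀ n : ℕ, (n : LaurentSeries Qbar) ∈ IntermediateField.adjoin Qbar {T4s} :=
    fun n => IntermediateField.natCast_mem _ n
  have hU : T4s + 16 ∈ IntermediateField.adjoin Qbar {T4s} :=
    add_mem hT (by exact_mod_cast hn 16)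
  have hT2 : J1_T2 ∈ IntermediateField.adjoin Qbar {T4s} := by
    have : J1_T2 = T4s ^ 2 / (T4s + 16) := by
      rw [eq_div_iff (J1_U_ne hu)]; exact (J1_rel hu).1.symm
    rw [this]
    exact div_mem (pow_mem hT 2) hU
  have hS : qExpand Qbar 2 J1_T2 ∈ IntermediateField.adjoin Qbar {T4s} := by
    rw [← (J1_rel hu).2]
    exact mul_mem hT hU
  have hS0 : qExpand Qbar 2 J1_T2 ≠ 0 := (map_ne_zero (qExpand Qbar 2)).2 J1_T2_ne
  rw [S24.modularFunctionFieldBar_eq_adjoin, IntermediateField.adjoin_le_iff]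
  rintro _ ⟨d, hd, hd4, rfl⟩
  rw [J1_jBar]
  have hd' : d = 1 ∨ d = 2 ∨ d = 4 := by
    have hle := Nat.le_of_dvd (by norm_num) hd4
    interval_cases d
    · exact absurd rfl (NeZero.ne 0)
    · exact Or.inl rfl
    · exact Or.inr (Or.inl rfl)
    · norm_num at hd4
    · exact Or.inr (Or.inr rfl)
  rcases hd' with rfl | rfl | rfl
  · have : qExpand Qbar 1 (jqModC Qbar) = (J1_T2 + 256) ^ 3 / J1_T2 ^ 2 := by
      rw [eq_div_iff (pow_ne_zero 2 J1_T2_ne), qExpand_one_apply]; exact J1_j1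
    show qExpand Qbar 1 (jqModC Qbar) ∈ _
    rw [this]
    exact div_mem (pow_mem (add_mem hT2 (by exact_mod_cast hn 256)) 3) (pow_mem hT2 2)
  · have : qExpand Qbar 2 (jqModC Qbar) = (J1_T2 + 16) ^ 3 / J1_T2 := by
      rw [eq_div_iff J1_T2_ne]; exact J1_j2
    show qExpand Qbar 2 (jqModC Qbar) ∈ _
    rw [this]
    exact div_mem (pow_mem (add_mem hT2 (by exact_mod_cast hn 16)) 3) hT2
  · have : qExpand Qbar 4 (jqModC Qbar)
        = (qExpand Qbar 2 J1_T2 + 16) ^ 3 / qExpand Qbar 2 J1_T2 := by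
      rw [eq_div_iff hS0]; exact J1_j4
    show qExpand Qbar 4 (jqModC Qbar) ∈ _
    rw [this]
    exact div_mem (pow_mem (add_mem hS (by exact_mod_cast hn 16)) 3) hS

theorem J1_T4s_mem (hu : Stmt_u4) : T4s ∈ modularFunctionFieldBar 4 := by
  have hn : ∀ n : ℕ, (n : LaurentSeries Qbar) ∈ modularFunctionFieldBar 4 :=
    fun n => IntermediateField.natCast_mem _ n
  have hT2 : J1_T2 ∈ modularFunctionFieldBar 4 := by
    rw [J1_T2_xq2]
    exact sub_mem (xq2_mem_bar (by norm_num)) (by exact_mod_cast hn 64)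
  have hS : qExpand Qbar 2 J1_T2 ∈ modularFunctionFieldBar 4 := by
    rw [J1_T2_xq2, map_sub, map_ofNat]
    have h := INJ.Inst.tS_mem_bar (M := 2) (N := 4) (Or.inl rfl) (by norm_num) (by norm_num)
    rw [INJ.Inst.tS, INJ.Inst.xq, if_pos rfl, show 4 / 2 = 2 from rfl, S28.Vq_eq] at h
    exact sub_mem h (by exact_mod_cast hn 64)
  obtain ⟨h1, h2⟩ := J1_rel hu
  have hU := J1_U_ne hu
  have key : T4s = (qExpand Qbar 2 J1_T2 - 16 * J1_T2) / (J1_T2 + 16) := by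
    rw [eq_div_iff J1_T2_add_ne, ← h2]
    have h3 : J1_T2 = T4s ^ 2 / (T4s + 16) := by
      rw [eq_div_iff hU]; exact h1.symm
    rw [h3]
    field_simp
    ring
  rw [key]
  exact div_mem (sub_mem hS (mul_mem (by exact_mod_cast hn 16) hT2))
    (add_mem hT2 (by exact_mod_cast hn 16))

/-- UNIT-J1: `FF(4) = ℚ̄(T4)`. -/
theorem haupt4 (hu : Stmt_u4) : Stmt_Haupt4 :=
  le_antisymm (J1_le hu)
    (IntermediateField.adjoin_le_iff.2 (Set.singleton_subset_iff.2 (J1_T4s_mem hu)))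

end

end Fermat.Agent.CAR.Unit
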