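import Fermat.Agent.CAR.Unit.Interface
import Fermat.Agent.KL.HauptMem
import Fermat.Agent.S24.FFGen
import Fermat.Prelude.Def_ModularCurve_HeckeOperator

/-!
# UNIT-J2 : the level 9 Hauptmodul generates the function field (task 883)

`haupt9 (hu : Stmt_u9) : Stmt_Haupt9`, i.e. `modularFunctionFieldBar 9 = Qbar(T9s)`.

Everything is formal eta algebra on `q`-expansions.  With `T = T9s`, `s' = J2_T3` the level 3
Hauptmodul `eta(q)^12 / eta(q^3)^12` and `s = s'(q^3)`: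

* `J2_rel2 : s' * (T^2 + 9 T + 27) = T^3`, `J2_rel1 : T * (T^2 + 9 T + 27) = s`
  (both consequences of the cubic identity in `Stmt_u9`);
* `J2_x_eq : xq3 - 27 = s'`;
* `J2_le`  : `j(q), j(q^3), j(q^9)` are rational in `T`;
* `J2_ge`  : eliminating, `T` is rational in `s, s'`, which lie in the level 9 field.
-/

set_option autoImplicit false

namespace Fermat.Agent.CAR.Unit

open Fermat.Agent.S24 (Qbar)
open Fermat.Agent.KL.Haupt
open ModularCurve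

noncomputable section

/-! ### formal eta algebra -/

theorem J2_constantCoeff_Eps (d : ℕ) : PowerSeries.constantCoeff (Eps d) = 1 := by
  unfold Eps
  split_ifs with h
  · simp
  · rw [PowerSeries.constantCoeff_expand, constantCoeff_etaProd]

theorem J2_Eps_mul_inv (d : ℕ) : Eps d * EpsInv d = 1 :=
  PowerSeries.mul_invOfUnit _ _ (by rw [J2_constantCoeff_Eps]; rfl)

theorem J2_constantCoeff_EpsInv (d : ℕ) : PowerSeries.constantCoeff (EpsInv d) = 1 := by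
  have h := congrArg PowerSeries.constantCoeff (J2_Eps_mul_inv d)
  rwa [map_mul, J2_constantCoeff_Eps, one_mul, map_one] at h

theorem J2_Eps_one : Eps 1 = etaProd := by
  rw [Eps, dif_neg one_ne_zero, PowerSeries.expand_one_apply]

theorem J2_expand_Eps (d : ℕ) (hd : d ≠ 0) :
    PowerSeries.expand 3 three_ne_zero (Eps d) = Eps (3 * d) := by
  rw [Eps, dif_neg hd, Eps, dif_neg (Nat.mul_ne_zero three_ne_zero hd), PowerSeries.expand_mul]

theorem J2_lt9 : etaLps lt9 = Eps 1 ^ 3 * EpsInv 9 ^ 3 := by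
  simp [etaLps, lt9]

theorem J2_lu9 : etaLps lu9 = Eps 3 ^ 12 * EpsInv 1 ^ 3 * EpsInv 9 ^ 9 := by
  simp [etaLps, lu9, mul_assoc]

theorem J2_lt3 : etaLps lt3 = Eps 1 ^ 12 * EpsInv 3 ^ 12 := by
  simp [etaLps, lt3]

/-! ### the Laurent series -/

/-- `E(q^d)` in `ℚ̄((q))`. -/
def J2_e (d : ℕ) : LaurentSeries Qbar := lau Qbar (Eps d)

/-- `q`. -/
def J2_q : LaurentSeries Qbar := HahnSeries.single (1 : ℤ) 1

theorem J2_e_mul (d : ℕ) : J2_e d * lau Qbar (EpsInv d) = 1 := by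
  rw [J2_e, ← map_mul, J2_Eps_mul_inv, map_one]

theorem J2_e_ne_zero (d : ℕ) : J2_e d ≠ 0 := left_ne_zero_of_mul_eq_one (J2_e_mul d)

theorem J2_lau_EpsInv (d : ℕ) : lau Qbar (EpsInv d) = (J2_e d)⁻¹ :=
  eq_inv_of_mul_eq_one_right (J2_e_mul d)

theorem J2_qi_mul : HahnSeries.single (-1 : ℤ) (1 : Qbar) * J2_q = 1 := by
  have := single_neg_one_mul_lau_X Qbar
  rwa [lau_X] at this

theorem J2_q_ne_zero : J2_q ≠ 0 := right_ne_zero_of_mul_eq_one J2_qi_mul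

theorem J2_qi : HahnSeries.single (-1 : ℤ) (1 : Qbar) = J2_q⁻¹ :=
  eq_inv_of_mul_eq_one_left J2_qi_mul

theorem J2_lau_X : lau Qbar PowerSeries.X = J2_q := lau_X Qbar

/-- `T₃ = η(z)^12 / η(3z)^12`. -/
def J2_T3 : LaurentSeries Qbar := etaLser Qbar (-1) lt3

theorem J2_T_eq : T9s = J2_q⁻¹ * (J2_e 1 ^ 3 * (J2_e 9)⁻¹ ^ 3) := by
  rw [T9s, etaLser, J2_lt9, J2_qi, map_mul, map_pow, map_pow, J2_lau_EpsInv]
  rfl

theorem J2_T3_eq : J2_T3 = J2_q⁻¹ * (J2_e 1 ^ 12 * (J2_e 3)⁻¹ ^ 12) := by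
  rw [J2_T3, etaLser, J2_lt3, J2_qi, map_mul, map_pow, map_pow, J2_lau_EpsInv]
  rfl

theorem J2_qExpand_e (d : ℕ) (hd : d ≠ 0) : qExpand Qbar 3 (J2_e d) = J2_e (3 * d) := by
  rw [J2_e, qExpand_lau, J2_expand_Eps d hd, J2_e]

theorem J2_qExpand_q : qExpand Qbar 3 J2_q = J2_q ^ 3 := by
  rw [J2_q, qExpand_single, HahnSeries.single_pow]
  simp

theorem J2_S_eq : qExpand Qbar 3 J2_T3 = (J2_q ^ 3)⁻¹ * (J2_e 3 ^ 12 * (J2_e 9)⁻¹ ^ 12) := by
  rw [J2_T3_eq, map_mul, map_mul, map_inv₀, map_pow, map_pow, map_inv₀, J2_qExpand_q,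
    J2_qExpand_e 1 one_ne_zero, J2_qExpand_e 3 three_ne_zero]

theorem J2_U_eq (hu : Stmt_u9) : T9s ^ 2 + 9 * T9s + 27 =
    (J2_q ^ 2)⁻¹ * (J2_e 3 ^ 12 * (J2_e 1)⁻¹ ^ 3 * (J2_e 9)⁻¹ ^ 9) := by
  have h := congrArg (lau Qbar) hu.2
  rw [J2_lu9, J2_lt9] at h
  simp only [map_mul, map_add, map_pow, map_ofNat, J2_lau_EpsInv, J2_lau_X] at h
  change J2_e 3 ^ 12 * (J2_e 1)⁻¹ ^ 3 * (J2_e 9)⁻¹ ^ 9 = (J2_e 1 ^ 3 * (J2_e 9)⁻¹ ^ 3) ^ 2 +
    9 * (J2_q * (J2_e 1 ^ 3 * (J2_e 9)⁻¹ ^ 3)) + 27 * J2_q ^ 2 at h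
  rw [h, J2_T_eq]
  have := J2_q_ne_zero
  field_simp

/-- `T₃ U = T³`. -/
theorem J2_rel2 (hu : Stmt_u9) : J2_T3 * (T9s ^ 2 + 9 * T9s + 27) = T9s ^ 3 := by
  rw [J2_U_eq hu, J2_T3_eq, J2_T_eq]
  have := J2_q_ne_zero
  have := J2_e_ne_zero 1
  have := J2_e_ne_zero 3
  have := J2_e_ne_zero 9
  field_simp

/-- `T U = T₃(q³)`. -/
theorem J2_rel1 (hu : Stmt_u9) : T9s * (T9s ^ 2 + 9 * T9s + 27) = qExpand Qbar 3 J2_T3 := by
  rw [J2_U_eq hu, J2_S_eq, J2_T_eq]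
  have := J2_q_ne_zero
  have := J2_e_ne_zero 1
  have := J2_e_ne_zero 3
  have := J2_e_ne_zero 9
  field_simp

/-! ### `x₃ - 27 = T₃` -/

theorem J2_lau_Ds : lau Qbar Ds = J2_q * J2_e 1 ^ 24 := by
  rw [Ds, dedekindEtaUnit, ← J2_Eps_one, map_mul, map_pow, J2_lau_X]
  rfl

theorem J2_lau_Ds3 : lau Qbar Ds3 = J2_q ^ 3 * J2_e 3 ^ 24 := by
  rw [← qExpand_lau, J2_lau_Ds, map_mul, map_pow, J2_qExpand_q, J2_qExpand_e 1 one_ne_zero]

theorem J2_lau_a3_ne_zero : lau Qbar a3 ≠ 0 := by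
  intro h
  have h1 := coeff_lau_zero Qbar a3
  rw [h, constantCoeff_a3] at h1
  simp at h1

theorem J2_sq : (xq3 Qbar - 27) ^ 2 = J2_T3 ^ 2 := by
  have h1 := congrArg (lau Qbar) Ds_eq_three
  have h2 := congrArg (lau Qbar) Ds3_eq_three
  simp only [map_mul, map_sub, map_pow, map_ofNat] at h1 h2
  rw [J2_lau_Ds] at h1
  rw [J2_lau_Ds3] at h2
  have hx := xq3_mul Qbar
  have hA := J2_lau_a3_ne_zero
  have h3 : lau Qbar a3 * (J2_q * J2_e 1 ^ 24) =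
      lau Qbar a3 * ((xq3 Qbar - 27) ^ 2 * (J2_q ^ 3 * J2_e 3 ^ 24)) := by
    rw [h1, mul_left_comm, h2, ← hx]
    ring
  have h4 := mul_left_cancel₀ hA h3
  have hq := J2_q_ne_zero
  have h5 : J2_e 1 ^ 24 = (xq3 Qbar - 27) ^ 2 * (J2_q ^ 2 * J2_e 3 ^ 24) :=
    mul_left_cancel₀ hq (by rw [h4]; ring)
  rw [J2_T3_eq]
  have := J2_e_ne_zero 3
  field_simp
  linear_combination -h5

theorem J2_coeff_ofNat (n : ℕ) [n.AtLeastTwo] {m : ℤ} (hm : m < 0) :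
    (OfNat.ofNat n : LaurentSeries Qbar).coeff m = 0 := by
  rw [← map_ofNat (lau Qbar) n]
  exact coeff_lau_of_neg Qbar _ hm

theorem J2_constantCoeff_lt3 : PowerSeries.constantCoeff (etaLps lt3) = 1 := by
  rw [J2_lt3, map_mul, map_pow, map_pow, J2_constantCoeff_Eps, J2_constantCoeff_EpsInv]
  simp

theorem J2_T3_coeff : J2_T3.coeff (-1) = 1 := by
  rw [J2_T3, etaLser, coeff_single_mul_lau, neg_add_cancel, coeff_lau_zero, J2_constantCoeff_lt3]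
  simp

theorem J2_x_eq : xq3 Qbar - 27 = J2_T3 := by
  have h1 : (xq3 Qbar - 27 - J2_T3) * (xq3 Qbar - 27 + J2_T3) = 0 := by
    linear_combination J2_sq
  rcases mul_eq_zero.1 h1 with h2 | h2
  · exact sub_eq_zero.1 h2
  · exfalso
    have h3 := congrArg (fun f => HahnSeries.coeff f (-1)) h2
    simp only [HahnSeries.coeff_add, HahnSeries.coeff_sub, HahnSeries.coeff_zero] at h3
    rw [coeff_xq3_neg_one, J2_T3_coeff, J2_coeff_ofNat 27 (by norm_num)] at h3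
    norm_num at h3

/-! ### the two inclusions -/

theorem J2_jBarSeries_eq (d : ℕ) [NeZero d] :
    S24.jBarSeries d = qExpand Qbar d (jqModC Qbar) := by
  rw [S24.jBarSeries, coeffEmb, coeffMap_qExpand, ← jqModC_rat, coeffMap_jqModC]

theorem J2_T_ne_zero : T9s ≠ 0 := by
  rw [J2_T_eq]
  exact mul_ne_zero (inv_ne_zero J2_q_ne_zero)
    (mul_ne_zero (pow_ne_zero _ (J2_e_ne_zero 1)) (pow_ne_zero _ (inv_ne_zero (J2_e_ne_zero 9))))

theorem J2_T3_ne_zero : J2_T3 ≠ 0 := by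
  rw [J2_T3_eq]
  exact mul_ne_zero (inv_ne_zero J2_q_ne_zero)
    (mul_ne_zero (pow_ne_zero _ (J2_e_ne_zero 1)) (pow_ne_zero _ (inv_ne_zero (J2_e_ne_zero 3))))

theorem J2_mem_of_mul {K : IntermediateField Qbar (LaurentSeries Qbar)}
    {a b c : LaurentSeries Qbar} (h : a * b = c) (hb : b ∈ K) (hc : c ∈ K) (hb0 : b ≠ 0) :
    a ∈ K := by
  rw [(eq_mul_inv_iff_mul_eq₀ hb0).2 h]
  exact mul_mem hc (inv_mem hb)

theorem J2_le (hu : Stmt_u9) :
    modularFunctionFieldBar 9 ≤ IntermediateField.adjoin Qbar {T9s} := by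
  have hT : T9s ∈ IntermediateField.adjoin Qbar {T9s} :=
    IntermediateField.mem_adjoin_simple_self Qbar T9s
  have hU : T9s ^ 2 + 9 * T9s + 27 ∈ IntermediateField.adjoin Qbar {T9s} :=
    add_mem (add_mem (pow_mem hT 2) (mul_mem (ofNat_mem _ 9) hT)) (ofNat_mem _ 27)
  have hU0 : T9s ^ 2 + 9 * T9s + 27 ≠ 0 := by
    intro h0
    have h := J2_rel2 hu
    rw [h0, mul_zero] at h
    exact pow_ne_zero 3 J2_T_ne_zero h.symm
  have hT3 : J2_T3 ∈ IntermediateField.adjoin Qbar {T9s} :=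
    J2_mem_of_mul (J2_rel2 hu) hU (pow_mem hT 3) hU0
  have hS : qExpand Qbar 3 J2_T3 ∈ IntermediateField.adjoin Qbar {T9s} := by
    rw [← J2_rel1 hu]
    exact mul_mem hT hU
  have hS0 : qExpand Qbar 3 J2_T3 ≠ 0 := by
    rw [← J2_rel1 hu]
    exact mul_ne_zero J2_T_ne_zero hU0
  have hx : xq3 Qbar ∈ IntermediateField.adjoin Qbar {T9s} := by
    have : xq3 Qbar = J2_T3 + 27 := by rw [← J2_x_eq]; ring
    rw [this]
    exact add_mem hT3 (ofNat_mem _ 27)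
  have hSx : qExpand Qbar 3 (xq3 Qbar) - 27 = qExpand Qbar 3 J2_T3 := by
    rw [← J2_x_eq, map_sub, map_ofNat]
  have hx' : qExpand Qbar 3 (xq3 Qbar) ∈ IntermediateField.adjoin Qbar {T9s} := by
    have : qExpand Qbar 3 (xq3 Qbar) = qExpand Qbar 3 J2_T3 + 27 := by rw [← hSx]; ring
    rw [this]
    exact add_mem hS (ofNat_mem _ 27)
  have hj : jqModC Qbar ∈ IntermediateField.adjoin Qbar {T9s} := by
    refine J2_mem_of_mul (rel3_j Qbar) ?_ ?_ ?_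
    · rw [J2_x_eq]; exact pow_mem hT3 3
    · exact mul_mem hx (pow_mem (add_mem hx (ofNat_mem _ 216)) 3)
    · rw [J2_x_eq]; exact pow_ne_zero 3 J2_T3_ne_zero
  have hj3 : qExpand Qbar 3 (jqModC Qbar) ∈ IntermediateField.adjoin Qbar {T9s} := by
    refine J2_mem_of_mul (rel3_j3 Qbar) ?_ ?_ ?_
    · rw [J2_x_eq]; exact hT3
    · exact mul_mem hx (pow_mem (sub_mem hx (ofNat_mem _ 24)) 3)
    · rw [J2_x_eq]; exact J2_T3_ne_zero
  have hj9 : qExpand Qbar 3 (qExpand Qbar 3 (jqModC Qbar)) ∈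
      IntermediateField.adjoin Qbar {T9s} := by
    have h := congrArg (qExpand Qbar 3) (rel3_j3 Qbar)
    simp only [map_mul, map_sub, map_pow, map_ofNat] at h
    refine J2_mem_of_mul h ?_ ?_ ?_
    · rw [hSx]; exact hS
    · exact mul_mem hx' (pow_mem (sub_mem hx' (ofNat_mem _ 24)) 3)
    · rw [hSx]; exact hS0
  rw [S24.modularFunctionFieldBar_eq_adjoin, IntermediateField.adjoin_le_iff]
  rintro _ ⟨d, hd, hd9, rfl⟩
  have hd' : d = 1 ∨ d = 3 ∨ d = 9 := by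
    have h9 : d ≤ 9 := Nat.le_of_dvd (by norm_num) hd9
    interval_cases d <;> omega
  rw [SetLike.mem_coe, J2_jBarSeries_eq]
  rcases hd' with rfl | rfl | rfl
  · rw [qExpand_one_apply]; exact hj
  · exact hj3
  · rw [qExpand_congr (show 9 = 3 * 3 from rfl), ← qExpand_qExpand]; exact hj9

theorem J2_constantCoeff_lt9 : PowerSeries.constantCoeff (etaLps lt9) = 1 := by
  rw [J2_lt9, map_mul, map_pow, map_pow, J2_constantCoeff_Eps, J2_constantCoeff_EpsInv]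
  simp

theorem J2_T_pow_coeff : (T9s ^ 4).coeff (-4) = 1 := by
  rw [T9s, etaLser, mul_pow, HahnSeries.single_pow, ← map_pow, HahnSeries.coeff_single_mul]
  have : (-4 : ℤ) - 4 • (-1 : ℤ) = 0 := by norm_num
  rw [this, coeff_lau_zero, map_pow, J2_constantCoeff_lt9]
  simp

theorem J2_den_ne_zero (hu : Stmt_u9) :
    243 * J2_T3 - 729 - qExpand Qbar 3 J2_T3 * J2_T3 - 9 * qExpand Qbar 3 J2_T3 ≠ 0 := by
  have h4 : qExpand Qbar 3 J2_T3 * J2_T3 = T9s ^ 4 := by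
    rw [← J2_rel1 hu, mul_assoc, mul_comm _ J2_T3, J2_rel2 hu]
    ring
  have ha : (243 * J2_T3).coeff (-4) = 0 := by
    have : 243 * J2_T3 = HahnSeries.single (-1 : ℤ) 1 * lau Qbar (243 * etaLps lt3) := by
      rw [J2_T3, etaLser, map_mul, map_ofNat]
      ring
    rw [this, coeff_single_mul_lau, coeff_lau_of_neg _ _ (by norm_num)]
  have hb : (9 * qExpand Qbar 3 J2_T3).coeff (-4) = 0 := by
    have : 9 * qExpand Qbar 3 J2_T3 = qExpand Qbar 3 (9 * J2_T3) := by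
      rw [map_mul, map_ofNat]
    rw [this]
    exact qExpand_coeff_of_not_dvd 3 _ (by norm_num)
  intro h
  have h5 := congrArg (fun f => HahnSeries.coeff f (-4)) h
  simp only [HahnSeries.coeff_sub, HahnSeries.coeff_zero] at h5
  rw [h4, ha, hb, J2_T_pow_coeff, J2_coeff_ofNat 729 (by norm_num)] at h5
  norm_num at h5

theorem J2_ge (hu : Stmt_u9) :
    IntermediateField.adjoin Qbar {T9s} ≤ modularFunctionFieldBar 9 := by
  rw [IntermediateField.adjoin_simple_le_iff]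
  have hx9 : xq3 Qbar ∈ modularFunctionFieldBar 9 := xq3_mem_bar (N := 9) (by norm_num)
  have hx3 : xq3 Qbar ∈ modularFunctionFieldBar 3 := xq3_mem_bar (N := 3) (dvd_refl 3)
  have hs' : J2_T3 ∈ modularFunctionFieldBar 9 := by
    rw [← J2_x_eq]; exact sub_mem hx9 (ofNat_mem _ 27)
  have hs3 : J2_T3 ∈ modularFunctionFieldBar 3 := by
    rw [← J2_x_eq]; exact sub_mem hx3 (ofNat_mem _ 27)
  have hs : qExpand Qbar 3 J2_T3 ∈ modularFunctionFieldBar 9 :=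
    (heckeBetaBar Qbar 3 3 ⟨J2_T3, hs3⟩).2
  have h1 := J2_rel1 hu
  have h2 := J2_rel2 hu
  have key : T9s * (243 * J2_T3 - 729 - qExpand Qbar 3 J2_T3 * J2_T3 - 9 * qExpand Qbar 3 J2_T3) =
      -1458 * J2_T3 + 54 * qExpand Qbar 3 J2_T3 - qExpand Qbar 3 J2_T3 * (J2_T3 + 9) ^ 2 := by
    linear_combination (54 + (J2_T3 + 9) * T9s - (J2_T3 + 9) ^ 2) * h1 +
      (54 + (J2_T3 + 9) * T9s) * h2
  refine J2_mem_of_mul key ?_ ?_ (J2_den_ne_zero hu)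
  · exact sub_mem (sub_mem (sub_mem (mul_mem (ofNat_mem _ 243) hs') (ofNat_mem _ 729))
      (mul_mem hs hs')) (mul_mem (ofNat_mem _ 9) hs)
  · exact sub_mem (add_mem (mul_mem (neg_mem (ofNat_mem _ 1458)) hs') (mul_mem (ofNat_mem _ 54) hs))
      (mul_mem hs (pow_mem (add_mem hs' (ofNat_mem _ 9)) 2))

/-- **UNIT-J2** -/
theorem haupt9 (hu : Stmt_u9) : Stmt_Haupt9 := le_antisymm (J2_le hu) (J2_ge hu)

end

end Fermat.Agent.CAR.Unit
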