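import Fermat.Agent.CAR.Unit.Interface3

/-!
# S36 / CAR / Unit, task UNIT-N4 (helper77): modular units and their inverses are integral over `E[j]`
-/

set_option autoImplicit false

namespace Fermat.Agent.CAR.Unit

open Fermat.Agent.S24 (Qbar FF jF)
open Fermat.Agent.S36.Val (jE)
open Fermat.Agent.S36.Base (IE AE FE emb cmE)

theorem intE (hS : Stmt_serCalc) (hE : Stmt_etaL_elt) (hJ : Stmt_IntJE) : Stmt_intE := by
  intro A N _ n l x hMU hx
  obtain ⟨y, hy, hy0, hi, hi'⟩ := hE N l n hMU.pos hMU.wt hMU.deg hMU.inv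
  have hxy : emb A N x = y := by
    apply Subtype.ext
    rw [Fermat.Agent.S36.Base.coe_emb, hy, hx]
    exact hS.1 (IE A) Qbar (algebraMap (IE A) Qbar) n l
  have hx0 : x ≠ 0 := by
    rintro rfl
    rw [map_zero] at hxy
    exact hy0 hxy.symm
  refine ⟨hx0, hJ A N x (hxy ▸ hi), hJ A N x⁻¹ ?_⟩
  rw [map_inv₀, hxy]
  exact hi'

end Fermat.Agent.CAR.Unit
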