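import Fermat.Agent.CAR.Unit.Interface2
import Fermat.Agent.S24.DegBdCore
import Fermat.Agent.S24.KeyLemma

/-!
# S36 / CAR / Unit, task L6 [INT-J] : holomorphic `Γ₀(N)`-invariant functions of moderate growth are
integral over `ℚ̄[j]`
-/

set_option autoImplicit false

namespace Fermat.Agent.CAR.Unit

open CongruenceSubgroup Complex Filter
open UpperHalfPlane hiding I
open scoped MatrixGroups Manifold ModularForm
open Fermat.Agent.S24 (Qbar FF funAlg iota jF jFun jBarSeries Cosets)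
open Fermat.Agent.S24.QX (cmI Rep Nice)
open Fermat.Agent.S24.DegBd (coTr coTr_smul coTr_one modGrowth preComp mdiff_comp_SL_smul)
open Fermat.Agent.ES.Mid (Growth)
attribute [local instance] Fermat.Agent.S24.algQbarComplex

/-! ### Step 1 : the characteristic polynomial -/

open Polynomial in
/-- the characteristic polynomial over the cosets of `Γ₀(N)`. -/
theorem L6_charpoly (N : ℕ) [NeZero N] (θ : ℍ → ℂ) (hmd : MDiff θ)
    (hinv : ∀ γ ∈ Gamma0 N, ∀ τ : ℍ, θ (γ • τ) = θ τ) (hgr : Growth θ) :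
    ∃ (n : ℕ) (P : ℕ → ℂ[X]), ∀ τ : ℍ,
      θ τ ^ n + ∑ b ∈ Finset.range n, (P b).eval (jFun τ) * θ τ ^ b = 0 := by
  classical
  have hfin : Finite (Cosets N) := inferInstance
  let _ : Fintype (Cosets N) := Fintype.ofFinite _
  set n := Fintype.card (Cosets N) with hn
  have hmem : ∀ x, coTr N θ x ∈ modGrowth := fun x => ⟨mdiff_comp_SL_smul hmd _, hgr _⟩
  let Q' : Polynomial modGrowth := ∏ x : Cosets N, (X - C ⟨coTr N θ x, hmem x⟩)
  let Q : Polynomial (ℍ → ℂ) := ∏ x : Cosets N, (X - C (coTr N θ x))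
  have hQ : Q = Q'.map (algebraMap modGrowth (ℍ → ℂ)) := by
    simp only [Q, Q', Polynomial.map_prod, Polynomial.map_sub, map_X, map_C]
    rfl
  have hcoeff_mem : ∀ b, Q.coeff b ∈ modGrowth := by
    intro b
    rw [hQ, coeff_map]
    exact (Q'.coeff b).2
  have hcoeff_inv : ∀ (b : ℕ) (γ : SL(2, ℤ)) (τ : ℍ), Q.coeff b (γ • τ) = Q.coeff b τ := by
    intro b γ τ
    have hmap : Q.map (preComp γ) = Q := by
      simp only [Q, Polynomial.map_prod, Polynomial.map_sub, map_X, map_C]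
      refine Fintype.prod_equiv (MulAction.toPerm γ⁻¹) _ _ (fun x => ?_)
      congr 2
      funext τ
      exact coTr_smul hinv x γ τ
    calc Q.coeff b (γ • τ) = preComp γ (Q.coeff b) τ := rfl
      _ = (Q.map (preComp γ)).coeff b τ := by rw [coeff_map]
      _ = Q.coeff b τ := by rw [hmap]
  have hex : ∀ b : ℕ, ∃ P : Polynomial ℂ, ∀ τ, Q.coeff b τ = P.eval (jFun τ) := by
    intro b
    obtain ⟨h1, m, hm⟩ := hcoeff_mem b
    obtain ⟨P, -, hP⟩ :=
      Fermat.Agent.S24.exists_polynomial_of_invariant _ h1 (hcoeff_inv b) m hm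
    exact ⟨P, hP⟩
  choose P hP using hex
  have hQmonic : Q.Monic := monic_prod_of_monic _ _ fun x _ => monic_X_sub_C _
  have hQdeg : Q.natDegree = n := natDegree_finsetProd_X_sub_C_eq_card _ _
  have hQeval : Q.eval θ = 0 := by
    simp only [Q, eval_prod]
    refine Finset.prod_eq_zero (Finset.mem_univ (QuotientGroup.mk 1 : Cosets N)) ?_
    rw [eval_sub, eval_X, eval_C, coTr_one hinv, sub_self]
  refine ⟨n, P, fun τ => ?_⟩
  have h1 := congrFun hQeval τ
  have hn1 : Q.coeff n = 1 := by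
    rw [← hQdeg]
    exact hQmonic.coeff_natDegree
  rw [eval_eq_sum_range, hQdeg, Finset.sum_range_succ, hn1, one_mul, Pi.add_apply,
    Finset.sum_apply, Pi.zero_apply, Pi.pow_apply, add_comm] at h1
  rw [← h1]
  congr 1
  refine Finset.sum_congr rfl fun b _ => ?_
  rw [Pi.mul_apply, Pi.pow_apply, hP]

open Polynomial in
/-- the relation, as a `ℂ`-linear relation between the monomials `j ^ a θ ^ b`. -/
theorem L6_relation (N : ℕ) [NeZero N] (θ : ℍ → ℂ) (hmd : MDiff θ)
    (hinv : ∀ γ ∈ Gamma0 N, ∀ τ : ℍ, θ (γ • τ) = θ τ) (hgr : Growth θ) :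
    ∃ (n m : ℕ) (c : ℕ → ℕ → ℂ),
      θ ^ n + ∑ b ∈ Finset.range n, ∑ a ∈ Finset.range m,
        (fun _ : ℍ => c b a) * (jFun ^ a * θ ^ b) = 0 := by
  obtain ⟨n, P, hP⟩ := L6_charpoly N θ hmd hinv hgr
  let m : ℕ := (Finset.range n).sup (fun b => (P b).natDegree) + 1
  have hm : ∀ b ∈ Finset.range n, (P b).natDegree < m := by
    intro b hb
    have : (P b).natDegree ≤ (Finset.range n).sup (fun b => (P b).natDegree) :=
      Finset.le_sup (f := fun b => (P b).natDegree) hb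
    omega
  refine ⟨n, m, fun b a => (P b).coeff a, ?_⟩
  funext τ
  rw [Pi.zero_apply, ← hP τ, Pi.add_apply, Pi.pow_apply, Finset.sum_apply]
  congr 1
  refine Finset.sum_congr rfl fun b hb => ?_
  rw [Finset.sum_apply, eval_eq_sum_range' (hm b hb), Finset.sum_mul]
  refine Finset.sum_congr rfl fun a _ => ?_
  simp only [Pi.mul_apply, Pi.pow_apply]
  ring

/-! ### Step 2 : `q`-expansions -/

theorem L6_rep_pow {x : LaurentSeries ℂ} {f : ℍ → ℂ} (h : Rep x f) (n : ℕ) :
    Rep (x ^ n) (f ^ n) := by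
  induction n with
  | zero =>
    rw [pow_zero, pow_zero]
    have := Rep.const 1
    rwa [map_one] at this
  | succ n ih =>
    rw [pow_succ, pow_succ]
    exact ih.mul h

theorem L6_rep_jFun : Rep (cmI (jBarSeries 1)) jFun := by
  have := Fermat.Agent.S24.QX.rep_jFunD 1
  rwa [Fermat.Agent.S24.DegBd.jFunD_one] at this

theorem L6_series {θ : ℍ → ℂ} {Ys J : LaurentSeries ℂ} (hY : Rep Ys θ) (hJ : Rep J jFun)
    (n m : ℕ) (c : ℕ → ℕ → ℂ)
    (h : θ ^ n + ∑ b ∈ Finset.range n, ∑ a ∈ Finset.range m,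
        (fun _ : ℍ => c b a) * (jFun ^ a * θ ^ b) = 0) :
    Ys ^ n + ∑ b ∈ Finset.range n, ∑ a ∈ Finset.range m,
        HahnSeries.C (c b a) * (J ^ a * Ys ^ b) = 0 := by
  have hrep : Rep (Ys ^ n + ∑ b ∈ Finset.range n, ∑ a ∈ Finset.range m,
        HahnSeries.C (c b a) * (J ^ a * Ys ^ b))
      (θ ^ n + ∑ b ∈ Finset.range n, ∑ a ∈ Finset.range m,
        (fun _ : ℍ => c b a) * (jFun ^ a * θ ^ b)) :=
    (L6_rep_pow hY n).add (Rep.sum _ fun b _ => Rep.sum _ fun a _ =>
      (Rep.const _).mul ((L6_rep_pow hJ a).mul (L6_rep_pow hY b)))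
  exact hrep.eq_zero_iff.2 h

/-! ### Step 3 : descent from `ℂ` to `ℚ̄` -/

/-- a `ℚ̄`-linear retraction of `ℚ̄ → ℂ`. -/
theorem L6_exists_retraction : ∃ π : ℂ →ₗ[Qbar] Qbar, ∀ q : Qbar, π (iota q) = q := by
  obtain ⟨g, hg⟩ := LinearMap.exists_leftInverse_of_injective (Algebra.linearMap Qbar ℂ)
    (LinearMap.ker_eq_bot.2 (algebraMap Qbar ℂ).injective)
  exact ⟨g, fun q => LinearMap.congr_fun hg q⟩

/-- apply a linear form to all the coefficients. -/
noncomputable def L6_proj (π : ℂ →ₗ[Qbar] Qbar) : LaurentSeries ℂ →+ LaurentSeries Qbar where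
  toFun x := x.map π
  map_zero' := by
    ext k
    simp
  map_add' x y := by
    ext k
    simp

theorem L6_proj_coeff (π : ℂ →ₗ[Qbar] Qbar) (x : LaurentSeries ℂ) (k : ℤ) :
    (L6_proj π x).coeff k = π (x.coeff k) := rfl

theorem L6_proj_cmI (π : ℂ →ₗ[Qbar] Qbar) (hπ : ∀ q : Qbar, π (iota q) = q)
    (x : LaurentSeries Qbar) : L6_proj π (cmI x) = x := by
  ext k
  rw [L6_proj_coeff, ModularCurve.coeffMap_coeff]
  exact hπ _

theorem L6_proj_C_mul (π : ℂ →ₗ[Qbar] Qbar) (c : ℂ) (x : LaurentSeries Qbar) :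
    L6_proj π (HahnSeries.C c * cmI x) = algebraMap Qbar (LaurentSeries Qbar) (π c) * x := by
  have e : algebraMap Qbar (LaurentSeries Qbar) (π c) = HahnSeries.C (π c) := by
    rw [ModularCurve.algebraMap_laurentSeries_eq_single]
    rfl
  ext k
  rw [e, L6_proj_coeff, HahnSeries.C_mul_eq_smul, HahnSeries.C_mul_eq_smul, HahnSeries.coeff_smul,
    HahnSeries.coeff_smul, ModularCurve.coeffMap_coeff, smul_eq_mul, smul_eq_mul]
  have : c * (iota : Qbar →+* ℂ) (x.coeff k) = (x.coeff k) • c := by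
    rw [Algebra.smul_def, mul_comm]
    rfl
  rw [this, map_smul, smul_eq_mul, mul_comm]

theorem L6_descent (y j : LaurentSeries Qbar) (n m : ℕ) (c : ℕ → ℕ → ℂ)
    (h : cmI y ^ n + ∑ b ∈ Finset.range n, ∑ a ∈ Finset.range m,
        HahnSeries.C (c b a) * (cmI j ^ a * cmI y ^ b) = 0) :
    ∃ d : ℕ → ℕ → Qbar,
      y ^ n + ∑ b ∈ Finset.range n, ∑ a ∈ Finset.range m,
        algebraMap Qbar (LaurentSeries Qbar) (d b a) * (j ^ a * y ^ b) = 0 := by
  obtain ⟨π, hπ⟩ := L6_exists_retraction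
  refine ⟨fun b a => π (c b a), ?_⟩
  have h1 := congrArg (L6_proj π) h
  rw [map_add, map_zero, map_sum, ← map_pow, L6_proj_cmI π hπ] at h1
  rw [← h1]
  congr 1
  refine Finset.sum_congr rfl fun b _ => ?_
  rw [map_sum]
  refine Finset.sum_congr rfl fun a _ => ?_
  rw [← map_pow, ← map_pow, ← map_mul, L6_proj_C_mul]

/-! ### Step 4 : integrality -/

open Polynomial in
theorem L6_isIntegral_of_relation {R S : Type*} [CommRing R] [CommRing S] [Algebra R S] (y : S)
    (d : ℕ) (c : ℕ → R)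
    (h : y ^ d + ∑ i ∈ Finset.range d, algebraMap R S (c i) * y ^ i = 0) : IsIntegral R y := by
  rw [Finset.sum_range] at h
  refine ⟨X ^ d + ∑ i : Fin d, C (c i) * X ^ (i : ℕ),
    monic_X_pow_add (degree_sum_fin_lt fun i : Fin d => c i), ?_⟩
  simpa [eval₂_add, eval₂_finsetSum] using h

theorem intJ : Stmt_IntJ := by
  intro N _ Y y hmd hinv hgr hrep
  obtain ⟨n, m, c, hrel⟩ := L6_relation N Y hmd hinv hgr
  have hser := L6_series hrep L6_rep_jFun n m c hrel
  obtain ⟨d, hd⟩ := L6_descent (y : LaurentSeries Qbar) (jBarSeries 1) n m c hser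
  let jR : Algebra.adjoin Qbar ({jF N} : Set (FF N)) := ⟨jF N, Algebra.subset_adjoin rfl⟩
  refine L6_isIntegral_of_relation y n (fun b => ∑ a ∈ Finset.range m,
    algebraMap Qbar (Algebra.adjoin Qbar ({jF N} : Set (FF N))) (d b a) * jR ^ a) ?_
  let v : FF N →+* LaurentSeries Qbar := (ModularCurve.modularFunctionFieldBar N).val.toRingHom
  have hvy : v y = (y : LaurentSeries Qbar) := rfl
  have hvj : v (jF N) = jBarSeries 1 := rfl
  have hvc : ∀ q : Qbar, v (algebraMap Qbar (FF N) q) = algebraMap Qbar (LaurentSeries Qbar) q :=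
    fun _ => rfl
  apply v.injective
  rw [map_zero, ← hd, map_add, map_pow, map_sum, hvy]
  congr 1
  refine Finset.sum_congr rfl fun b _ => ?_
  rw [map_mul, map_pow, hvy, map_sum, map_sum, Finset.sum_mul]
  refine Finset.sum_congr rfl fun a _ => ?_
  have h1 : algebraMap (Algebra.adjoin Qbar ({jF N} : Set (FF N))) (FF N)
      (algebraMap Qbar (Algebra.adjoin Qbar ({jF N} : Set (FF N))) (d b a) * jR ^ a)
      = algebraMap Qbar (FF N) (d b a) * jF N ^ a := rfl
  rw [h1, map_mul, map_pow, hvj, hvc, mul_assoc]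

end Fermat.Agent.CAR.Unit
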