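import Fermat.Agent.CAR.Unit.Interface4

/-!
# S36 / CAR / Unit : UNIT-R1, integral over `E[j]` ⟹ `r ^ k z` integral over `A_E[j]`  (helper97)
-/

set_option autoImplicit false

namespace Fermat.Agent.CAR.Unit

open Fermat.Agent.S24 (Qbar FF)
open Fermat.Agent.S36.Val (Ctx jE)
open Fermat.Agent.S36.Base (IE AE FE emb cmE)
open Fermat.Agent.S36.Reg (IntJ FactsX FactsB)
open Polynomial

section abstract

variable {A₀ E F : Type*} [CommRing A₀] [CommRing E] [CommRing F] [Algebra A₀ E] [Algebra E F]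
  [Algebra A₀ F] [IsScalarTower A₀ E F]

/-- every element of `E[j]` is multiplied into `A₀[j]` by all large powers of `π`. -/
theorem IntJA_mem (π : A₀)
    (H : ∀ c : E, ∃ (k : ℕ) (a : A₀), algebraMap A₀ E a = algebraMap A₀ E π ^ k * c) (j : F)
    (c : F) (hc : c ∈ Algebra.adjoin E ({j} : Set F)) :
    ∃ k : ℕ, ∀ m, k ≤ m → algebraMap A₀ F π ^ m * c ∈ Algebra.adjoin A₀ ({j} : Set F) := by
  have hπ : ∀ m : ℕ, algebraMap A₀ F π ^ m ∈ Algebra.adjoin A₀ ({j} : Set F) := fun m =>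
    pow_mem (Subalgebra.algebraMap_mem _ _) m
  induction hc using Algebra.adjoin_induction with
  | mem x hx =>
      refine ⟨0, fun m _ => mul_mem (hπ m) (Algebra.subset_adjoin hx)⟩
  | algebraMap e =>
      obtain ⟨k, a, ha⟩ := H e
      refine ⟨k, fun m hm => ?_⟩
      obtain ⟨d, rfl⟩ := Nat.exists_eq_add_of_le hm
      have h1 : algebraMap A₀ F π ^ (k + d) * algebraMap E F e
          = algebraMap A₀ F π ^ d * algebraMap A₀ F a := by
        rw [IsScalarTower.algebraMap_apply A₀ E F a, ha, IsScalarTower.algebraMap_apply A₀ E F π,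
          map_mul, map_pow]
        ring
      rw [h1]
      exact mul_mem (hπ d) (Subalgebra.algebraMap_mem _ _)
  | add x y _ _ hx hy =>
      obtain ⟨k1, h1⟩ := hx
      obtain ⟨k2, h2⟩ := hy
      refine ⟨max k1 k2, fun m hm => ?_⟩
      rw [mul_add]
      exact add_mem (h1 m (le_trans (le_max_left _ _) hm)) (h2 m (le_trans (le_max_right _ _) hm))
  | mul x y _ _ hx hy =>
      obtain ⟨k1, h1⟩ := hx
      obtain ⟨k2, h2⟩ := hy
      refine ⟨k1 + k2, fun m hm => ?_⟩
      obtain ⟨d, rfl⟩ := Nat.exists_eq_add_of_le hm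
      have h3 : algebraMap A₀ F π ^ (k1 + k2 + d) * (x * y)
          = (algebraMap A₀ F π ^ (k1 + d) * x) * (algebraMap A₀ F π ^ k2 * y) := by
        ring
      rw [h3]
      exact mul_mem (h1 _ (Nat.le_add_right _ _)) (h2 _ le_rfl)

/-- the abstract lemma. -/
theorem IntJA_abs (π : A₀)
    (H : ∀ c : E, ∃ (k : ℕ) (a : A₀), algebraMap A₀ E a = algebraMap A₀ E π ^ k * c) (j z : F)
    (hz : IsIntegral (Algebra.adjoin E ({j} : Set F)) z) :
    ∃ k : ℕ, IsIntegral (Algebra.adjoin A₀ ({j} : Set F)) (algebraMap A₀ F π ^ k * z) := by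
  obtain ⟨p, hp, hpz⟩ := hz
  set C := Algebra.adjoin E ({j} : Set F) with hC
  set B := Algebra.adjoin A₀ ({j} : Set F) with hB
  -- the polynomial over `F`
  set P : F[X] := p.map (algebraMap C F) with hP
  have hPm : P.Monic := hp.map _
  have hPz : eval₂ (RingHom.id F) z P = 0 := by
    rw [hP, eval₂_map, RingHom.id_comp]
    exact hpz
  have hcoef : ∀ i, P.coeff i ∈ C := fun i => by
    rw [hP, coeff_map]
    exact (p.coeff i).2
  choose kk hkk using fun i => IntJA_mem π H j (P.coeff i) (hcoef i)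
  set K : ℕ := (Finset.range (P.natDegree + 1)).sup kk with hK
  have hKi : ∀ i, algebraMap A₀ F π ^ K * P.coeff i ∈ B := by
    intro i
    by_cases hi : i ≤ P.natDegree
    · exact hkk i K (Finset.le_sup (f := kk) (Finset.mem_range.2 (Nat.lt_succ_of_le hi)))
    · rw [coeff_eq_zero_of_natDegree_lt (not_le.1 hi), mul_zero]
      exact zero_mem _
  refine ⟨K, ?_⟩
  set s : F := algebraMap A₀ F π ^ K with hs
  have hsB : s ∈ B := pow_mem (Subalgebra.algebraMap_mem _ _) K
  set Q : F[X] := scaleRoots P s with hQ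
  have hQm : Q.Monic := (monic_scaleRoots_iff s).2 hPm
  have hQz : eval₂ (RingHom.id F) (s * z) Q = 0 := scaleRoots_eval₂_eq_zero (RingHom.id F) hPz
  have hQl : Q ∈ lifts (algebraMap B F) := by
    rw [lifts_iff_coeff_lifts]
    intro i
    have hmem : Q.coeff i ∈ B := by
      rw [hQ, coeff_scaleRoots]
      rcases lt_trichotomy i P.natDegree with hi | hi | hi
      · obtain ⟨d, hd⟩ : ∃ d, P.natDegree - i = d + 1 := ⟨P.natDegree - i - 1, by omega⟩
        rw [hd, pow_succ]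
        have : P.coeff i * (s ^ d * s) = s ^ d * (s * P.coeff i) := by ring
        rw [this]
        exact mul_mem (pow_mem hsB d) (hKi i)
      · rw [hi, Nat.sub_self, pow_zero, mul_one, hPm.coeff_natDegree]
        exact one_mem _
      · rw [coeff_eq_zero_of_natDegree_lt hi, zero_mul]
        exact zero_mem _
    exact ⟨⟨_, hmem⟩, rfl⟩
  obtain ⟨q, hq1, _, hq3⟩ := lifts_and_natDegree_eq_and_monic hQl hQm
  refine ⟨q, hq3, ?_⟩
  have : eval₂ (algebraMap B F) (s * z) q = eval₂ (RingHom.id F) (s * z) (q.map (algebraMap B F)) := by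
    rw [eval₂_map, RingHom.id_comp]
  rw [this, hq1]
  exact hQz

end abstract

/-- hypothesis (H) for `A_E ⊆ E`. -/
theorem IntJA_H (hU : S36.Base.Stmt_Unram) (A : ValuationSubring Qbar) (r : ℕ) (hr : r.Prime)
    (hA : A.LiesOverPrime r) (c : IE A) :
    ∃ (k : ℕ) (a : AE A),
      algebraMap (AE A) (IE A) a = algebraMap (AE A) (IE A) ((r : ℕ) : AE A) ^ k * c := by
  by_cases hc : c = 0
  · exact ⟨0, 0, by simp [hc]⟩
  have hx : algebraMap (IE A) Qbar c ≠ 0 := by
    intro h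
    exact hc ((map_eq_zero _).1 h)
  obtain ⟨k, hk, -⟩ := hU r A hr hA (algebraMap (IE A) Qbar c) hx
    (fun σ hσ => S36.Base.IE.fixed A c hσ)
  have hr0 : (r : Qbar) ≠ 0 := Nat.cast_ne_zero.2 hr.ne_zero
  have hrA : (r : Qbar) ∈ A := natCast_mem A r
  have hmem : algebraMap (IE A) Qbar ((r : IE A) ^ k.toNat * c) ∈ A := by
    obtain ⟨d, hd⟩ : ∃ d : ℕ, (k.toNat : ℤ) = k + d := ⟨(k.toNat - k).toNat, by omega⟩
    have h1 : algebraMap (IE A) Qbar ((r : IE A) ^ k.toNat * c)
        = (algebraMap (IE A) Qbar c * (r : Qbar) ^ k) * (r : Qbar) ^ d := by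
      rw [map_mul, map_pow, map_natCast, ← zpow_natCast (r : Qbar) k.toNat, hd, zpow_add₀ hr0,
        zpow_natCast]
      ring
    rw [h1]
    exact mul_mem hk (pow_mem hrA d)
  refine ⟨k.toNat, S36.Base.AE.mk A _ hmem, ?_⟩
  rw [S36.Base.AE.algebraMap_mk, map_natCast]

theorem intJA (hU : S36.Base.Stmt_Unram) : Stmt_IntJA := by
  intro A r N _ hr hA x hx
  obtain ⟨k, hk⟩ := IntJA_abs (A₀ := AE A) (E := IE A) (F := FE A N) ((r : ℕ) : AE A)
    (IntJA_H hU A r hr hA) (jE A N 1) x hx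
  refine ⟨k, ?_⟩
  rw [map_natCast] at hk
  exact hk

end Fermat.Agent.CAR.Unit
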