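import Fermat.Agent.CAR.Unit.Interface3
import Fermat.Agent.S36.Base.Descent
import Fermat.Agent.S36.Val.PhiGen
import Fermat.Agent.S36.Val.Mid

/-!
# S36 / CAR / Unit, task UNIT-N3 (helper76): descent of integrality from `ℚ̄[j]` to `E[j]`

An `E`-linear retraction `λ : ℚ̄ → E` of the inclusion is applied coefficientwise to an integral
equation of `emb x` over `ℚ̄[j]`.
-/

set_option autoImplicit false

namespace Fermat.Agent.CAR.Unit

open Fermat.Agent.S24 (Qbar FF jF)
open Fermat.Agent.S36.Val (jE)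
open Fermat.Agent.S36.Base (IE FE emb cmE)

local notation "LE" => Fermat.Agent.S36.Base.LE
open Polynomial

/-- coefficientwise application of an `E`-linear map `ℚ̄ → E`. -/
noncomputable def IntJE_lam (A : ValuationSubring Qbar) (l : Qbar →ₗ[IE A] IE A)
    (v : LaurentSeries Qbar) : LE A := v.map l

theorem IntJE_lam_coeff (A : ValuationSubring Qbar) (l : Qbar →ₗ[IE A] IE A)
    (v : LaurentSeries Qbar) (k : ℤ) : (IntJE_lam A l v).coeff k = l (v.coeff k) := rfl

theorem IntJE_lam_zero (A : ValuationSubring Qbar) (l : Qbar →ₗ[IE A] IE A) :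
    IntJE_lam A l 0 = 0 := by
  ext k
  rw [IntJE_lam_coeff, HahnSeries.coeff_zero, HahnSeries.coeff_zero, map_zero]

theorem IntJE_lam_add (A : ValuationSubring Qbar) (l : Qbar →ₗ[IE A] IE A)
    (u v : LaurentSeries Qbar) : IntJE_lam A l (u + v) = IntJE_lam A l u + IntJE_lam A l v := by
  ext k
  rw [IntJE_lam_coeff, HahnSeries.coeff_add, HahnSeries.coeff_add, map_add, IntJE_lam_coeff,
    IntJE_lam_coeff]

theorem IntJE_lam_sum (A : ValuationSubring Qbar) (l : Qbar →ₗ[IE A] IE A) (s : Finset ℕ)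
    (u : ℕ → LaurentSeries Qbar) :
    IntJE_lam A l (∑ b ∈ s, u b) = ∑ b ∈ s, IntJE_lam A l (u b) := by
  classical
  induction s using Finset.induction_on with
  | empty => simp [IntJE_lam_zero]
  | insert a s ha ih => rw [Finset.sum_insert ha, Finset.sum_insert ha, IntJE_lam_add, ih]

theorem IntJE_lam_const_mul (A : ValuationSubring Qbar) (l : Qbar →ₗ[IE A] IE A) (c : Qbar)
    (w : LE A) :
    IntJE_lam A l (algebraMap Qbar (LaurentSeries Qbar) c * cmE A w)
      = algebraMap (IE A) (LE A) (l c) * w := by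
  ext k
  rw [IntJE_lam_coeff, S36.Base.Desc_coeff_const_mul, S36.Base.Desc_coeff_const_mul,
    S36.Base.cmE_coeff, mul_comm, ← Algebra.smul_def, map_smul, smul_eq_mul, mul_comm]

theorem IntJE_lam_cmE (A : ValuationSubring Qbar) (l : Qbar →ₗ[IE A] IE A)
    (hl : ∀ e : IE A, l (algebraMap (IE A) Qbar e) = e) (w : LE A) :
    IntJE_lam A l (cmE A w) = w := by
  ext k
  rw [IntJE_lam_coeff, S36.Base.cmE_coeff, hl]

theorem IntJE_emb_jE (A : ValuationSubring Qbar) (N : ℕ) [NeZero N] :
    emb A N (jE A N 1) = jF N := by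
  apply Subtype.ext
  have h : ((emb A N (jE A N 1) : FF N) : LaurentSeries Qbar) = S28.jd Qbar 1 :=
    S36.Val.PhiGen_isJ A N (one_dvd N)
  rw [h]
  exact (S36.Val.E6_jBarSeries_eq 1).symm

set_option synthInstance.maxHeartbeats 400000 in
theorem IntJE_coef (A : ValuationSubring Qbar) (N : ℕ) [NeZero N] (l : Qbar →ₗ[IE A] IE A)
    (g : Qbar[X]) :
    ∃ r' ∈ Algebra.adjoin (IE A) ({jE A N 1} : Set (FE A N)), ∀ w : FE A N,
      IntJE_lam A l (((aeval (jF N) g : FF N) : LaurentSeries Qbar) * cmE A (w : LE A))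
        = ((r' * w : FE A N) : LE A) := by
  induction g using Polynomial.induction_on' with
  | add g₁ g₂ h₁ h₂ =>
      obtain ⟨r₁, hr₁, e₁⟩ := h₁
      obtain ⟨r₂, hr₂, e₂⟩ := h₂
      refine ⟨r₁ + r₂, add_mem hr₁ hr₂, fun w => ?_⟩
      have e : (((aeval (jF N) (g₁ + g₂) : FF N) : LaurentSeries Qbar) * cmE A (w : LE A))
          = ((aeval (jF N) g₁ : FF N) : LaurentSeries Qbar) * cmE A (w : LE A)
            + ((aeval (jF N) g₂ : FF N) : LaurentSeries Qbar) * cmE A (w : LE A) := by
        rw [map_add, ← add_mul]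
        rfl
      rw [e, IntJE_lam_add, e₁, e₂, add_mul]
      rfl
  | monomial a c =>
      refine ⟨algebraMap (IE A) (FE A N) (l c) * jE A N 1 ^ a,
        mul_mem (Subalgebra.algebraMap_mem _ _)
          (pow_mem (Algebra.subset_adjoin (Set.mem_singleton _)) a), fun w => ?_⟩
      have e : (((aeval (jF N) (monomial a c) : FF N) : LaurentSeries Qbar) * cmE A (w : LE A))
          = algebraMap Qbar (LaurentSeries Qbar) c
            * cmE A (((jE A N 1 ^ a * w : FE A N)) : LE A) := by
        rw [aeval_monomial, ← IntJE_emb_jE A N, ← map_pow]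
        have e1 : cmE A (((jE A N 1 ^ a * w : FE A N)) : LE A)
            = cmE A ((jE A N 1 ^ a : FE A N) : LE A) * cmE A (w : LE A) := by
          rw [← map_mul]
          rfl
        rw [e1, ← mul_assoc]
        rfl
      rw [e, IntJE_lam_const_mul, mul_assoc]
      rfl

set_option synthInstance.maxHeartbeats 400000 in
theorem intJE : Stmt_IntJE := by
  intro A N _ x hx
  obtain ⟨l, hl⟩ := S36.Base.Desc_exists_retraction A
  obtain ⟨p, hp, hpx⟩ := hx
  have hc : ∀ b : ℕ, ∃ r' ∈ Algebra.adjoin (IE A) ({jE A N 1} : Set (FE A N)), ∀ w : FE A N,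
      IntJE_lam A l ((((p.coeff b : Algebra.adjoin Qbar ({jF N} : Set (FF N))) : FF N) :
        LaurentSeries Qbar) * cmE A (w : LE A)) = ((r' * w : FE A N) : LE A) := by
    intro b
    obtain ⟨g, hg⟩ : ∃ g : Qbar[X], aeval (jF N) g = ((p.coeff b : _) : FF N) := by
      have h : ((p.coeff b : _) : FF N) ∈ (aeval (R := Qbar) (jF N)).range := by
        rw [← Algebra.adjoin_singleton_eq_range_aeval]
        exact (p.coeff b).2
      exact h
    rw [← hg]
    exact IntJE_coef A N l g
  choose r' hr' hw using hc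
  refine ⟨X ^ p.natDegree + ∑ b ∈ Finset.range p.natDegree,
    C (⟨r' b, hr' b⟩ : Algebra.adjoin (IE A) ({jE A N 1} : Set (FE A N))) * X ^ b, ?_, ?_⟩
  · apply Polynomial.monic_X_pow_add
    exact mem_degreeLT.1 (Submodule.sum_mem _ fun b hb => mem_degreeLT.2
      ((degree_C_mul_X_pow_le b _).trans_lt (by exact_mod_cast Finset.mem_range.1 hb)))
  · rw [eval₂_add, eval₂_pow, eval₂_X, eval₂_finsetSum]
    simp only [eval₂_mul, eval₂_C, eval₂_pow, eval₂_X]
    have key : emb A N x ^ p.natDegree + ∑ b ∈ Finset.range p.natDegree,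
        ((p.coeff b : Algebra.adjoin Qbar ({jF N} : Set (FF N))) : FF N) * emb A N x ^ b = 0 := by
      have h := hpx
      rw [hp.as_sum, eval₂_add, eval₂_pow, eval₂_X, eval₂_finsetSum] at h
      simp only [eval₂_mul, eval₂_C, eval₂_pow, eval₂_X] at h
      exact h
    have key2 : cmE A ((x ^ p.natDegree : FE A N) : LE A) + ∑ b ∈ Finset.range p.natDegree,
        (((p.coeff b : Algebra.adjoin Qbar ({jF N} : Set (FF N))) : FF N) : LaurentSeries Qbar)
          * cmE A ((x ^ b : FE A N) : LE A) = 0 := by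
      have h : ((emb A N x ^ p.natDegree + ∑ b ∈ Finset.range p.natDegree,
        ((p.coeff b : Algebra.adjoin Qbar ({jF N} : Set (FF N))) : FF N) * emb A N x ^ b : FF N) :
          LaurentSeries Qbar) = 0 := by rw [key]; rfl
      rw [← h]
      have e : ((emb A N x ^ p.natDegree + ∑ b ∈ Finset.range p.natDegree,
          ((p.coeff b : Algebra.adjoin Qbar ({jF N} : Set (FF N))) : FF N) * emb A N x ^ b : FF N) :
            LaurentSeries Qbar)
          = ((emb A N x ^ p.natDegree : FF N) : LaurentSeries Qbar)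
            + ∑ b ∈ Finset.range p.natDegree,
              ((((p.coeff b : Algebra.adjoin Qbar ({jF N} : Set (FF N))) : FF N) * emb A N x ^ b :
                FF N) : LaurentSeries Qbar) :=
        congrArg (((emb A N x ^ p.natDegree : FF N) : LaurentSeries Qbar) + ·)
          (AddSubmonoidClass.coe_finsetSum _ _)
      rw [e, ← map_pow]
      refine congrArg₂ (· + ·) rfl (Finset.sum_congr rfl fun b _ => ?_)
      rw [← map_pow]
      rfl
    apply Subtype.ext
    have h := congrArg (IntJE_lam A l) key2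
    rw [IntJE_lam_add, IntJE_lam_sum, IntJE_lam_zero, IntJE_lam_cmE A l hl] at h
    simp only [hw] at h
    refine Eq.trans ?_ h
    exact congrArg (((x ^ p.natDegree : FE A N) : LE A) + ·) (AddSubmonoidClass.coe_finsetSum _ _)

end Fermat.Agent.CAR.Unit
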