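import Fermat.Agent.CAR.Unit.Interface4
import Fermat.Agent.S36.Base.Mu

/-!
# S36 / CAR / Unit : (UNIT-R3) `t₄` and `1 / t₄` are integral over `A_E[j]`, `r` odd

From `j t⁴ (t + 16) = (t² + 256 t + 4096)³` : `t` is a root of the monic polynomial
`(X² + 256 X + 4096)³ - j X⁴ (X + 16)`, and `u = 4096 / t` is a root of the monic polynomial
`(X² + 256 X + 4096)³ - 65536 j X (X + 256)`.
-/

set_option autoImplicit false

namespace Fermat.Agent.CAR.Unit

open Fermat.Agent.S24 (Qbar FF)
open Fermat.Agent.S36.Val (Ctx jE)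
open Fermat.Agent.S36.Base (IE AE FE emb cmE)
open Polynomial

/-- a root of `(X² + 256 X + 4096)³ - q`, `deg q < 6`, is integral. -/
theorem IntT4_monic {B F : Type*} [CommRing B] [CommRing F] [Algebra B F] (x : F) (q : B[X])
    (hq : q.degree < 6) (h : (x ^ 2 + 256 * x + 4096) ^ 3 = aeval x q) : IsIntegral B x := by
  nontriviality B
  have hm : (X ^ 2 + (C 256 * X + C 4096) : B[X]).Monic := by
    apply monic_X_pow_add
    refine lt_of_le_of_lt (degree_linear_le) ?_
    norm_num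
  have hd : (X ^ 2 + (C 256 * X + C 4096) : B[X]).natDegree = 2 := by
    compute_degree!
  refine ⟨(X ^ 2 + (C 256 * X + C 4096)) ^ 3 - q, ?_, ?_⟩
  · apply Monic.sub_of_left (hm.pow 3)
    rw [degree_eq_natDegree (hm.pow 3).ne_zero, hm.natDegree_pow, hd]
    exact hq
  · rw [← aeval_def, map_sub, ← h]
    simp [add_assoc, map_ofNat]

/-- the abstract statement. -/
theorem IntT4_abs {B F : Type*} [CommRing B] [Field F] [Algebra B F] (b : B) (t : F)
    (h2 : IsUnit (2 : B))
    (hrel : algebraMap B F b * (t ^ 4 * (t + 16)) = (t ^ 2 + 256 * t + 4096) ^ 3) :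
    IsIntegral B t ∧ IsIntegral B t⁻¹ := by
  have h2F : (2 : F) ≠ 0 := by
    have := (h2.map (algebraMap B F)).ne_zero
    rwa [map_ofNat] at this
  have h4096 : (4096 : F) = 2 ^ 12 := by norm_num
  have h4096' : (4096 : F) ≠ 0 := by
    rw [h4096]
    exact pow_ne_zero _ h2F
  have ht : t ≠ 0 := by
    rintro rfl
    have : (4096 : F) ^ 3 = 0 := by
      simpa using hrel.symm
    exact pow_ne_zero _ h4096' this
  constructor
  · refine IntT4_monic t (C b * (X ^ 4 * (X + C 16))) ?_ ?_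
    · have : (C b * (X ^ 4 * (X + C 16)) : B[X]).degree ≤ 5 := by compute_degree
      exact lt_of_le_of_lt this (by norm_num)
    · rw [← hrel]
      simp [map_ofNat]
  · have hu : IsIntegral B (4096 * t⁻¹) := by
      refine IntT4_monic (4096 * t⁻¹) (C (65536 * b) * (X * (X + C 256))) ?_ ?_
      · have : (C (65536 * b) * (X * (X + C 256)) : B[X]).degree ≤ 2 := by compute_degree
        exact lt_of_le_of_lt this (by norm_num)
      · have e1 : (4096 * t⁻¹) ^ 2 + 256 * (4096 * t⁻¹) + 4096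
            = 4096 * (t ^ 2 + 256 * t + 4096) / t ^ 2 := by
          field_simp
          ring
        rw [e1, div_pow, mul_pow, ← hrel]
        simp only [map_mul, aeval_C, aeval_X, map_add, map_ofNat]
        field_simp
        ring
    obtain ⟨v, hv⟩ := h2
    have hv' : algebraMap B F ((↑(v⁻¹) : B) ^ 12) * 4096 = 1 := by
      have : ((↑(v⁻¹) : B) ^ 12) * 2 ^ 12 = 1 := by
        rw [← mul_pow, ← hv, Units.inv_mul, one_pow]
      have h3 := congrArg (algebraMap B F) this
      rw [map_mul, map_pow _ (2 : B), map_ofNat, map_one] at h3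
      rw [h4096]
      exact h3
    have : t⁻¹ = algebraMap B F ((↑(v⁻¹) : B) ^ 12) * (4096 * t⁻¹) := by
      rw [← mul_assoc, hv', one_mul]
    rw [this]
    exact isIntegral_algebraMap.mul hu

/-- **(UNIT-R3)**. -/
theorem intT4 (hR : Stmt_relT4) : Stmt_intT4 := by
  intro A r N _ hr hr2 hA T0 hT0
  have h2 : IsUnit ((2 : ℕ) : AE A) :=
    (S36.Base.stmt_Mu r A hr hA 2 two_ne_zero (fun h =>
      hr2 ((Nat.prime_dvd_prime_iff_eq hr Nat.prime_two).1 h))).1
  have h2' : IsUnit (2 : Algebra.adjoin (AE A) ({jE A N 1} : Set (FE A N))) := by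
    have := h2.map (algebraMap (AE A) (Algebra.adjoin (AE A) ({jE A N 1} : Set (FE A N))))
    rwa [map_natCast, Nat.cast_ofNat] at this
  refine IntT4_abs (B := Algebra.adjoin (AE A) ({jE A N 1} : Set (FE A N)))
    ⟨jE A N 1, Algebra.subset_adjoin rfl⟩ T0 h2' ?_
  show jE A N 1 * (T0 ^ 4 * (T0 + 16)) = (T0 ^ 2 + 256 * T0 + 4096) ^ 3
  have hj : ((jE A N 1 : FE A N) : S36.Base.LE A) = S28.jd (IE A) 1 :=
    S36.Val.isJE_jE A N (one_dvd N)
  have hT : ((T0 : FE A N) : S36.Base.LE A) = etaLser (IE A) (-1) lt4 := hT0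
  apply (algebraMap (FE A N) (S36.Base.LE A)).injective
  simp only [map_mul, map_pow, map_add, map_ofNat]
  show ((jE A N 1 : FE A N) : S36.Base.LE A) * ((T0 : S36.Base.LE A) ^ 4
      * ((T0 : S36.Base.LE A) + 16))
    = ((T0 : S36.Base.LE A) ^ 2 + 256 * (T0 : S36.Base.LE A) + 4096) ^ 3
  rw [hj, hT]
  exact hR (IE A)

end Fermat.Agent.CAR.Unit
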