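import Fermat.Agent.CAR.Unit.Defs
import Fermat.Agent.S16.BDefs

/-!
# S36 / CAR / Unit : interface (statements as `Prop`s) of the analytic half of [UNIT]

Sub-architect: helper37.  Every task proves `theorem xxx : Stmt_xxx` (possibly from other `Stmt_`s
as EXPLICIT hypotheses) in its own NEW file importing this one.

Plan.
* (A) `Γ₀(a) = ⟨T, [[1,0],[a,1]], -1⟩` for `a = 2, 3, 4` (Euclid).
* (B) `η(z+1)`, `η(-1/z)` (Mathlib) give the behaviour of eta quotients under `T` and the Fricke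
  involution; (C) a Fricke pair gives the behaviour under `[[1,0],[a,1]] = w T⁻¹ w⁻¹`; hence
  (D), (E) the transformation laws of `f4, t4, ...` on `Γ₀(4)`, of `f9, f3s, t3` on `Γ₀(3)` (with an
  explicit multiplier of order `3`, trivial on `Γ₀(9)`), hence of `f9, f9s, f9p, f9m, t9` on `Γ₀(9)`.
  No Dedekind sums, no generators of `Γ₀(9)`.
* (G) growth at all cusps of generalised eta quotients (Ligozat's formula as a `Θ`-estimate).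
* (H) `q`-expansions.  (I) identities by the Sturm bound (prelude), in KL's `HasQ` calculus.
* (J) Hauptmodul property.  (K) the units `x₁, x₂` and their transforms under `δ` and `W`.
-/

set_option autoImplicit false

namespace Fermat.Agent.CAR.Unit

open CongruenceSubgroup Complex Filter Asymptotics
open UpperHalfPlane hiding I
open scoped MatrixGroups Real Manifold ModularForm
open Fermat.Agent.S24 (Qbar FF funAlg iota)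
open Fermat.Agent.S24.QX (qExpHom cmI Rep Nice)
open Fermat.Agent.KL.Haupt (HasQ lau toC)
attribute [local instance] Fermat.Agent.S24.algQbarComplex


/-! ## (A) generators -/

def Stmt_Gen : Prop :=
  ∀ a : ℕ, (a = 2 ∨ a = 3 ∨ a = 4) → ∀ γ : SL(2, ℤ), γ ∈ Gamma0 a →
    γ ∈ Subgroup.closure ({ModularGroup.T, Ua a, -1} : Set SL(2, ℤ))

/-! ## (B) eta quotients under `T` and Fricke -/

def Stmt_etaT : Prop := ∀ z : ℂ, η (z + 1) = ee (1 / 24) * η z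

def Stmt_etaG_basic : Prop :=
  ∀ l, PosG l → DifferentiableOn ℂ (etaG l) {z : ℂ | 0 < z.im} ∧ ∀ z : ℂ, 0 < z.im → etaG l z ≠ 0

def Stmt_etaL_toG : Prop := ∀ l z, etaL l z = etaG (toG l) z

def Stmt_etaL_T : Prop := ∀ l z, etaL l (z + 1) = ee ((deg24 l : ℂ) / 24) * etaL l z

/-- `E(-1/(a z)) = (-i z)^k ∏ (a/d)^(e/2) E*(z)`. -/
def Stmt_etaL_W : Prop :=
  ∀ (a : ℕ) (l : List (ℕ × ℤ)) (k : ℤ), 0 < a → (∀ p ∈ l, 0 < p.1 ∧ p.1 ∣ a) → wt2 l = 2 * k →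
    ∀ z : ℂ, 0 < z.im →
      etaL l (-1 / ((a : ℂ) * z)) = (-I * z) ^ k * (frkConst a l : ℂ) * etaL (dualL a l) z

/-! ## (C) abstract steps -/

/-- a Fricke pair gives the transformation under `[[1,0],[a,1]]`. -/
def Stmt_FrickeStep : Prop :=
  ∀ (a : ℕ) (k : ℤ) (f fs : ℂ → ℂ) (C ξ : ℂ), 0 < a → C ≠ 0 → ξ ≠ 0 →
    (∀ z : ℂ, 0 < z.im → f (-1 / ((a : ℂ) * z)) = C * z ^ k * fs z) →
    (∀ z : ℂ, 0 < z.im → fs (z + 1) = ξ * fs z) →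
    ∀ z : ℂ, 0 < z.im → f (z / ((a : ℂ) * z + 1)) = ξ⁻¹ * ((a : ℂ) * z + 1) ^ k * f z

/-- from the generators to the group. -/
def Stmt_SlashOfGen : Prop :=
  ∀ (a : ℕ) (k : ℤ) (f : ℂ → ℂ) (μ : SL(2, ℤ) → ℂ), (a = 2 ∨ a = 3 ∨ a = 4) →
    (∀ γ₁ ∈ Gamma0 a, ∀ γ₂ ∈ Gamma0 a, μ (γ₁ * γ₂) = μ γ₁ * μ γ₂) → (∀ γ ∈ Gamma0 a, μ γ ≠ 0) →
    (∀ z : ℂ, 0 < z.im → f (z + 1) = μ ModularGroup.T * f z) →
    (∀ z : ℂ, 0 < z.im → f (z / ((a : ℂ) * z + 1)) = μ (Ua a) * ((a : ℂ) * z + 1) ^ k * f z) →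
    μ (-1) * (-1) ^ k = 1 →
    ∀ γ ∈ Gamma0 a, ∀ z : ℍ, f ((γ • z : ℍ) : ℂ) = μ γ * den γ z ^ k * f z

/-! ## (D) multipliers -/

def Stmt_mu4 : Prop :=
  (∀ γ₁ ∈ Gamma0 4, ∀ γ₂ ∈ Gamma0 4, mu4 (γ₁ * γ₂) = mu4 γ₁ * mu4 γ₂) ∧ (∀ γ, mu4 γ ≠ 0) ∧
    mu4 ModularGroup.T = 1 ∧ mu4 (Ua 4) = 1 ∧ mu4 (-1) = -1

def Stmt_mu3 : Prop :=
  (∀ γ₁ ∈ Gamma0 3, ∀ γ₂ ∈ Gamma0 3, mu3 (γ₁ * γ₂) = mu3 γ₁ * mu3 γ₂) ∧ (∀ γ, mu3 γ ≠ 0) ∧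
    mu3 ModularGroup.T = 1 ∧ mu3 (Ua 3) = ee (-1 / 3) ∧ mu3 (-1) = -1 ∧
    ∀ γ ∈ Gamma0 9, mu3 γ = chi3 (γ 1 1)

def Stmt_mu3s : Prop :=
  (∀ γ₁ ∈ Gamma0 3, ∀ γ₂ ∈ Gamma0 3, mu3s (γ₁ * γ₂) = mu3s γ₁ * mu3s γ₂) ∧ (∀ γ, mu3s γ ≠ 0) ∧
    mu3s ModularGroup.T = ee (1 / 3) ∧ mu3s (Ua 3) = 1 ∧ mu3s (-1) = -1

/-! ## (E) transformation laws -/

def Stmt_f4_slash : Prop :=
  ∀ γ ∈ Gamma0 4, ∀ z : ℍ, f4 ((γ • z : ℍ) : ℂ) = chi4 (γ 1 1) * den γ z * f4 z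

/-- weight `k` eta quotients of level `4` (trivial character): `t4, u4` (`k = 0`),
`A2, A3, A4` (`k = 2`). -/
def Stmt_slash4 : Prop :=
  ∀ l k, ((l = lt4 ∨ l = lu4) ∧ k = (0 : ℤ)) ∨ ((l = lA2 ∨ l = lA3 ∨ l = lA4) ∧ k = 2) →
    ∀ γ ∈ Gamma0 4, ∀ z : ℍ, etaL l ((γ • z : ℍ) : ℂ) = den γ z ^ k * etaL l z

def Stmt_t2_inv : Prop := ∀ γ ∈ Gamma0 2, ∀ z : ℍ, t2 ((γ • z : ℍ) : ℂ) = t2 z

def Stmt_t3_inv : Prop := ∀ γ ∈ Gamma0 3, ∀ z : ℍ, t3 ((γ • z : ℍ) : ℂ) = t3 z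

def Stmt_f9_slash3 : Prop :=
  ∀ γ ∈ Gamma0 3, ∀ z : ℍ, f9 ((γ • z : ℍ) : ℂ) = mu3 γ * den γ z * f9 z

def Stmt_f3s_slash3 : Prop :=
  ∀ γ ∈ Gamma0 3, ∀ z : ℍ, f3s ((γ • z : ℍ) : ℂ) = mu3s γ * den γ z * f3s z

/-- the four weight one units of level `9`. -/
def Stmt_slash9 : Prop :=
  ∀ f : ℂ → ℂ, (f = f9 ∨ f = f9s ∨ f = f9p ∨ f = f9m) →
    ∀ γ ∈ Gamma0 9, ∀ z : ℍ, f ((γ • z : ℍ) : ℂ) = chi3 (γ 1 1) * den γ z * f z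

def Stmt_inv9 : Prop :=
  ∀ γ ∈ Gamma0 9, ∀ z : ℍ, t9 ((γ • z : ℍ) : ℂ) = t9 z ∧ u9 ((γ • z : ℍ) : ℂ) = u9 z ∧
    etaL lG9 ((γ • z : ℍ) : ℂ) = den γ z ^ 2 * etaL lG9 z

/-! ## (F) explicit Fricke relations -/

def Stmt_frk4 : Prop :=
  ∀ z : ℂ, 0 < z.im → f4 (-1 / (4 * z)) = -2 * I * z * f4 z ∧ t4 (-1 / (4 * z)) * t4 z = 256

def Stmt_frk9 : Prop :=
  ∀ z : ℂ, 0 < z.im → f9p (-1 / (9 * z)) = 3 * ee (-1 / 3) * z * f9m z ∧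
    f9m (-1 / (9 * z)) = -3 * ee (1 / 3) * z * f9p z ∧ t9 (-1 / (9 * z)) * t9 z = 27

/-- the cusp `0` of level `4`: `γ` with `c` odd and `4 ∣ d`. -/
def Stmt_odd4 : Prop :=
  ∀ γ : SL(2, ℤ), γ 1 0 % 2 = 1 → (4 : ℤ) ∣ γ 1 1 → ∀ z : ℍ,
    t4 ((γ • z : ℍ) : ℂ) * t4 ((z : ℂ) / 4) = 256 ∧
    f4 ((γ • z : ℍ) : ℂ) = chi4 (γ 1 0) * (-I / 2) * den γ z * f4 ((z : ℂ) / 4)

/-- the cusp `0` of level `9`: `γ` with `3 ∤ c` and `9 ∣ d`. -/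
def Stmt_odd9 : Prop :=
  ∀ γ : SL(2, ℤ), ¬ (3 : ℤ) ∣ γ 1 0 → (9 : ℤ) ∣ γ 1 1 → ∀ z : ℍ,
    t9 ((γ • z : ℍ) : ℂ) * t9 ((z : ℂ) / 9) = 27

/-! ## (G) growth at the cusps -/

/-- Hermite normal form. -/
def Stmt_HNF : Prop :=
  ∀ (A : ℕ) (B : ℤ) (D : ℕ) (g : SL(2, ℤ)), 0 < A → 0 < D →
    ∃ (γ : SL(2, ℤ)) (A' : ℕ) (B' : ℤ) (D' : ℕ), 0 < A' ∧ 0 < D' ∧ A' * D' = A * D ∧
      A' = Int.gcd ((A : ℤ) * g 0 0 + B * g 1 0) ((D : ℤ) * g 1 0) ∧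
      (!![(A : ℤ), B; 0, (D : ℤ)] * (g : Matrix (Fin 2) (Fin 2) ℤ) =
        (γ : Matrix (Fin 2) (Fin 2) ℤ) * !![(A' : ℤ), B'; 0, (D' : ℤ)])

def Stmt_etaAbs : Prop :=
  ∀ (γ : SL(2, ℤ)) (z : ℍ), ‖η ((γ • z : ℍ) : ℂ)‖ ^ 2 = ‖den γ z‖ * ‖η z‖ ^ 2

def Stmt_etaTheta : Prop :=
  ∀ α β : ℝ, 0 < α → (fun z : ℍ => η ((α : ℂ) * z + β)) =Θ[atImInfty]
    fun z : ℍ => Real.exp (-(π * α * z.im / 12))

/-- Ligozat's formula. -/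
def Stmt_etaG_theta : Prop :=
  ∀ l, PosG l → ∀ g : SL(2, ℤ), (fun z : ℍ => etaG l ((g • z : ℍ) : ℂ)) =Θ[atImInfty]
    fun z : ℍ => ‖den g z‖ ^ ((wt2G l : ℝ) / 2) *
      Real.exp (-(π * ordG l (g 0 0) (g 1 0) * z.im / 12))

/-- for an ordinary eta quotient: `ordG = ∑ e gcd(d, c)² / d`. -/
def Stmt_ordG_toG : Prop :=
  ∀ (l : List (ℕ × ℤ)) (g : SL(2, ℤ)), PosL l → ordG (toG l) (g 0 0) (g 1 0) =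
    (l.map fun p => (p.2 : ℝ) * ((Int.gcd (p.1 : ℤ) (g 1 0) : ℕ) : ℝ) ^ 2 / (p.1 : ℝ)).sum

def Stmt_etaG_growth : Prop :=
  ∀ l, PosG l → wt2G l = 0 → Fermat.Agent.ES.Mid.Growth (onH (etaG l))

def Stmt_etaG_bdd : Prop :=
  ∀ l (k : ℤ) (g : SL(2, ℤ)), PosG l → wt2G l = 2 * k → 0 ≤ ordG l (g 0 0) (g 1 0) →
    IsBoundedAtImInfty (onH (etaG l) ∣[k] g)

/-! ## (H) `q`-expansions -/

def Stmt_etaL_rep : Prop :=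
  ∀ l (n : ℤ), PosL l → deg24 l = 24 * n → Rep (etaLser ℂ n l) (onH (etaL l))

def Stmt_etaL_qexp : Prop :=
  ∀ l (n : ℕ), PosL l → deg24 l = 24 * n → Nice (onH (etaL l)) ∧
    UpperHalfPlane.qExpansion 1 (onH (etaL l)) = toC (PowerSeries.X ^ n * etaLps l)

/-- `f(z + k/h)` has the `q`-expansion `x(ζ q)`, `ζ = e(k/h)`. -/
def Stmt_rep_shift : Prop :=
  ∀ (x : LaurentSeries ℂ) (f : ℂ → ℂ) (s : ℚ) (ζ : ℂˣ), (ζ : ℂ) = ee (s : ℂ) → Rep x (onH f) →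
    Rep (Fermat.Agent.ES.Mid.tw ζ x) (onH fun z => f (z + (s : ℂ)))

/-- `f(d z)` has the `q`-expansion `x(q^d)`. -/
def Stmt_rep_scale : Prop :=
  ∀ (x : LaurentSeries ℂ) (f : ℂ → ℂ) (d : ℕ) [NeZero d], Rep x (onH f) →
    Rep (ModularCurve.qExpand ℂ d x) (onH fun z => f ((d : ℂ) * z))

/-- the formal logarithmic derivative of `E = ∏ (1 - q^n)`. -/
def Stmt_thetaEta : Prop :=
  Fermat.Agent.S16.theta ModularCurve.etaProd = - (ModularCurve.etaProd * sig1)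

/-! ## (I) identities (Sturm) -/

def Stmt_HasQ4 : Prop :=
  HasQ 4 2 (onH (etaL lA3)) (etaLps lA3) ∧ HasQ 4 2 (onH (etaL lA4)) (etaLps lA4) ∧
    HasQ 4 2 (onH (etaL lA2)) (PowerSeries.X * etaLps lA2)

/-- Jacobi: `θ₃⁴ = θ₄⁴ + θ₂⁴`. -/
def Stmt_Jacobi : Prop := etaLps lA3 = etaLps lA4 + 16 * (PowerSeries.X * etaLps lA2)

/-- `u4 = t4 + 16`, as functions and as series (`T4 = q⁻¹ etaLps lt4`, `U4 = q⁻¹ etaLps lu4`). -/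
def Stmt_u4 : Prop :=
  (∀ z : ℂ, 0 < z.im → u4 z = t4 z + 16) ∧ etaLps lu4 = etaLps lt4 + 16 * PowerSeries.X

/-- Jacobi's four squares theorem: `3 f4² = 4 E₂(4z) - E₂(z)`. -/
def Stmt_fourSq : Prop :=
  3 * etaLps lf4 ^ 2 = 3 + 24 * (sig1 - 4 * PowerSeries.expand 4 four_ne_zero sig1)

/-- (*) `θ T4 = - T4 F4²` for `T4 = q⁻¹ etaLps lt4`, written with power series. -/
def Stmt_star4 : Prop :=
  Fermat.Agent.S16.theta (etaLps lt4) - etaLps lt4 = - (etaLps lt4 * etaLps lf4 ^ 2)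

def Stmt_HasQ9 : Prop :=
  HasQ 9 2 (onH (f9 ^ 2)) (etaLps lf9 ^ 2) ∧
    HasQ 9 2 (onH (f9 * f9s)) (PowerSeries.X * (etaLps lf9 * etaLps lf9s)) ∧
    HasQ 9 2 (onH (f9s ^ 2)) (PowerSeries.X ^ 2 * etaLps lf9s ^ 2) ∧
    HasQ 9 2 (onH (etaL lG9)) (etaLps lG9)

/-- `u9 = t9² + 9 t9 + 27` (`T9 = q⁻¹ etaLps lt9`, `U9 = q⁻² etaLps lu9`). -/
def Stmt_u9 : Prop :=
  (∀ z : ℂ, 0 < z.im → u9 z = t9 z ^ 2 + 9 * t9 z + 27) ∧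
    etaLps lu9 = etaLps lt9 ^ 2 + 9 * (PowerSeries.X * etaLps lt9) + 27 * PowerSeries.X ^ 2

/-- `η(z + 1/2) = e(1/48) η(2z)³ / (η(z) η(4z))`. -/
def Stmt_etaHalf : Prop :=
  ∀ z : ℂ, 0 < z.im → η (z + 1 / 2) * (η z * η (4 * z)) = ee (1 / 48) * η (2 * z) ^ 3

/-- `τ : q ↦ -q` on the Hauptmodul of level `4`. -/
def Stmt_tau4 : Prop := ∀ z : ℂ, 0 < z.im → t4 (z + 1 / 2) = - t4 z - 16

/-- `b(ω q) = b(q) + 3 (1 - ω) η(9z)³/η(3z)`. -/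
def Stmt_f9p_eq : Prop :=
  ∀ z : ℂ, 0 < z.im → f9p z = f9 z + 3 * (1 - ee (1 / 3)) * f9s z

/-- `τ : q ↦ ω q` on the Hauptmodul of level `9`. -/
def Stmt_tau9 : Prop := ∀ z : ℂ, 0 < z.im → t9 (z + 1 / 3) + 3 = ee (-1 / 3) * (t9 z + 3)

/-! ## (J) Hauptmoduln -/

/-- the series `T4`, `T9` over `ℚ̄`. -/
noncomputable def T4s : LaurentSeries Qbar := etaLser Qbar (-1) lt4
noncomputable def T9s : LaurentSeries Qbar := etaLser Qbar (-1) lt9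

def Stmt_Haupt4 : Prop :=
  ModularCurve.modularFunctionFieldBar 4 = IntermediateField.adjoin Qbar {T4s}

def Stmt_Haupt9 : Prop :=
  ModularCurve.modularFunctionFieldBar 9 = IntermediateField.adjoin Qbar {T9s}

/-! ## (K) weight one units and the functions `x₁, x₂` -/

/-- `(f, fs)` is a Fricke pair of weight one units of level `a`. -/
structure WU (a : ℕ) (f fs : ℂ → ℂ) (χ : ℤ → ℂ) (C : ℂ) : Prop where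
  diff : DifferentiableOn ℂ f {z : ℂ | 0 < z.im}
  ne_zero : ∀ z : ℂ, 0 < z.im → f z ≠ 0
  ne_zero' : ∀ z : ℂ, 0 < z.im → fs z ≠ 0
  slash : ∀ γ ∈ Gamma0 a, ∀ z : ℍ, f ((γ • z : ℍ) : ℂ) = χ (γ 1 1) * den γ z * f z
  chi_sq : ∀ d, χ d ^ 2 = 1
  chi_one : χ 1 = 1
  frk : ∀ z : ℂ, 0 < z.im → f (-1 / ((a : ℂ) * z)) = C * z * fs z
  C_ne : C ≠ 0

def Stmt_WU4 : Prop := WU 4 f4 f4 chi4 (-2 * I)

def Stmt_WU9 : Prop :=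
  WU 9 f9p f9m chi3 (3 * ee (-1 / 3)) ∧ WU 9 f9m f9p chi3 (-3 * ee (1 / 3))

/-- `x₁ = f(r z) / f(z)`. -/
noncomputable def x1 (f : ℂ → ℂ) (r : ℕ) (z : ℂ) : ℂ := f ((r : ℂ) * z) / f z
/-- `x₂ = f(r² z) / f(r z)`. -/
noncomputable def x2 (f : ℂ → ℂ) (r : ℕ) (z : ℂ) : ℂ := f ((r : ℂ) ^ 2 * z) / f ((r : ℂ) * z)

/-- invariance of `x₁` under `Γ₀(a r)` and of `x₂` under `Γ₀(a r²)`. -/
def Stmt_x_inv : Prop :=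
  ∀ (a : ℕ) (f fs : ℂ → ℂ) (χ : ℤ → ℂ) (C : ℂ) (r : ℕ), WU a f fs χ C → 0 < r →
    (∀ γ ∈ Gamma0 (a * r), ∀ z : ℍ, x1 f r ((γ • z : ℍ) : ℂ) = x1 f r z) ∧
    (∀ γ ∈ Gamma0 (a * r ^ 2), ∀ z : ℍ, x2 f r ((γ • z : ℍ) : ℂ) = x2 f r z)

/-- `W : z ↦ -1/(a r² z)`: `x₁ ∘ W = 1 / (r x₂*)`, `x₂ ∘ W = 1 / (r x₁*)`. -/
def Stmt_x_W : Prop :=
  ∀ (a : ℕ) (f fs : ℂ → ℂ) (χ : ℤ → ℂ) (C : ℂ) (r : ℕ), WU a f fs χ C → 0 < a → 0 < r →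
    ∀ z : ℂ, 0 < z.im →
      x1 f r (-1 / ((a : ℂ) * (r : ℂ) ^ 2 * z)) * ((r : ℂ) * x2 fs r z) = 1 ∧
      x2 f r (-1 / ((a : ℂ) * (r : ℂ) ^ 2 * z)) * ((r : ℂ) * x1 fs r z) = 1

/-- `δ = [[1,0],[a r,1]]`, `a B ≡ 1 (mod r)`: `x₁ ∘ δ = x₁`,
`x₂ ∘ δ = ± (1/r) f(z + B/r) / f(r z)`. -/
def Stmt_x_delta : Prop :=
  ∀ (a : ℕ) (f fs : ℂ → ℂ) (χ : ℤ → ℂ) (C : ℂ) (r : ℕ) (B e : ℤ), WU a f fs χ C → 0 < a → 0 < r →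
    (a : ℤ) * B + (r : ℤ) * e = 1 → ∀ z : ℍ,
      x1 f r ((Ua ((a * r : ℕ) : ℤ) • z : ℍ) : ℂ) = x1 f r z ∧
      x2 f r ((Ua ((a * r : ℕ) : ℤ) • z : ℍ) : ℂ) * ((r : ℂ) * f ((r : ℂ) * z)) =
        χ e * f ((z : ℂ) + (B : ℂ) / (r : ℂ))

/-- an invariant function `t` of level `a` under `δ`: `t(r² δ z) = t(z + B/r)`,
`t(r δ z) = t(r z)`, `t(δ z) = t(z)`. -/
def Stmt_t_delta : Prop :=
  ∀ (a : ℕ) (t : ℂ → ℂ) (r : ℕ) (B e : ℤ), 0 < a → 0 < r →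
    (∀ γ ∈ Gamma0 a, ∀ z : ℍ, t ((γ • z : ℍ) : ℂ) = t z) →
    (a : ℤ) * B + (r : ℤ) * e = 1 → ∀ z : ℍ,
      t ((r : ℂ) ^ 2 * ((Ua ((a * r : ℕ) : ℤ) • z : ℍ) : ℂ)) = t ((z : ℂ) + (B : ℂ) / (r : ℂ)) ∧
      t ((r : ℂ) * ((Ua ((a * r : ℕ) : ℤ) • z : ℍ) : ℂ)) = t ((r : ℂ) * z) ∧
      t ((Ua ((a * r : ℕ) : ℤ) • z : ℍ) : ℂ) = t z

/-- membership in the function field: a holomorphic `Γ₀(N)`-invariant generalised eta quotient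
whose `q`-expansion is `cmI x`. -/
def Stmt_etaG_mem : Prop :=
  ∀ (N : ℕ) [NeZero N] (l : List (ℕ × ℤ × ℕ × ℤ)) (x : LaurentSeries Qbar), PosG l → wt2G l = 0 →
    (∀ γ ∈ Gamma0 N, ∀ z : ℍ, etaG l ((γ • z : ℍ) : ℂ) = etaG l z) → Rep (cmI x) (onH (etaG l)) →
    x ∈ ModularCurve.modularFunctionFieldBar N ∧
    ∃ θ₁ θ₂ : funAlg N, θ₂ ≠ 0 ∧ (∀ z : ℍ, etaG l z * (θ₂ : ℍ → ℂ) z = (θ₁ : ℍ → ℂ) z) ∧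
      x * (qExpHom N θ₂ : LaurentSeries Qbar) = (qExpHom N θ₁ : LaurentSeries Qbar)

end Fermat.Agent.CAR.Unit
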