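import Fermat.Agent.CAR.Unit.Interface
import Fermat.Agent.S36.Val.EmbDefs

/-!
# S36 / CAR / Unit : second interface file, in the language of S36/Val (helper88)

`N = r² M`, `a ∣ M` (`a = 4`, `f = f4` for `r` odd; `a = 9`, `f = f9` for `r = 2`), `r ∤ M`.
* `W = ALData.fn` : the partial Atkin-Lehner involution `W_{r²}`;
* `δ = deltaMat r M = [[1,0],[rM,1]]`.
The units `x₁ = f(rz)/f(z)`, `x₂ = f(r²z)/f(rz)` are eta quotients: lists `lx1 lf r`, `lx2 lf r`.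
-/

set_option autoImplicit false

namespace Fermat.Agent.CAR.Unit

open CongruenceSubgroup Complex Filter Asymptotics
open UpperHalfPlane hiding I
open scoped MatrixGroups Real Manifold ModularForm
open Fermat.Agent.S24 (Qbar FF funAlg iota jF)
open Fermat.Agent.S24.QX (qExpHom cmI Rep Nice)
open Fermat.Agent.S36.Val (ALData deltaMat)
open Fermat.Agent.ES.Mid (tw Growth)
attribute [local instance] Fermat.Agent.S24.algQbarComplex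

/-- `E(z) ↦ E(r z)`. -/
def scaleL (r : ℕ) (l : List (ℕ × ℤ)) : List (ℕ × ℤ) := l.map fun p => (r * p.1, p.2)

/-- `E ↦ 1 / E`. -/
def negL (l : List (ℕ × ℤ)) : List (ℕ × ℤ) := l.map fun p => (p.1, -p.2)

/-- `x₁ = f(r z) / f(z)`. -/
def lx1 (lf : List (ℕ × ℤ)) (r : ℕ) : List (ℕ × ℤ) := scaleL r lf ++ negL lf

/-- `x₂ = f(r² z) / f(r z)`. -/
def lx2 (lf : List (ℕ × ℤ)) (r : ℕ) : List (ℕ × ℤ) := scaleL (r ^ 2) lf ++ negL (scaleL r lf)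

/-- list calculus for eta quotients (functions and series). -/
def Stmt_listCalc : Prop :=
  (∀ l l' z, etaL (l ++ l') z = etaL l z * etaL l' z) ∧
  (∀ l z, etaL (negL l) z = (etaL l z)⁻¹) ∧
  (∀ (r : ℕ) l z, etaL (scaleL r l) z = etaL l ((r : ℂ) * z)) ∧
  (∀ l l', etaLps (l ++ l') = etaLps l * etaLps l') ∧
  (∀ l, PosL l → etaLps (negL l) * etaLps l = 1) ∧
  (∀ (r : ℕ) (hr : r ≠ 0) l, PosL l → etaLps (scaleL r l) = PowerSeries.expand r hr (etaLps l)) ∧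
  (∀ l, PowerSeries.constantCoeff (etaLps l) = 1)

/-- Frobenius: `E(q^r) ≡ E(q)^r mod r`. -/
def Stmt_frob : Prop :=
  ∀ (r : ℕ) l, r.Prime → PosL l →
    ∃ g : PowerSeries ℤ, etaLps (scaleL r l) = etaLps l ^ r + (r : PowerSeries ℤ) * g

/-- a weight one unit of level `a` (an eta quotient with `q`-expansion in `1 + q ℤ⟦q⟧`). -/
structure W1 (a : ℕ) (lf : List (ℕ × ℤ)) (χ : ℤ → ℂ) : Prop where
  pos : PosL lf
  deg : deg24 lf = 0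
  wt : wt2 lf = 2
  slash : ∀ γ ∈ Gamma0 a, ∀ z : ℍ, etaL lf ((γ • z : ℍ) : ℂ) = χ (γ 1 1) * den γ z * etaL lf z
  chi_sq : ∀ d, χ d = 1 ∨ χ d = -1
  chi_one : χ 1 = 1

def Stmt_W1 : Prop := W1 4 lf4 chi4 ∧ W1 9 lf9 chi3

/-! ### function level -/

def Stmt_xL_inv : Prop :=
  ∀ (a : ℕ) lf χ (r M : ℕ), W1 a lf χ → a ∣ M → 0 < r → 0 < M →
    (∀ γ ∈ Gamma0 (r * M), ∀ z : ℍ, etaL (lx1 lf r) ((γ • z : ℍ) : ℂ) = etaL (lx1 lf r) z) ∧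
    (∀ γ ∈ Gamma0 (r ^ 2 * M), ∀ z : ℍ, etaL (lx2 lf r) ((γ • z : ℍ) : ℂ) = etaL (lx2 lf r) z)

/-- `x₁ ∘ W = ± 1 / (r x₂)`, `x₂ ∘ W = ± 1 / (r x₁)`. -/
def Stmt_xL_AL : Prop :=
  ∀ (a : ℕ) lf χ (r M : ℕ), W1 a lf χ → a ∣ M → 0 < r → 0 < M → ∀ (D : ALData (r ^ 2) M) (τ : ℍ),
    etaL (lx1 lf r) (D.fn τ : ℂ) * ((r : ℂ) * etaL (lx2 lf r) τ) = χ (r * D.w) * χ (r ^ 2 * D.w) ∧
    etaL (lx2 lf r) (D.fn τ : ℂ) * ((r : ℂ) * etaL (lx1 lf r) τ) = χ D.w * χ (r * D.w)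

/-- `x₁ ∘ δ = x₁`, `x₂ ∘ δ = ± (1/r) f(τ + s/r) / f(r τ)`, `s M = 1 + r k`. -/
def Stmt_xL_delta : Prop :=
  ∀ (a : ℕ) lf χ (r M : ℕ) (s k : ℤ), W1 a lf χ → a ∣ M → 0 < r → 0 < M → s * M = 1 + r * k →
    ∀ τ : ℍ,
      etaL (lx1 lf r) ((deltaMat r M • τ : ℍ) : ℂ) = etaL (lx1 lf r) τ ∧
      etaL (lx2 lf r) ((deltaMat r M • τ : ℍ) : ℂ) * ((r : ℂ) * etaL lf ((r : ℂ) * τ)) =
        χ (-k) * etaL lf ((τ : ℂ) + (s : ℂ) / (r : ℂ))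

/-- an invariant function of level `a` under `W`. -/
def Stmt_tL_AL : Prop :=
  ∀ (a : ℕ) (t : ℂ → ℂ) (r M : ℕ), (∀ γ ∈ Gamma0 a, ∀ z : ℍ, t ((γ • z : ℍ) : ℂ) = t z) →
    a ∣ M → 0 < r → 0 < M → ∀ (D : ALData (r ^ 2) M) (τ : ℍ),
      t (D.fn τ : ℂ) = t ((r : ℂ) ^ 2 * τ) ∧ t ((r : ℂ) * (D.fn τ : ℂ)) = t ((r : ℂ) * τ) ∧
      t ((r : ℂ) ^ 2 * (D.fn τ : ℂ)) = t τ

/-- an invariant function of level `a` under `δ`. -/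
def Stmt_tL_delta : Prop :=
  ∀ (a : ℕ) (t : ℂ → ℂ) (r M : ℕ) (s k : ℤ),
    (∀ γ ∈ Gamma0 a, ∀ z : ℍ, t ((γ • z : ℍ) : ℂ) = t z) →
    a ∣ M → 0 < r → 0 < M → s * M = 1 + r * k → ∀ τ : ℍ,
      t ((deltaMat r M • τ : ℍ) : ℂ) = t τ ∧
      t ((r : ℂ) * ((deltaMat r M • τ : ℍ) : ℂ)) = t ((r : ℂ) * τ) ∧
      t ((r : ℂ) ^ 2 * ((deltaMat r M • τ : ℍ) : ℂ)) = t ((τ : ℂ) + (s : ℂ) / (r : ℂ))

/-! ### ready for `S36.Val.Stmt_TransportInv` -/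

/-- analytic properties of a weight `0` eta quotient with integral order at `∞`. -/
def Stmt_etaL_good : Prop :=
  ∀ l (n : ℤ), PosL l → wt2 l = 0 → deg24 l = 24 * n →
    MDiff (onH (etaL l)) ∧ Growth (onH (etaL l)) ∧ Rep (cmI (etaLser Qbar n l)) (onH (etaL l))

/-- the `q`-expansions of `x₁ ∘ W`, `x₂ ∘ W`. -/
def Stmt_repX_AL : Prop :=
  ∀ (a : ℕ) lf χ (r M : ℕ), W1 a lf χ → a ∣ M → 0 < r → 0 < M → ∀ D : ALData (r ^ 2) M,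
    ∃ ε₁ ε₂ : Qbar, (ε₁ = 1 ∨ ε₁ = -1) ∧ (ε₂ = 1 ∨ ε₂ = -1) ∧
      Rep (cmI ((ε₁ * (r : Qbar)⁻¹) • etaLser Qbar 0 (negL (lx2 lf r))))
        (fun τ => etaL (lx1 lf r) (D.fn τ : ℂ)) ∧
      Rep (cmI ((ε₂ * (r : Qbar)⁻¹) • etaLser Qbar 0 (negL (lx1 lf r))))
        (fun τ => etaL (lx2 lf r) (D.fn τ : ℂ))

/-- the `q`-expansions of `x₁ ∘ δ`, `x₂ ∘ δ`; `ζ = e(s/r)`. -/
def Stmt_repX_delta : Prop :=
  ∀ (a : ℕ) lf χ (r M : ℕ) (s k : ℤ) (ζ : Qbarˣ), W1 a lf χ → a ∣ M → 0 < r → 0 < M →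
    s * M = 1 + r * k → iota (ζ : Qbar) = ee ((s : ℂ) / (r : ℂ)) →
    Rep (cmI (etaLser Qbar 0 (lx1 lf r))) (fun τ => etaL (lx1 lf r) ((deltaMat r M • τ : ℍ) : ℂ)) ∧
    ∃ ε : Qbar, (ε = 1 ∨ ε = -1) ∧
      Rep (cmI ((ε * (r : Qbar)⁻¹) •
          (tw ζ (etaLser Qbar 0 lf) * etaLser Qbar 0 (negL (scaleL r lf)))))
        (fun τ => etaL (lx2 lf r) ((deltaMat r M • τ : ℍ) : ℂ))

/-- the `q`-expansions of `t(r^i W τ)` and `t(r^i δ τ)` for an invariant eta quotient `t = etaL l`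
of level `a`, weight `0`, order `n` at `∞`. -/
def Stmt_repT : Prop :=
  ∀ (a : ℕ) l (n : ℤ) (r M : ℕ) (s k : ℤ) (ζ : Qbarˣ), PosL l → wt2 l = 0 → deg24 l = 24 * n →
    (∀ γ ∈ Gamma0 a, ∀ z : ℍ, etaL l ((γ • z : ℍ) : ℂ) = etaL l z) →
    a ∣ M → 0 < r → 0 < M → s * M = 1 + r * k → iota (ζ : Qbar) = ee ((s : ℂ) / (r : ℂ)) →
    (∀ D : ALData (r ^ 2) M,
      Rep (cmI (etaLser Qbar (r ^ 2 * n) (scaleL (r ^ 2) l))) (fun τ => etaL l (D.fn τ : ℂ)) ∧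
      Rep (cmI (etaLser Qbar (r * n) (scaleL r l))) (fun τ => etaL (scaleL r l) (D.fn τ : ℂ)) ∧
      Rep (cmI (etaLser Qbar n l)) (fun τ => etaL (scaleL (r ^ 2) l) (D.fn τ : ℂ))) ∧
    Rep (cmI (etaLser Qbar n l)) (fun τ => etaL l ((deltaMat r M • τ : ℍ) : ℂ)) ∧
    Rep (cmI (etaLser Qbar (r * n) (scaleL r l)))
      (fun τ => etaL (scaleL r l) ((deltaMat r M • τ : ℍ) : ℂ)) ∧
    Rep (cmI (tw ζ (etaLser Qbar n l)))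
      (fun τ => etaL (scaleL (r ^ 2) l) ((deltaMat r M • τ : ℍ) : ℂ))

/-! ### integrality over `ℚ̄[j]` -/

/-- [INT-J] a holomorphic `Γ₀(N)`-invariant function of moderate growth is integral over
`ℚ̄[j]`. -/
def Stmt_IntJ : Prop :=
  ∀ (N : ℕ) [NeZero N] (Y : ℍ → ℂ) (y : FF N), MDiff Y →
    (∀ γ ∈ Gamma0 N, ∀ z : ℍ, Y (γ • z) = Y z) → Growth Y →
    Rep (cmI (y : LaurentSeries Qbar)) Y →
    IsIntegral (Algebra.adjoin Qbar ({jF N} : Set (FF N))) y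

/-- the elements of `FF N` attached to invariant eta quotients of weight `0`: they and their
inverses are integral over `ℚ̄[j]`. -/
def Stmt_etaL_elt : Prop :=
  ∀ (N : ℕ) [NeZero N] l (n : ℤ), PosL l → wt2 l = 0 → deg24 l = 24 * n →
    (∀ γ ∈ Gamma0 N, ∀ z : ℍ, etaL l ((γ • z : ℍ) : ℂ) = etaL l z) →
    ∃ y : FF N, (y : LaurentSeries Qbar) = etaLser Qbar n l ∧ y ≠ 0 ∧
      IsIntegral (Algebra.adjoin Qbar ({jF N} : Set (FF N))) y ∧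
      IsIntegral (Algebra.adjoin Qbar ({jF N} : Set (FF N))) y⁻¹

end Fermat.Agent.CAR.Unit
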