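import Fermat.Agent.CAR.Unit.Interface2
import Fermat.Agent.S36.Val.Interface2

/-!
# S36 / CAR / Unit : third interface file, the units at the level of `F_E = FE A N` (helper37)

Context `C : Val.Ctx A r M` (helper88): the three valuation rings `C.O 0, C.O 1, C.O 2` (`A`, `mid`, `C`)
of `FE A (r² M)` are the Gauss rings with respect to `phiA`, `phiM`, `phiC`.
`a ∣ M`, `f = etaL lf` a weight one unit of level `a` (`W1 a lf χ`), `x₁ = f(rz)/f(z)`,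
`x₂ = f(r²z)/f(rz)`.  Output (`Stmt_valX`, `Stmt_beta4`, `Stmt_intE`):
`aA = r x₂`, `aC = 1/x₁`, `aM = x₁/x₂` have `ord = (1,0,0), (0,0,1), (0,r-1,0)`,
`aA ≡ ± aC` on `mid`, `aM ≡ aC^(r-1)` on `A`, and for `β = t₄(q^(r²)) - t₄(q)` :
`β^(r-1) / aM ≡ ± t₄^(r-1)` on `mid`; all these elements and their inverses are integral over `E[j]`.
-/

set_option autoImplicit false

namespace Fermat.Agent.CAR.Unit

open CongruenceSubgroup Complex
open UpperHalfPlane hiding I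
open scoped MatrixGroups Real Manifold ModularForm
open Fermat.Agent.S24 (Qbar FF funAlg iota jF)
open Fermat.Agent.S24.QX (qExpHom cmI Rep Nice)
open Fermat.Agent.S36.Val (ALData ALMap MidData deltaMat Ctx phiA phiM phiC jE GInt gred resA)
open Fermat.Agent.S36.Base (IE AE FE emb cmE)
open Fermat.Agent.INJ.Inst (kA)
open Fermat.Agent.INJ.Inst.Gauss (rho inc)
open Fermat.Agent.ES.Mid (tw Growth)
open Fermat.Agent.KL.Haupt (lau)
open ModularCurve (coeffMap qExpand)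
attribute [local instance] Fermat.Agent.S24.algQbarComplex

/-! ### (M) formal calculus of the series `etaLser R n l = q^n ∏ E(q^d)^e` -/

/-- functoriality, products, inverses, `q ↦ q^r`, Frobenius. -/
def Stmt_serCalc : Prop :=
  (∀ (R S : Type) [CommRing R] [CommRing S] (f : R →+* S) (n : ℤ) l,
    coeffMap f (etaLser R n l) = etaLser S n l) ∧
  (∀ (R : Type) [CommRing R] (n n' : ℤ) l l',
    etaLser R n l * etaLser R n' l' = etaLser R (n + n') (l ++ l')) ∧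
  (∀ (R : Type) [CommRing R] (n : ℤ) l, etaLser R n l * etaLser R (-n) (negL l) = 1) ∧
  (∀ (R : Type) [CommRing R] (r : ℕ) [NeZero r] (n : ℤ) l, PosL l →
    qExpand R r (etaLser R n l) = etaLser R (r * n) (scaleL r l)) ∧
  (∀ (k : Type) [Field k] (r : ℕ) (n : ℤ) l, r.Prime → (r : k) = 0 → PosL l →
    etaLser k (r * n) (scaleL r l) = etaLser k n l ^ r) ∧
  (∀ (k : Type) [Field k] (n : ℤ) l, etaLser k n l ≠ 0)

/-- the numerical invariants of the lists. -/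
def Stmt_listNum : Prop :=
  (∀ l l', wt2 (l ++ l') = wt2 l + wt2 l' ∧ deg24 (l ++ l') = deg24 l + deg24 l' ∧
    (PosL l → PosL l' → PosL (l ++ l'))) ∧
  (∀ l, wt2 (negL l) = - wt2 l ∧ deg24 (negL l) = - deg24 l ∧ (PosL l → PosL (negL l))) ∧
  (∀ (r : ℕ) l, wt2 (scaleL r l) = wt2 l ∧ deg24 (scaleL r l) = r * deg24 l ∧
    (0 < r → PosL l → PosL (scaleL r l)))

/-- Gauss valuation of the eta series. -/
def Stmt_gaussEta : Prop :=
  ∀ (A : ValuationSubring Qbar) (n : ℤ) l,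
    GInt A (etaLser Qbar n l) ∧ gred A (etaLser Qbar n l) = etaLser (kA A) n l

/-- `x(ζ q) - x(q) = (ζ - 1) h`, `h ≡ θ x`, for `x = q^n P(q)`, `P ∈ ℤ⟦q⟧`. -/
def Stmt_twTheta : Prop :=
  ∀ (A : ValuationSubring Qbar) (r : ℕ), r.Prime → A.LiesOverPrime r → ∀ ζ : Qbarˣ, ζ ^ r = 1 →
    ∀ (n : ℤ) (P : PowerSeries ℤ), ∃ h : LaurentSeries A,
      tw ζ (HahnSeries.single n 1 * lau Qbar P) - HahnSeries.single n 1 * lau Qbar P
        = algebraMap Qbar (LaurentSeries Qbar) ((ζ : Qbar) - 1) * inc A h ∧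
      rho (resA A) h
        = HahnSeries.single n 1 * lau (kA A) (Fermat.Agent.S16.theta P + (n : PowerSeries ℤ) * P)

/-- Wilson: `r / (ζ - 1)^(r-1) ≡ -1`. -/
def Stmt_wilson : Prop :=
  ∀ (A : ValuationSubring Qbar) (r : ℕ), r.Prime → A.LiesOverPrime r → ∀ ζ : Qbarˣ,
    IsPrimitiveRoot ζ r →
    ∃ c : A, (c : Qbar) * ((ζ : Qbar) - 1) ^ (r - 1) = r ∧ resA A c = -1

/-! ### (N) the elements of `F_E` -/

/-- `x ∈ F_E(N)` has the `q`-expansion `q^n ∏ E(q^d)^e`. -/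
def IsEta (A : ValuationSubring Qbar) {N : ℕ} (x : FE A N) (n : ℤ) (l : List (ℕ × ℤ)) : Prop :=
  (x : Fermat.Agent.S36.Base.LE A) = etaLser (IE A) n l

/-- `etaL l` is a modular unit of level `N` with order `n` at `∞`. -/
structure MU (N : ℕ) (n : ℤ) (l : List (ℕ × ℤ)) : Prop where
  pos : PosL l
  wt : wt2 l = 0
  deg : deg24 l = 24 * n
  inv : ∀ γ ∈ Gamma0 N, ∀ z : ℍ, etaL l ((γ • z : ℍ) : ℂ) = etaL l z

/-- modular units: inverse, product, raising the level, `z ↦ r z`; the units `x₁`, `x₂`. -/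
def Stmt_MU : Prop :=
  (∀ N n l, MU N n l → MU N (-n) (negL l)) ∧
  (∀ N n n' l l', MU N n l → MU N n' l' → MU N (n + n') (l ++ l')) ∧
  (∀ N N' n l, N ∣ N' → MU N n l → MU N' n l) ∧
  (∀ (N r : ℕ) n l, 0 < r → MU N n l → MU (r * N) (r * n) (scaleL r l)) ∧
  (∀ (a : ℕ) lf χ (r M : ℕ), W1 a lf χ → a ∣ M → 0 < r → 0 < M →
    MU (r * M) 0 (lx1 lf r) ∧ MU (r ^ 2 * M) 0 (lx2 lf r)) ∧
  MU 4 (-1) lt4 ∧ MU 9 (-1) lt9

/-- existence (descent from `FF N` to `F_E`). -/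
def Stmt_eltE : Prop :=
  ∀ (A : ValuationSubring Qbar) (N : ℕ) [NeZero N] (n : ℤ) l, MU N n l → ∃ x : FE A N, IsEta A x n l

/-- descent of integrality over `ℚ̄[j]` to `E[j]`. -/
def Stmt_IntJE : Prop :=
  ∀ (A : ValuationSubring Qbar) (N : ℕ) [NeZero N] (x : FE A N),
    IsIntegral (Algebra.adjoin Qbar ({jF N} : Set (FF N))) (emb A N x) →
    IsIntegral (Algebra.adjoin (IE A) ({jE A N 1} : Set (FE A N))) x

/-- **output 1**: modular units and their inverses are integral over `E[j]`. -/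
def Stmt_intE : Prop :=
  ∀ (A : ValuationSubring Qbar) (N : ℕ) [NeZero N] (n : ℤ) l (x : FE A N), MU N n l →
    IsEta A x n l → x ≠ 0 ∧
      IsIntegral (Algebra.adjoin (IE A) ({jE A N 1} : Set (FE A N))) x ∧
      IsIntegral (Algebra.adjoin (IE A) ({jE A N 1} : Set (FE A N))) x⁻¹

/-! ### (P) the three embeddings -/

/-- the root of unity of a `MidData`. -/
def Stmt_midZeta : Prop :=
  ∀ (r M : ℕ) [NeZero (r ^ 2 * M)], r.Prime → ¬ r ∣ M → ∀ D : MidData r M,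
    ∃ s k : ℤ, s * M = 1 + r * k ∧ iota (D.ζ : Qbar) = ee ((s : ℂ) / (r : ℂ))

/-- transport of `q`-expansions to the three embeddings. -/
def Stmt_phiEta : Prop :=
  ∀ (A : ValuationSubring Qbar) (r M : ℕ) [NeZero (r ^ 2 * M)] (n : ℤ) l (x : FE A (r ^ 2 * M)),
    MU (r ^ 2 * M) n l → IsEta A x n l →
    phiA A (r ^ 2 * M) x = etaLser Qbar n l ∧
    (∀ (Wm : ALMap (r ^ 2) M) (D : ALData (r ^ 2) M) (y : LaurentSeries Qbar),
      Rep (cmI y) (fun τ => etaL l (D.fn τ : ℂ)) → phiC A Wm x = y) ∧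
    (∀ (D : MidData r M) (y : LaurentSeries Qbar),
      Rep (cmI y) (fun τ => etaL l ((deltaMat r M • τ : ℍ) : ℂ)) → phiM A D x = y)

/-- the images of `x₁`, `x₂`. -/
def Stmt_phiX : Prop :=
  ∀ (A : ValuationSubring Qbar) (r M : ℕ) [NeZero r] [NeZero M] [NeZero (r * M)]
    [NeZero (r ^ 2 * M)] (C : Ctx A r M) (a : ℕ) lf χ (X1 X2 : FE A (r ^ 2 * M)),
    W1 a lf χ → a ∣ M → IsEta A X1 0 (lx1 lf r) → IsEta A X2 0 (lx2 lf r) →
    phiA A (r ^ 2 * M) X1 = etaLser Qbar 0 (lx1 lf r) ∧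
    phiA A (r ^ 2 * M) X2 = etaLser Qbar 0 (lx2 lf r) ∧
    phiM A C.D X1 = etaLser Qbar 0 (lx1 lf r) ∧
    (∃ ε : Qbar, (ε = 1 ∨ ε = -1) ∧ phiM A C.D X2 = (ε * (r : Qbar)⁻¹) •
      (tw C.D.ζ (etaLser Qbar 0 lf) * etaLser Qbar 0 (negL (scaleL r lf)))) ∧
    (∃ ε : Qbar, (ε = 1 ∨ ε = -1) ∧
      phiC A C.W2 X1 = (ε * (r : Qbar)⁻¹) • etaLser Qbar 0 (negL (lx2 lf r))) ∧
    (∃ ε : Qbar, (ε = 1 ∨ ε = -1) ∧
      phiC A C.W2 X2 = (ε * (r : Qbar)⁻¹) • etaLser Qbar 0 (negL (lx1 lf r)))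

/-- the images of `t(z)`, `t(rz)`, `t(r²z)` for a modular unit `t` of level `a ∣ M`. -/
def Stmt_phiT : Prop :=
  ∀ (A : ValuationSubring Qbar) (r M : ℕ) [NeZero r] [NeZero M] [NeZero (r * M)]
    [NeZero (r ^ 2 * M)] (C : Ctx A r M) (a : ℕ) (n : ℤ) l (T0 T1 T2 : FE A (r ^ 2 * M)),
    MU a n l → a ∣ M → IsEta A T0 n l → IsEta A T1 (r * n) (scaleL r l) →
    IsEta A T2 (r ^ 2 * n) (scaleL (r ^ 2) l) →
    (phiA A (r ^ 2 * M) T0 = etaLser Qbar n l ∧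
      phiA A (r ^ 2 * M) T1 = etaLser Qbar (r * n) (scaleL r l) ∧
      phiA A (r ^ 2 * M) T2 = etaLser Qbar (r ^ 2 * n) (scaleL (r ^ 2) l)) ∧
    (phiM A C.D T0 = etaLser Qbar n l ∧ phiM A C.D T1 = etaLser Qbar (r * n) (scaleL r l) ∧
      phiM A C.D T2 = tw C.D.ζ (etaLser Qbar n l)) ∧
    (phiC A C.W2 T0 = etaLser Qbar (r ^ 2 * n) (scaleL (r ^ 2) l) ∧
      phiC A C.W2 T1 = etaLser Qbar (r * n) (scaleL r l) ∧ phiC A C.W2 T2 = etaLser Qbar n l)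

/-! ### (Q) valuations and congruences -/

/-- **output 2**: `aA = r x₂`, `aC = 1/x₁`, `aM = x₁/x₂`. -/
def Stmt_valX : Prop :=
  ∀ (A : ValuationSubring Qbar) (r M : ℕ) [NeZero r] [NeZero M] [NeZero (r * M)]
    [NeZero (r ^ 2 * M)] (C : Ctx A r M) (a : ℕ) lf χ (X1 X2 : FE A (r ^ 2 * M)),
    W1 a lf χ → a ∣ M → IsEta A X1 0 (lx1 lf r) → IsEta A X2 0 (lx2 lf r) →
    ((C.O 0).valuation X1 = 1 ∧ (C.O 0).valuation X2 = 1) ∧
    ((C.O 1).valuation X1 = 1 ∧ (C.O 1).valuation ((r : FE A (r ^ 2 * M)) * X2) = 1) ∧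
    ((C.O 2).valuation ((r : FE A (r ^ 2 * M)) * X1) = 1 ∧
      (C.O 2).valuation ((r : FE A (r ^ 2 * M)) * X2) = 1) ∧
    (∃ ε : FE A (r ^ 2 * M), (ε = 1 ∨ ε = -1) ∧
      (C.O 1).valuation ((r : FE A (r ^ 2 * M)) * X2 - ε * X1⁻¹) < 1) ∧
    (C.O 0).valuation (X1 / X2 - X1⁻¹ ^ (r - 1)) < 1

/-- the same in terms of `C.ord`. -/
def Stmt_ordX : Prop :=
  ∀ (A : ValuationSubring Qbar) (r M : ℕ) [NeZero r] [NeZero M] [NeZero (r * M)]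
    [NeZero (r ^ 2 * M)] (C : Ctx A r M) (a : ℕ) lf χ (X1 X2 : FE A (r ^ 2 * M)),
    W1 a lf χ → a ∣ M → IsEta A X1 0 (lx1 lf r) → IsEta A X2 0 (lx2 lf r) →
    (C.ord 0 ((r : FE A (r ^ 2 * M)) * X2) = 1 ∧ C.ord 1 ((r : FE A (r ^ 2 * M)) * X2) = 0 ∧
      C.ord 2 ((r : FE A (r ^ 2 * M)) * X2) = 0) ∧
    (C.ord 0 X1⁻¹ = 0 ∧ C.ord 1 X1⁻¹ = 0 ∧ C.ord 2 X1⁻¹ = 1) ∧
    (C.ord 0 (X1 / X2) = 0 ∧ C.ord 1 (X1 / X2) = (r : ℤ) - 1 ∧ C.ord 2 (X1 / X2) = 0)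

/-- valuations of `t(z)`, `t(rz)`, `t(r²z)`: units on all three components, with the Frobenius
congruences. -/
def Stmt_valT : Prop :=
  ∀ (A : ValuationSubring Qbar) (r M : ℕ) [NeZero r] [NeZero M] [NeZero (r * M)]
    [NeZero (r ^ 2 * M)] (C : Ctx A r M) (a : ℕ) (n : ℤ) l (T0 T1 T2 : FE A (r ^ 2 * M)),
    MU a n l → a ∣ M → IsEta A T0 n l → IsEta A T1 (r * n) (scaleL r l) →
    IsEta A T2 (r ^ 2 * n) (scaleL (r ^ 2) l) →
    (∀ X, (C.O X).valuation T0 = 1 ∧ (C.O X).valuation T1 = 1 ∧ (C.O X).valuation T2 = 1) ∧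
    ((C.O 0).valuation (T1 - T0 ^ r) < 1 ∧ (C.O 0).valuation (T2 - T1 ^ r) < 1) ∧
    ((C.O 1).valuation (T1 - T0 ^ r) < 1 ∧ (C.O 1).valuation (T2 - T0) < 1) ∧
    ((C.O 2).valuation (T1 - T2 ^ r) < 1 ∧ (C.O 2).valuation (T0 - T1 ^ r) < 1)

/-- **output 3** (`r` odd, `a = 4`): `β = t₄(q^(r²)) - t₄(q)`, `β^(r-1) = aM γ`, `γ ≡ ± t₄^(r-1)` on the
middle component. -/
def Stmt_beta4 : Prop :=
  ∀ (A : ValuationSubring Qbar) (r M : ℕ) [NeZero r] [NeZero M] [NeZero (r * M)]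
    [NeZero (r ^ 2 * M)] (C : Ctx A r M) (X1 X2 T0 T2 : FE A (r ^ 2 * M)), 4 ∣ M →
    IsEta A X1 0 (lx1 lf4 r) → IsEta A X2 0 (lx2 lf4 r) → IsEta A T0 (-1) lt4 →
    IsEta A T2 (r ^ 2 * (-1)) (scaleL (r ^ 2) lt4) →
    ∃ ε : FE A (r ^ 2 * M), (ε = 1 ∨ ε = -1) ∧
      (C.O 1).valuation ((T2 - T0) ^ (r - 1) * (X2 / X1) - ε * T0 ^ (r - 1)) < 1

end Fermat.Agent.CAR.Unit
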