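import Fermat.Agent.CAR.Unit.Interface3
import Fermat.Agent.S36.Reg.Interface2
import Fermat.Agent.S36.Dict.Interface

/-!
# S36 / CAR / Unit : fourth interface file, the glue to `Reg.FactsX`, `Reg.FactsB` (helper37)

Final output of the package [UNIT] : `Stmt_Facts`.
-/

set_option autoImplicit false

namespace Fermat.Agent.CAR.Unit

open Fermat.Agent.S24 (Qbar FF)
open Fermat.Agent.S36.Val (Ctx jE)
open Fermat.Agent.S36.Base (IE AE FE emb cmE)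
open Fermat.Agent.S36.Reg (IntJ FactsX FactsB)
open Fermat.Agent.S36.Dict (auxLevel)

/-- integral over `E[j]` ⟹ `r ^ k z` is integral over `A_E[j]`. -/
def Stmt_IntJA : Prop :=
  ∀ (A : ValuationSubring Qbar) (r N : ℕ) [NeZero N], r.Prime → A.LiesOverPrime r →
    ∀ x : FE A N, IsIntegral (Algebra.adjoin (IE A) ({jE A N 1} : Set (FE A N))) x →
      IntJ (AE A) r (jE A N 1) x

/-- `j t⁴ (t + 16) = (t² + 256 t + 4096)³` for `t = η(z)^8 / η(4z)^8`. -/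
def Stmt_relT4 : Prop :=
  ∀ (R : Type) [CommRing R],
    Fermat.Agent.S28.jd R 1 * (etaLser R (-1) lt4 ^ 4 * (etaLser R (-1) lt4 + 16))
      = (etaLser R (-1) lt4 ^ 2 + 256 * etaLser R (-1) lt4 + 4096) ^ 3

/-- `t₄` and `1 / t₄` are integral over `A_E[j]`, `r` odd. -/
def Stmt_intT4 : Prop :=
  ∀ (A : ValuationSubring Qbar) (r N : ℕ) [NeZero N], r.Prime → r ≠ 2 → A.LiesOverPrime r →
    ∀ T0 : FE A N, IsEta A T0 (-1) lt4 →
      IsIntegral (Algebra.adjoin (AE A) ({jE A N 1} : Set (FE A N))) T0 ∧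
      IsIntegral (Algebra.adjoin (AE A) ({jE A N 1} : Set (FE A N))) T0⁻¹

/-- `t(q^(r²)) - t(q)` is a unit on the components `A` and `C` (`t` with a pole or a zero at `∞`). -/
def Stmt_valBeta : Prop :=
  ∀ (A : ValuationSubring Qbar) (r M : ℕ) [NeZero r] [NeZero M] [NeZero (r * M)]
    [NeZero (r ^ 2 * M)] (C : Ctx A r M) (a : ℕ) (n : ℤ) l (T0 T2 : FE A (r ^ 2 * M)),
    MU a n l → a ∣ M → n ≠ 0 → IsEta A T0 n l → IsEta A T2 (r ^ 2 * n) (scaleL (r ^ 2) l) →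
    (C.O 0).valuation (T2 - T0) = 1 ∧ (C.O 2).valuation (T2 - T0) = 1

/-- the facts on the units. -/
def Stmt_factsX : Prop :=
  ∀ (A : ValuationSubring Qbar) (r M : ℕ) [NeZero r] [NeZero M] [NeZero (r * M)]
    [NeZero (r ^ 2 * M)] (C : Ctx A r M) (a : ℕ) lf χ (X1 X2 : FE A (r ^ 2 * M)),
    W1 a lf χ → a ∣ M → IsEta A X1 0 (lx1 lf r) → IsEta A X2 0 (lx2 lf r) →
    ∃ X : FactsX (AE A) (FE A (r ^ 2 * M)) r C.ord (jE A (r ^ 2 * M) 1),
      X.aA = (r : FE A (r ^ 2 * M)) * X2 ∧ X.aC = X1⁻¹ ∧ X.aM = X1 / X2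

/-- the facts on `β`, `r` odd. -/
def Stmt_factsB4 : Prop :=
  ∀ (A : ValuationSubring Qbar) (r M : ℕ) [NeZero r] [NeZero M] [NeZero (r * M)]
    [NeZero (r ^ 2 * M)] (C : Ctx A r M) (X1 X2 T0 T2 : FE A (r ^ 2 * M)), 4 ∣ M →
    IsEta A X1 0 (lx1 lf4 r) → IsEta A X2 0 (lx2 lf4 r) → IsEta A T0 (-1) lt4 →
    IsEta A T2 (r ^ 2 * (-1)) (scaleL (r ^ 2) lt4) →
    Nonempty (FactsB (AE A) (FE A (r ^ 2 * M)) r C.ord (jE A (r ^ 2 * M) 1) (X1 / X2))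

/-- the facts on `β = aM`, `r = 2` (abstract). -/
def Stmt_factsB2 : Prop :=
  ∀ (A₀ F : Type) [CommRing A₀] [Field F] [Algebra A₀ F] (ord : Fin 3 → F → ℤ) (j : F)
    (X : FactsX A₀ F 2 ord j), Nonempty (FactsB A₀ F 2 ord j X.aM)

/-- **the final output of [UNIT]**. -/
def Stmt_Facts : Prop :=
  ∀ (A : ValuationSubring Qbar) (r M : ℕ) [NeZero r] [NeZero M] [NeZero (r * M)]
    [NeZero (r ^ 2 * M)] (C : Ctx A r M), auxLevel r ∣ M →
    ∃ X : FactsX (AE A) (FE A (r ^ 2 * M)) r C.ord (jE A (r ^ 2 * M) 1),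
      Nonempty (FactsB (AE A) (FE A (r ^ 2 * M)) r C.ord (jE A (r ^ 2 * M) 1) X.aM)

end Fermat.Agent.CAR.Unit
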