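import Fermat.Agent.CAR.Unit.Interface
import Fermat.Agent.KL.HauptTrunc

/-!
# S36 / CAR / Unit : (I2) Jacobi's identity `θ₃⁴ = θ₄⁴ + θ₂⁴` and `u4 = t4 + 16`
-/

set_option autoImplicit false

namespace Fermat.Agent.CAR.Unit

open CongruenceSubgroup Complex
open UpperHalfPlane hiding I
open scoped MatrixGroups
open Fermat.Agent.KL.Haupt (HasQ toC)

noncomputable section

local notation "η" => ModularForm.eta

/-! ### formal eta quotients -/

theorem Jac_constantCoeff_Eps (d : ℕ) : PowerSeries.constantCoeff (Eps d) = 1 := by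
  unfold Eps
  split_ifs with h
  · simp
  · rw [← PowerSeries.coeff_zero_eq_constantCoeff_apply, PowerSeries.coeff_expand]
    simp [ModularCurve.constantCoeff_etaProd]

theorem Jac_Eps_mul_inv (d : ℕ) : Eps d * EpsInv d = 1 :=
  PowerSeries.mul_invOfUnit _ 1 (by simp [Jac_constantCoeff_Eps])

theorem Jac_lA3 : etaLps lA3 = Eps 2 ^ 20 * (EpsInv 1 ^ 8 * EpsInv 4 ^ 8) := by
  simp [etaLps, lA3]

theorem Jac_lA4 : etaLps lA4 = Eps 1 ^ 8 * EpsInv 2 ^ 4 := by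
  simp [etaLps, lA4]

theorem Jac_lA2 : etaLps lA2 = Eps 4 ^ 8 * EpsInv 2 ^ 4 := by
  simp [etaLps, lA2]

theorem Jac_lu4 : etaLps lu4 = Eps 2 ^ 24 * (EpsInv 1 ^ 8 * EpsInv 4 ^ 16) := by
  simp [etaLps, lu4]

theorem Jac_lt4 : etaLps lt4 = Eps 1 ^ 8 * EpsInv 4 ^ 8 := by
  simp [etaLps, lt4]

/-! ### computations modulo `X ^ 2` -/

/-- `ℤ⟦X⟧ / (X ^ 2)`. -/
abbrev JacQ2 : Type := PowerSeries ℤ ⧸ Ideal.span {(PowerSeries.X : PowerSeries ℤ) ^ 2}

/-- the quotient map. -/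
abbrev Jac_mk2 : PowerSeries ℤ →+* JacQ2 := Ideal.Quotient.mk _

/-- the class of `X`. -/
abbrev Jac_x2 : JacQ2 := Jac_mk2 PowerSeries.X

theorem Jac_x2_pow : Jac_x2 ^ 2 = 0 := by
  rw [← map_pow, Ideal.Quotient.eq_zero_iff_mem]
  exact Ideal.mem_span_singleton_self _

theorem Jac_mk2_eq_zero_iff (p : PowerSeries ℤ) : Jac_mk2 p = 0 ↔ ∀ n < 2, p.coeff n = 0 := by
  rw [Ideal.Quotient.eq_zero_iff_mem, Ideal.mem_span_singleton, PowerSeries.X_pow_dvd_iff]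

theorem Jac_mk2_eq (p : PowerSeries ℤ) :
    Jac_mk2 p = (p.coeff 0 : JacQ2) + (p.coeff 1 : JacQ2) * Jac_x2 := by
  have h : Jac_mk2 (p - ((p.coeff 0 : PowerSeries ℤ)
      + (p.coeff 1 : PowerSeries ℤ) * PowerSeries.X)) = 0 := by
    rw [Jac_mk2_eq_zero_iff]
    intro n hn
    have hc : ∀ c : ℤ, (c : PowerSeries ℤ) = PowerSeries.C c := fun c => by simp
    simp only [hc, map_sub, map_add, PowerSeries.coeff_C_mul, PowerSeries.coeff_C,
      PowerSeries.coeff_X]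
    interval_cases n <;> simp
  rw [map_sub, sub_eq_zero] at h
  rw [h]
  simp only [map_add, map_mul, map_intCast]

theorem Jac_coeff_etaProd_zero : ModularCurve.etaProd.coeff 0 = 1 := by
  rw [PowerSeries.coeff_zero_eq_constantCoeff_apply, ModularCurve.constantCoeff_etaProd]

theorem Jac_coeff_etaProd_one : ModularCurve.etaProd.coeff 1 = -1 := by
  rw [Fermat.Agent.KL.Haupt.etaProd_eq]
  have := PowerSeries.coeff_pentagonalSeries_pentagonal (R := ℤ) 1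
  simpa [pentagonal] using this

theorem Jac_mk2_Eps1 : Jac_mk2 (Eps 1) = 1 - Jac_x2 := by
  rw [Jac_mk2_eq]
  simp only [Eps, one_ne_zero, dite_false, PowerSeries.coeff_expand]
  norm_num [Jac_coeff_etaProd_zero, Jac_coeff_etaProd_one]
  ring

theorem Jac_mk2_Eps2 : Jac_mk2 (Eps 2) = 1 := by
  rw [Jac_mk2_eq]
  simp only [Eps, two_ne_zero, dite_false, PowerSeries.coeff_expand]
  norm_num [Jac_coeff_etaProd_zero, Jac_coeff_etaProd_one]

theorem Jac_mk2_Eps4 : Jac_mk2 (Eps 4) = 1 := by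
  rw [Jac_mk2_eq]
  simp only [Eps, four_ne_zero, dite_false, PowerSeries.coeff_expand]
  norm_num [Jac_coeff_etaProd_zero, Jac_coeff_etaProd_one]

theorem Jac_mk2_Inv2 : Jac_mk2 (EpsInv 2) = 1 := by
  have h := congrArg Jac_mk2 (Jac_Eps_mul_inv 2)
  rwa [map_mul, Jac_mk2_Eps2, one_mul, map_one] at h

theorem Jac_mk2_Inv4 : Jac_mk2 (EpsInv 4) = 1 := by
  have h := congrArg Jac_mk2 (Jac_Eps_mul_inv 4)
  rwa [map_mul, Jac_mk2_Eps4, one_mul, map_one] at h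

theorem Jac_mk2_Inv1 : Jac_mk2 (EpsInv 1) = 1 + Jac_x2 := by
  have h := congrArg Jac_mk2 (Jac_Eps_mul_inv 1)
  rw [map_mul, Jac_mk2_Eps1, map_one] at h
  have hx := Jac_x2_pow
  linear_combination (1 + Jac_x2) * h + Jac_mk2 (EpsInv 1) * hx

theorem Jac_mk2_id :
    Jac_mk2 (etaLps lA3 - etaLps lA4 - ((16 : ℤ) : PowerSeries ℤ) * (PowerSeries.X * etaLps lA2))
      = 0 := by
  have hx := Jac_x2_pow
  rw [Jac_lA3, Jac_lA4, Jac_lA2]
  simp only [map_sub, map_mul, map_pow, map_intCast, Jac_mk2_Eps1, Jac_mk2_Eps2, Jac_mk2_Eps4,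
    Jac_mk2_Inv1, Jac_mk2_Inv2, Jac_mk2_Inv4]
  push_cast
  linear_combination (112 * Jac_x2 + 112 * Jac_x2 ^ 3 + 16 * Jac_x2 ^ 5) * hx

theorem Jac_dedekindPsi_four : ModularCurve.dedekindPsi 4 = 6 := by
  have h : Nat.divisors 4 = {1, 2, 4} := by decide
  have h4 : ¬ Squarefree 4 := by decide
  rw [ModularCurve.dedekindPsi, h, Finset.sum_filter]
  simp [Nat.squarefree_two, h4]

/-- the modular form `A3 - A4 - 16 A2`. -/
theorem Jac_hasQ (h : Stmt_HasQ4) :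
    HasQ 4 2 (onH (etaL lA3) - onH (etaL lA4) - ((16 : ℤ) : ℂ) • onH (etaL lA2))
      (etaLps lA3 - etaLps lA4 - ((16 : ℤ) : PowerSeries ℤ) * (PowerSeries.X * etaLps lA2)) :=
  (h.1.sub h.2.1).sub (h.2.2.intSmul 16)

/-- **Jacobi's identity** `θ₃⁴ = θ₄⁴ + θ₂⁴`. -/
theorem jacobi (h : Stmt_HasQ4) : Stmt_Jacobi := by
  have h0 := (Jac_hasQ h).eq_zero (by
    intro n hn
    rw [Jac_dedekindPsi_four] at hn
    have hn' : n < 2 := lt_of_le_of_lt hn (by decide)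
    exact (Jac_mk2_eq_zero_iff _).1 Jac_mk2_id n hn')
  unfold Stmt_Jacobi
  push_cast at h0
  linear_combination h0

/-- a modular form with vanishing `q`-expansion vanishes. -/
theorem Jac_fun_eq_zero {N : ℕ} [NeZero N] {k : ℤ} {f : ℍ → ℂ} {p : PowerSeries ℤ}
    (hf : HasQ N k f p) (hp : p = 0) : f = 0 := by
  have h0 : hf.isMF.toModularForm = 0 := by
    apply ModularForm.sturm_bound_Gamma0 N
    intro n _
    rw [S20.IsMF.coe_toModularForm, hf.qexp, hp, map_zero, map_zero]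
  have := congrArg (fun F : ModularForm (Gamma0 N : Subgroup (GL (Fin 2) ℝ)) k => (⇑F : ℍ → ℂ)) h0
  simpa using this

theorem Jac_eta_ne_zero (d : ℕ) (hd : 0 < d) {z : ℂ} (hz : 0 < z.im) : η ((d : ℂ) * z) ≠ 0 := by
  apply ModularForm.eta_ne_zero
  change 0 < ((d : ℂ) * z).im
  rw [Complex.mul_im]
  simp only [Complex.natCast_re, Complex.natCast_im, zero_mul, add_zero]
  positivity

/-- `A3 = A4 + 16 A2` as functions. -/
theorem Jac_fun (hJ : Stmt_Jacobi) (h : Stmt_HasQ4) (z : ℂ) (hz : 0 < z.im) :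
    etaL lA3 z = etaL lA4 z + 16 * etaL lA2 z := by
  have h0 := Jac_fun_eq_zero (Jac_hasQ h) (by
    unfold Stmt_Jacobi at hJ
    rw [hJ]; push_cast; ring)
  have h1 := congrFun h0 ⟨z, hz⟩
  simp only [Pi.sub_apply, Pi.smul_apply, Pi.zero_apply, onH, smul_eq_mul] at h1
  push_cast at h1
  change etaL lA3 z - etaL lA4 z - 16 * etaL lA2 z = 0 at h1
  linear_combination h1

/-- **`u4 = t4 + 16`**. -/
theorem u4_eq (hJ : Stmt_Jacobi) (h : Stmt_HasQ4) : Stmt_u4 := by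
  constructor
  · intro z hz
    have h1 := Jac_fun hJ h z hz
    have ha := Jac_eta_ne_zero 1 one_pos hz
    have hb := Jac_eta_ne_zero 2 two_pos hz
    have hc := Jac_eta_ne_zero 4 four_pos hz
    simp only [etaL, lA3, lA4, lA2, List.map_cons, List.map_nil, List.prod_cons, List.prod_nil,
      mul_one] at h1
    simp only [u4, t4, etaL, lu4, lt4, List.map_cons, List.map_nil, List.prod_cons, List.prod_nil,
      mul_one]
    generalize η (((1 : ℕ) : ℂ) * z) = a at *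
    generalize η (((2 : ℕ) : ℂ) * z) = b at *
    generalize η (((4 : ℕ) : ℂ) * z) = c at *
    simp only [zpow_neg, zpow_ofNat] at h1 ⊢
    field_simp at h1 ⊢
    linear_combination h1
  · unfold Stmt_Jacobi at hJ
    rw [Jac_lA3, Jac_lA4, Jac_lA2] at hJ
    rw [Jac_lu4, Jac_lt4]
    have e1 := Jac_Eps_mul_inv 1
    have e2 := Jac_Eps_mul_inv 2
    have e4 := Jac_Eps_mul_inv 4
    have f2 : Eps 2 ^ 4 * EpsInv 2 ^ 4 = 1 := by rw [← mul_pow, e2, one_pow]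
    have f4 : Eps 4 ^ 8 * EpsInv 4 ^ 8 = 1 := by rw [← mul_pow, e4, one_pow]
    linear_combination (Eps 2 ^ 4 * EpsInv 4 ^ 8) * hJ + (Eps 1 ^ 8 * EpsInv 4 ^ 8) * f2
      + 16 * PowerSeries.X * (Eps 2 ^ 4 * EpsInv 2 ^ 4) * f4 + 16 * PowerSeries.X * f2

/-- both from `Stmt_HasQ4`. -/
theorem u4_eq' (h : Stmt_HasQ4) : Stmt_u4 := u4_eq (jacobi h) h

end

end Fermat.Agent.CAR.Unit

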