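import Fermat.Agent.CAR.Unit.Interface

/-!
# S36 / CAR / Unit, task UNIT-E3 : level `3`.
`f9`, `f3s` with their multipliers on `Γ₀(3)`, invariance of `t3`.
-/

set_option autoImplicit false

namespace Fermat.Agent.CAR.Unit

open CongruenceSubgroup Complex Filter Asymptotics
open UpperHalfPlane hiding I
open scoped MatrixGroups Real Manifold ModularForm

theorem E3_ee_zero : ee 0 = 1 := by simp [ee]

theorem E3_ee_one : ee 1 = 1 := by
  unfold ee
  rw [mul_one]
  exact Complex.exp_two_pi_mul_I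

theorem E3_ee_neg (x : ℂ) : ee (-x) = (ee x)⁻¹ := by
  unfold ee
  rw [mul_neg, Complex.exp_neg]

theorem E3_ee_ne_zero (x : ℂ) : ee x ≠ 0 := Complex.exp_ne_zero _

theorem E3_frkConst_ne_zero (a : ℕ) (l : List (ℕ × ℤ)) (h : ∀ p ∈ l, 0 < p.1 ∧ p.1 ∣ a)
    (ha : 0 < a) : (frkConst a l : ℂ) ≠ 0 := by
  have : 0 < frkConst a l := by
    unfold frkConst
    apply List.prod_pos
    intro x hx
    obtain ⟨p, hp, rfl⟩ := List.mem_map.1 hx
    apply Real.rpow_pos_of_pos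
    have := Nat.div_pos (Nat.le_of_dvd ha (h p hp).2) (h p hp).1
    exact_mod_cast this
  exact_mod_cast this.ne'

/-- the Fricke step for an eta quotient of level `a`. -/
theorem E3_step (hT : Stmt_etaL_T) (hW : Stmt_etaL_W) (hF : Stmt_FrickeStep) (a : ℕ)
    (l : List (ℕ × ℤ)) (k : ℤ) (ha : 0 < a) (hl : ∀ p ∈ l, 0 < p.1 ∧ p.1 ∣ a)
    (hk : wt2 l = 2 * k) (z : ℂ) (hz : 0 < z.im) :
    etaL l (z / ((a : ℂ) * z + 1))
      = (ee ((deg24 (dualL a l) : ℂ) / 24))⁻¹ * ((a : ℂ) * z + 1) ^ k * etaL l z := by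
  refine hF a k (etaL l) (etaL (dualL a l)) ((-I) ^ k * (frkConst a l : ℂ)) _ ha
    (mul_ne_zero (zpow_ne_zero _ (neg_ne_zero.2 I_ne_zero)) (E3_frkConst_ne_zero a l hl ha))
    (E3_ee_ne_zero _) ?_ (fun w _ => hT (dualL a l) w) z hz
  intro w hw
  rw [hW a l k ha hl hk w hw, mul_zpow]
  ring

theorem f9_slash3 (hT : Stmt_etaL_T) (hW : Stmt_etaL_W) (hF : Stmt_FrickeStep)
    (hS : Stmt_SlashOfGen) (h3 : Stmt_mu3) : Stmt_f9_slash3 := by
  obtain ⟨hmul, hne, hμT, hμU, hμneg, -⟩ := h3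
  intro γ hγ z
  have key := hS 3 1 f9 mu3 (Or.inr (Or.inl rfl)) hmul (fun γ _ => hne γ) ?_ ?_ ?_ γ hγ z
  · rwa [zpow_one] at key
  · intro w _
    have h := hT lf9 w
    have hd : deg24 lf9 = 0 := by simp [deg24, lf9]
    rw [hd, Int.cast_zero, zero_div, E3_ee_zero] at h
    rw [hμT]
    exact h
  · intro w hw
    have h := E3_step hT hW hF 3 lf9 1 (by norm_num) (by simp [lf9]) (by simp [wt2, lf9]) w hw
    have hd : deg24 (dualL 3 lf9) = 8 := by simp [deg24, dualL, lf9]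
    rw [hd] at h
    have e : (ee (((8 : ℤ) : ℂ) / 24))⁻¹ = ee (-1 / 3) := by
      rw [← E3_ee_neg]
      congr 1
      push_cast
      norm_num
    rw [e] at h
    rw [show mu3 (Ua ((3 : ℕ) : ℤ)) = ee (-1 / 3) from hμU]
    exact h
  · rw [hμneg]; norm_num

theorem f3s_slash3 (hT : Stmt_etaL_T) (hW : Stmt_etaL_W) (hF : Stmt_FrickeStep)
    (hS : Stmt_SlashOfGen) (h3s : Stmt_mu3s) : Stmt_f3s_slash3 := by
  obtain ⟨hmul, hne, hμT, hμU, hμneg⟩ := h3s
  intro γ hγ z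
  have key := hS 3 1 f3s mu3s (Or.inr (Or.inl rfl)) hmul (fun γ _ => hne γ) ?_ ?_ ?_ γ hγ z
  · rwa [zpow_one] at key
  · intro w _
    have h := hT lf3s w
    have hd : deg24 lf3s = 8 := by simp [deg24, lf3s]
    rw [hd] at h
    have e : ee (((8 : ℤ) : ℂ) / 24) = ee (1 / 3) := by
      congr 1
      push_cast
      norm_num
    rw [e] at h
    rw [hμT]
    exact h
  · intro w hw
    have h := E3_step hT hW hF 3 lf3s 1 (by norm_num) (by simp [lf3s]) (by simp [wt2, lf3s]) w hw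
    have hd : deg24 (dualL 3 lf3s) = 0 := by simp [deg24, dualL, lf3s]
    rw [hd, Int.cast_zero, zero_div, E3_ee_zero, inv_one] at h
    rw [show mu3s (Ua ((3 : ℕ) : ℤ)) = 1 from hμU]
    exact h
  · rw [hμneg]; norm_num

theorem t3_inv (hT : Stmt_etaL_T) (hW : Stmt_etaL_W) (hF : Stmt_FrickeStep)
    (hS : Stmt_SlashOfGen) : Stmt_t3_inv := by
  intro γ hγ z
  have key := hS 3 0 t3 (fun _ => 1) (Or.inr (Or.inl rfl)) (fun _ _ _ _ => (one_mul 1).symm)
    (fun _ _ => one_ne_zero) ?_ ?_ (by simp) γ hγ z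
  · simpa using key
  · intro w _
    have h := hT lt3 w
    have hd : deg24 lt3 = -24 := by simp [deg24, lt3]
    rw [hd] at h
    have e : ee (((-24 : ℤ) : ℂ) / 24) = 1 := by
      have : (((-24 : ℤ) : ℂ) / 24) = -1 := by push_cast; norm_num
      rw [this, E3_ee_neg, E3_ee_one, inv_one]
    rw [e] at h
    exact h
  · intro w hw
    have h := E3_step hT hW hF 3 lt3 0 (by norm_num) (by simp [lt3]) (by simp [wt2, lt3]) w hw
    have hd : deg24 (dualL 3 lt3) = 24 := by simp [deg24, dualL, lt3]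
    rw [hd] at h
    have e : ee (((24 : ℤ) : ℂ) / 24) = 1 := by
      have : (((24 : ℤ) : ℂ) / 24) = 1 := by push_cast; norm_num
      rw [this, E3_ee_one]
    rw [e, inv_one] at h
    exact h

end Fermat.Agent.CAR.Unit
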