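import Fermat.Agent.CAR.Unit.Interface

/-!
# S36 / CAR / Unit, task UNIT-E4 (helper38): transformation laws at level `4` (and `t2` at level `2`),
explicit Fricke relations at level `4`.
-/

set_option autoImplicit false

namespace Fermat.Agent.CAR.Unit

open CongruenceSubgroup Complex Filter Asymptotics
open UpperHalfPlane hiding I
open scoped MatrixGroups Real Manifold ModularForm

noncomputable section

theorem Level4_ee_int (n : ℤ) : ee (n : ℂ) = 1 := by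
  unfold ee
  have := Complex.exp_int_mul_two_pi_mul_I n
  rw [← this]
  congr 1
  ring

theorem Level4_frkConst_pos (a : ℕ) (l : List (ℕ × ℤ)) (ha : 0 < a)
    (hl : ∀ p ∈ l, 0 < p.1 ∧ p.1 ∣ a) : 0 < frkConst a l := by
  unfold frkConst
  apply List.prod_pos
  intro x hx
  rw [List.mem_map] at hx
  obtain ⟨p, hp, rfl⟩ := hx
  apply Real.rpow_pos_of_pos
  have h1 : 0 < a / p.1 := Nat.div_pos (Nat.le_of_dvd ha (hl p hp).2) (hl p hp).1
  exact_mod_cast h1

/-- the general transformation law for an eta quotient of level `a ∈ {2, 3, 4}` such that it and its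
Fricke dual are invariant under `T`. -/
theorem Level4_gen (hT : Stmt_etaL_T) (hW : Stmt_etaL_W) (hF : Stmt_FrickeStep)
    (hS : Stmt_SlashOfGen) (a : ℕ) (ha : a = 2 ∨ a = 3 ∨ a = 4) (l : List (ℕ × ℤ)) (k : ℤ)
    (hl : ∀ p ∈ l, 0 < p.1 ∧ p.1 ∣ a) (hwt : wt2 l = 2 * k) (n n' : ℤ) (hd : deg24 l = 24 * n)
    (hd' : deg24 (dualL a l) = 24 * n') (μ : SL(2, ℤ) → ℂ)
    (hμ1 : ∀ γ₁ ∈ Gamma0 a, ∀ γ₂ ∈ Gamma0 a, μ (γ₁ * γ₂) = μ γ₁ * μ γ₂)
    (hμ0 : ∀ γ ∈ Gamma0 a, μ γ ≠ 0) (hμT : μ ModularGroup.T = 1) (hμU : μ (Ua a) = 1)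
    (hμn : μ (-1) * (-1) ^ k = 1) :
    ∀ γ ∈ Gamma0 a, ∀ z : ℍ, etaL l ((γ • z : ℍ) : ℂ) = μ γ * den γ z ^ k * etaL l z := by
  have ha0 : 0 < a := by rcases ha with h | h | h <;> omega
  have hTl : ∀ (l' : List (ℕ × ℤ)) (m : ℤ), deg24 l' = 24 * m → ∀ z : ℂ,
      etaL l' (z + 1) = etaL l' z := by
    intro l' m hm z
    rw [hT l' z, hm]
    have : (((24 * m : ℤ) : ℂ)) / 24 = (m : ℂ) := by
      push_cast
      field_simp
    rw [this, Level4_ee_int, one_mul]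
  refine hS a k (etaL l) μ ha hμ1 hμ0 ?_ ?_ hμn
  · intro z _
    rw [hμT, one_mul]
    exact hTl l n hd z
  · intro z hz
    rw [hμU]
    have hC : (-I) ^ k * (frkConst a l : ℂ) ≠ 0 := by
      apply mul_ne_zero
      · exact zpow_ne_zero _ (neg_ne_zero.2 I_ne_zero)
      · exact_mod_cast (Level4_frkConst_pos a l ha0 hl).ne'
    have := hF a k (etaL l) (etaL (dualL a l)) ((-I) ^ k * (frkConst a l : ℂ)) 1 ha0 hC one_ne_zero
      (by
        intro w hw
        rw [hW a l k ha0 hl hwt w hw, mul_zpow]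
        ring)
      (by
        intro w _
        rw [one_mul]
        exact hTl _ n' hd' w) z hz
    rw [this, inv_one]

theorem Level4_one (hT : Stmt_etaL_T) (hW : Stmt_etaL_W) (hF : Stmt_FrickeStep)
    (hS : Stmt_SlashOfGen) (a : ℕ) (ha : a = 2 ∨ a = 3 ∨ a = 4) (l : List (ℕ × ℤ)) (k : ℤ)
    (hl : ∀ p ∈ l, 0 < p.1 ∧ p.1 ∣ a) (hwt : wt2 l = 2 * k) (n n' : ℤ) (hd : deg24 l = 24 * n)
    (hd' : deg24 (dualL a l) = 24 * n') (hk : ((-1 : ℂ)) ^ k = 1) :
    ∀ γ ∈ Gamma0 a, ∀ z : ℍ, etaL l ((γ • z : ℍ) : ℂ) = den γ z ^ k * etaL l z := by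
  intro γ hγ z
  have := Level4_gen hT hW hF hS a ha l k hl hwt n n' hd hd' (fun _ => 1)
    (fun _ _ _ _ => (one_mul 1).symm) (fun _ _ => one_ne_zero) rfl rfl (by rw [one_mul, hk]) γ hγ z
  rw [this, one_mul]

theorem f4_slash (hT : Stmt_etaL_T) (hW : Stmt_etaL_W) (hF : Stmt_FrickeStep)
    (hS : Stmt_SlashOfGen) (hmu : Stmt_mu4) : Stmt_f4_slash := by
  intro γ hγ z
  obtain ⟨h1, h2, h3, h4, h5⟩ := hmu
  have := Level4_gen hT hW hF hS 4 (Or.inr (Or.inr rfl)) lf4 1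
    (by simp [lf4]) (by simp [wt2, lf4]) 0 0 (by simp [deg24, lf4])
    (by simp [deg24, dualL, lf4]) mu4 h1 (fun γ _ => h2 γ) h3 h4 (by rw [h5]; norm_num) γ hγ z
  rw [zpow_one] at this
  exact this

theorem slash4 (hT : Stmt_etaL_T) (hW : Stmt_etaL_W) (hF : Stmt_FrickeStep)
    (hS : Stmt_SlashOfGen) : Stmt_slash4 := by
  intro l k h
  rcases h with ⟨h | h, rfl⟩ | ⟨h | h | h, rfl⟩ <;> subst h
  · exact Level4_one hT hW hF hS 4 (Or.inr (Or.inr rfl)) lt4 0
      (by simp [lt4]) (by simp [wt2, lt4]) (-1) 1 (by simp [deg24, lt4])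
      (by simp [deg24, dualL, lt4]) (by norm_num)
  · exact Level4_one hT hW hF hS 4 (Or.inr (Or.inr rfl)) lu4 0
      (by simp [lu4]) (by simp [wt2, lu4]) (-1) 0 (by simp [deg24, lu4])
      (by simp [deg24, dualL, lu4]) (by norm_num)
  · exact Level4_one hT hW hF hS 4 (Or.inr (Or.inr rfl)) lA2 2
      (by simp [lA2]) (by simp [wt2, lA2]) 1 0 (by simp [deg24, lA2])
      (by simp [deg24, dualL, lA2]) (by norm_num)
  · exact Level4_one hT hW hF hS 4 (Or.inr (Or.inr rfl)) lA3 2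
      (by simp [lA3]) (by simp [wt2, lA3]) 0 0 (by simp [deg24, lA3])
      (by simp [deg24, dualL, lA3]) (by norm_num)
  · exact Level4_one hT hW hF hS 4 (Or.inr (Or.inr rfl)) lA4 2
      (by simp [lA4]) (by simp [wt2, lA4]) 0 1 (by simp [deg24, lA4])
      (by simp [deg24, dualL, lA4]) (by norm_num)

theorem t2_inv (hT : Stmt_etaL_T) (hW : Stmt_etaL_W) (hF : Stmt_FrickeStep)
    (hS : Stmt_SlashOfGen) : Stmt_t2_inv := by
  intro γ hγ z
  have := Level4_one hT hW hF hS 2 (Or.inl rfl) lt2 0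
      (by simp [lt2]) (by simp [wt2, lt2]) (-1) 1 (by simp [deg24, lt2])
      (by simp [deg24, dualL, lt2]) (by norm_num) γ hγ z
  rw [zpow_zero, one_mul] at this
  exact this

theorem Level4_frkConst_lf4 : frkConst 4 lf4 = 2 := by
  simp only [frkConst, lf4, List.map_cons, List.map_nil, List.prod_cons, List.prod_nil]
  have h1 : (((4 / 2 : ℕ) : ℝ)) ^ ((((10 : ℤ)) : ℝ) / 2) = 32 := by
    have : ((((10 : ℤ)) : ℝ) / 2) = ((5 : ℕ) : ℝ) := by norm_num
    rw [this, Real.rpow_natCast]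
    norm_num
  have h2 : (((4 / 1 : ℕ) : ℝ)) ^ ((((-4 : ℤ)) : ℝ) / 2) = 1 / 16 := by
    have : ((((-4 : ℤ)) : ℝ) / 2) = -((2 : ℕ) : ℝ) := by norm_num
    rw [this, Real.rpow_neg (by norm_num), Real.rpow_natCast]
    norm_num
  have h3 : (((4 / 4 : ℕ) : ℝ)) ^ ((((-4 : ℤ)) : ℝ) / 2) = 1 := by
    norm_num
  rw [h1, h2, h3]
  norm_num

theorem Level4_frkConst_lt4 : frkConst 4 lt4 = 256 := by
  simp only [frkConst, lt4, List.map_cons, List.map_nil, List.prod_cons, List.prod_nil]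
  have h1 : (((4 / 1 : ℕ) : ℝ)) ^ ((((8 : ℤ)) : ℝ) / 2) = 256 := by
    have : ((((8 : ℤ)) : ℝ) / 2) = ((4 : ℕ) : ℝ) := by norm_num
    rw [this, Real.rpow_natCast]
    norm_num
  have h3 : (((4 / 4 : ℕ) : ℝ)) ^ ((((-8 : ℤ)) : ℝ) / 2) = 1 := by
    norm_num
  rw [h1, h3]
  norm_num

theorem frk4 (hW : Stmt_etaL_W) : Stmt_frk4 := by
  intro z hz
  constructor
  · have := hW 4 lf4 1 (by norm_num) (by simp [lf4]) (by simp [wt2, lf4]) z hz
    rw [Level4_frkConst_lf4, zpow_one] at this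
    unfold f4
    push_cast at this
    rw [this]
    simp only [etaL, dualL, lf4, List.map_cons, List.map_nil, List.prod_cons, List.prod_nil]
    norm_num
    ring
  · have := hW 4 lt4 0 (by norm_num) (by simp [lt4]) (by simp [wt2, lt4]) z hz
    rw [Level4_frkConst_lt4, zpow_zero, one_mul] at this
    unfold t4
    push_cast at this
    rw [this]
    have h1 : ModularForm.eta z ≠ 0 := ModularForm.eta_ne_zero hz
    have h4 : ModularForm.eta (4 * z) ≠ 0 := ModularForm.eta_ne_zero (by simpa using hz)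
    simp only [etaL, dualL, lt4, List.map_cons, List.map_nil, List.prod_cons, List.prod_nil]
    norm_num
    field_simp

end

end Fermat.Agent.CAR.Unit
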