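import Fermat.Agent.CAR.Unit.Interface

/-!
# S36 / CAR / Unit, task E9 : level `9`

`f9, f9s, f9p, f9m` are of weight one and character `χ₋₃` on `Γ₀(9)`; `t9, u9` are invariant, `G9` has
weight two; the Fricke relations at level `9`.
-/

set_option autoImplicit false

namespace Fermat.Agent.CAR.Unit

open CongruenceSubgroup Complex
open UpperHalfPlane hiding I
open scoped MatrixGroups Real ModularForm

/-! ### generalities -/

theorem E9_coe_smul (γ : SL(2, ℤ)) (z : ℍ) :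
    ((γ • z : ℍ) : ℂ) = (((γ 0 0 : ℤ) : ℂ) * z + ((γ 0 1 : ℤ) : ℂ)) / den γ z := by
  rw [UpperHalfPlane.coe_specialLinearGroup_apply]
  simp [den]

theorem E9_den_ne_zero (γ : SL(2, ℤ)) (z : ℍ) : den γ z ≠ 0 := by
  have h := UpperHalfPlane.denom_ne_zero (γ : GL (Fin 2) ℝ) z
  simpa [den, UpperHalfPlane.denom] using h

theorem E9_det (γ : SL(2, ℤ)) : γ 0 0 * γ 1 1 - γ 0 1 * γ 1 0 = 1 := by
  have := γ.det_coe
  rwa [Matrix.det_fin_two] at this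

theorem E9_mem_Gamma0 (N : ℕ) (γ : SL(2, ℤ)) : γ ∈ Gamma0 N ↔ (N : ℤ) ∣ γ 1 0 := by
  rw [Gamma0_mem, ZMod.intCast_zmod_eq_zero_iff_dvd]

theorem E9_Gamma0_9_le {γ : SL(2, ℤ)} (h : γ ∈ Gamma0 9) : γ ∈ Gamma0 3 := by
  rw [E9_mem_Gamma0] at h ⊢
  exact dvd_trans (by norm_num) h

theorem E9_eta_ne {z : ℂ} (hz : 0 < z.im) : η z ≠ 0 := ModularForm.eta_ne_zero hz

theorem E9_im_mul {z : ℂ} (hz : 0 < z.im) {d : ℝ} (hd : 0 < d) : 0 < ((d : ℂ) * z).im := by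
  rw [Complex.im_ofReal_mul]
  positivity

theorem E9_ee_int (n : ℤ) : ee (n : ℂ) = 1 := by
  unfold ee
  rw [show 2 * (π : ℂ) * I * (n : ℂ) = n * (2 * π * I) by ring]
  exact Complex.exp_int_mul_two_pi_mul_I n

theorem E9_chi3_sq (d : ℤ) : chi3 d ^ 2 = 1 := by
  unfold chi3
  split_ifs <;> norm_num

theorem E9_chi3_ne (d : ℤ) : chi3 d ≠ 0 := by
  unfold chi3
  split_ifs <;> norm_num

theorem E9_chi3_congr {d d' : ℤ} (h : d % 3 = d' % 3) : chi3 d = chi3 d' := by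
  unfold chi3
  rw [h]

/-! ### the eta quotients, unfolded -/

theorem E9_f9_eq (z : ℂ) : f9 z = η z ^ 3 * (η (3 * z))⁻¹ := by
  simp [f9, etaL, lf9, zpow_neg]

theorem E9_f3s_eq (z : ℂ) : f3s z = η (3 * z) ^ 3 * (η z)⁻¹ := by
  simp [f3s, etaL, lf3s, zpow_neg]

theorem E9_f9s_eq (z : ℂ) : f9s z = η (9 * z) ^ 3 * (η (3 * z))⁻¹ := by
  simp [f9s, etaL, lf9s, zpow_neg]

theorem E9_t9_eq (z : ℂ) : t9 z = η z ^ 3 * (η (9 * z) ^ 3)⁻¹ := by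
  simp [t9, etaL, lt9, zpow_neg]

theorem E9_u9_eq (z : ℂ) : u9 z = η (3 * z) ^ 12 * ((η z ^ 3)⁻¹ * (η (9 * z) ^ 9)⁻¹) := by
  simp [u9, etaL, lu9, zpow_neg]

theorem E9_G9_eq (z : ℂ) :
    etaL lG9 z = η (3 * z) ^ 10 * ((η z ^ 3)⁻¹ * (η (9 * z) ^ 3)⁻¹) := by
  simp [etaL, lG9, zpow_neg]

theorem E9_t3_eq (z : ℂ) : t3 z = η z ^ 12 * (η (3 * z) ^ 12)⁻¹ := by
  simp [t3, etaL, lt3, zpow_neg]

theorem E9_eta3_ne {z : ℂ} (hz : 0 < z.im) : η (3 * z) ≠ 0 :=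
  E9_eta_ne (by simpa using E9_im_mul hz (d := 3) (by norm_num))

theorem E9_eta9_ne {z : ℂ} (hz : 0 < z.im) : η (9 * z) ≠ 0 :=
  E9_eta_ne (by simpa using E9_im_mul hz (d := 9) (by norm_num))

theorem E9_f9_ne {z : ℂ} (hz : 0 < z.im) : f9 z ≠ 0 := by
  rw [E9_f9_eq]
  exact mul_ne_zero (pow_ne_zero _ (E9_eta_ne hz)) (inv_ne_zero (E9_eta3_ne hz))

theorem E9_f9s_ne {z : ℂ} (hz : 0 < z.im) : f9s z ≠ 0 := by
  rw [E9_f9s_eq]
  exact mul_ne_zero (pow_ne_zero _ (E9_eta9_ne hz)) (inv_ne_zero (E9_eta3_ne hz))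

theorem E9_t3_ne {z : ℂ} (hz : 0 < z.im) : t3 z ≠ 0 := by
  rw [E9_t3_eq]
  exact mul_ne_zero (pow_ne_zero _ (E9_eta_ne hz)) (inv_ne_zero (pow_ne_zero _ (E9_eta3_ne hz)))

/-- `t9 = f9 / f9s`. -/
theorem E9_t9_mul {z : ℂ} (hz : 0 < z.im) : t9 z * f9s z = f9 z := by
  have h1 := E9_eta_ne hz
  have h3 := E9_eta3_ne hz
  have h9 := E9_eta9_ne hz
  rw [E9_t9_eq, E9_f9s_eq, E9_f9_eq]
  field_simp

/-- `u9 = t9 ^ 3 / t3`. -/
theorem E9_u9_mul {z : ℂ} (hz : 0 < z.im) : u9 z * t3 z = t9 z ^ 3 := by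
  have h1 := E9_eta_ne hz
  have h3 := E9_eta3_ne hz
  have h9 := E9_eta9_ne hz
  rw [E9_t9_eq, E9_u9_eq, E9_t3_eq]
  field_simp

/-- `G9 = f9s ^ 2 * u9`. -/
theorem E9_G9_mul {z : ℂ} (hz : 0 < z.im) : etaL lG9 z = f9s z ^ 2 * u9 z := by
  have h1 := E9_eta_ne hz
  have h3 := E9_eta3_ne hz
  have h9 := E9_eta9_ne hz
  rw [E9_G9_eq, E9_u9_eq, E9_f9s_eq]
  field_simp

/-! ### the four weight one units -/

theorem E9_f9_slash (h9 : Stmt_f9_slash3) (hm : Stmt_mu3) {γ : SL(2, ℤ)} (hγ : γ ∈ Gamma0 9)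
    (z : ℍ) : f9 ((γ • z : ℍ) : ℂ) = chi3 (γ 1 1) * den γ z * f9 z := by
  rw [h9 γ (E9_Gamma0_9_le hγ) z, hm.2.2.2.2.2 γ hγ]

theorem E9_f9s_slash (h3s : Stmt_f3s_slash3) {γ : SL(2, ℤ)} (hγ : γ ∈ Gamma0 9) (z : ℍ) :
    f9s ((γ • z : ℍ) : ℂ) = chi3 (γ 1 1) * den γ z * f9s z := by
  obtain ⟨c', hc'⟩ := (E9_mem_Gamma0 9 γ).1 hγ
  have hdet := E9_det γ
  let γ' : SL(2, ℤ) := ⟨!![γ 0 0, 3 * γ 0 1; 3 * c', γ 1 1], by
    rw [Matrix.det_fin_two_of]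
    rw [hc'] at hdet
    push_cast at hdet
    linarith⟩
  have e00 : γ' 0 0 = γ 0 0 := rfl
  have e01 : γ' 0 1 = 3 * γ 0 1 := rfl
  have e10 : γ' 1 0 = 3 * c' := rfl
  have e11 : γ' 1 1 = γ 1 1 := rfl
  let z' : ℍ := ⟨3 * (z : ℂ), by simpa using E9_im_mul z.im_pos (d := 3) (by norm_num)⟩
  have hz' : (z' : ℂ) = 3 * (z : ℂ) := rfl
  have hf : ∀ w, f9s w = f3s (3 * w) := by
    intro w
    rw [E9_f9s_eq, E9_f3s_eq, ← mul_assoc]
    norm_num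
  have hγ' : γ' ∈ Gamma0 3 := by
    rw [E9_mem_Gamma0, e10]
    exact ⟨c', by norm_num⟩
  have hden : den γ' z' = den γ z := by
    unfold den
    rw [e10, e11, hz', hc']
    push_cast
    ring
  have hact : ((γ' • z' : ℍ) : ℂ) = 3 * ((γ • z : ℍ) : ℂ) := by
    rw [E9_coe_smul, E9_coe_smul, hden, e00, e01, hz']
    push_cast
    ring
  have hmu : mu3s γ' = chi3 (γ 1 1) := by
    unfold mu3s
    rw [e00, e01, e11]
    have : (((γ 0 0 * (3 * γ 0 1) : ℤ) : ℂ)) / 3 = ((γ 0 0 * γ 0 1 : ℤ) : ℂ) := by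
      push_cast
      ring
    rw [this, E9_ee_int, one_mul]
  rw [hf, ← hact, h3s γ' hγ' z', hmu, hden, hf, hz']

theorem E9_three_dvd {a b c' d : ℤ} (h : a * d - b * (9 * c') = 1) : (3 : ℤ) ∣ d - a := by
  have h1 := congrArg (Int.cast : ℤ → ZMod 3) h
  push_cast at h1
  have h9 : (9 : ZMod 3) = 0 := by decide
  rw [h9, zero_mul, mul_zero, sub_zero] at h1
  have key : ∀ x y : ZMod 3, x * y = 1 → y - x = 0 := by decide
  have h2 := key _ _ h1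
  rw [← Int.cast_sub] at h2
  exact_mod_cast (ZMod.intCast_zmod_eq_zero_iff_dvd _ 3).1 h2

/-- the translates `f9 (z + s / 3)`, `s = ± 1`. -/
theorem E9_shift_slash (h9 : Stmt_f9_slash3) (hm : Stmt_mu3) (s : ℤ) (hs : s * s = 1)
    {γ : SL(2, ℤ)} (hγ : γ ∈ Gamma0 9) (z : ℍ) :
    f9 (((γ • z : ℍ) : ℂ) + (s : ℂ) / 3)
      = chi3 (γ 1 1) * den γ z * f9 ((z : ℂ) + (s : ℂ) / 3) := by
  obtain ⟨c', hc'⟩ := (E9_mem_Gamma0 9 γ).1 hγ
  push_cast at hc'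
  have hdet := E9_det γ
  rw [hc'] at hdet
  obtain ⟨e, he⟩ := E9_three_dvd hdet
  let γ' : SL(2, ℤ) :=
    ⟨!![γ 0 0 + s * (3 * c'), γ 0 1 + s * e - c'; γ 1 0, γ 1 1 - s * (3 * c')], by
      rw [Matrix.det_fin_two_of, hc']
      linear_combination hdet + 3 * s * c' * he - 9 * c' ^ 2 * hs⟩
  have e00 : γ' 0 0 = γ 0 0 + s * (3 * c') := rfl
  have e01 : γ' 0 1 = γ 0 1 + s * e - c' := rfl
  have e10 : γ' 1 0 = γ 1 0 := rfl
  have e11 : γ' 1 1 = γ 1 1 - s * (3 * c') := rfl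
  let z' : ℍ := ⟨(z : ℂ) + (s : ℂ) / 3, by
    have : ((s : ℂ) / 3).im = 0 := by
      rw [show (s : ℂ) / 3 = (((s : ℝ) / 3 : ℝ) : ℂ) by push_cast; rfl, Complex.ofReal_im]
    rw [Complex.add_im, this, add_zero]
    exact z.im_pos⟩
  have hz' : (z' : ℂ) = (z : ℂ) + (s : ℂ) / 3 := rfl
  have heC : ((γ 1 1 : ℤ) : ℂ) - ((γ 0 0 : ℤ) : ℂ) = 3 * (e : ℂ) := by exact_mod_cast he
  have hsC : (s : ℂ) * s = 1 := by exact_mod_cast hs
  have hcC : ((γ 1 0 : ℤ) : ℂ) = 9 * (c' : ℂ) := by exact_mod_cast hc'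
  have hγ' : γ' ∈ Gamma0 9 := by
    rw [E9_mem_Gamma0, e10]
    exact (E9_mem_Gamma0 9 γ).1 hγ
  have hden : den γ' z' = den γ z := by
    unfold den
    rw [e10, e11, hz']
    push_cast
    linear_combination (s : ℂ) / 3 * hcC
  have hne := E9_den_ne_zero γ z
  have hact : ((γ' • z' : ℍ) : ℂ) = ((γ • z : ℍ) : ℂ) + (s : ℂ) / 3 := by
    rw [E9_coe_smul, E9_coe_smul, hden, div_add' _ _ _ hne]
    congr 1
    unfold den
    rw [e00, e01, hz']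
    push_cast
    linear_combination (-(s : ℂ) * z / 3) * hcC - ((s : ℂ) / 3) * heC + (c' : ℂ) * hsC
  have hchi : chi3 (γ' 1 1) = chi3 (γ 1 1) := by
    apply E9_chi3_congr
    rw [e11, show γ 1 1 - s * (3 * c') = γ 1 1 + 3 * (-(s * c')) by ring,
      Int.add_mul_emod_self_left]
  rw [← hact, E9_f9_slash h9 hm hγ' z', hden, hchi, hz']

theorem slash9 (h9 : Stmt_f9_slash3) (h3s : Stmt_f3s_slash3) (hm : Stmt_mu3) : Stmt_slash9 := by
  rintro f (rfl | rfl | rfl | rfl) γ hγ z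
  · exact E9_f9_slash h9 hm hγ z
  · exact E9_f9s_slash h3s hγ z
  · have := E9_shift_slash h9 hm 1 (by norm_num) hγ z
    simpa [f9p] using this
  · have := E9_shift_slash h9 hm (-1) (by norm_num) hγ z
    simpa [f9m, sub_eq_add_neg, neg_div] using this

/-! ### the invariant functions -/

theorem inv9 (h9 : Stmt_f9_slash3) (h3s : Stmt_f3s_slash3) (ht3 : Stmt_t3_inv) (hm : Stmt_mu3) :
    Stmt_inv9 := by
  intro γ hγ z
  have hz : 0 < (z : ℂ).im := z.im_pos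
  have hgz : 0 < ((γ • z : ℍ) : ℂ).im := (γ • z).im_pos
  have hne := E9_den_ne_zero γ z
  have hchi := E9_chi3_ne (γ 1 1)
  have ht9 : t9 ((γ • z : ℍ) : ℂ) = t9 z := by
    have h1 := E9_t9_mul hgz
    rw [E9_f9_slash h9 hm hγ z, E9_f9s_slash h3s hγ z, ← E9_t9_mul hz] at h1
    have h2 : chi3 (γ 1 1) * den γ z * f9s z ≠ 0 :=
      mul_ne_zero (mul_ne_zero hchi hne) (E9_f9s_ne hz)
    apply mul_right_cancel₀ h2
    rw [h1]
    ring
  have hu9 : u9 ((γ • z : ℍ) : ℂ) = u9 z := by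
    have h1 := E9_u9_mul hgz
    rw [ht3 γ (E9_Gamma0_9_le hγ) z, ht9, ← E9_u9_mul hz] at h1
    exact mul_right_cancel₀ (E9_t3_ne hz) h1
  refine ⟨ht9, hu9, ?_⟩
  rw [E9_G9_mul hgz, E9_G9_mul hz, hu9, E9_f9s_slash h3s hγ z]
  have := E9_chi3_sq (γ 1 1)
  linear_combination (den γ z ^ 2 * f9s z ^ 2 * u9 z) * this

/-! ### the Fricke relations -/

theorem E9_im_add_ofReal {z : ℂ} (hz : 0 < z.im) (x : ℝ) : 0 < (z + (x : ℂ)).im := by
  rw [Complex.add_im, Complex.ofReal_im, add_zero]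
  exact hz

theorem E9_mu3_Ua_neg : mu3 (Ua (-3)) = ee (1 / 3) := by
  have e10 : (Ua (-3)) 1 0 = -3 := rfl
  have e11 : (Ua (-3)) 1 1 = 1 := rfl
  unfold mu3
  rw [e10, e11]
  have h1 : chi3 1 = 1 := by
    unfold chi3
    norm_num
  rw [h1, mul_one]
  congr 1
  norm_num

theorem E9_frkConst : frkConst 9 lt9 = 27 := by
  simp only [frkConst, lt9, List.map_cons, List.map_nil, List.prod_cons, List.prod_nil]
  norm_num

theorem frk9 (h9 : Stmt_f9_slash3) (hm : Stmt_mu3) (hW : Stmt_etaL_W) : Stmt_frk9 := by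
  intro z hz
  have hz0 : z ≠ 0 := by
    rintro rfl
    simp at hz
  refine ⟨?_, ?_, ?_⟩
  · let w : ℍ := ⟨z + ((-1 / 3 : ℝ) : ℂ), E9_im_add_ofReal hz _⟩
    have hw : (w : ℂ) = z - 1 / 3 := by
      show z + ((-1 / 3 : ℝ) : ℂ) = z - 1 / 3
      push_cast
      ring
    have hU : Ua 3 ∈ Gamma0 3 := by
      rw [E9_mem_Gamma0]
      exact dvd_refl _
    have e00 : (Ua 3) 0 0 = 1 := rfl
    have e01 : (Ua 3) 0 1 = 0 := rfl
    have e10 : (Ua 3) 1 0 = 3 := rfl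
    have e11 : (Ua 3) 1 1 = 1 := rfl
    have hden : den (Ua 3) w = 3 * z := by
      unfold den
      rw [e10, e11, hw]
      push_cast
      ring
    have hact : ((Ua 3 • w : ℍ) : ℂ) = -1 / (9 * z) + 1 / 3 := by
      rw [E9_coe_smul, hden, e00, e01, hw]
      push_cast
      field_simp
      ring
    have h := h9 (Ua 3) hU w
    rw [hact, hm.2.2.2.1, hden, hw] at h
    unfold f9p f9m
    rw [h]
    ring
  · let w : ℍ := ⟨z + ((1 / 3 : ℝ) : ℂ), E9_im_add_ofReal hz _⟩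
    have hw : (w : ℂ) = z + 1 / 3 := by
      show z + ((1 / 3 : ℝ) : ℂ) = z + 1 / 3
      push_cast
      ring
    have hU : Ua (-3) ∈ Gamma0 3 := by
      rw [E9_mem_Gamma0]
      exact ⟨-1, rfl⟩
    have e00 : (Ua (-3)) 0 0 = 1 := rfl
    have e01 : (Ua (-3)) 0 1 = 0 := rfl
    have e10 : (Ua (-3)) 1 0 = -3 := rfl
    have e11 : (Ua (-3)) 1 1 = 1 := rfl
    have hden : den (Ua (-3)) w = -3 * z := by
      unfold den
      rw [e10, e11, hw]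
      push_cast
      ring
    have hact : ((Ua (-3) • w : ℍ) : ℂ) = -1 / (9 * z) - 1 / 3 := by
      rw [E9_coe_smul, hden, e00, e01, hw]
      push_cast
      field_simp
      ring
    have h := h9 (Ua (-3)) hU w
    rw [hact, E9_mu3_Ua_neg, hden, hw] at h
    unfold f9p f9m
    rw [h]
    ring
  · have h := hW 9 lt9 0 (by norm_num) (by simp [lt9]) (by simp [wt2, lt9]) z hz
    have hd : etaL (dualL 9 lt9) z = η (9 * z) ^ 3 * (η z ^ 3)⁻¹ := by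
      simp [etaL, dualL, lt9, zpow_neg]
    rw [E9_frkConst, hd, zpow_zero, one_mul] at h
    have h1 := E9_eta_ne hz
    have h9' := E9_eta9_ne hz
    have h' : t9 (-1 / (9 * z)) = 27 * (η (9 * z) ^ 3 * (η z ^ 3)⁻¹) := by
      have : t9 (-1 / (9 * z)) = etaL lt9 (-1 / (((9 : ℕ) : ℂ) * z)) := by
        norm_num [t9]
      rw [this, h]
      norm_num
    rw [h', E9_t9_eq]
    field_simp

end Fermat.Agent.CAR.Unit
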