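import Fermat.Agent.CAR.Unit.Interface

/-!
# S36 / CAR / Unit, task UNIT-G3 (helper77): Ligozat's formula as a `Θ`-estimate
-/

set_option autoImplicit false

namespace Fermat.Agent.CAR.Unit

open CongruenceSubgroup Complex Filter Asymptotics
open UpperHalfPlane hiding I
open scoped MatrixGroups Real Manifold ModularForm

theorem G3_den_ne_zero (g : SL(2, ℤ)) (z : ℍ) : den g z ≠ 0 := by
  have h := UpperHalfPlane.denom_ne_zero
    (Matrix.SpecialLinearGroup.toGL ((Matrix.SpecialLinearGroup.map (Int.castRingHom ℝ)) g)) z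
  rw [ModularGroup.denom_apply] at h
  exact h

theorem G3_coe_smul (g : SL(2, ℤ)) (z : ℍ) :
    ((g • z : ℍ) : ℂ) = (((g 0 0 : ℤ) : ℂ) * z + ((g 0 1 : ℤ) : ℂ)) / den g z := by
  rw [UpperHalfPlane.coe_specialLinearGroup_apply, den]
  simp

/-- the norm of a single factor. -/
theorem G3_factor_norm (h1 : Stmt_HNF) (h2 : Stmt_etaAbs) (A : ℕ) (B : ℤ) (D : ℕ) (g : SL(2, ℤ))
    (hA : 0 < A) (hD : 0 < D) :
    ∃ (A' : ℕ) (B' : ℤ) (D' : ℕ), 0 < A' ∧ 0 < D' ∧ A' * D' = A * D ∧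
      A' = Int.gcd ((A : ℤ) * g 0 0 + B * g 1 0) ((D : ℤ) * g 1 0) ∧
      ∀ z : ℍ, ‖η (((A : ℂ) * ((g • z : ℍ) : ℂ) + (B : ℂ)) / (D : ℂ))‖ ^ 2 =
        ((D : ℝ) / (D' : ℝ)) * ‖den g z‖ * ‖η (((A' : ℂ) * z + (B' : ℂ)) / (D' : ℂ))‖ ^ 2 := by
  obtain ⟨γ, A', B', D', hA', hD', hAD, hgcd, hM⟩ := h1 A B D g hA hD
  refine ⟨A', B', D', hA', hD', hAD, hgcd, fun z => ?_⟩
  have e00 := congrFun (congrFun hM 0) 0
  have e01 := congrFun (congrFun hM 0) 1
  have e10 := congrFun (congrFun hM 1) 0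
  have e11 := congrFun (congrFun hM 1) 1
  simp only [Matrix.mul_apply, Fin.sum_univ_two, Matrix.of_apply, Matrix.cons_val_zero,
    Matrix.cons_val_one, Matrix.cons_val', Matrix.cons_val_fin_one] at e00 e01 e10 e11
  have c00 := congrArg (Int.cast : ℤ → ℂ) e00
  have c01 := congrArg (Int.cast : ℤ → ℂ) e01
  have c10 := congrArg (Int.cast : ℤ → ℂ) e10
  have c11 := congrArg (Int.cast : ℤ → ℂ) e11
  push_cast at c00 c01 c10 c11
  have hD'c : (D' : ℂ) ≠ 0 := by exact_mod_cast hD'.ne'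
  have hDc : (D : ℂ) ≠ 0 := by exact_mod_cast hD.ne'
  have him : 0 < (((A' : ℂ) * z + (B' : ℂ)) / (D' : ℂ)).im := by
    have : (((A' : ℂ) * z + (B' : ℂ)) / (D' : ℂ)).im = (A' : ℝ) * z.im / (D' : ℝ) := by
      rw [Complex.div_natCast_im]
      simp
    rw [this]
    have := z.im_pos
    positivity
  let w : ℍ := ⟨((A' : ℂ) * z + (B' : ℂ)) / (D' : ℂ), him⟩
  have hw : (w : ℂ) = ((A' : ℂ) * z + (B' : ℂ)) / (D' : ℂ) := rfl
  have hden : den γ w = ((D : ℂ) / (D' : ℂ)) * den g z := by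
    rw [den, den, hw]
    field_simp
    linear_combination (-(z : ℂ)) * c10 - c11
  have hg0 := G3_den_ne_zero g z
  have hγ0 := G3_den_ne_zero γ w
  have hsm : ((γ • w : ℍ) : ℂ) = ((A : ℂ) * ((g • z : ℍ) : ℂ) + (B : ℂ)) / (D : ℂ) := by
    rw [G3_coe_smul, G3_coe_smul, hden, hw]
    obtain ⟨δ, hδ⟩ : ∃ δ, δ = den g z := ⟨_, rfl⟩
    have hδ' : δ = ((g 1 0 : ℤ) : ℂ) * z + ((g 1 1 : ℤ) : ℂ) := hδ
    rw [← hδ] at hg0 ⊢
    field_simp
    linear_combination (-(z : ℂ)) * c00 - c01 - (B : ℂ) * hδ'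
  have := h2 γ w
  rw [hsm, hden, hw, norm_mul, norm_div, Complex.norm_natCast, Complex.norm_natCast] at this
  exact this

/-- `Θ`-estimate of a single factor. -/
theorem G3_factor_theta (h1 : Stmt_HNF) (h2 : Stmt_etaAbs) (h3 : Stmt_etaTheta) (A : ℕ) (B : ℤ)
    (D : ℕ) (g : SL(2, ℤ)) (hA : 0 < A) (hD : 0 < D) :
    (fun z : ℍ => η (((A : ℂ) * ((g • z : ℍ) : ℂ) + (B : ℂ)) / (D : ℂ))) =Θ[atImInfty]
      fun z : ℍ => ‖den g z‖ ^ ((1 : ℝ) / 2) *
        Real.exp (-(π * (((Int.gcd ((A : ℤ) * g 0 0 + B * g 1 0) ((D : ℤ) * g 1 0) : ℕ) : ℝ) ^ 2 /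
          ((A : ℝ) * (D : ℝ))) * z.im / 12)) := by
  obtain ⟨A', B', D', hA', hD', hAD, hgcd, hn⟩ := G3_factor_norm h1 h2 A B D g hA hD
  rw [← hgcd]
  have hA'r : (0 : ℝ) < A' := by exact_mod_cast hA'
  have hD'r : (0 : ℝ) < D' := by exact_mod_cast hD'
  have hDr : (0 : ℝ) < D := by exact_mod_cast hD
  have hADr : (A' : ℝ) * D' = A * D := by exact_mod_cast hAD
  have hD'c : (D' : ℂ) ≠ 0 := by exact_mod_cast hD'.ne'
  -- the estimate for `η ((A' z + B') / D')`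
  have h3' : (fun z : ℍ => η (((A' : ℂ) * z + (B' : ℂ)) / (D' : ℂ))) =Θ[atImInfty]
      fun z : ℍ => Real.exp (-(π * ((A' : ℝ) ^ 2 / ((A : ℝ) * (D : ℝ))) * z.im / 12)) := by
    have := h3 ((A' : ℝ) / D') ((B' : ℝ) / D') (by positivity)
    have e1 : (fun z : ℍ => η ((((A' : ℝ) / D' : ℝ) : ℂ) * z + (((B' : ℝ) / D' : ℝ) : ℂ))) =
        fun z : ℍ => η (((A' : ℂ) * z + (B' : ℂ)) / (D' : ℂ)) := by
      funext z
      congr 1
      push_cast
      field_simp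
    have e2 : (A' : ℝ) / D' = (A' : ℝ) ^ 2 / ((A : ℝ) * (D : ℝ)) := by
      rw [← hADr]
      field_simp
    rw [e1, e2] at this
    exact this
  have hc : Real.sqrt ((D : ℝ) / D') ≠ 0 := by
    have : (0 : ℝ) < (D : ℝ) / D' := by positivity
    exact (Real.sqrt_pos.mpr this).ne'
  have e3 : (fun z : ℍ => ‖η (((A : ℂ) * ((g • z : ℍ) : ℂ) + (B : ℂ)) / (D : ℂ))‖) =
      fun z : ℍ => Real.sqrt ((D : ℝ) / D') * (‖den g z‖ ^ ((1 : ℝ) / 2) *
        ‖η (((A' : ℂ) * z + (B' : ℂ)) / (D' : ℂ))‖) := by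
    funext z
    refine (pow_left_inj₀ (norm_nonneg _) (by positivity) two_ne_zero).mp ?_
    rw [hn z, mul_pow, mul_pow, Real.sq_sqrt (by positivity), ← Real.rpow_natCast (_ ^ _),
      ← Real.rpow_mul (norm_nonneg _)]
    norm_num
    ring
  rw [← isTheta_norm_left, e3]
  exact IsTheta.const_mul_left hc ((isTheta_refl _ _).mul (isTheta_norm_left.mpr h3'))

/-- `Θ`-estimate of a single factor with its exponent. -/
theorem G3_term_theta (h1 : Stmt_HNF) (h2 : Stmt_etaAbs) (h3 : Stmt_etaTheta) (A : ℕ) (B : ℤ)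
    (D : ℕ) (g : SL(2, ℤ)) (hA : 0 < A) (hD : 0 < D) (e : ℤ) :
    (fun z : ℍ => η (((A : ℂ) * ((g • z : ℍ) : ℂ) + (B : ℂ)) / (D : ℂ)) ^ e) =Θ[atImInfty]
      fun z : ℍ => ‖den g z‖ ^ ((e : ℝ) / 2) *
        Real.exp (-(π * ((e : ℝ) *
          ((Int.gcd ((A : ℤ) * g 0 0 + B * g 1 0) ((D : ℤ) * g 1 0) : ℕ) : ℝ) ^ 2 /
          ((A : ℝ) * (D : ℝ))) * z.im / 12)) := by
  have := (G3_factor_theta h1 h2 h3 A B D g hA hD).zpow e
  refine this.trans_eventuallyEq (Eventually.of_forall fun z => ?_)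
  show (_ * _) ^ e = _
  rw [mul_zpow, ← Real.rpow_intCast (_ ^ _), ← Real.rpow_mul (norm_nonneg _),
    ← Real.rpow_intCast (Real.exp _), ← Real.exp_mul]
  congr 2 <;> ring

theorem etaG_theta (h1 : Stmt_HNF) (h2 : Stmt_etaAbs) (h3 : Stmt_etaTheta) : Stmt_etaG_theta := by
  intro l
  induction l with
  | nil =>
    intro _ g
    simp only [etaG, wt2G, ordG, List.map_nil, List.prod_nil, List.sum_nil]
    simp only [Int.cast_zero, zero_div, Real.rpow_zero, mul_zero, zero_mul, neg_zero, Real.exp_zero,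
      mul_one]
    exact isTheta_refl _ _ |>.trans (IsTheta.of_norm_eventuallyEq_norm (by simp))
  | cons p l ih =>
    intro hl g
    have hp := hl p List.mem_cons_self
    have ihl := ih (fun q hq => hl q (List.mem_cons_of_mem _ hq)) g
    have := (G3_term_theta h1 h2 h3 p.1 p.2.1 p.2.2.1 g hp.1 hp.2 p.2.2.2).mul ihl
    have e1 : (fun z : ℍ => etaG (p :: l) ((g • z : ℍ) : ℂ)) = fun z : ℍ =>
        η (((p.1 : ℂ) * ((g • z : ℍ) : ℂ) + (p.2.1 : ℂ)) / (p.2.2.1 : ℂ)) ^ p.2.2.2 *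
          etaG l ((g • z : ℍ) : ℂ) := by
      funext z
      simp only [etaG, List.map_cons, List.prod_cons]
    rw [e1]
    refine this.trans_eventuallyEq (Eventually.of_forall fun z => ?_)
    have hpos : 0 < ‖den g z‖ := norm_pos_iff.mpr (G3_den_ne_zero g z)
    show _ * _ * (_ * _) = _
    simp only [wt2G, ordG, List.map_cons, List.sum_cons]
    rw [mul_mul_mul_comm, ← Real.rpow_add hpos, ← Real.exp_add]
    congr 2
    · push_cast; ring
    · ring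

theorem ordG_toG : Stmt_ordG_toG := by
  intro l g _
  have hdet : g 0 0 * g 1 1 - g 0 1 * g 1 0 = 1 := by
    have := g.det_coe
    rwa [Matrix.det_fin_two] at this
  have hcop : Int.gcd (g 0 0) (g 1 0) = 1 := by
    rw [← Int.isCoprime_iff_gcd_eq_one]
    exact ⟨g 1 1, -g 0 1, by linear_combination hdet⟩
  simp only [ordG, toG, List.map_map]
  congr 1
  refine List.map_congr_left fun p _ => ?_
  simp only [Function.comp]
  have : Int.gcd ((p.1 : ℤ) * g 0 0 + 0 * g 1 0) (((1 : ℕ) : ℤ) * g 1 0) =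
      Int.gcd (p.1 : ℤ) (g 1 0) := by
    rw [zero_mul, add_zero, Nat.cast_one, one_mul, mul_comm,
      Int.gcd_mul_right_left_of_gcd_eq_one hcop]
  rw [this]
  simp

end Fermat.Agent.CAR.Unit
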