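import Fermat.Agent.CAR.Unit.Interface2

/-!
# S36 / CAR / Unit, task UNIT-L1 (helper77): list calculus of eta quotients, Frobenius
-/

set_option autoImplicit false
set_option linter.style.haveILetI false

namespace Fermat.Agent.CAR.Unit

open PowerSeries
open scoped ModularForm

/-! ### series -/

/-- a single factor of `etaLps`. -/
noncomputable def L1_fac (p : ℕ × ℤ) : PowerSeries ℤ :=
  if 0 ≤ p.2 then Eps p.1 ^ p.2.toNat else EpsInv p.1 ^ (-p.2).toNat

theorem L1_etaLps_nil : etaLps [] = 1 := rfl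

theorem L1_etaLps_cons (p : ℕ × ℤ) (l : List (ℕ × ℤ)) :
    etaLps (p :: l) = L1_fac p * etaLps l := by
  rw [etaLps, List.map_cons, List.prod_cons]
  rfl

theorem L1_const_Eps (d : ℕ) : constantCoeff (Eps d) = 1 := by
  by_cases hd : d = 0
  · rw [Eps, dif_pos hd, map_one]
  · rw [Eps, dif_neg hd, constantCoeff_expand, ModularCurve.constantCoeff_etaProd]

theorem L1_Eps_mul_inv (d : ℕ) : Eps d * EpsInv d = 1 :=
  mul_invOfUnit _ _ (by rw [L1_const_Eps]; rfl)

theorem L1_const_EpsInv (d : ℕ) : constantCoeff (EpsInv d) = 1 := by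
  have := congrArg constantCoeff (L1_Eps_mul_inv d)
  rwa [map_mul, L1_const_Eps, one_mul, map_one] at this

theorem L1_const_fac (p : ℕ × ℤ) : constantCoeff (L1_fac p) = 1 := by
  rw [L1_fac]
  split_ifs
  · rw [map_pow, L1_const_Eps, one_pow]
  · rw [map_pow, L1_const_EpsInv, one_pow]

theorem L1_fac_neg_mul (d : ℕ) (e : ℤ) : L1_fac (d, -e) * L1_fac (d, e) = 1 := by
  simp only [L1_fac]
  rcases lt_trichotomy e 0 with h | h | h
  · rw [if_pos (by omega), if_neg (by omega), ← mul_pow, L1_Eps_mul_inv, one_pow]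
  · subst h
    simp
  · rw [if_neg (by omega), if_pos (by omega), neg_neg, ← mul_pow, mul_comm, L1_Eps_mul_inv,
      one_pow]

theorem L1_expand_Eps (r : ℕ) (hr : r ≠ 0) (d : ℕ) (hd : d ≠ 0) :
    expand r hr (Eps d) = Eps (r * d) := by
  rw [Eps, dif_neg hd, Eps, dif_neg (Nat.mul_ne_zero hr hd)]
  exact (expand_mul r hr d hd ModularCurve.etaProd).symm

theorem L1_expand_EpsInv (r : ℕ) (hr : r ≠ 0) (d : ℕ) (hd : d ≠ 0) :
    expand r hr (EpsInv d) = EpsInv (r * d) := by
  have h1 : Eps (r * d) * expand r hr (EpsInv d) = 1 := by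
    rw [← L1_expand_Eps r hr d hd, ← map_mul, L1_Eps_mul_inv, map_one]
  have h2 := L1_Eps_mul_inv (r * d)
  calc expand r hr (EpsInv d) = (Eps (r * d) * EpsInv (r * d)) * expand r hr (EpsInv d) := by
        rw [h2, one_mul]
    _ = EpsInv (r * d) * (Eps (r * d) * expand r hr (EpsInv d)) := by ring
    _ = EpsInv (r * d) := by rw [h1, mul_one]

theorem L1_expand_fac (r : ℕ) (hr : r ≠ 0) (p : ℕ × ℤ) (hp : p.1 ≠ 0) :
    L1_fac (r * p.1, p.2) = expand r hr (L1_fac p) := by
  simp only [L1_fac]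
  split_ifs
  · rw [map_pow, L1_expand_Eps r hr _ hp]
  · rw [map_pow, L1_expand_EpsInv r hr _ hp]

/-! ### the list calculus -/

theorem listCalc : Stmt_listCalc := by
  refine ⟨?_, ?_, ?_, ?_, ?_, ?_, ?_⟩
  · intro l l' z
    simp only [etaL, List.map_append, List.prod_append]
  · intro l z
    induction l with
    | nil => simp [etaL, negL]
    | cons p l ih =>
      have h1 : etaL (negL (p :: l)) z = η ((p.1 : ℂ) * z) ^ (-p.2) * etaL (negL l) z := by
        simp only [etaL, negL, List.map_cons, List.prod_cons]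
      have h2 : etaL (p :: l) z = η ((p.1 : ℂ) * z) ^ p.2 * etaL l z := by
        simp only [etaL, List.map_cons, List.prod_cons]
      rw [h1, h2, ih, zpow_neg, mul_inv]
  · intro r l z
    induction l with
    | nil => simp [etaL, scaleL]
    | cons p l ih =>
      have h1 : etaL (scaleL r (p :: l)) z =
          η (((r * p.1 : ℕ) : ℂ) * z) ^ p.2 * etaL (scaleL r l) z := by
        simp only [etaL, scaleL, List.map_cons, List.prod_cons]
      have h2 : etaL (p :: l) ((r : ℂ) * z) = η ((p.1 : ℂ) * ((r : ℂ) * z)) ^ p.2 *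
          etaL l ((r : ℂ) * z) := by
        simp only [etaL, List.map_cons, List.prod_cons]
      have h3 : ((r * p.1 : ℕ) : ℂ) * z = (p.1 : ℂ) * ((r : ℂ) * z) := by
        push_cast
        ring
      rw [h1, h2, ih, h3]
  · intro l l'
    simp only [etaLps, List.map_append, List.prod_append]
  · intro l hl
    clear hl
    induction l with
    | nil => simp [negL, L1_etaLps_nil]
    | cons p l ih =>
      have h1 : negL (p :: l) = (p.1, -p.2) :: negL l := rfl
      rw [h1, L1_etaLps_cons, L1_etaLps_cons, mul_mul_mul_comm, ih, mul_one]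
      exact L1_fac_neg_mul p.1 p.2
  · intro r hr l hl
    induction l with
    | nil => simp [scaleL, L1_etaLps_nil]
    | cons p l ih =>
      have h1 : scaleL r (p :: l) = (r * p.1, p.2) :: scaleL r l := rfl
      rw [h1, L1_etaLps_cons, L1_etaLps_cons, map_mul,
        ih (fun q hq => hl q (List.mem_cons_of_mem _ hq)),
        L1_expand_fac r hr p (hl p List.mem_cons_self).ne']
  · intro l
    induction l with
    | nil => simp [L1_etaLps_nil]
    | cons p l ih => rw [L1_etaLps_cons, map_mul, ih, L1_const_fac, one_mul]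

/-! ### Frobenius -/

theorem L1_expand_zmod (p : ℕ) [Fact p.Prime] (hp : p ≠ 0) (f : PowerSeries (ZMod p)) :
    expand p hp f = f ^ p := by
  have h := MvPowerSeries.map_frobenius_expand (σ := Unit) (R := ZMod p) p hp (f := f)
  rw [ZMod.frobenius_zmod, MvPowerSeries.map_id] at h
  exact h

/-- `g(q^r) ≡ g(q)^r mod r`. -/
theorem L1_frob_ps (r : ℕ) (hr : r.Prime) (g : PowerSeries ℤ) :
    ∃ h : PowerSeries ℤ, expand r hr.ne_zero g = g ^ r + (r : PowerSeries ℤ) * h := by
  haveI : Fact r.Prime := ⟨hr⟩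
  have h0 : PowerSeries.map (Int.castRingHom (ZMod r)) (expand r hr.ne_zero g - g ^ r) = 0 := by
    rw [map_sub, map_pow, map_expand, L1_expand_zmod, sub_self]
  have hdvd : ∀ n, (r : ℤ) ∣ coeff n (expand r hr.ne_zero g - g ^ r) := by
    intro n
    have := congrArg (coeff n) h0
    rw [coeff_map, map_zero] at this
    exact (ZMod.intCast_zmod_eq_zero_iff_dvd _ r).mp this
  refine ⟨PowerSeries.mk fun n => coeff n (expand r hr.ne_zero g - g ^ r) / r, ?_⟩
  have hC : ((r : ℕ) : PowerSeries ℤ) = C (r : ℤ) := by simp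
  ext n
  rw [map_add, hC, coeff_C_mul, coeff_mk, Int.mul_ediv_cancel' (hdvd n), map_sub]
  ring

theorem frob (h : Stmt_listCalc) : Stmt_frob := by
  intro r l hr hl
  obtain ⟨g, hg⟩ := L1_frob_ps r hr (etaLps l)
  exact ⟨g, by rw [h.2.2.2.2.2.1 r hr.ne_zero l hl, hg]⟩

end Fermat.Agent.CAR.Unit
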