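import Fermat.Agent.CAR.Unit.Interface

/-!
# S36 / CAR / Unit : (K2) the functions `x₁, x₂` under `Γ₀`, `W` and `δ`
-/

set_option autoImplicit false

namespace Fermat.Agent.CAR.Unit

open CongruenceSubgroup Complex
open UpperHalfPlane hiding I
open scoped MatrixGroups

/-! ### points of the upper half plane and integral matrices -/

theorem XF_lin_ne_zero (C D : ℤ) (h : C ≠ 0 ∨ D ≠ 0) (w : ℂ) (hw : 0 < w.im) :
    (C : ℂ) * w + (D : ℂ) ≠ 0 := by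
  have := UpperHalfPlane.linear_ne_zero_of_im (cd := ![(C : ℝ), (D : ℝ)]) (z := w) hw.ne' (by
    intro h0
    have h1 : (C : ℝ) = 0 := by simpa using congrFun h0 0
    have h2 : (D : ℝ) = 0 := by simpa using congrFun h0 1
    rcases h with h | h
    · exact h (by exact_mod_cast h1)
    · exact h (by exact_mod_cast h2))
  simpa using this

theorem XF_lin_ne_zero' (A B C D : ℤ) (hdet : A * D - B * C = 1) (w : ℂ) (hw : 0 < w.im) :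
    (C : ℂ) * w + (D : ℂ) ≠ 0 := by
  refine XF_lin_ne_zero C D ?_ w hw
  by_contra hcon
  push Not at hcon
  rw [hcon.1, hcon.2] at hdet
  simp at hdet

theorem XF_det (γ : SL(2, ℤ)) : γ 0 0 * γ 1 1 - γ 0 1 * γ 1 0 = 1 := by
  have := γ.2
  rwa [Matrix.det_fin_two] at this

theorem XF_den_ne_zero (γ : SL(2, ℤ)) (z : ℍ) : den γ z ≠ 0 :=
  XF_lin_ne_zero' _ _ _ _ (XF_det γ) z z.im_pos

theorem XF_coe_smul (γ : SL(2, ℤ)) (z : ℍ) :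
    ((γ • z : ℍ) : ℂ) * den γ z = ((γ 0 0 : ℤ) : ℂ) * z + ((γ 0 1 : ℤ) : ℂ) := by
  rw [coe_specialLinearGroup_apply]
  simp only [algebraMap_int_eq, Int.coe_castRingHom, Complex.ofReal_intCast]
  exact div_mul_cancel₀ _ (XF_den_ne_zero γ z)

/-- the point `v = (A w + B) / (C w + D)` is `γ' • w`. -/
theorem XF_point (A B C D : ℤ) (hdet : A * D - B * C = 1) (w v : ℂ) (hw : 0 < w.im)
    (hv : v * ((C : ℂ) * w + (D : ℂ)) = (A : ℂ) * w + (B : ℂ)) :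
    ∃ γ' : SL(2, ℤ), γ' 1 0 = C ∧ γ' 1 1 = D ∧ ((γ' • (⟨w, hw⟩ : ℍ) : ℍ) : ℂ) = v := by
  let g : SL(2, ℤ) := ⟨!![A, B; C, D], by rw [Matrix.det_fin_two_of]; exact hdet⟩
  refine ⟨g, rfl, rfl, ?_⟩
  have hne := XF_lin_ne_zero' A B C D hdet w hw
  rw [coe_specialLinearGroup_apply]
  simp only [g, Matrix.of_apply, Matrix.cons_val', Matrix.cons_val_zero,
    Matrix.cons_val_one, Matrix.cons_val_fin_one, algebraMap_int_eq, Int.coe_castRingHom,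
    Complex.ofReal_intCast]
  rw [div_eq_iff hne]
  exact hv.symm

theorem XF_mem_Gamma0 (a : ℕ) (γ : SL(2, ℤ)) : γ ∈ Gamma0 a ↔ (a : ℤ) ∣ γ 1 0 := by
  rw [Gamma0_mem, ZMod.intCast_zmod_eq_zero_iff_dvd]

/-- the transformation law at a point given by an explicit matrix. -/
theorem XF_slash {a : ℕ} {f fs : ℂ → ℂ} {χ : ℤ → ℂ} {C₀ : ℂ} (h : WU a f fs χ C₀)
    (A B C D : ℤ) (hdet : A * D - B * C = 1) (hC : (a : ℤ) ∣ C) (w v : ℂ) (hw : 0 < w.im)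
    (hv : v * ((C : ℂ) * w + (D : ℂ)) = (A : ℂ) * w + (B : ℂ)) :
    f v = χ D * ((C : ℂ) * w + (D : ℂ)) * f w := by
  obtain ⟨γ', h10, h11, hγ⟩ := XF_point A B C D hdet w v hw hv
  have := h.slash γ' ((XF_mem_Gamma0 a γ').2 (h10 ▸ hC)) ⟨w, hw⟩
  rw [hγ, den, h10, h11] at this
  exact this

theorem XF_inv {a : ℕ} {t : ℂ → ℂ}
    (h : ∀ γ ∈ Gamma0 a, ∀ z : ℍ, t ((γ • z : ℍ) : ℂ) = t z)
    (A B C D : ℤ) (hdet : A * D - B * C = 1) (hC : (a : ℤ) ∣ C) (w v : ℂ) (hw : 0 < w.im)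
    (hv : v * ((C : ℂ) * w + (D : ℂ)) = (A : ℂ) * w + (B : ℂ)) :
    t v = t w := by
  obtain ⟨γ', h10, h11, hγ⟩ := XF_point A B C D hdet w v hw hv
  have := h γ' ((XF_mem_Gamma0 a γ').2 (h10 ▸ hC)) ⟨w, hw⟩
  rw [hγ] at this
  exact this

theorem XF_im_pos {n : ℕ} (hn : 0 < n) {z : ℂ} (hz : 0 < z.im) : 0 < ((n : ℂ) * z).im := by
  rw [← Complex.ofReal_natCast, Complex.im_ofReal_mul]
  exact mul_pos (by exact_mod_cast hn) hz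

/-- `f (n γ z) = χ(d) (c z + d) f (n z)` for `γ ∈ Γ₀(a n)`. -/
theorem XF_scale {a : ℕ} {f fs : ℂ → ℂ} {χ : ℤ → ℂ} {C₀ : ℂ} (h : WU a f fs χ C₀) {n : ℕ}
    (hn : 0 < n) (γ : SL(2, ℤ)) (hγ : γ ∈ Gamma0 (a * n)) (z : ℍ) :
    f ((n : ℂ) * ((γ • z : ℍ) : ℂ)) = χ (γ 1 1) * den γ z * f ((n : ℂ) * z) := by
  obtain ⟨s', hs'⟩ := (XF_mem_Gamma0 _ γ).1 hγ
  have hdet := XF_det γ
  have hco := XF_coe_smul γ z
  have hn0 : (n : ℂ) ≠ 0 := by exact_mod_cast hn.ne'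
  have e1 : (((a : ℤ) * s' : ℤ) : ℂ) * ((n : ℂ) * z) + ((γ 1 1 : ℤ) : ℂ) = den γ z := by
    rw [den, hs']; push_cast; ring
  have := XF_slash h (γ 0 0) (n * γ 0 1) ((a : ℤ) * s') (γ 1 1)
    (by rw [hs'] at hdet; push_cast at hdet; linear_combination hdet) (Dvd.intro _ rfl)
    ((n : ℂ) * z) ((n : ℂ) * ((γ • z : ℍ) : ℂ)) (XF_im_pos hn z.im_pos)
    (by rw [e1, mul_assoc, hco]; push_cast; ring)
  rw [e1] at this
  exact this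

theorem XF_scale_inv {a : ℕ} {t : ℂ → ℂ}
    (h : ∀ γ ∈ Gamma0 a, ∀ z : ℍ, t ((γ • z : ℍ) : ℂ) = t z) {n : ℕ}
    (hn : 0 < n) (γ : SL(2, ℤ)) (hγ : γ ∈ Gamma0 (a * n)) (z : ℍ) :
    t ((n : ℂ) * ((γ • z : ℍ) : ℂ)) = t ((n : ℂ) * z) := by
  obtain ⟨s', hs'⟩ := (XF_mem_Gamma0 _ γ).1 hγ
  have hdet := XF_det γ
  have hco := XF_coe_smul γ z
  have e1 : (((a : ℤ) * s' : ℤ) : ℂ) * ((n : ℂ) * z) + ((γ 1 1 : ℤ) : ℂ) = den γ z := by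
    rw [den, hs']; push_cast; ring
  exact XF_inv h (γ 0 0) (n * γ 0 1) ((a : ℤ) * s') (γ 1 1)
    (by rw [hs'] at hdet; push_cast at hdet; linear_combination hdet) (Dvd.intro _ rfl)
    ((n : ℂ) * z) ((n : ℂ) * ((γ • z : ℍ) : ℂ)) (XF_im_pos hn z.im_pos)
    (by rw [e1, mul_assoc, hco]; push_cast; ring)

theorem XF_chi_ne {a : ℕ} {f fs : ℂ → ℂ} {χ : ℤ → ℂ} {C₀ : ℂ} (h : WU a f fs χ C₀) (d : ℤ) :
    χ d ≠ 0 := by
  intro h0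
  have := h.chi_sq d
  rw [h0] at this
  norm_num at this

theorem XF_Gamma0_le {a m n : ℕ} (hmn : m ∣ n) {γ : SL(2, ℤ)} (hγ : γ ∈ Gamma0 (a * n)) :
    γ ∈ Gamma0 (a * m) := by
  rw [XF_mem_Gamma0] at hγ ⊢
  exact (Int.natCast_dvd_natCast.2 (Nat.mul_dvd_mul_left a hmn)).trans hγ

theorem x_inv : Stmt_x_inv := by
  intro a f fs χ C r h hr
  constructor
  · intro γ hγ z
    have h1 := XF_scale h hr γ hγ z
    have h2 := XF_scale h one_pos γ (XF_Gamma0_le (one_dvd r) hγ) z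
    simp only [Nat.cast_one, one_mul] at h2
    have hne : χ (γ 1 1) * den γ z ≠ 0 := mul_ne_zero (XF_chi_ne h _) (XF_den_ne_zero γ z)
    rw [x1, x1, h1, h2, mul_div_mul_left _ _ hne]
  · intro γ hγ z
    have h1 := XF_scale h (pow_pos hr 2) γ hγ z
    have h2 := XF_scale h hr γ (XF_Gamma0_le (Dvd.intro_left r (by ring)) hγ) z
    have hne : χ (γ 1 1) * den γ z ≠ 0 := mul_ne_zero (XF_chi_ne h _) (XF_den_ne_zero γ z)
    push_cast at h1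
    rw [x2, x2, h1, h2, mul_div_mul_left _ _ hne]

theorem x_W : Stmt_x_W := by
  intro a f fs χ C r h ha hr z hz
  have ha0 : (a : ℂ) ≠ 0 := by exact_mod_cast ha.ne'
  have hr0 : (r : ℂ) ≠ 0 := by exact_mod_cast hr.ne'
  have hz0 : z ≠ 0 := by
    rintro rfl
    simp at hz
  have hz1 : 0 < ((r : ℂ) * z).im := XF_im_pos hr hz
  have hz2 : 0 < ((r : ℂ) ^ 2 * z).im := by
    have := XF_im_pos (pow_pos hr 2) hz
    push_cast at this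
    exact this
  have e0 : f (-1 / ((a : ℂ) * (r : ℂ) ^ 2 * z)) =
      C * ((r : ℂ) ^ 2 * z) * fs ((r : ℂ) ^ 2 * z) := by
    have := h.frk _ hz2
    rwa [← mul_assoc] at this
  have e1 : f ((r : ℂ) * (-1 / ((a : ℂ) * (r : ℂ) ^ 2 * z))) =
      C * ((r : ℂ) * z) * fs ((r : ℂ) * z) := by
    rw [← h.frk _ hz1]
    congr 1
    field_simp
  have e2 : f ((r : ℂ) ^ 2 * (-1 / ((a : ℂ) * (r : ℂ) ^ 2 * z))) = C * z * fs z := by
    rw [← h.frk _ hz]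
    congr 1
    field_simp
  have n0 := h.ne_zero' z hz
  have n1 := h.ne_zero' _ hz1
  have n2 := h.ne_zero' _ hz2
  have hC := h.C_ne
  constructor
  · rw [x1, x2, e1, e0]
    generalize fs ((r : ℂ) ^ 2 * z) = u2 at n2 ⊢
    generalize fs ((r : ℂ) * z) = u1 at n1 ⊢
    field_simp
  · rw [x2, x1, e2, e1]
    generalize fs ((r : ℂ) * z) = u1 at n1 ⊢
    generalize fs z = u0 at n0 ⊢
    field_simp

/-! ### the matrix `δ` -/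

theorem XF_Ua_mem (a r : ℕ) : Ua ((a * r : ℕ) : ℤ) ∈ Gamma0 (a * r) := by
  rw [XF_mem_Gamma0]
  exact dvd_refl _

theorem XF_Ua_den (c : ℤ) (z : ℂ) : den (Ua c) z = (c : ℂ) * z + 1 := by
  simp [den, Ua]

theorem XF_Ua_coe (c : ℤ) (z : ℍ) : ((Ua c • z : ℍ) : ℂ) * ((c : ℂ) * z + 1) = z := by
  have := XF_coe_smul (Ua c) z
  rw [XF_Ua_den] at this
  simpa [Ua] using this

theorem XF_shift_im_pos (B : ℤ) (r : ℕ) {z : ℂ} (hz : 0 < z.im) :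
    0 < (z + (B : ℂ) / (r : ℂ)).im := by
  have : ((B : ℂ) / (r : ℂ)).im = 0 := by
    rw [← Complex.ofReal_intCast, ← Complex.ofReal_natCast, ← Complex.ofReal_div,
      Complex.ofReal_im]
  rw [Complex.add_im, this, add_zero]
  exact hz

/-- `r² δ z = γ (z + B / r)`, `γ = [[r, -B], [a, e]]`. -/
theorem XF_delta_point (a r : ℕ) (hr : 0 < r) (B e : ℤ) (hB : (a : ℤ) * B + (r : ℤ) * e = 1)
    (z : ℍ) :
    (r : ℂ) ^ 2 * ((Ua ((a * r : ℕ) : ℤ) • z : ℍ) : ℂ) *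
        ((((a : ℕ) : ℤ) : ℂ) * ((z : ℂ) + (B : ℂ) / (r : ℂ)) + (e : ℂ)) =
      (((r : ℕ) : ℤ) : ℂ) * ((z : ℂ) + (B : ℂ) / (r : ℂ)) + ((-B : ℤ) : ℂ) ∧
    (r : ℂ) * ((((a : ℕ) : ℤ) : ℂ) * ((z : ℂ) + (B : ℂ) / (r : ℂ)) + (e : ℂ)) =
      (((a * r : ℕ) : ℤ) : ℂ) * z + 1 := by
  have hr0 : (r : ℂ) ≠ 0 := by exact_mod_cast hr.ne'
  have hB' : (a : ℂ) * (B : ℂ) + (r : ℂ) * (e : ℂ) = 1 := by exact_mod_cast hB
  have hco := XF_Ua_coe ((a * r : ℕ) : ℤ) z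
  have e2 : (r : ℂ) * ((((a : ℕ) : ℤ) : ℂ) * ((z : ℂ) + (B : ℂ) / (r : ℂ)) + (e : ℂ)) =
      (((a * r : ℕ) : ℤ) : ℂ) * z + 1 := by
    push_cast
    field_simp
    linear_combination hB'
  refine ⟨?_, e2⟩
  have e3 : (r : ℂ) ^ 2 * ((Ua ((a * r : ℕ) : ℤ) • z : ℍ) : ℂ) *
      ((((a : ℕ) : ℤ) : ℂ) * ((z : ℂ) + (B : ℂ) / (r : ℂ)) + (e : ℂ)) =
      (r : ℂ) * (((Ua ((a * r : ℕ) : ℤ) • z : ℍ) : ℂ) *
        ((r : ℂ) * ((((a : ℕ) : ℤ) : ℂ) * ((z : ℂ) + (B : ℂ) / (r : ℂ)) + (e : ℂ)))) := by ring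
  rw [e3, e2, hco]
  push_cast
  field_simp
  ring

theorem x_delta : Stmt_x_delta := by
  intro a f fs χ C r B e h ha hr hB z
  have hδ := XF_Ua_mem a r
  refine ⟨(x_inv a f fs χ C r h hr).1 _ hδ z, ?_⟩
  obtain ⟨p1, p2⟩ := XF_delta_point a r hr B e hB z
  have hr0 : (r : ℂ) ≠ 0 := by exact_mod_cast hr.ne'
  have h1 := XF_scale h hr _ hδ z
  have h11 : (Ua ((a * r : ℕ) : ℤ)) 1 1 = 1 := by simp [Ua]
  rw [h11, h.chi_one, one_mul, XF_Ua_den] at h1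
  have h2 := XF_slash h (r : ℤ) (-B) (a : ℤ) e (by linear_combination hB) (dvd_refl _)
    ((z : ℂ) + (B : ℂ) / (r : ℂ)) _ (XF_shift_im_pos B r z.im_pos) p1
  have hden : (((a * r : ℕ) : ℤ) : ℂ) * z + 1 ≠ 0 := by
    have := XF_den_ne_zero (Ua ((a * r : ℕ) : ℤ)) z
    rwa [XF_Ua_den] at this
  have hf : f ((r : ℂ) * z) ≠ 0 := h.ne_zero _ (XF_im_pos hr z.im_pos)
  rw [x2, h1, h2, ← p2]
  rw [← p2] at hden
  have hden' := right_ne_zero_of_mul hden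
  generalize f ((r : ℂ) * z) = u1 at hf ⊢
  generalize f ((z : ℂ) + (B : ℂ) / (r : ℂ)) = u2
  generalize (((a : ℕ) : ℤ) : ℂ) * ((z : ℂ) + (B : ℂ) / (r : ℂ)) + (e : ℂ) = Dn at hden' ⊢
  field_simp

theorem t_delta : Stmt_t_delta := by
  intro a t r B e ha hr ht hB z
  have hδ := XF_Ua_mem a r
  obtain ⟨p1, -⟩ := XF_delta_point a r hr B e hB z
  refine ⟨?_, XF_scale_inv ht hr _ hδ z, ?_⟩
  · exact XF_inv ht (r : ℤ) (-B) (a : ℤ) e (by linear_combination hB) (dvd_refl _)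
      ((z : ℂ) + (B : ℂ) / (r : ℂ)) _ (XF_shift_im_pos B r z.im_pos) p1
  · refine ht _ ?_ z
    have := XF_Gamma0_le (one_dvd r) hδ
    rwa [mul_one] at this

end Fermat.Agent.CAR.Unit
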