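import Fermat.Agent.CAR.Unit.Interface3
import Fermat.Agent.CAR.Unit.XForm

/-!
# S36 / CAR / Unit : UNIT-N1, modular units: closure properties, `x₁`, `x₂`, `t₄`, `t₉`
-/

set_option autoImplicit false

namespace Fermat.Agent.CAR.Unit

open CongruenceSubgroup Complex
open UpperHalfPlane hiding I
open scoped MatrixGroups Real Manifold ModularForm

theorem MUInst_neg (hL : Stmt_listCalc) (hN : Stmt_listNum) (N : ℕ) (n : ℤ) (l : List (ℕ × ℤ))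
    (h : MU N n l) : MU N (-n) (negL l) := by
  obtain ⟨-, hLn, -⟩ := hL
  obtain ⟨-, hNn, -⟩ := hN
  obtain ⟨h1, h2, h3⟩ := hNn l
  refine ⟨h3 h.pos, by rw [h1, h.wt, neg_zero], by rw [h2, h.deg]; ring, fun γ hγ z => ?_⟩
  rw [hLn, hLn, h.inv γ hγ z]

theorem MUInst_mul (hL : Stmt_listCalc) (hN : Stmt_listNum) (N : ℕ) (n n' : ℤ)
    (l l' : List (ℕ × ℤ)) (h : MU N n l) (h' : MU N n' l') : MU N (n + n') (l ++ l') := by
  obtain ⟨hLa, -⟩ := hL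
  obtain ⟨hNa, -⟩ := hN
  obtain ⟨h1, h2, h3⟩ := hNa l l'
  refine ⟨h3 h.pos h'.pos, by rw [h1, h.wt, h'.wt, add_zero], by rw [h2, h.deg, h'.deg]; ring,
    fun γ hγ z => ?_⟩
  rw [hLa, hLa, h.inv γ hγ z, h'.inv γ hγ z]

theorem MUInst_level (N N' : ℕ) (n : ℤ) (l : List (ℕ × ℤ)) (hNN : N ∣ N') (h : MU N n l) :
    MU N' n l := by
  refine ⟨h.pos, h.wt, h.deg, fun γ hγ z => h.inv γ ?_ z⟩
  rw [XF_mem_Gamma0] at hγ ⊢
  exact (Int.natCast_dvd_natCast.2 hNN).trans hγ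

theorem MUInst_scale (hL : Stmt_listCalc) (hN : Stmt_listNum) (N r : ℕ) (n : ℤ)
    (l : List (ℕ × ℤ)) (hr : 0 < r) (h : MU N n l) : MU (r * N) (r * n) (scaleL r l) := by
  obtain ⟨-, -, hLs, -⟩ := hL
  obtain ⟨-, -, hNs⟩ := hN
  obtain ⟨h1, h2, h3⟩ := hNs r l
  refine ⟨h3 hr h.pos, by rw [h1, h.wt], by rw [h2, h.deg]; ring, fun γ hγ z => ?_⟩
  rw [hLs, hLs]
  exact XF_scale_inv h.inv hr γ (by rwa [mul_comm]) z

theorem MUInst_x (hN : Stmt_listNum) (hx : Stmt_xL_inv) (a : ℕ) (lf : List (ℕ × ℤ)) (χ : ℤ → ℂ)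
    (r M : ℕ) (hW : W1 a lf χ) (ha : a ∣ M) (hr : 0 < r) (hM : 0 < M) :
    MU (r * M) 0 (lx1 lf r) ∧ MU (r ^ 2 * M) 0 (lx2 lf r) := by
  obtain ⟨hNa, hNn, hNs⟩ := hN
  obtain ⟨hx1, hx2⟩ := hx a lf χ r M hW ha hr hM
  have hr2 : 0 < r ^ 2 := pow_pos hr 2
  constructor
  · obtain ⟨h1, h2, h3⟩ := hNa (scaleL r lf) (negL lf)
    refine ⟨h3 ((hNs r lf).2.2 hr hW.pos) ((hNn lf).2.2 hW.pos), ?_, ?_, hx1⟩
    · rw [lx1, h1, (hNs r lf).1, (hNn lf).1]; ring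
    · rw [lx1, h2, (hNs r lf).2.1, (hNn lf).2.1, hW.deg]; ring
  · obtain ⟨h1, h2, h3⟩ := hNa (scaleL (r ^ 2) lf) (negL (scaleL r lf))
    refine ⟨h3 ((hNs (r ^ 2) lf).2.2 hr2 hW.pos)
      ((hNn (scaleL r lf)).2.2 ((hNs r lf).2.2 hr hW.pos)), ?_, ?_, hx2⟩
    · rw [lx2, h1, (hNs (r ^ 2) lf).1, (hNn (scaleL r lf)).1, (hNs r lf).1]; ring
    · rw [lx2, h2, (hNs (r ^ 2) lf).2.1, (hNn (scaleL r lf)).2.1, (hNs r lf).2.1, hW.deg]; ring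

theorem MUInst_t4 (h4 : Stmt_slash4) : MU 4 (-1) lt4 := by
  refine ⟨?_, by simp [wt2, lt4], by simp [deg24, lt4], fun γ hγ z => ?_⟩
  · intro p hp
    simp only [lt4, List.mem_cons, List.not_mem_nil, or_false] at hp
    rcases hp with rfl | rfl <;> norm_num
  · have := h4 lt4 0 (Or.inl ⟨Or.inl rfl, rfl⟩) γ hγ z
    rwa [zpow_zero, one_mul] at this

theorem MUInst_t9 (h9 : Stmt_inv9) : MU 9 (-1) lt9 := by
  refine ⟨?_, by simp [wt2, lt9], by simp [deg24, lt9], fun γ hγ z => (h9 γ hγ z).1⟩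
  intro p hp
  simp only [lt9, List.mem_cons, List.not_mem_nil, or_false] at hp
  rcases hp with rfl | rfl <;> norm_num

theorem mu (hL : Stmt_listCalc) (hN : Stmt_listNum) (hx : Stmt_xL_inv) (h4 : Stmt_slash4)
    (h9 : Stmt_inv9) : Stmt_MU :=
  ⟨MUInst_neg hL hN, MUInst_mul hL hN, MUInst_level, MUInst_scale hL hN, MUInst_x hN hx,
    MUInst_t4 h4, MUInst_t9 h9⟩

end Fermat.Agent.CAR.Unit
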