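import Fermat.Agent.CAR.Unit.Interface
import Fermat.Agent.ES.Mid.InvRat

/-!
# S36 / CAR / Unit : UNIT-K3, membership of invariant eta quotients in the function field
-/

set_option autoImplicit false

namespace Fermat.Agent.CAR.Unit

open CongruenceSubgroup Complex Filter Asymptotics
open UpperHalfPlane hiding I
open scoped MatrixGroups Real Manifold ModularForm
open Fermat.Agent.S24 (Qbar FF funAlg iota)
open Fermat.Agent.S24.QX (qExpHom cmI Rep Nice)
attribute [local instance] Fermat.Agent.S24.algQbarComplex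

/-- a function differentiable on the open upper half plane restricts to an `MDiff` function. -/
theorem K3_mdiff_onH {f : ℂ → ℂ} (hf : DifferentiableOn ℂ f {z : ℂ | 0 < z.im}) :
    MDiff (onH f) := by
  rw [UpperHalfPlane.mdifferentiable_iff]
  refine hf.congr fun z hz => ?_
  show f ((ofComplex z : ℍ) : ℂ) = f z
  rw [ofComplex_apply_of_im_pos hz]

theorem etaG_mem (hG : Stmt_etaG_growth) (hB : Stmt_etaG_basic) : Stmt_etaG_mem := by
  intro N _ l x hl hw hinv hrep
  obtain ⟨θ₁, θ₂, h2, hfun, hser⟩ := Fermat.Agent.ES.Mid.INV.invRat N (onH (etaG l)) x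
    (K3_mdiff_onH (hB l hl).1) (fun γ hγ z => hinv γ hγ z) (hG l hl hw) hrep
  refine ⟨?_, θ₁, θ₂, h2, hfun, hser⟩
  have hne : qExpHom N θ₂ ≠ 0 := by
    intro h0
    exact h2 (Fermat.Agent.S24.QX.qExpHom_injective N (by rw [h0, map_zero]))
  have hne' : ((qExpHom N θ₂ : FF N) : LaurentSeries Qbar) ≠ 0 := fun h => hne (Subtype.ext h)
  have hx : x = ((qExpHom N θ₁ / qExpHom N θ₂ : FF N) : LaurentSeries Qbar) := by
    have : ((qExpHom N θ₁ / qExpHom N θ₂ : FF N) : LaurentSeries Qbar)
        = (qExpHom N θ₁ : LaurentSeries Qbar) / (qExpHom N θ₂ : LaurentSeries Qbar) := rfl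
    rw [this, eq_div_iff hne', hser]
  rw [hx]
  exact (qExpHom N θ₁ / qExpHom N θ₂ : FF N).2

end Fermat.Agent.CAR.Unit
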