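import Fermat.Agent.CAR.Unit.Interface

/-!
# S36 / CAR / Unit, package (D) : the multipliers `mu4`, `mu3`, `mu3s` are characters
-/

set_option autoImplicit false

namespace Fermat.Agent.CAR.Unit

open CongruenceSubgroup Complex
open UpperHalfPlane hiding I
open scoped MatrixGroups Real

/-! ### entries -/

theorem MULT_mul_apply (γ₁ γ₂ : SL(2, ℤ)) (i j : Fin 2) :
    (γ₁ * γ₂) i j = γ₁ i 0 * γ₂ 0 j + γ₁ i 1 * γ₂ 1 j := by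
  rw [Matrix.SpecialLinearGroup.coe_mul, Matrix.mul_apply, Fin.sum_univ_two]

theorem MULT_det (γ : SL(2, ℤ)) : γ 0 0 * γ 1 1 - γ 0 1 * γ 1 0 = 1 := by
  have h := γ.det_coe
  rwa [Matrix.det_fin_two] at h

theorem MULT_dvd {N : ℕ} {γ : SL(2, ℤ)} (h : γ ∈ Gamma0 N) : (N : ℤ) ∣ γ 1 0 := by
  rw [Gamma0_mem] at h
  exact (ZMod.intCast_zmod_eq_zero_iff_dvd _ _).1 h

/-! ### `ee` -/

theorem MULT_ee_add (x y : ℂ) : ee (x + y) = ee x * ee y := by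
  unfold ee
  rw [mul_add, Complex.exp_add]

theorem MULT_ee_zero : ee 0 = 1 := by
  unfold ee
  rw [mul_zero, Complex.exp_zero]

theorem MULT_ee_int (n : ℤ) : ee (n : ℂ) = 1 := by
  unfold ee
  rw [mul_comm]
  exact Complex.exp_int_mul_two_pi_mul_I n

theorem MULT_ee_ne_zero (x : ℂ) : ee x ≠ 0 := Complex.exp_ne_zero _

theorem MULT_ee_congr {x y : ℤ} (h : (3 : ℤ) ∣ x - y) : ee ((x : ℂ) / 3) = ee ((y : ℂ) / 3) := by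
  obtain ⟨k, hk⟩ := h
  have hx : x = y + 3 * k := by linarith
  have h1 : ((x : ℂ) / 3) = (y : ℂ) / 3 + (k : ℂ) := by
    rw [hx]
    push_cast
    ring
  rw [h1, MULT_ee_add, MULT_ee_int, mul_one]

theorem MULT_ee_add3 {x y z : ℤ} (h : (3 : ℤ) ∣ x - (y + z)) :
    ee ((x : ℂ) / 3) = ee ((y : ℂ) / 3) * ee ((z : ℂ) / 3) := by
  rw [MULT_ee_congr h, ← MULT_ee_add]
  congr 1
  push_cast
  ring

/-! ### the quadratic characters -/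

theorem MULT_chi4_ne_zero (d : ℤ) : chi4 d ≠ 0 := by
  unfold chi4
  split_ifs <;> norm_num

theorem MULT_chi3_ne_zero (d : ℤ) : chi3 d ≠ 0 := by
  unfold chi3
  split_ifs <;> norm_num

theorem MULT_chi4_mul {d d₁ d₂ : ℤ} (h : (4 : ℤ) ∣ d - d₁ * d₂) (h₁ : d₁ % 2 = 1)
    (h₂ : d₂ % 2 = 1) : chi4 d = chi4 d₁ * chi4 d₂ := by
  have e : d % 4 = ((d₁ % 4) * (d₂ % 4)) % 4 := by
    rw [← Int.mul_emod]
    exact Int.ModEq.eq ((Int.modEq_iff_dvd.2 h).symm)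
  have c₁ : d₁ % 4 = 1 ∨ d₁ % 4 = 3 := by omega
  have c₂ : d₂ % 4 = 1 ∨ d₂ % 4 = 3 := by omega
  unfold chi4
  rcases c₁ with c₁ | c₁ <;> rcases c₂ with c₂ | c₂ <;> rw [e, c₁, c₂] <;> norm_num

theorem MULT_chi3_mul {d d₁ d₂ : ℤ} (h : (3 : ℤ) ∣ d - d₁ * d₂) (h₁ : d₁ % 3 ≠ 0)
    (h₂ : d₂ % 3 ≠ 0) : chi3 d = chi3 d₁ * chi3 d₂ := by
  have e : d % 3 = ((d₁ % 3) * (d₂ % 3)) % 3 := by
    rw [← Int.mul_emod]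
    exact Int.ModEq.eq ((Int.modEq_iff_dvd.2 h).symm)
  have c₁ : d₁ % 3 = 1 ∨ d₁ % 3 = 2 := by omega
  have c₂ : d₂ % 3 = 1 ∨ d₂ % 3 = 2 := by omega
  unfold chi3
  rcases c₁ with c₁ | c₁ <;> rcases c₂ with c₂ | c₂ <;> rw [e, c₁, c₂] <;> norm_num

theorem MULT_sq_sub_one {d : ℤ} (h : d % 3 ≠ 0) : (3 : ℤ) ∣ d ^ 2 - 1 := by
  have c : d % 3 = 1 ∨ d % 3 = 2 := by omega
  have hd := Int.emod_add_mul_ediv d 3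
  rcases c with c | c
  · obtain ⟨k, rfl⟩ : ∃ k, d = 1 + 3 * k := ⟨d / 3, by rw [← c]; exact hd.symm⟩
    exact ⟨3 * k ^ 2 + 2 * k, by ring⟩
  · obtain ⟨k, rfl⟩ : ∃ k, d = 2 + 3 * k := ⟨d / 3, by rw [← c]; exact hd.symm⟩
    exact ⟨3 * k ^ 2 + 4 * k + 1, by ring⟩

/-- on `Γ₀(N)` the diagonal entries are prime to every divisor `> 1` of `N`. -/
theorem MULT_emod_ne_zero {a b c d : ℤ} (n : ℤ) (hn : 1 < n) (hdet : a * d - b * c = 1)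
    (hc : n ∣ c) : a % n ≠ 0 ∧ d % n ≠ 0 := by
  obtain ⟨c', rfl⟩ := hc
  constructor
  · intro h
    obtain ⟨a', rfl⟩ := Int.dvd_of_emod_eq_zero h
    have h1 : n ∣ 1 := ⟨a' * d - b * c', by rw [← hdet]; ring⟩
    exact absurd (Int.le_of_dvd one_pos h1) (not_le.2 hn)
  · intro h
    obtain ⟨d', rfl⟩ := Int.dvd_of_emod_eq_zero h
    have h1 : n ∣ 1 := ⟨a * d' - b * c', by rw [← hdet]; ring⟩
    exact absurd (Int.le_of_dvd one_pos h1) (not_le.2 hn)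

/-! ### special matrices -/

theorem MULT_T_apply : (ModularGroup.T 0 0 = 1) ∧ (ModularGroup.T 0 1 = 1) ∧
    (ModularGroup.T 1 0 = 0) ∧ (ModularGroup.T 1 1 = 1) := by
  simp [ModularGroup.T]

theorem MULT_Ua_apply (a : ℤ) : (Ua a 0 0 = 1) ∧ (Ua a 0 1 = 0) ∧ (Ua a 1 0 = a) ∧
    (Ua a 1 1 = 1) := by
  simp [Ua]

theorem MULT_neg_one_apply : ((-1 : SL(2, ℤ)) 0 0 = -1) ∧ ((-1 : SL(2, ℤ)) 0 1 = 0) ∧
    ((-1 : SL(2, ℤ)) 1 0 = 0) ∧ ((-1 : SL(2, ℤ)) 1 1 = -1) := by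
  simp

theorem MULT_chi4_one : chi4 1 = 1 := by simp [chi4]

theorem MULT_chi4_neg_one : chi4 (-1) = -1 := by simp [chi4]

theorem MULT_chi3_one : chi3 1 = 1 := by simp [chi3]

theorem MULT_chi3_neg_one : chi3 (-1) = -1 := by simp [chi3]

/-! ### the three statements -/

theorem mu4_ok : Stmt_mu4 := by
  refine ⟨fun γ₁ h₁ γ₂ h₂ => ?_, fun γ => MULT_chi4_ne_zero _, ?_, ?_, ?_⟩
  · unfold mu4
    obtain ⟨c₁, hc₁⟩ := MULT_dvd h₁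
    obtain ⟨c₂, hc₂⟩ := MULT_dvd h₂
    have e₁ := (MULT_emod_ne_zero 2 (by norm_num) (MULT_det γ₁)
      ⟨2 * c₁, by rw [hc₁]; push_cast; ring⟩).2
    have e₂ := (MULT_emod_ne_zero 2 (by norm_num) (MULT_det γ₂)
      ⟨2 * c₂, by rw [hc₂]; push_cast; ring⟩).2
    refine MULT_chi4_mul ⟨c₁ * γ₂ 0 1, ?_⟩ (by omega) (by omega)
    rw [MULT_mul_apply, hc₁]
    push_cast
    ring
  · rw [mu4, MULT_T_apply.2.2.2, MULT_chi4_one]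
  · rw [mu4, (MULT_Ua_apply 4).2.2.2, MULT_chi4_one]
  · rw [mu4, MULT_neg_one_apply.2.2.2, MULT_chi4_neg_one]

theorem MULT_chi3_mul' {γ₁ γ₂ : SL(2, ℤ)} (h₁ : γ₁ ∈ Gamma0 3) (h₂ : γ₂ ∈ Gamma0 3) :
    chi3 ((γ₁ * γ₂) 1 1) = chi3 (γ₁ 1 1) * chi3 (γ₂ 1 1) := by
  obtain ⟨c₁, hc₁⟩ := MULT_dvd h₁
  have e₁ := (MULT_emod_ne_zero 3 (by norm_num) (MULT_det γ₁) (MULT_dvd h₁)).2
  have e₂ := (MULT_emod_ne_zero 3 (by norm_num) (MULT_det γ₂) (MULT_dvd h₂)).2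
  refine MULT_chi3_mul ⟨c₁ * γ₂ 0 1, ?_⟩ e₁ e₂
  rw [MULT_mul_apply, hc₁]
  push_cast
  ring

theorem MULT_neg_div (x : ℤ) : -((x : ℤ) : ℂ) / 3 = (((-x : ℤ) : ℤ) : ℂ) / 3 := by
  push_cast
  ring

theorem mu3_ok : Stmt_mu3 := by
  refine ⟨fun γ₁ h₁ γ₂ h₂ => ?_, fun γ => mul_ne_zero (MULT_ee_ne_zero _) (MULT_chi3_ne_zero _),
    ?_, ?_, ?_, fun γ h => ?_⟩
  · unfold mu3
    rw [MULT_chi3_mul' h₁ h₂, MULT_neg_div, MULT_neg_div, MULT_neg_div]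
    have key : ee ((((-((γ₁ * γ₂) 1 0 / 3 * (γ₁ * γ₂) 1 1) : ℤ) : ℤ) : ℂ) / 3) =
        ee ((((-(γ₁ 1 0 / 3 * γ₁ 1 1) : ℤ) : ℤ) : ℂ) / 3) *
          ee ((((-(γ₂ 1 0 / 3 * γ₂ 1 1) : ℤ) : ℤ) : ℂ) / 3) := by
      apply MULT_ee_add3
      obtain ⟨c₁, hc₁⟩ := MULT_dvd h₁
      obtain ⟨c₂, hc₂⟩ := MULT_dvd h₂
      have e₁ := (MULT_emod_ne_zero 3 (by norm_num) (MULT_det γ₁) (MULT_dvd h₁)).2
      obtain ⟨s, hs⟩ := MULT_sq_sub_one e₁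
      have hdet₂ := MULT_det γ₂
      push_cast at hc₁ hc₂
      have hc : (γ₁ * γ₂) 1 0 = 3 * (c₁ * γ₂ 0 0 + γ₁ 1 1 * c₂) := by
        rw [MULT_mul_apply, hc₁, hc₂]; ring
      rw [hc, MULT_mul_apply γ₁ γ₂ 1 1, hc₁, hc₂, Int.mul_ediv_cancel_left _ (by norm_num),
        Int.mul_ediv_cancel_left _ (by norm_num), Int.mul_ediv_cancel_left _ (by norm_num)]
      rw [hc₂] at hdet₂
      refine ⟨-((c₁ * γ₂ 0 0 + γ₁ 1 1 * c₂) * (c₁ * γ₂ 0 1) + c₁ * γ₁ 1 1 * (γ₂ 0 1 * c₂)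
        + c₂ * γ₂ 1 1 * s), ?_⟩
      linear_combination (-(c₁ * γ₁ 1 1)) * hdet₂ - (c₂ * γ₂ 1 1) * hs
    rw [key]
    ring
  · rw [mu3, MULT_T_apply.2.2.2, MULT_T_apply.2.2.1, MULT_chi3_one]
    simp [MULT_ee_zero]
  · rw [mu3, (MULT_Ua_apply 3).2.2.2, (MULT_Ua_apply 3).2.2.1, MULT_chi3_one]
    norm_num
  · rw [mu3, MULT_neg_one_apply.2.2.2, MULT_neg_one_apply.2.2.1, MULT_chi3_neg_one]
    simp [MULT_ee_zero]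
  · obtain ⟨c, hc⟩ := MULT_dvd h
    push_cast at hc
    have h1 : γ 1 0 / 3 = 3 * c := by
      rw [hc, show (9 : ℤ) * c = 3 * (3 * c) by ring, Int.mul_ediv_cancel_left _ (by norm_num)]
    rw [mu3, h1, MULT_neg_div]
    have h2 : ee ((((-(3 * c * γ 1 1) : ℤ) : ℤ) : ℂ) / 3) = ee (((0 : ℤ) : ℂ) / 3) :=
      MULT_ee_congr ⟨-(c * γ 1 1), by ring⟩
    rw [h2]
    simp [MULT_ee_zero]

theorem mu3s_ok : Stmt_mu3s := by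
  refine ⟨fun γ₁ h₁ γ₂ h₂ => ?_, fun γ => mul_ne_zero (MULT_ee_ne_zero _) (MULT_chi3_ne_zero _),
    ?_, ?_, ?_⟩
  · unfold mu3s
    rw [MULT_chi3_mul' h₁ h₂]
    have key : ee ((((γ₁ * γ₂) 0 0 * (γ₁ * γ₂) 0 1 : ℤ) : ℂ) / 3) =
        ee (((γ₁ 0 0 * γ₁ 0 1 : ℤ) : ℂ) / 3) * ee (((γ₂ 0 0 * γ₂ 0 1 : ℤ) : ℂ) / 3) := by
      apply MULT_ee_add3
      obtain ⟨c₂, hc₂⟩ := MULT_dvd h₂
      have e₁ := (MULT_emod_ne_zero 3 (by norm_num) (MULT_det γ₁) (MULT_dvd h₁)).1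
      obtain ⟨s, hs⟩ := MULT_sq_sub_one e₁
      have hdet₂ := MULT_det γ₂
      push_cast at hc₂
      rw [MULT_mul_apply γ₁ γ₂ 0 0, MULT_mul_apply γ₁ γ₂ 0 1, hc₂]
      rw [hc₂] at hdet₂
      refine ⟨γ₁ 0 1 * c₂ * (γ₁ 0 0 * γ₂ 0 1 + γ₁ 0 1 * γ₂ 1 1) + γ₂ 0 0 * γ₂ 0 1 * s
        + γ₁ 0 0 * γ₁ 0 1 * (γ₂ 0 1 * c₂), ?_⟩
      linear_combination (γ₁ 0 0 * γ₁ 0 1) * hdet₂ + (γ₂ 0 0 * γ₂ 0 1) * hs
    rw [key]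
    ring
  · rw [mu3s, MULT_T_apply.2.2.2, MULT_T_apply.1, MULT_T_apply.2.1, MULT_chi3_one]
    norm_num
  · rw [mu3s, (MULT_Ua_apply 3).2.2.2, (MULT_Ua_apply 3).1, (MULT_Ua_apply 3).2.1, MULT_chi3_one]
    simp [MULT_ee_zero]
  · rw [mu3s, MULT_neg_one_apply.2.2.2, MULT_neg_one_apply.1, MULT_neg_one_apply.2.1,
      MULT_chi3_neg_one]
    simp [MULT_ee_zero]

end Fermat.Agent.CAR.Unit
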