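import Fermat.Agent.CAR.Unit.Interface
import Fermat.Agent.ES.Mid.HA2

/-!
# S36 / CAR / Unit, task UNIT-H2 : `q`-expansions under `z ↦ z + s` and `z ↦ d z`
-/

set_option autoImplicit false

namespace Fermat.Agent.CAR.Unit

open CongruenceSubgroup Complex Filter Asymptotics
open UpperHalfPlane hiding I
open scoped MatrixGroups Real Manifold ModularForm
open Fermat.Agent.S24.QX (Rep Nice qL scale)
open Fermat.Agent.ES.Mid (tw)
open Fermat.Agent.ES.Mid.HA2 (aff)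

theorem H2_aff_onH (f : ℂ → ℂ) (s : ℚ) :
    aff 1 (s : ℝ) (onH f) = onH fun z => f (z + (s : ℂ)) := by
  funext τ
  rw [Fermat.Agent.ES.Mid.HA2.aff_apply]
  show f ((ofComplex (((1 : ℝ) : ℂ) * (τ : ℂ) + (((s : ℝ) : ℝ) : ℂ)) : ℍ) : ℂ) = f ((τ : ℂ) + (s : ℂ))
  rw [Fermat.Agent.ES.Mid.HA2.coe_ofComplex_aff one_pos]
  congr 1
  push_cast
  ring

theorem H2_rep_aff {x : LaurentSeries ℂ} {F : ℍ → ℂ} (h : Rep x F) (c : ℝ) (ζ : ℂˣ)
    (hζ : (ζ : ℂ) = Complex.exp (2 * Real.pi * Complex.I * c)) : Rep (tw ζ x) (aff 1 c F) := by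
  obtain ⟨g, hg, hg0, hfg, e⟩ := h
  refine ⟨aff 1 c g, Fermat.Agent.ES.Mid.HA2.nice_shift hg c, fun τ => hg0 _, ?_, ?_⟩
  · rw [← Fermat.Agent.ES.Mid.HA2.aff_mul]
    exact Fermat.Agent.ES.Mid.HA2.nice_shift hfg c
  · rw [← Fermat.Agent.ES.Mid.HA2.aff_mul, Fermat.Agent.ES.Mid.HA2.qL_shift hg c ζ hζ,
      Fermat.Agent.ES.Mid.HA2.qL_shift hfg c ζ hζ, ← Fermat.Agent.ES.Mid.HF1.tw_mul, e]

/-- **UNIT-H2 (shift)**. -/
theorem rep_shift : Stmt_rep_shift := by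
  intro x f s ζ hζ h
  rw [← H2_aff_onH]
  refine H2_rep_aff h (s : ℝ) ζ ?_
  rw [hζ, ee]
  congr 1

theorem H2_scale_onH (f : ℂ → ℂ) {d : ℕ} (hd : 0 < d) :
    scale d (onH f) = onH fun z => f ((d : ℂ) * z) := by
  funext τ
  rw [Fermat.Agent.S24.QX.scale_apply]
  show f ((ofComplex ((d : ℂ) * (τ : ℂ)) : ℍ) : ℂ) = f ((d : ℂ) * (τ : ℂ))
  rw [Fermat.Agent.S24.QX.coe_ofComplex_natCast_mul hd]

/-- **UNIT-H2 (scale)**. -/
theorem rep_scale : Stmt_rep_scale := by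
  intro x f d _ h
  rw [← H2_scale_onH f (Nat.pos_of_ne_zero (NeZero.ne d))]
  exact Fermat.Agent.ES.Mid.HA2.rep_scale d h

end Fermat.Agent.CAR.Unit
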