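import Fermat.Agent.CAR.Unit.Interface2
import Fermat.Agent.CAR.Unit.EtaBasic
import Fermat.Agent.ES.Mid.HF1

/-! # S36 / CAR / Unit : UNIT-L5, `q`-expansions of `x_i ∘ W`, `x_i ∘ δ`, `t(r^i W)`, `t(r^i δ)`. -/

set_option autoImplicit false

namespace Fermat.Agent.CAR.Unit

open CongruenceSubgroup Complex Filter Asymptotics
open UpperHalfPlane hiding I
open scoped MatrixGroups Real Manifold ModularForm
open Fermat.Agent.S24 (Qbar FF funAlg iota jF)
open Fermat.Agent.S24.QX (qExpHom cmI Rep Nice)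
open Fermat.Agent.S36.Val (ALData deltaMat)
open Fermat.Agent.ES.Mid (tw Growth)
attribute [local instance] Fermat.Agent.S24.algQbarComplex

/-! ### list calculus -/

theorem RepX_wt2_append (l l' : List (ℕ × ℤ)) : wt2 (l ++ l') = wt2 l + wt2 l' := by
  simp [wt2]

theorem RepX_wt2_negL (l : List (ℕ × ℤ)) : wt2 (negL l) = - wt2 l := by
  induction l with
  | nil => simp [wt2, negL]
  | cons p l ih =>
    simp only [wt2, negL, List.map_cons, List.sum_cons] at ih ⊢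
    rw [ih]; ring

theorem RepX_wt2_scaleL (r : ℕ) (l : List (ℕ × ℤ)) : wt2 (scaleL r l) = wt2 l := by
  induction l with
  | nil => simp [wt2, scaleL]
  | cons p l ih =>
    simp only [wt2, scaleL, List.map_cons, List.sum_cons] at ih ⊢
    rw [ih]

theorem RepX_deg24_append (l l' : List (ℕ × ℤ)) : deg24 (l ++ l') = deg24 l + deg24 l' := by
  simp [deg24]

theorem RepX_deg24_negL (l : List (ℕ × ℤ)) : deg24 (negL l) = - deg24 l := by
  induction l with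
  | nil => simp [deg24, negL]
  | cons p l ih =>
    simp only [deg24, negL, List.map_cons, List.sum_cons] at ih ⊢
    rw [ih]; ring

theorem RepX_deg24_scaleL (r : ℕ) (l : List (ℕ × ℤ)) : deg24 (scaleL r l) = r * deg24 l := by
  induction l with
  | nil => simp [deg24, scaleL]
  | cons p l ih =>
    simp only [deg24, scaleL, List.map_cons, List.sum_cons] at ih ⊢
    rw [ih]; push_cast; ring

theorem RepX_pos_append {l l' : List (ℕ × ℤ)} (h : PosL l) (h' : PosL l') : PosL (l ++ l') := by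
  intro p hp
  rcases List.mem_append.1 hp with hp | hp
  · exact h p hp
  · exact h' p hp

theorem RepX_pos_negL {l : List (ℕ × ℤ)} (h : PosL l) : PosL (negL l) := by
  intro p hp
  obtain ⟨q, hq, rfl⟩ := List.mem_map.1 hp
  exact h q hq

theorem RepX_pos_scaleL {r : ℕ} (hr : 0 < r) {l : List (ℕ × ℤ)} (h : PosL l) :
    PosL (scaleL r l) := by
  intro p hp
  obtain ⟨q, hq, rfl⟩ := List.mem_map.1 hp
  exact Nat.mul_pos hr (h q hq)

section W1

variable {a : ℕ} {lf : List (ℕ × ℤ)} {χ : ℤ → ℂ}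

theorem RepX_lx1 (h : W1 a lf χ) {r : ℕ} (hr : 0 < r) :
    PosL (lx1 lf r) ∧ wt2 (lx1 lf r) = 0 ∧ deg24 (lx1 lf r) = 0 := by
  refine ⟨RepX_pos_append (RepX_pos_scaleL hr h.pos) (RepX_pos_negL h.pos), ?_, ?_⟩
  · rw [lx1, RepX_wt2_append, RepX_wt2_scaleL, RepX_wt2_negL, add_neg_cancel]
  · rw [lx1, RepX_deg24_append, RepX_deg24_scaleL, RepX_deg24_negL, h.deg]; simp

theorem RepX_lx2 (h : W1 a lf χ) {r : ℕ} (hr : 0 < r) :
    PosL (lx2 lf r) ∧ wt2 (lx2 lf r) = 0 ∧ deg24 (lx2 lf r) = 0 := by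
  refine ⟨RepX_pos_append (RepX_pos_scaleL (pow_pos hr 2) h.pos)
    (RepX_pos_negL (RepX_pos_scaleL hr h.pos)), ?_, ?_⟩
  · rw [lx2, RepX_wt2_append, RepX_wt2_scaleL, RepX_wt2_negL, RepX_wt2_scaleL, add_neg_cancel]
  · rw [lx2, RepX_deg24_append, RepX_deg24_scaleL, RepX_deg24_negL, RepX_deg24_scaleL, h.deg]; simp

end W1

theorem RepX_negL3 {l : List (ℕ × ℤ)} (h : PosL l ∧ wt2 l = 0 ∧ deg24 l = 0) :
    PosL (negL l) ∧ wt2 (negL l) = 0 ∧ deg24 (negL l) = 0 :=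
  ⟨RepX_pos_negL h.1, by rw [RepX_wt2_negL, h.2.1, neg_zero],
    by rw [RepX_deg24_negL, h.2.2, neg_zero]⟩

/-! ### `Rep` calculus -/

theorem RepX_smul (c : Qbar) {x : LaurentSeries Qbar} {f : ℍ → ℂ} (h : Rep (cmI x) f) :
    Rep (cmI (c • x)) (fun τ => iota c * f τ) := by
  have h1 := (Rep.const (iota c)).mul h
  have h2 : cmI (c • x) = HahnSeries.C (iota c) * cmI x := by
    rw [← HahnSeries.C_mul_eq_smul, map_mul, HahnSeries.C_apply, ModularCurve.coeffMap_single,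
      HahnSeries.C_apply]
    rfl
  rw [h2]
  exact h1

theorem RepX_cmI_etaLser (n : ℤ) (l : List (ℕ × ℤ)) : cmI (etaLser Qbar n l) = etaLser ℂ n l := by
  rw [etaLser, etaLser, map_mul, ModularCurve.coeffMap_single,
    Fermat.Agent.KL.Haupt.coeffMap_lau, map_one]

theorem RepX_exists_eps {e : ℂ} (he : e = 1 ∨ e = -1) :
    ∃ ε : Qbar, (ε = 1 ∨ ε = -1) ∧ iota ε = e := by
  rcases he with rfl | rfl
  · exact ⟨1, Or.inl rfl, map_one _⟩
  · exact ⟨-1, Or.inr rfl, by rw [map_neg, map_one]⟩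

theorem RepX_pm_mul {x y : ℂ} (hx : x = 1 ∨ x = -1) (hy : y = 1 ∨ y = -1) :
    x * y = 1 ∨ x * y = -1 := by
  rcases hx with rfl | rfl <;> rcases hy with rfl | rfl <;> simp

theorem RepX_key (hL : Stmt_listCalc) (hg : Stmt_etaL_good) {r : ℕ} (hr : 0 < r)
    {l : List (ℕ × ℤ)} (hl : PosL l ∧ wt2 l = 0 ∧ deg24 l = 0) {e : ℂ} (he : e = 1 ∨ e = -1)
    (F : ℍ → ℂ) (hF : ∀ τ : ℍ, F τ * ((r : ℂ) * etaL l τ) = e) :
    ∃ ε : Qbar, (ε = 1 ∨ ε = -1) ∧
      Rep (cmI ((ε * (r : Qbar)⁻¹) • etaLser Qbar 0 (negL l))) F := by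
  obtain ⟨ε, hε, hεe⟩ := RepX_exists_eps he
  refine ⟨ε, hε, ?_⟩
  obtain ⟨h1, h2, h3⟩ := RepX_negL3 hl
  have hrep := RepX_smul (ε * (r : Qbar)⁻¹) (hg (negL l) 0 h1 h2 (by rw [h3, mul_zero])).2.2
  convert hrep using 1
  funext τ
  have hr0 : (r : ℂ) ≠ 0 := by exact_mod_cast hr.ne'
  have hy : etaL l τ ≠ 0 := etaL_ne_zero hl.1 τ.2
  rw [onH, hL.2.1, map_mul, map_inv₀, map_natCast, hεe, ← hF τ]
  field_simp

theorem repX_AL (hL : Stmt_listCalc) (hA : Stmt_xL_AL) (hg : Stmt_etaL_good) : Stmt_repX_AL := by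
  intro a lf χ r M hW haM hr hM D
  obtain ⟨ε₁, h1, h1'⟩ := RepX_key hL hg hr (RepX_lx2 hW hr)
    (RepX_pm_mul (hW.chi_sq (r * D.w)) (hW.chi_sq (r ^ 2 * D.w)))
    (fun τ => etaL (lx1 lf r) (D.fn τ : ℂ)) (fun τ => (hA a lf χ r M hW haM hr hM D τ).1)
  obtain ⟨ε₂, h2, h2'⟩ := RepX_key hL hg hr (RepX_lx1 hW hr)
    (RepX_pm_mul (hW.chi_sq D.w) (hW.chi_sq (r * D.w)))
    (fun τ => etaL (lx2 lf r) (D.fn τ : ℂ)) (fun τ => (hA a lf χ r M hW haM hr hM D τ).2)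
  exact ⟨ε₁, ε₂, h1, h2, h1', h2'⟩

/-- the shift, over `ℚ̄`. -/
theorem RepX_shift (hs : Stmt_rep_shift) {x : LaurentSeries Qbar} {f : ℂ → ℂ} {r : ℕ} {s : ℤ}
    {ζ : Qbarˣ} (hζ : iota (ζ : Qbar) = ee ((s : ℂ) / (r : ℂ))) (h : Rep (cmI x) (onH f)) :
    Rep (cmI (tw ζ x)) (fun τ : ℍ => f ((τ : ℂ) + (s : ℂ) / (r : ℂ))) := by
  have h1 := hs (cmI x) f ((s : ℚ) / (r : ℚ)) (Units.map ((iota : Qbar →+* ℂ) : Qbar →* ℂ) ζ)
    (by rw [Units.coe_map]; push_cast; exact hζ) h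
  rw [Fermat.Agent.ES.Mid.HF1.coeffMap_tw]
  convert h1 using 1
  funext τ
  simp [onH]

theorem repX_delta (hL : Stmt_listCalc) (hD : Stmt_xL_delta) (hg : Stmt_etaL_good)
    (hs : Stmt_rep_shift) (hR : Stmt_etaL_rep) : Stmt_repX_delta := by
  intro a lf χ r M s k ζ hW haM hr hM hsk hζ
  constructor
  · obtain ⟨h1, h2, h3⟩ := RepX_lx1 hW hr
    have hrep := (hg (lx1 lf r) 0 h1 h2 (by rw [h3, mul_zero])).2.2
    convert hrep using 1
    funext τ
    exact (hD a lf χ r M s k hW haM hr hM hsk τ).1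
  · obtain ⟨ε, hε, hεe⟩ := RepX_exists_eps (hW.chi_sq (-k))
    refine ⟨ε, hε, ?_⟩
    have hf : Rep (cmI (etaLser Qbar 0 lf)) (onH (etaL lf)) := by
      rw [RepX_cmI_etaLser]
      exact hR lf 0 hW.pos (by rw [hW.deg, mul_zero])
    have hpos : PosL (negL (scaleL r lf)) := RepX_pos_negL (RepX_pos_scaleL hr hW.pos)
    have hf2 : Rep (cmI (etaLser Qbar 0 (negL (scaleL r lf)))) (onH (etaL (negL (scaleL r lf)))) := by
      rw [RepX_cmI_etaLser]
      exact hR _ 0 hpos (by rw [RepX_deg24_negL, RepX_deg24_scaleL, hW.deg]; simp)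
    have hrep := RepX_smul (ε * (r : Qbar)⁻¹)
      (by rw [map_mul]; exact (RepX_shift hs hζ hf).mul hf2)
    convert hrep using 1
    funext τ
    have hr0 : (r : ℂ) ≠ 0 := by exact_mod_cast hr.ne'
    have hy : etaL lf ((r : ℂ) * τ) ≠ 0 := etaL_ne_zero hW.pos (by
      rw [Complex.mul_im]
      simp only [Complex.natCast_re, Complex.natCast_im, zero_mul, add_zero]
      exact mul_pos (by exact_mod_cast hr) τ.2)
    have h2 := (hD a lf χ r M s k hW haM hr hM hsk τ).2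
    rw [Pi.mul_apply, onH, hL.2.1, hL.2.2.1, map_mul, map_inv₀, map_natCast, hεe]
    generalize etaL lf ((τ : ℂ) + (s : ℂ) / (r : ℂ)) = Y at h2 ⊢
    field_simp
    linear_combination h2

theorem repT (hL : Stmt_listCalc) (hA : Stmt_tL_AL) (hD : Stmt_tL_delta) (hg : Stmt_etaL_good)
    (hs : Stmt_rep_shift) : Stmt_repT := by
  intro a l n r M s k ζ hpos hwt hdeg hinv haM hr hM hsk hζ
  have hsc := hL.2.2.1
  have h0 : Rep (cmI (etaLser Qbar n l)) (onH (etaL l)) := (hg l n hpos hwt hdeg).2.2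
  have h1 : Rep (cmI (etaLser Qbar (r * n) (scaleL r l))) (onH (etaL (scaleL r l))) :=
    (hg (scaleL r l) (r * n) (RepX_pos_scaleL hr hpos) (by rw [RepX_wt2_scaleL, hwt])
      (by rw [RepX_deg24_scaleL, hdeg]; ring)).2.2
  have h2 : Rep (cmI (etaLser Qbar (r ^ 2 * n) (scaleL (r ^ 2) l)))
      (onH (etaL (scaleL (r ^ 2) l))) :=
    (hg (scaleL (r ^ 2) l) (r ^ 2 * n) (RepX_pos_scaleL (pow_pos hr 2) hpos)
      (by rw [RepX_wt2_scaleL, hwt]) (by rw [RepX_deg24_scaleL, hdeg]; push_cast; ring)).2.2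
  refine ⟨fun D => ⟨?_, ?_, ?_⟩, ?_, ?_, ?_⟩
  · convert h2 using 1
    funext τ
    rw [onH, hsc, (hA a (etaL l) r M hinv haM hr hM D τ).1]
    push_cast
    rfl
  · convert h1 using 1
    funext τ
    rw [onH, hsc, hsc, (hA a (etaL l) r M hinv haM hr hM D τ).2.1]
  · convert h0 using 1
    funext τ
    rw [onH, hsc]
    push_cast
    exact (hA a (etaL l) r M hinv haM hr hM D τ).2.2
  · convert h0 using 1
    funext τ
    exact (hD a (etaL l) r M s k hinv haM hr hM hsk τ).1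
  · convert h1 using 1
    funext τ
    rw [onH, hsc, hsc, (hD a (etaL l) r M s k hinv haM hr hM hsk τ).2.1]
  · convert RepX_shift hs hζ h0 using 1
    funext τ
    rw [hsc]
    push_cast
    exact (hD a (etaL l) r M s k hinv haM hr hM hsk τ).2.2

end Fermat.Agent.CAR.Unit
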