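import Fermat.Agent.CAR.Unit.Interface

/-!
# S36 / CAR / Unit / C2 (helper17): from the generators to the group
-/

set_option autoImplicit false

namespace Fermat.Agent.CAR.Unit

open CongruenceSubgroup Complex
open UpperHalfPlane hiding I
open scoped MatrixGroups Real

/-- `(g • z : ℂ) = (a z + b) / (c z + d)`. -/
theorem SG_coe_smul (g : SL(2, ℤ)) (z : ℍ) :
    ((g • z : ℍ) : ℂ) = (((g 0 0 : ℤ) : ℂ) * z + ((g 0 1 : ℤ) : ℂ)) / den g z := by
  rw [UpperHalfPlane.coe_specialLinearGroup_apply, den]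
  simp

theorem SG_den_ne_zero (g : SL(2, ℤ)) (z : ℍ) : den g z ≠ 0 := by
  have h := UpperHalfPlane.denom_ne_zero (g : GL (Fin 2) ℝ) z
  rw [ModularGroup.denom_apply] at h
  simpa [den] using h

theorem SG_mul_apply (g₁ g₂ : SL(2, ℤ)) (i j : Fin 2) :
    (g₁ * g₂) i j = g₁ i 0 * g₂ 0 j + g₁ i 1 * g₂ 1 j := by
  simp [Matrix.mul_apply, Fin.sum_univ_two]

theorem SG_den_mul (g₁ g₂ : SL(2, ℤ)) (z : ℍ) :
    den (g₁ * g₂) z = den g₁ ((g₂ • z : ℍ) : ℂ) * den g₂ z := by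
  have h2 := SG_den_ne_zero g₂ z
  rw [SG_coe_smul]
  conv_rhs => rw [den]
  rw [add_mul, mul_div_assoc', div_mul_cancel₀ _ h2]
  simp only [den, SG_mul_apply]
  push_cast
  ring

theorem SG_den_one (z : ℂ) : den 1 z = 1 := by simp [den]

theorem SG_den_neg_one (z : ℂ) : den (-1) z = -1 := by simp [den]

theorem SG_den_T (z : ℂ) : den ModularGroup.T z = 1 := by simp [den, ModularGroup.T]

theorem SG_den_Ua (a : ℤ) (z : ℂ) : den (Ua a) z = (a : ℂ) * z + 1 := by simp [den, Ua]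

theorem SG_coe_T_smul (z : ℍ) : ((ModularGroup.T • z : ℍ) : ℂ) = z + 1 := by
  rw [UpperHalfPlane.modular_T_smul, UpperHalfPlane.coe_vadd]
  push_cast
  ring

theorem SG_coe_Ua_smul (a : ℤ) (z : ℍ) :
    ((Ua a • z : ℍ) : ℂ) = (z : ℂ) / ((a : ℂ) * z + 1) := by
  rw [SG_coe_smul, SG_den_Ua]
  simp [Ua]

theorem SG_T_mem (a : ℕ) : ModularGroup.T ∈ Gamma0 a := by
  rw [Gamma0_mem]; simp [ModularGroup.T]

theorem SG_Ua_mem (a : ℕ) : Ua a ∈ Gamma0 a := by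
  rw [Gamma0_mem]; simp [Ua]

theorem SG_neg_one_mem (a : ℕ) : (-1 : SL(2, ℤ)) ∈ Gamma0 a := by
  rw [Gamma0_mem]; simp

/-- C2. -/
theorem slashOfGen (hG : Stmt_Gen) : Stmt_SlashOfGen := by
  intro a k f μ ha hμ hμ0 hT hU hneg γ hγ
  have hμ1 : μ 1 = 1 := by
    have h1 := hμ 1 (one_mem _) 1 (one_mem _)
    rw [mul_one] at h1
    have h0 := hμ0 1 (one_mem _)
    exact (mul_left_cancel₀ h0 (by rw [mul_one]; exact h1)).symm
  have key : γ ∈ Gamma0 a ∧ ∀ z : ℍ, f ((γ • z : ℍ) : ℂ) = μ γ * den γ z ^ k * f z := by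
    refine Subgroup.closure_induction
      (p := fun γ _ => γ ∈ Gamma0 a ∧ ∀ z : ℍ, f ((γ • z : ℍ) : ℂ) = μ γ * den γ z ^ k * f z)
      ?_ ?_ ?_ ?_ (hG a ha γ hγ)
    · intro x hx
      rcases hx with rfl | rfl | rfl
      · refine ⟨SG_T_mem a, fun z => ?_⟩
        rw [SG_coe_T_smul, SG_den_T, one_zpow, mul_one]
        exact hT z z.im_pos
      · refine ⟨SG_Ua_mem a, fun z => ?_⟩
        rw [SG_coe_Ua_smul, SG_den_Ua]
        exact_mod_cast hU z z.im_pos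
      · refine ⟨SG_neg_one_mem a, fun z => ?_⟩
        rw [ModularGroup.SL_neg_smul, one_smul, SG_den_neg_one, hneg, one_mul]
    · refine ⟨one_mem _, fun z => ?_⟩
      rw [one_smul, hμ1, SG_den_one, one_zpow, one_mul, one_mul]
    · rintro x y _ _ ⟨hx, hx'⟩ ⟨hy, hy'⟩
      refine ⟨mul_mem hx hy, fun z => ?_⟩
      rw [mul_smul, hx', hy', hμ x hx y hy, SG_den_mul, mul_zpow]
      ring
    · rintro x _ ⟨hx, hx'⟩
      refine ⟨inv_mem hx, fun z => ?_⟩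
      have h1 := hx' (x⁻¹ • z)
      rw [smul_inv_smul] at h1
      have h2 : μ x * μ x⁻¹ = 1 := by rw [← hμ x hx _ (inv_mem hx), mul_inv_cancel, hμ1]
      have h3 : den x ((x⁻¹ • z : ℍ) : ℂ) * den x⁻¹ z = 1 := by
        rw [← SG_den_mul, mul_inv_cancel, SG_den_one]
      have h4 : den x ((x⁻¹ • z : ℍ) : ℂ) ^ k * den x⁻¹ z ^ k = 1 := by
        rw [← mul_zpow, h3, one_zpow]
      rw [h1]
      calc f ((x⁻¹ • z : ℍ) : ℂ)
          = (μ x * μ x⁻¹) * (den x ((x⁻¹ • z : ℍ) : ℂ) ^ k * den x⁻¹ z ^ k) *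
              f ((x⁻¹ • z : ℍ) : ℂ) := by rw [h2, h4, one_mul, one_mul]
        _ = _ := by ring
  exact key.2

end Fermat.Agent.CAR.Unit
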