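/-
S36 / CAR / Unit, task UNIT-H3 : the formal logarithmic derivative of the Euler product
`E = ∏ (1 - q^n)` : `θ E = - E * ∑ σ₁(n) q^n`.
-/
import Fermat.Agent.CAR.Unit.Interface
import Fermat.Agent.S16.DeltaInt

set_option autoImplicit false

namespace Fermat.Agent.CAR.Unit

open PowerSeries Fermat.Agent.S16
open scoped PowerSeries.WithPiTopology

noncomputable section

/-- the partial products. -/
def thetaEtaP (N : ℕ) : PowerSeries ℤ := ∏ n ∈ Finset.range N, (1 - X ^ (n + 1))

/-- `(n+1) X^(n+1) / (1 - X^(n+1))`. -/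
def thetaEtaL (n : ℕ) : PowerSeries ℤ :=
  PowerSeries.mk fun j => if (n + 1) ∣ j ∧ j ≠ 0 then ((n + 1 : ℕ) : ℤ) else 0

def thetaEtaS (N : ℕ) : PowerSeries ℤ := ∑ n ∈ Finset.range N, thetaEtaL n

theorem thetaEta_theta_factor (n : ℕ) :
    theta (1 - X ^ (n + 1) : PowerSeries ℤ) = -((1 - X ^ (n + 1)) * thetaEtaL n) := by
  ext j
  rw [coeff_theta, sub_mul, one_mul, map_neg, map_sub, map_sub, coeff_X_pow_mul', coeff_one,
    coeff_X_pow, thetaEtaL, coeff_mk, coeff_mk]
  by_cases h0 : j = 0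
  · subst h0; simp
  by_cases h1 : j = n + 1
  · subst h1; simp
  by_cases h2 : n + 1 ≤ j
  · have h3 : j - (n + 1) ≠ 0 := by omega
    have h4 : (n + 1) ∣ j - (n + 1) ↔ (n + 1) ∣ j := by
      constructor
      · intro h
        have := (Nat.dvd_add_right (dvd_refl (n + 1))).2 h
        rwa [Nat.add_sub_cancel' h2] at this
      · intro h
        exact Nat.dvd_sub h (dvd_refl _)
    simp [h0, h1, h2, h3, h4]
  · have h5 : ¬ (n + 1) ∣ j := fun h => h2 (Nat.le_of_dvd (Nat.pos_of_ne_zero h0) h)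
    simp [h0, h1, h2, h5]

theorem thetaEta_P (N : ℕ) : theta (thetaEtaP N) = -(thetaEtaP N * thetaEtaS N) := by
  induction N with
  | zero => simp [thetaEtaP, thetaEtaS, theta_one]
  | succ N ih =>
    have hP : thetaEtaP (N + 1) = thetaEtaP N * (1 - X ^ (N + 1)) := Finset.prod_range_succ _ _
    have hS : thetaEtaS (N + 1) = thetaEtaS N + thetaEtaL N := Finset.sum_range_succ _ _
    rw [hP, hS, theta_mul, ih, thetaEta_theta_factor]
    ring

theorem thetaEta_coeff_P_succ {m N : ℕ} (h : m < N + 1) :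
    coeff m (thetaEtaP (N + 1)) = coeff m (thetaEtaP N) := by
  have hP : thetaEtaP (N + 1) = thetaEtaP N * (1 - X ^ (N + 1)) := Finset.prod_range_succ _ _
  rw [hP, mul_sub, mul_one, map_sub, coeff_mul_X_pow', if_neg (by omega), sub_zero]

theorem thetaEta_coeff_P_le {m N N' : ℕ} (h : m ≤ N) (h' : N ≤ N') :
    coeff m (thetaEtaP N') = coeff m (thetaEtaP N) := by
  induction N', h' using Nat.le_induction with
  | base => rfl
  | succ k hk ih => rw [thetaEta_coeff_P_succ (by omega), ih]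

theorem thetaEta_coeff_P {m N : ℕ} (h : m ≤ N) :
    coeff m ModularCurve.etaProd = coeff m (thetaEtaP N) := by
  have h1 := (PowerSeries.WithPiTopology.multipliable_one_sub_X_pow ℤ).hasProd.tendsto_prod_nat
  have h2 := ((PowerSeries.WithPiTopology.continuous_coeff ℤ m).tendsto _).comp h1
  refine tendsto_nhds_unique h2 ?_
  refine tendsto_const_nhds.congr' ?_
  filter_upwards [Filter.eventually_ge_atTop N] with N' hN'
  exact (thetaEta_coeff_P_le h hN').symm

theorem thetaEta_coeff_S {m N : ℕ} (h : m ≤ N) : coeff m (thetaEtaS N) = coeff m sig1 := by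
  rw [thetaEtaS, map_sum, sig1, coeff_mk]
  simp only [thetaEtaL, coeff_mk]
  rcases Nat.eq_zero_or_pos m with rfl | hm
  · simp
  rw [← Finset.sum_filter]
  refine Finset.sum_bij (fun n _ => n + 1) ?_ ?_ ?_ ?_
  · intro n hn
    rw [Finset.mem_filter] at hn
    exact Nat.mem_divisors.2 hn.2
  · intro a _ b _ hab
    exact Nat.succ_injective hab
  · intro d hd
    rw [Nat.mem_divisors] at hd
    have hd0 : 0 < d := Nat.pos_of_dvd_of_pos hd.1 hm
    have hdm : d ≤ m := Nat.le_of_dvd hm hd.1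
    refine ⟨d - 1, ?_, by omega⟩
    rw [Finset.mem_filter, Finset.mem_range]
    refine ⟨by omega, ?_⟩
    rw [Nat.sub_add_cancel hd0]
    exact hd
  · intro n _
    rfl

theorem thetaEta : Stmt_thetaEta := by
  unfold Stmt_thetaEta
  ext m
  rw [coeff_theta, map_neg, coeff_mul, thetaEta_coeff_P (le_refl m)]
  have h := congrArg (coeff m) (thetaEta_P m)
  rw [coeff_theta, map_neg, coeff_mul] at h
  rw [h]
  congr 1
  refine Finset.sum_congr rfl ?_
  rintro ⟨i, k⟩ hik
  rw [Finset.HasAntidiagonal.mem_antidiagonal] at hik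
  simp only at hik ⊢
  rw [thetaEta_coeff_P (show i ≤ m by omega), thetaEta_coeff_S (show k ≤ m by omega)]

end

end Fermat.Agent.CAR.Unit
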