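import Fermat.Agent.CAR.Unit.Interface2

/-!
# S36 / CAR / Unit, task UNIT-L2 (helper2): the weight one units `f4`, `f9` as `W1` structures.
-/

set_option autoImplicit false

namespace Fermat.Agent.CAR.Unit

open CongruenceSubgroup Complex
open UpperHalfPlane hiding I
open scoped MatrixGroups

theorem w1 (h4 : Stmt_f4_slash) (h9 : Stmt_slash9) : Stmt_W1 := by
  refine ⟨⟨?_, ?_, ?_, h4, ?_, ?_⟩, ⟨?_, ?_, ?_, h9 f9 (Or.inl rfl), ?_, ?_⟩⟩
  · intro p hp
    simp only [lf4, List.mem_cons, List.not_mem_nil, or_false] at hp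
    rcases hp with rfl | rfl | rfl <;> norm_num
  · simp [deg24, lf4]
  · simp [wt2, lf4]
  · intro d
    unfold chi4
    split_ifs
    · exact Or.inl rfl
    · exact Or.inr rfl
  · simp [chi4]
  · intro p hp
    simp only [lf9, List.mem_cons, List.not_mem_nil, or_false] at hp
    rcases hp with rfl | rfl <;> norm_num
  · simp [deg24, lf9]
  · simp [wt2, lf9]
  · intro d
    unfold chi3
    split_ifs
    · exact Or.inl rfl
    · exact Or.inr rfl
  · simp [chi3]

end Fermat.Agent.CAR.Unit
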