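import Fermat.Agent.CAR.Unit.Interface2
import Fermat.Agent.CAR.Unit.XForm
import Fermat.Agent.CAR.Unit.EtaBasic

/-!
# S36 / CAR / Unit : task UNIT-L3.  `x₁, x₂, t` under `Γ₀(N)`, the partial Atkin-Lehner involution
`W_{r²}` and `δ`
-/

set_option autoImplicit false

namespace Fermat.Agent.CAR.Unit

open CongruenceSubgroup Complex
open UpperHalfPlane hiding I
open scoped MatrixGroups
open Fermat.Agent.S36.Val (ALData deltaMat)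

/-! ### tools -/

/-- the transformation law at a point given by an explicit matrix. -/
theorem L3_slash {a : ℕ} {f : ℂ → ℂ} {χ : ℤ → ℂ}
    (h : ∀ γ ∈ Gamma0 a, ∀ z : ℍ, f ((γ • z : ℍ) : ℂ) = χ (γ 1 1) * den γ z * f z)
    (A B C D : ℤ) (hdet : A * D - B * C = 1) (hC : (a : ℤ) ∣ C) (w v : ℂ) (hw : 0 < w.im)
    (hv : v * ((C : ℂ) * w + (D : ℂ)) = (A : ℂ) * w + (B : ℂ)) :
    f v = χ D * ((C : ℂ) * w + (D : ℂ)) * f w := by
  obtain ⟨γ', h10, h11, hγ⟩ := XF_point A B C D hdet w v hw hv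
  have := h γ' ((XF_mem_Gamma0 a γ').2 (h10 ▸ hC)) ⟨w, hw⟩
  rw [hγ, den, h10, h11] at this
  exact this

theorem L3_im_sq {r : ℕ} (hr : 0 < r) {z : ℂ} (hz : 0 < z.im) : 0 < ((r : ℂ) ^ 2 * z).im := by
  have := XF_im_pos (pow_pos hr 2) hz
  push_cast at this
  exact this

theorem L3_x1 (hL : Stmt_listCalc) (lf : List (ℕ × ℤ)) (r : ℕ) (z : ℂ) :
    etaL (lx1 lf r) z = etaL lf ((r : ℂ) * z) * (etaL lf z)⁻¹ := by
  obtain ⟨h1, h2, h3, -⟩ := hL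
  rw [lx1, h1, h2, h3]

theorem L3_x2 (hL : Stmt_listCalc) (lf : List (ℕ × ℤ)) (r : ℕ) (z : ℂ) :
    etaL (lx2 lf r) z = etaL lf ((r : ℂ) ^ 2 * z) * (etaL lf ((r : ℂ) * z))⁻¹ := by
  obtain ⟨h1, h2, h3, -⟩ := hL
  rw [lx2, h1, h2, h3, h3]
  push_cast
  rfl

theorem L3_chi_ne {a : ℕ} {lf : List (ℕ × ℤ)} {χ : ℤ → ℂ} (h : W1 a lf χ) (d : ℤ) : χ d ≠ 0 := by
  rcases h.chi_sq d with h0 | h0 <;> rw [h0] <;> norm_num

theorem L3_chi_inv {a : ℕ} {lf : List (ℕ × ℤ)} {χ : ℤ → ℂ} (h : W1 a lf χ) (d : ℤ) :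
    (χ d)⁻¹ = χ d := by
  rcases h.chi_sq d with h0 | h0 <;> rw [h0] <;> norm_num

theorem L3_chi_sq {a : ℕ} {lf : List (ℕ × ℤ)} {χ : ℤ → ℂ} (h : W1 a lf χ) (d : ℤ) :
    χ d ^ 2 = 1 := by
  rcases h.chi_sq d with h0 | h0 <;> rw [h0] <;> norm_num

/-! ### invariance under `Γ₀` -/

/-- `f (n γ z) = χ(d) (c z + d) f (n z)` if `n M ∣ c`, `a ∣ M`. -/
theorem L3_scale {a : ℕ} {f : ℂ → ℂ} {χ : ℤ → ℂ}
    (h : ∀ γ ∈ Gamma0 a, ∀ z : ℍ, f ((γ • z : ℍ) : ℂ) = χ (γ 1 1) * den γ z * f z) {n M : ℕ}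
    (hn : 0 < n) (haM : a ∣ M) (γ : SL(2, ℤ)) (hγ : ((n * M : ℕ) : ℤ) ∣ γ 1 0) (z : ℍ) :
    f ((n : ℂ) * ((γ • z : ℍ) : ℂ)) = χ (γ 1 1) * den γ z * f ((n : ℂ) * z) := by
  obtain ⟨s', hs'⟩ := hγ
  have hdet := XF_det γ
  have hco := XF_coe_smul γ z
  have e1 : (((M : ℤ) * s' : ℤ) : ℂ) * ((n : ℂ) * z) + ((γ 1 1 : ℤ) : ℂ) = den γ z := by
    rw [den, hs']; push_cast; ring
  have := L3_slash h (γ 0 0) (n * γ 0 1) ((M : ℤ) * s') (γ 1 1)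
    (by rw [hs'] at hdet; push_cast at hdet; linear_combination hdet)
    (Dvd.dvd.mul_right (Int.natCast_dvd_natCast.2 haM) _)
    ((n : ℂ) * z) ((n : ℂ) * ((γ • z : ℍ) : ℂ)) (XF_im_pos hn z.im_pos)
    (by rw [e1, mul_assoc, hco]; push_cast; ring)
  rw [e1] at this
  exact this

theorem xL_inv (hL : Stmt_listCalc) : Stmt_xL_inv := by
  intro a lf χ r M h haM hr hM
  constructor
  · intro γ hγ z
    have hd := (XF_mem_Gamma0 _ γ).1 hγ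
    have h1 := L3_scale h.slash hr haM γ hd z
    have h2 := L3_scale h.slash one_pos haM γ
      ((Int.natCast_dvd_natCast.2 (Nat.mul_dvd_mul_right (one_dvd r) M)).trans hd) z
    simp only [Nat.cast_one, one_mul] at h2
    have hne : χ (γ 1 1) * den γ z ≠ 0 := mul_ne_zero (L3_chi_ne h _) (XF_den_ne_zero γ z)
    rw [L3_x1 hL, L3_x1 hL, h1, h2, mul_inv, mul_mul_mul_comm, mul_inv_cancel₀ hne, one_mul]
  · intro γ hγ z
    have hd := (XF_mem_Gamma0 _ γ).1 hγ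
    have h1 := L3_scale h.slash (pow_pos hr 2) haM γ hd z
    have h2 := L3_scale h.slash hr haM γ
      ((Int.natCast_dvd_natCast.2 (Nat.mul_dvd_mul_right (Dvd.intro_left r (by ring)) M)).trans hd) z
    have hne : χ (γ 1 1) * den γ z ≠ 0 := mul_ne_zero (L3_chi_ne h _) (XF_den_ne_zero γ z)
    push_cast at h1
    rw [L3_x2 hL, L3_x2 hL, h1, h2, mul_inv, mul_mul_mul_comm, mul_inv_cancel₀ hne, one_mul]

/-! ### the partial Atkin-Lehner involution -/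

theorem L3_AL_point {r M : ℕ} (hr : 0 < r) (D : ALData (r ^ 2) M) (τ : ℍ) :
    ((D.fn τ : ℍ) : ℂ) * ((r : ℂ) ^ 2 * ((M : ℂ) * D.z * τ + D.w)) =
      (r : ℂ) ^ 2 * D.x * τ + D.y := by
  have h := XF_coe_smul D.mat (ofComplex (((r ^ 2 : ℕ) : ℂ) * (τ : ℂ)))
  have hfn : D.mat • ofComplex (((r ^ 2 : ℕ) : ℂ) * (τ : ℂ)) = D.fn τ := rfl
  rw [hfn, den, Fermat.Agent.S24.QX.coe_ofComplex_natCast_mul (pow_pos hr 2)] at h
  have e00 : D.mat 0 0 = D.x := rfl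
  have e01 : D.mat 0 1 = D.y := rfl
  have e10 : D.mat 1 0 = (M : ℤ) * D.z := rfl
  have e11 : D.mat 1 1 = ((r ^ 2 : ℕ) : ℤ) * D.w := rfl
  rw [e00, e01, e10, e11] at h
  generalize ((D.fn τ : ℍ) : ℂ) = v at h ⊢
  push_cast at h
  linear_combination h

theorem L3_AL_det {r M : ℕ} (D : ALData (r ^ 2) M) :
    (r : ℤ) ^ 2 * D.x * D.w - (M : ℤ) * D.y * D.z = 1 := by
  have := D.det
  push_cast at this
  exact this

theorem L3_AL_ne {r M : ℕ} (D : ALData (r ^ 2) M) (τ : ℍ) : (M : ℂ) * D.z * τ + D.w ≠ 0 := by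
  have := XF_lin_ne_zero' ((r : ℤ) ^ 2 * D.x) D.y ((M : ℤ) * D.z) D.w
    (by linear_combination L3_AL_det D) τ τ.im_pos
  push_cast at this
  exact this

theorem tL_AL : Stmt_tL_AL := by
  intro a t r M h haM hr hM D τ
  have hp := L3_AL_point hr D τ
  have hdet := L3_AL_det D
  have hC : (a : ℤ) ∣ (M : ℤ) * D.z := Dvd.dvd.mul_right (Int.natCast_dvd_natCast.2 haM) _
  refine ⟨?_, ?_, ?_⟩
  · exact XF_inv h D.x D.y ((M : ℤ) * D.z) ((r : ℤ) ^ 2 * D.w) (by linear_combination hdet) hC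
      ((r : ℂ) ^ 2 * τ) (D.fn τ : ℂ)
      (L3_im_sq hr τ.im_pos) (by push_cast; linear_combination hp)
  · exact XF_inv h ((r : ℤ) * D.x) D.y ((M : ℤ) * D.z) ((r : ℤ) * D.w)
      (by linear_combination hdet) hC ((r : ℂ) * τ) ((r : ℂ) * (D.fn τ : ℂ))
      (XF_im_pos hr τ.im_pos) (by push_cast; linear_combination hp)
  · exact XF_inv h ((r : ℤ) ^ 2 * D.x) D.y ((M : ℤ) * D.z) D.w (by linear_combination hdet) hC
      (τ : ℂ) ((r : ℂ) ^ 2 * (D.fn τ : ℂ))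
      τ.im_pos (by push_cast; linear_combination hp)

/-- the three values of a weight one form at `W τ`. -/
theorem L3_AL_slash {a : ℕ} {f : ℂ → ℂ} {χ : ℤ → ℂ}
    (h : ∀ γ ∈ Gamma0 a, ∀ z : ℍ, f ((γ • z : ℍ) : ℂ) = χ (γ 1 1) * den γ z * f z) {r M : ℕ}
    (haM : a ∣ M) (hr : 0 < r) (D : ALData (r ^ 2) M) (τ : ℍ) :
    f (D.fn τ : ℂ) = χ ((r : ℤ) ^ 2 * D.w) * ((r : ℂ) ^ 2 * ((M : ℂ) * D.z * τ + D.w)) *
        f ((r : ℂ) ^ 2 * τ) ∧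
    f ((r : ℂ) * (D.fn τ : ℂ)) = χ ((r : ℤ) * D.w) * ((r : ℂ) * ((M : ℂ) * D.z * τ + D.w)) *
        f ((r : ℂ) * τ) ∧
    f ((r : ℂ) ^ 2 * (D.fn τ : ℂ)) = χ D.w * ((M : ℂ) * D.z * τ + D.w) * f τ := by
  have hp := L3_AL_point hr D τ
  have hdet := L3_AL_det D
  have hC : (a : ℤ) ∣ (M : ℤ) * D.z := Dvd.dvd.mul_right (Int.natCast_dvd_natCast.2 haM) _
  refine ⟨?_, ?_, ?_⟩
  · have := L3_slash h D.x D.y ((M : ℤ) * D.z) ((r : ℤ) ^ 2 * D.w) (by linear_combination hdet) hC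
      ((r : ℂ) ^ 2 * τ) (D.fn τ : ℂ) (L3_im_sq hr τ.im_pos) (by push_cast; linear_combination hp)
    rw [this]
    congr 2
    push_cast
    ring
  · have := L3_slash h ((r : ℤ) * D.x) D.y ((M : ℤ) * D.z) ((r : ℤ) * D.w)
      (by linear_combination hdet) hC ((r : ℂ) * τ) ((r : ℂ) * (D.fn τ : ℂ))
      (XF_im_pos hr τ.im_pos) (by push_cast; linear_combination hp)
    rw [this]
    congr 2
    push_cast
    ring
  · have := L3_slash h ((r : ℤ) ^ 2 * D.x) D.y ((M : ℤ) * D.z) D.w (by linear_combination hdet) hC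
      (τ : ℂ) ((r : ℂ) ^ 2 * (D.fn τ : ℂ)) τ.im_pos (by push_cast; linear_combination hp)
    rw [this]
    congr 2
    push_cast
    ring

theorem xL_AL (hL : Stmt_listCalc) : Stmt_xL_AL := by
  intro a lf χ r M h haM hr hM D τ
  obtain ⟨e0, e1, e2⟩ := L3_AL_slash h.slash haM hr D τ
  have hℓ := L3_AL_ne D τ
  have hr0 : (r : ℂ) ≠ 0 := by exact_mod_cast hr.ne'
  have n0 : etaL lf τ ≠ 0 := etaL_ne_zero h.pos τ.im_pos
  have n1 : etaL lf ((r : ℂ) * τ) ≠ 0 := etaL_ne_zero h.pos (XF_im_pos hr τ.im_pos)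
  have n2 : etaL lf ((r : ℂ) ^ 2 * τ) ≠ 0 := etaL_ne_zero h.pos (L3_im_sq hr τ.im_pos)
  have c0 := L3_chi_ne h D.w
  have c1 := L3_chi_ne h ((r : ℤ) * D.w)
  have c2 := L3_chi_ne h ((r : ℤ) ^ 2 * D.w)
  have q1 := L3_chi_sq h ((r : ℤ) * D.w)
  have q2 := L3_chi_sq h ((r : ℤ) ^ 2 * D.w)
  constructor
  · rw [L3_x1 hL, L3_x2 hL, e1, e0]
    generalize etaL lf ((r : ℂ) ^ 2 * τ) = u2 at n2 ⊢
    generalize etaL lf ((r : ℂ) * τ) = u1 at n1 ⊢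
    generalize (M : ℂ) * D.z * τ + D.w = ℓ at hℓ ⊢
    generalize χ ((r : ℤ) ^ 2 * D.w) = y2 at c2 q2 ⊢
    generalize χ ((r : ℤ) * D.w) = y1 at c1 q1 ⊢
    field_simp
    linear_combination (-1 : ℂ) * q2
  · rw [L3_x2 hL, L3_x1 hL, e2, e1]
    generalize etaL lf ((r : ℂ) * τ) = u1 at n1 ⊢
    generalize etaL lf (τ : ℂ) = u0 at n0 ⊢
    generalize (M : ℂ) * D.z * τ + D.w = ℓ at hℓ ⊢
    generalize χ ((r : ℤ) * D.w) = y1 at c1 q1 ⊢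
    generalize χ D.w = y0 at c0 ⊢
    field_simp
    linear_combination (-1 : ℂ) * q1

/-! ### `δ` -/

theorem L3_delta_point (r M : ℕ) (τ : ℍ) :
    ((deltaMat r M • τ : ℍ) : ℂ) * ((r : ℂ) * M * τ + 1) = τ := by
  have h := XF_coe_smul (deltaMat r M) τ
  have e00 : deltaMat r M 0 0 = 1 := rfl
  have e01 : deltaMat r M 0 1 = 0 := rfl
  have e10 : deltaMat r M 1 0 = ((r * M : ℕ) : ℤ) := rfl
  have e11 : deltaMat r M 1 1 = 1 := rfl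
  rw [den, e00, e01, e10, e11] at h
  generalize ((deltaMat r M • τ : ℍ) : ℂ) = v at h ⊢
  push_cast at h
  linear_combination h

theorem L3_delta_ne (r M : ℕ) (τ : ℍ) : (r : ℂ) * M * τ + 1 ≠ 0 := by
  have := XF_lin_ne_zero' 1 0 ((r : ℤ) * M) 1 (by ring) τ τ.im_pos
  push_cast at this
  exact this

/-- `M (τ + s / r) - k = (r M τ + 1) / r`. -/
theorem L3_delta_lin {r M : ℕ} {s k : ℤ} (hr : 0 < r) (hs : s * M = 1 + r * k) (τ : ℂ) :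
    (r : ℂ) * ((M : ℂ) * (τ + (s : ℂ) / (r : ℂ)) + ((-k : ℤ) : ℂ)) = (r : ℂ) * M * τ + 1 := by
  have hr0 : (r : ℂ) ≠ 0 := by exact_mod_cast hr.ne'
  have hs' : (s : ℂ) * M = 1 + r * k := by exact_mod_cast hs
  push_cast
  field_simp
  linear_combination hs'

/-- the point `r² δ τ`. -/
theorem L3_delta_top {r M : ℕ} {s k : ℤ} (hr : 0 < r) (hs : s * M = 1 + r * k) (τ : ℍ) :
    (r : ℂ) ^ 2 * ((deltaMat r M • τ : ℍ) : ℂ) *
        ((((M : ℕ) : ℤ) : ℂ) * ((τ : ℂ) + (s : ℂ) / (r : ℂ)) + ((-k : ℤ) : ℂ)) =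
      (((r : ℕ) : ℤ) : ℂ) * ((τ : ℂ) + (s : ℂ) / (r : ℂ)) + ((-s : ℤ) : ℂ) := by
  have hr0 : (r : ℂ) ≠ 0 := by exact_mod_cast hr.ne'
  have hp := L3_delta_point r M τ
  have hl := L3_delta_lin hr hs (τ : ℂ)
  generalize ((deltaMat r M • τ : ℍ) : ℂ) = v at hp ⊢
  have e : (((r : ℕ) : ℤ) : ℂ) * ((τ : ℂ) + (s : ℂ) / (r : ℂ)) + ((-s : ℤ) : ℂ) = (r : ℂ) * τ := by
    push_cast
    field_simp
    ring
  rw [e]
  simp only [Int.cast_natCast]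
  generalize (M : ℂ) * ((τ : ℂ) + (s : ℂ) / (r : ℂ)) + ((-k : ℤ) : ℂ) = ℓ at hl ⊢
  linear_combination (r : ℂ) * v * hl + (r : ℂ) * hp

theorem tL_delta : Stmt_tL_delta := by
  intro a t r M s k h haM hr hM hs τ
  have hp := L3_delta_point r M τ
  have hC : (a : ℤ) ∣ (M : ℤ) := Int.natCast_dvd_natCast.2 haM
  refine ⟨?_, ?_, ?_⟩
  · exact XF_inv h 1 0 ((r : ℤ) * M) 1 (by ring) (Dvd.dvd.mul_left hC _)
      (τ : ℂ) ((deltaMat r M • τ : ℍ) : ℂ) τ.im_pos (by push_cast; linear_combination hp)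
  · exact XF_inv h 1 0 (M : ℤ) 1 (by ring) hC
      ((r : ℂ) * τ) ((r : ℂ) * ((deltaMat r M • τ : ℍ) : ℂ)) (XF_im_pos hr τ.im_pos)
      (by push_cast; linear_combination (r : ℂ) * hp)
  · exact XF_inv h (r : ℤ) (-s) (M : ℤ) (-k) (by linear_combination hs) hC
      ((τ : ℂ) + (s : ℂ) / (r : ℂ)) ((r : ℂ) ^ 2 * ((deltaMat r M • τ : ℍ) : ℂ))
      (XF_shift_im_pos s r τ.im_pos) (L3_delta_top hr hs τ)

theorem xL_delta (hL : Stmt_listCalc) : Stmt_xL_delta := by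
  intro a lf χ r M s k h haM hr hM hs τ
  have hp := L3_delta_point r M τ
  have hne := L3_delta_ne r M τ
  have hl := L3_delta_lin hr hs (τ : ℂ)
  have hr0 : (r : ℂ) ≠ 0 := by exact_mod_cast hr.ne'
  have hC : (a : ℤ) ∣ (M : ℤ) := Int.natCast_dvd_natCast.2 haM
  have e0 := L3_slash h.slash 1 0 ((r : ℤ) * M) 1 (by ring) (Dvd.dvd.mul_left hC _)
      (τ : ℂ) ((deltaMat r M • τ : ℍ) : ℂ) τ.im_pos (by push_cast; linear_combination hp)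
  have e1 := L3_slash h.slash 1 0 (M : ℤ) 1 (by ring) hC
      ((r : ℂ) * τ) ((r : ℂ) * ((deltaMat r M • τ : ℍ) : ℂ)) (XF_im_pos hr τ.im_pos)
      (by push_cast; linear_combination (r : ℂ) * hp)
  have e2 := L3_slash h.slash (r : ℤ) (-s) (M : ℤ) (-k) (by linear_combination hs) hC
      ((τ : ℂ) + (s : ℂ) / (r : ℂ)) ((r : ℂ) ^ 2 * ((deltaMat r M • τ : ℍ) : ℂ))
      (XF_shift_im_pos s r τ.im_pos) (L3_delta_top hr hs τ)
  have n0 : etaL lf τ ≠ 0 := etaL_ne_zero h.pos τ.im_pos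
  have n1 : etaL lf ((r : ℂ) * τ) ≠ 0 := etaL_ne_zero h.pos (XF_im_pos hr τ.im_pos)
  have f0 : (((r : ℤ) * M : ℤ) : ℂ) * (τ : ℂ) + ((1 : ℤ) : ℂ) = (r : ℂ) * M * τ + 1 := by
    push_cast; ring
  have f1 : (((M : ℕ) : ℤ) : ℂ) * ((r : ℂ) * τ) + ((1 : ℤ) : ℂ) = (r : ℂ) * M * τ + 1 := by
    push_cast; ring
  rw [h.chi_one, f0] at e0
  rw [h.chi_one, f1] at e1
  simp only [Int.cast_natCast] at e2
  constructor
  · rw [L3_x1 hL, L3_x1 hL, e1, e0]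
    generalize etaL lf ((r : ℂ) * τ) = u1 at n1 ⊢
    generalize etaL lf (τ : ℂ) = u0 at n0 ⊢
    generalize (r : ℂ) * M * τ + 1 = ℓ at hne ⊢
    field_simp
  · rw [L3_x2 hL, e2, e1]
    generalize etaL lf ((r : ℂ) * τ) = u1 at n1 ⊢
    generalize etaL lf ((τ : ℂ) + (s : ℂ) / (r : ℂ)) = u2
    generalize (M : ℂ) * ((τ : ℂ) + (s : ℂ) / (r : ℂ)) + ((-k : ℤ) : ℂ) = ℓ' at hl ⊢
    rw [← hl] at hne ⊢
    have hℓ' : ℓ' ≠ 0 := right_ne_zero_of_mul hne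
    field_simp

end Fermat.Agent.CAR.Unit
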