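import Fermat.Agent.CAR.Unit.Gen
import Fermat.Agent.CAR.Unit.SlashOfGen
import Fermat.Agent.CAR.Unit.EtaBasic
import Fermat.Agent.CAR.Unit.EtaW
import Fermat.Agent.CAR.Unit.FrickeStep
import Fermat.Agent.CAR.Unit.Mult
import Fermat.Agent.CAR.Unit.Level4
import Fermat.Agent.CAR.Unit.Level3
import Fermat.Agent.CAR.Unit.Level9
import Fermat.Agent.CAR.Unit.HNF
import Fermat.Agent.CAR.Unit.EtaAsymp
import Fermat.Agent.CAR.Unit.Ligozat
import Fermat.Agent.CAR.Unit.Growth
import Fermat.Agent.CAR.Unit.EtaRep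
import Fermat.Agent.CAR.Unit.RepOps
import Fermat.Agent.CAR.Unit.ThetaEta
import Fermat.Agent.CAR.Unit.HasQ4
import Fermat.Agent.CAR.Unit.FourSq
import Fermat.Agent.CAR.Unit.Mem
import Fermat.Agent.CAR.Unit.ListCalc
import Fermat.Agent.CAR.Unit.W1Inst
import Fermat.Agent.CAR.Unit.XFormL
import Fermat.Agent.CAR.Unit.Good
import Fermat.Agent.CAR.Unit.RepX
import Fermat.Agent.CAR.Unit.IntJ
import Fermat.Agent.CAR.Unit.Elt

/-!
# S36 / CAR / Unit : assembly of the analytic half (helper37).  Everything here is unconditional.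

Names: `U.xxx : Stmt_xxx`.
-/

set_option autoImplicit false

namespace Fermat.Agent.CAR.Unit.U

open Fermat.Agent.CAR.Unit

theorem etaL_T : Stmt_etaL_T := Unit.etaL_T etaT
theorem slashOfGen : Stmt_SlashOfGen := Unit.slashOfGen gen

/-! level 4 -/
theorem f4_slash : Stmt_f4_slash := Unit.f4_slash etaL_T etaL_W frickeStep slashOfGen mu4_ok
theorem slash4 : Stmt_slash4 := Unit.slash4 etaL_T etaL_W frickeStep slashOfGen

/-! levels 3 and 9 -/
theorem f9_slash3 : Stmt_f9_slash3 := Unit.f9_slash3 etaL_T etaL_W frickeStep slashOfGen mu3_ok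
theorem f3s_slash3 : Stmt_f3s_slash3 :=
  Unit.f3s_slash3 etaL_T etaL_W frickeStep slashOfGen mu3s_ok
theorem t3_inv : Stmt_t3_inv := Unit.t3_inv etaL_T etaL_W frickeStep slashOfGen
theorem slash9 : Stmt_slash9 := Unit.slash9 f9_slash3 f3s_slash3 mu3_ok
theorem inv9 : Stmt_inv9 := Unit.inv9 f9_slash3 f3s_slash3 t3_inv mu3_ok

/-! growth -/
theorem etaG_theta : Stmt_etaG_theta := Unit.etaG_theta hnf etaAbs etaTheta
theorem etaG_bdd : Stmt_etaG_bdd := Unit.etaG_bdd etaG_theta
theorem etaG_growth : Stmt_etaG_growth := Unit.etaG_growth etaG_theta etaTheta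
theorem etaG_mem : Stmt_etaG_mem := Unit.etaG_mem etaG_growth etaG_basic

/-! identities of level 4 -/
theorem hasQ4 : Stmt_HasQ4 := Unit.hasQ4 slash4 etaG_bdd ordG_toG etaL_qexp etaG_basic etaL_toG
theorem fourSq : Stmt_fourSq := Unit.fourSq hasQ4
theorem star4 : Stmt_star4 := Unit.star4 fourSq thetaEta

/-! Interface2 -/
theorem frob : Stmt_frob := Unit.frob listCalc
theorem w1 : Stmt_W1 := Unit.w1 f4_slash slash9
theorem xL_inv : Stmt_xL_inv := Unit.xL_inv listCalc
theorem xL_AL : Stmt_xL_AL := Unit.xL_AL listCalc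
theorem xL_delta : Stmt_xL_delta := Unit.xL_delta listCalc
theorem etaL_good : Stmt_etaL_good := Unit.etaL_good etaG_growth etaL_rep
theorem repX_AL : Stmt_repX_AL := Unit.repX_AL listCalc xL_AL etaL_good
theorem repX_delta : Stmt_repX_delta :=
  Unit.repX_delta listCalc xL_delta etaL_good rep_shift etaL_rep
theorem repT : Stmt_repT := Unit.repT listCalc tL_AL tL_delta etaL_good rep_shift
theorem etaL_elt : Stmt_etaL_elt := Unit.etaL_elt listCalc etaL_good intJ etaG_mem

end Fermat.Agent.CAR.Unit.U
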