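import Fermat.Agent.CAR.Unit.Interface3
import Fermat.Agent.S36.Val.Mid

/-! # S36 / CAR / Unit : UNIT-P1, the root of unity of a `MidData` is `e(s/r)`, `s M ≡ 1 mod r`. -/

set_option autoImplicit false

namespace Fermat.Agent.CAR.Unit

open Complex
open UpperHalfPlane hiding I
open scoped MatrixGroups Real
open Fermat.Agent.S24 (Qbar FF funAlg iota jFunD jAlg jBarSeries)
open Fermat.Agent.S24.QX (qExpHom cmI Rep)
open Fermat.Agent.S36.Val (MidData deltaMat IsJ)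
open Fermat.Agent.ES.Mid (tw)
open Fermat.Agent.ES.Mid.HA2 (aff)
attribute [local instance] Fermat.Agent.S24.algQbarComplex

theorem midZeta (h5 : S36.Val.Stmt_DeltaFun) : Stmt_midZeta := by
  intro r M _ hr hrM D
  have hN0 : r ^ 2 * M ≠ 0 := NeZero.ne _
  have hM : 0 < M := Nat.pos_of_ne_zero fun h => hN0 (by rw [h, mul_zero])
  obtain ⟨s, k, -, hsk⟩ := S36.Val.E6_bezout hr hrM
  refine ⟨s, k, hsk, ?_⟩
  have hdN : r ^ 2 * 1 ∣ r ^ 2 * M := Nat.mul_dvd_mul_left _ (one_dvd _)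
  have hne : NeZero (r ^ 2 * 1) := ⟨by rw [mul_one]; exact pow_ne_zero 2 hr.ne_zero⟩
  have hy : IsJ (qExpHom (r ^ 2 * M) (jAlg _ (r ^ 2 * 1) hdN)) (r ^ 2 * 1) := by
    show ((qExpHom (r ^ 2 * M) (jAlg _ (r ^ 2 * 1) hdN) : FF (r ^ 2 * M)) : LaurentSeries Qbar) = _
    rw [S24.QX.qExpHom_jAlg, INJ.Inst.fricke_coe_jBar]
  have htop := D.top 1 _ (one_dvd _) hy
  have hexp := D.exp (jAlg _ (r ^ 2 * 1) hdN)
  have hfun : (fun τ : ℍ => jFunD (r ^ 2 * 1) (deltaMat r M • τ)) =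
      aff 1 ((s : ℝ) / r) (jFunD 1) := by
    funext τ
    have := (h5 r M 1 s k hr.pos hM (one_dvd _) hsk τ).2
    simpa using this
  let u : ℂˣ := Units.mk0 (ee (((s : ℤ) : ℂ) / (r : ℂ))) (Complex.exp_ne_zero _)
  have hu : (u : ℂ) = Complex.exp (2 * Real.pi * Complex.I * (((s : ℝ) / (r : ℝ) : ℝ) : ℂ)) := by
    show ee (((s : ℤ) : ℂ) / (r : ℂ)) = _
    rw [ee]
    push_cast
    rfl
  have hrep2 : Rep (tw u (cmI (jBarSeries 1))) (fun τ : ℍ => jFunD (r ^ 2 * 1) (deltaMat r M • τ)) := by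
    rw [hfun]
    exact S36.Val.E6_rep_shift (S24.QX.rep_jFunD 1) _ u hu
  have huniq : cmI (D.φ (qExpHom (r ^ 2 * M) (jAlg _ (r ^ 2 * 1) hdN))) =
      tw u (cmI (jBarSeries 1)) := hexp.unique hrep2
  rw [htop, S36.Val.E6_jBarSeries_eq,
    show cmI (tw D.ζ (S28.jd Qbar 1)) = _ from ES.Mid.HF1.coeffMap_tw (iota : Qbar →+* ℂ) D.ζ _,
    show cmI (S28.jd Qbar 1) = _ from INJ.Inst.coeffMap_jd (iota : Qbar →+* ℂ) 1] at huniq
  have hc := congrArg (fun x : LaurentSeries ℂ => x.coeff (-((1 : ℕ) : ℤ))) huniq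
  simp only [ES.Mid.tw_coeff, INJ.Inst.coeff_jd ℂ one_ne_zero, mul_one] at hc
  have hc' : (Units.map ((iota : Qbar →+* ℂ) : Qbar →* ℂ) D.ζ) ^ (-((1 : ℕ) : ℤ)) =
      u ^ (-((1 : ℕ) : ℤ)) := Units.ext hc
  have hc2 : Units.map ((iota : Qbar →+* ℂ) : Qbar →* ℂ) D.ζ = u := by
    simpa using hc'
  exact congrArg Units.val hc2

end Fermat.Agent.CAR.Unit
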