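import Fermat.Agent.CAR.Unit.Interface3

/-!
# S36 / CAR / Unit / P2 (helper17): transport of `q`-expansions to `phiA`, `phiC`, `phiM`
-/

set_option autoImplicit false

namespace Fermat.Agent.CAR.Unit

open CongruenceSubgroup Complex
open UpperHalfPlane hiding I
open scoped MatrixGroups Real Manifold ModularForm
open Fermat.Agent.S24 (Qbar FF funAlg iota jF)
open Fermat.Agent.S24.QX (qExpHom cmI Rep Nice)
open Fermat.Agent.S36.Val (ALData ALMap MidData deltaMat phiA phiM phiC incl)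
open Fermat.Agent.S36.Base (IE AE FE emb cmE)
open Fermat.Agent.ES.Mid (tw Growth)
open ModularCurve (coeffMap qExpand)
attribute [local instance] Fermat.Agent.S24.algQbarComplex

/-- the `q`-expansion of the image in `FF N` of an element of `F_E` with an eta expansion. -/
theorem P2_coe_emb (hS : Stmt_serCalc) (A : ValuationSubring Qbar) {N : ℕ} (x : FE A N) (n : ℤ)
    (l : List (ℕ × ℤ)) (hx : IsEta A x n l) :
    ((emb A N x : FF N) : LaurentSeries Qbar) = etaLser Qbar n l := by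
  have hx' : (x : Fermat.Agent.S36.Base.LE A) = etaLser (IE A) n l := hx
  rw [Fermat.Agent.S36.Base.coe_emb, hx']
  exact hS.1 (IE A) Qbar (algebraMap (IE A) Qbar) n l

/-- P2. -/
theorem phiEta (hS : Stmt_serCalc) (hg : Stmt_etaL_good)
    (hT : Fermat.Agent.S36.Val.Stmt_TransportInv) : Stmt_phiEta := by
  intro A r M _ n l x hMU hx
  have hcoe := P2_coe_emb hS A x n l hx
  obtain ⟨hmd, hgr, hrep⟩ := hg l n hMU.pos hMU.wt hMU.deg
  have hinv : ∀ γ ∈ Gamma0 (r ^ 2 * M), ∀ z : ℍ, onH (etaL l) (γ • z) = onH (etaL l) z := hMU.inv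
  have hrep' : Rep (cmI ((emb A (r ^ 2 * M) x : FF (r ^ 2 * M)) : LaurentSeries Qbar))
      (onH (etaL l)) := by
    rw [hcoe]; exact hrep
  refine ⟨hcoe, fun Wm D y hy => ?_, fun D y hy => ?_⟩
  · exact hT (r ^ 2 * M) D.fn ((incl (r ^ 2 * M)).comp Wm.W.toAlgHom) (Wm.exp D) (onH (etaL l))
      (emb A (r ^ 2 * M) x) y hmd hinv hgr hrep' hy
  · exact hT (r ^ 2 * M) _ D.φ D.exp (onH (etaL l)) (emb A (r ^ 2 * M) x) y hmd hinv hgr hrep' hy

end Fermat.Agent.CAR.Unit
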