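import Fermat.Agent.CAR.Unit.Interface3

/-!
# S36 / CAR / Unit : task UNIT-P3.  The images of `x₁`, `x₂`, `t(r^i z)` under the three embeddings
-/

set_option autoImplicit false

namespace Fermat.Agent.CAR.Unit

open CongruenceSubgroup Complex
open UpperHalfPlane hiding I
open scoped MatrixGroups
open Fermat.Agent.S24 (Qbar FF funAlg iota jF)
open Fermat.Agent.S24.QX (qExpHom cmI Rep Nice)
open Fermat.Agent.S36.Val (ALData ALMap MidData deltaMat Ctx phiA phiM phiC)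
open Fermat.Agent.S36.Base (IE AE FE emb cmE)
open Fermat.Agent.ES.Mid (tw Growth)

/-- Bezout data for `W_{r²}`. -/
theorem P3_ALData {r M : ℕ} (hr : r.Prime) (hrM : ¬ r ∣ M) : Nonempty (ALData (r ^ 2) M) := by
  have h1 : Nat.Coprime (r ^ 2) M := ((Nat.Prime.coprime_iff_not_dvd hr).2 hrM).pow_left 2
  obtain ⟨u, v, huv⟩ := Nat.isCoprime_iff_coprime.2 h1
  exact ⟨⟨u, -v, 1, 1, by linear_combination huv⟩⟩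

theorem phiX (hM : Stmt_MU) (hP : Stmt_phiEta) (hA : Stmt_repX_AL) (hD : Stmt_repX_delta)
    (hZ : Stmt_midZeta) : Stmt_phiX := by
  intro A r M _ _ _ _ C a lf χ X1 X2 hW haM h1 h2
  have hr : 0 < r := C.hr.pos
  have hM0 : 0 < M := Nat.pos_of_ne_zero (NeZero.ne M)
  obtain ⟨-, -, hraise, -, hx, -, -⟩ := hM
  obtain ⟨m1, m2⟩ := hx a lf χ r M hW haM hr hM0
  have m1' : MU (r ^ 2 * M) 0 (lx1 lf r) := hraise (r * M) (r ^ 2 * M) 0 _ ⟨r, by ring⟩ m1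
  obtain ⟨D0⟩ := P3_ALData C.hr C.hrM
  obtain ⟨s, k, hs, hζ⟩ := hZ r M C.hr C.hrM C.D
  obtain ⟨pA1, pC1, pM1⟩ := hP A r M 0 _ X1 m1' h1
  obtain ⟨pA2, pC2, pM2⟩ := hP A r M 0 _ X2 m2 h2
  obtain ⟨ε₁, ε₂, he1, he2, R1, R2⟩ := hA a lf χ r M hW haM hr hM0 D0
  obtain ⟨Rd1, ε, he, Rd2⟩ := hD a lf χ r M s k C.D.ζ hW haM hr hM0 hs hζ
  exact ⟨pA1, pA2, pM1 C.D _ Rd1, ⟨ε, he, pM2 C.D _ Rd2⟩, ⟨ε₁, he1, pC1 C.W2 D0 _ R1⟩,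
    ⟨ε₂, he2, pC2 C.W2 D0 _ R2⟩⟩

theorem phiT (hM : Stmt_MU) (hP : Stmt_phiEta) (hR : Stmt_repT) (hZ : Stmt_midZeta) :
    Stmt_phiT := by
  intro A r M _ _ _ _ C a n l T0 T1 T2 hU haM h0 h1 h2
  have hr : 0 < r := C.hr.pos
  have hM0 : 0 < M := Nat.pos_of_ne_zero (NeZero.ne M)
  obtain ⟨-, -, hraise, hscale, -, -, -⟩ := hM
  obtain ⟨b, rfl⟩ := haM
  have m0 : MU (r ^ 2 * (a * b)) n l := hraise a _ n l ⟨r ^ 2 * b, by ring⟩ hU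
  have m1 : MU (r ^ 2 * (a * b)) (r * n) (scaleL r l) :=
    hraise (r * a) _ _ _ ⟨r * b, by ring⟩ (hscale a r n l hr hU)
  have m2 : MU (r ^ 2 * (a * b)) (r ^ 2 * n) (scaleL (r ^ 2) l) := by
    have := hraise (r ^ 2 * a) (r ^ 2 * (a * b)) _ _ ⟨b, by ring⟩
      (hscale a (r ^ 2) n l (pow_pos hr 2) hU)
    push_cast at this
    exact this
  obtain ⟨D0⟩ := P3_ALData C.hr C.hrM
  obtain ⟨s, k, hs, hζ⟩ := hZ r (a * b) C.hr C.hrM C.D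
  obtain ⟨pA0, pC0, pM0⟩ := hP A r (a * b) _ _ T0 m0 h0
  obtain ⟨pA1, pC1, pM1⟩ := hP A r (a * b) _ _ T1 m1 h1
  obtain ⟨pA2, pC2, pM2⟩ := hP A r (a * b) _ _ T2 m2 h2
  obtain ⟨RW, Rd0, Rd1, Rd2⟩ := hR a l n r (a * b) s k C.D.ζ hU.pos hU.wt hU.deg hU.inv
    (Dvd.intro _ rfl) hr hM0 hs hζ
  obtain ⟨RW0, RW1, RW2⟩ := RW D0
  exact ⟨⟨pA0, pA1, pA2⟩, ⟨pM0 C.D _ Rd0, pM1 C.D _ Rd1, pM2 C.D _ Rd2⟩,
    ⟨pC0 C.W2 D0 _ RW0, pC1 C.W2 D0 _ RW1, pC2 C.W2 D0 _ RW2⟩⟩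

end Fermat.Agent.CAR.Unit
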