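import Fermat.Agent.CAR.Unit.Interface4
import Fermat.Agent.CAR.Unit.Haupt4

/-!
# S36 / CAR / Unit : task UNIT-R2.  `j t⁴ (t + 16) = (t² + 256 t + 4096)³` for `t = η(z)^8 / η(4z)^8`
-/

set_option autoImplicit false

namespace Fermat.Agent.CAR.Unit

open ModularCurve
open Fermat.Agent.S24 (Qbar)

theorem R2_jd_one (R : Type) [CommRing R] : Fermat.Agent.S28.jd R 1 = jqModC R := by
  rw [Fermat.Agent.S28.jd, Fermat.Agent.S28.Vq_eq, qExpand_one_apply]

theorem R2_coeffMap_inj {R S : Type} [CommRing R] [CommRing S] (f : R →+* S)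
    (hf : Function.Injective f) : Function.Injective (coeffMap f) := by
  intro x y h
  ext k
  apply hf
  have := congrArg (fun z : LaurentSeries S => z.coeff k) h
  simpa [coeffMap] using this

theorem R2_alg {F : Type*} [Field F] (j T T2 : F) (hU : T + 16 ≠ 0) (h1 : T ^ 2 = T2 * (T + 16))
    (h2 : j * T2 ^ 2 = (T2 + 256) ^ 3) :
    j * (T ^ 4 * (T + 16)) = (T ^ 2 + 256 * T + 4096) ^ 3 := by
  have e : T2 = T ^ 2 / (T + 16) := by rw [eq_div_iff hU]; exact h1.symm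
  rw [e] at h2
  field_simp at h2
  linear_combination h2

/-- Step 1: the relation over `ℚ̄`. -/
theorem R2_Qbar (hu : Stmt_u4) :
    Fermat.Agent.S28.jd Qbar 1 * (etaLser Qbar (-1) lt4 ^ 4 * (etaLser Qbar (-1) lt4 + 16))
      = (etaLser Qbar (-1) lt4 ^ 2 + 256 * etaLser Qbar (-1) lt4 + 4096) ^ 3 := by
  rw [R2_jd_one]
  exact R2_alg (jqModC Qbar) T4s J1_T2 (J1_U_ne hu) (J1_rel hu).1 J1_j1

/-- the image of the relation under a coefficient map. -/
theorem R2_map (hS : Stmt_serCalc) {R S : Type} [CommRing R] [CommRing S] (f : R →+* S) :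
    coeffMap f (Fermat.Agent.S28.jd R 1 * (etaLser R (-1) lt4 ^ 4 * (etaLser R (-1) lt4 + 16)))
        = Fermat.Agent.S28.jd S 1 * (etaLser S (-1) lt4 ^ 4 * (etaLser S (-1) lt4 + 16)) ∧
    coeffMap f ((etaLser R (-1) lt4 ^ 2 + 256 * etaLser R (-1) lt4 + 4096) ^ 3)
        = (etaLser S (-1) lt4 ^ 2 + 256 * etaLser S (-1) lt4 + 4096) ^ 3 := by
  have h1 := hS.1 R S f (-1) lt4
  have h2 := Fermat.Agent.INJ.Inst.coeffMap_jd f 1
  constructor
  · rw [map_mul, map_mul, map_pow, map_add, h1, h2, map_ofNat]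
  · rw [map_pow, map_add, map_add, map_mul, map_pow, h1, map_ofNat, map_ofNat]

/-- Step 2: the relation over `ℤ`. -/
theorem R2_Int (hS : Stmt_serCalc) (hu : Stmt_u4) :
    Fermat.Agent.S28.jd ℤ 1 * (etaLser ℤ (-1) lt4 ^ 4 * (etaLser ℤ (-1) lt4 + 16))
      = (etaLser ℤ (-1) lt4 ^ 2 + 256 * etaLser ℤ (-1) lt4 + 4096) ^ 3 := by
  apply R2_coeffMap_inj (Int.castRingHom Qbar) (RingHom.injective_int _)
  obtain ⟨e1, e2⟩ := R2_map hS (Int.castRingHom Qbar)
  rw [e1, e2]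
  exact R2_Qbar hu

theorem relT4 (hS : Stmt_serCalc) (hu : Stmt_u4) : Stmt_relT4 := by
  intro R _
  obtain ⟨e1, e2⟩ := R2_map hS (Int.castRingHom R)
  rw [← e1, ← e2, R2_Int hS hu]

end Fermat.Agent.CAR.Unit
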