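import Fermat.Agent.CAR.Unit.Interface3
import Fermat.Agent.CAR.Unit.ListCalc

/-!
# S36 / CAR / Unit, task UNIT-M1 (helper2): formal calculus of the eta series
`etaLser R n l = q^n ∏ E(q^d)^e`, and the numerical invariants of the lists.
-/

set_option autoImplicit false

namespace Fermat.Agent.CAR.Unit

open Fermat.Agent.KL.Haupt (lau coeffMap_lau qExpand_lau)
open ModularCurve (coeffMap qExpand coeffMap_single qExpand_single)

theorem M1_etaLps_mul_neg (l : List (ℕ × ℤ)) : etaLps l * etaLps (negL l) = 1 := by
  induction l with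
  | nil => simp [negL, L1_etaLps_nil]
  | cons p l ih =>
    have h1 : negL (p :: l) = (p.1, -p.2) :: negL l := rfl
    have h2 : L1_fac (p.1, -p.2) * L1_fac p = 1 := L1_fac_neg_mul p.1 p.2
    rw [h1, L1_etaLps_cons, L1_etaLps_cons]
    calc L1_fac p * etaLps l * (L1_fac (p.1, -p.2) * etaLps (negL l))
        = (L1_fac (p.1, -p.2) * L1_fac p) * (etaLps l * etaLps (negL l)) := by ring
      _ = 1 := by rw [h2, ih, one_mul]

theorem M1_mul (hL : Stmt_listCalc) (R : Type) [CommRing R] (n n' : ℤ) (l l' : List (ℕ × ℤ)) :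
    etaLser R n l * etaLser R n' l' = etaLser R (n + n') (l ++ l') := by
  rw [etaLser, etaLser, etaLser, hL.2.2.2.1 l l', map_mul, ← one_mul (1 : R),
    ← HahnSeries.single_mul_single, one_mul]
  ring

theorem M1_mul_neg (R : Type) [CommRing R] (n : ℤ) (l : List (ℕ × ℤ)) :
    etaLser R n l * etaLser R (-n) (negL l) = 1 := by
  rw [etaLser, etaLser]
  calc HahnSeries.single n (1 : R) * lau R (etaLps l) *
        (HahnSeries.single (-n) 1 * lau R (etaLps (negL l)))
      = (HahnSeries.single n (1 : R) * HahnSeries.single (-n) 1) *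
          lau R (etaLps l * etaLps (negL l)) := by rw [map_mul]; ring
    _ = 1 := by
      rw [M1_etaLps_mul_neg, map_one (lau R), HahnSeries.single_mul_single, add_neg_cancel,
        mul_one, mul_one]
      rfl

theorem serCalc (hL : Stmt_listCalc) (hF : Stmt_frob) : Stmt_serCalc := by
  refine ⟨?_, fun R _ n n' l l' => M1_mul hL R n n' l l', fun R _ n l => M1_mul_neg R n l,
    ?_, ?_, ?_⟩
  · intro R S _ _ f n l
    rw [etaLser, etaLser, map_mul, coeffMap_single, map_one, coeffMap_lau]
  · intro R _ r _ n l hl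
    rw [etaLser, etaLser, map_mul, qExpand_single, qExpand_lau,
      hL.2.2.2.2.2.1 r (NeZero.ne r) l hl]
  · intro k _ r n l hr hrk hl
    obtain ⟨g, hg⟩ := hF r l hr hl
    have h0 : lau k (r : PowerSeries ℤ) = 0 := by
      rw [map_natCast, ← map_natCast (HahnSeries.C : k →+* LaurentSeries k) r, hrk, map_zero]
    rw [etaLser, etaLser, hg, map_add, map_mul, h0, zero_mul, add_zero, map_pow, mul_pow,
      HahnSeries.single_pow, one_pow, nsmul_eq_mul]
  · intro k _ n l h
    have h1 := M1_mul_neg k n l
    rw [h, zero_mul] at h1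
    exact zero_ne_one h1

theorem listNum : Stmt_listNum := by
  refine ⟨fun l l' => ⟨?_, ?_, ?_⟩, fun l => ⟨?_, ?_, ?_⟩, fun r l => ⟨?_, ?_, ?_⟩⟩
  · simp [wt2]
  · simp [deg24]
  · intro h h' p hp
    rcases List.mem_append.1 hp with hp | hp
    · exact h p hp
    · exact h' p hp
  · induction l with
    | nil => simp [wt2, negL]
    | cons p l ih =>
      simp only [wt2, negL, List.map_cons, List.sum_cons] at ih ⊢
      rw [ih]; ring
  · induction l with
    | nil => simp [deg24, negL]
    | cons p l ih =>
      simp only [deg24, negL, List.map_cons, List.sum_cons] at ih ⊢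
      rw [ih]; ring
  · intro h p hp
    obtain ⟨q, hq, rfl⟩ := List.mem_map.1 hp
    exact h q hq
  · induction l with
    | nil => simp [wt2, scaleL]
    | cons p l ih =>
      simp only [wt2, scaleL, List.map_cons, List.sum_cons] at ih ⊢
      rw [ih]
  · induction l with
    | nil => simp [deg24, scaleL]
    | cons p l ih =>
      simp only [deg24, scaleL, List.map_cons, List.sum_cons] at ih ⊢
      rw [ih]; push_cast; ring
  · intro hr h p hp
    obtain ⟨q, hq, rfl⟩ := List.mem_map.1 hp
    exact Nat.mul_pos hr (h q hq)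

end Fermat.Agent.CAR.Unit
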