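import Fermat.Agent.CAR.Unit.Interface3
import Fermat.Agent.S36.Val.GVOps

/-!
# S36 / CAR / Unit, [M3] : `x(ζ q) - x(q) = (ζ - 1) h`, `h ≡ θ x`, for `x = q^n P(q)`, `P ∈ ℤ⟦q⟧`
-/

set_option autoImplicit false

noncomputable section

namespace Fermat.Agent.CAR.Unit

open Fermat.Agent.S24 (Qbar)
open Fermat.Agent.S36.Val (resA)
open Fermat.Agent.INJ.Inst (kA)
open Fermat.Agent.INJ.Inst.Gauss (rho inc)
open Fermat.Agent.ES.Mid (tw)
open Fermat.Agent.KL.Haupt (lau)
open ModularCurve (coeffMap)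

/-- `[k] = (u^k - 1)/(u - 1)` without division. -/
def TwTheta_br {R : Type*} [CommRing R] (u : Rˣ) (k : ℤ) : R :=
  if 0 ≤ k then ∑ i ∈ Finset.range k.toNat, (u : R) ^ i
  else -(((u ^ k : Rˣ) : R) * ∑ i ∈ Finset.range (-k).toNat, (u : R) ^ i)

theorem TwTheta_br_mul {R : Type*} [CommRing R] (u : Rˣ) (k : ℤ) :
    ((u : R) - 1) * TwTheta_br u k = ((u ^ k : Rˣ) : R) - 1 := by
  unfold TwTheta_br
  split_ifs with hk
  · lift k to ℕ using hk
    rw [Int.toNat_natCast, mul_geom_sum, zpow_natCast, Units.val_pow_eq_pow_val]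
  · push Not at hk
    obtain ⟨m, rfl⟩ : ∃ m : ℕ, k = -(m : ℤ) := ⟨(-k).toNat, by omega⟩
    rw [neg_neg, Int.toNat_natCast, mul_neg, mul_left_comm, mul_geom_sum, mul_sub, mul_one,
      ← Units.val_pow_eq_pow_val, ← Units.val_mul, zpow_neg, zpow_natCast, inv_mul_cancel,
      Units.val_one]
    ring

theorem TwTheta_br_map {R S : Type*} [CommRing R] [CommRing S] (f : R →+* S) (u : Rˣ) (k : ℤ) :
    f (TwTheta_br u k) = TwTheta_br (Units.map (f : R →* S) u) k := by
  unfold TwTheta_br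
  split_ifs with hk
  · simp [map_sum]
  · rw [map_neg, map_mul, map_sum, ← map_zpow]
    simp only [map_pow, Units.coe_map, MonoidHom.coe_coe]

theorem TwTheta_br_one {R : Type*} [CommRing R] (k : ℤ) : TwTheta_br (1 : Rˣ) k = (k : R) := by
  unfold TwTheta_br
  split_ifs with hk
  · lift k to ℕ using hk
    simp
  · push Not at hk
    obtain ⟨m, rfl⟩ : ∃ m : ℕ, k = -(m : ℤ) := ⟨(-k).toNat, by omega⟩
    simp

/-- the series `∑ [k] x_k q^k`. -/
def TwTheta_h {R : Type*} [CommRing R] (u : Rˣ) (x : LaurentSeries R) : LaurentSeries R :=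
  HahnSeries.ofSuppBddBelow (fun k : ℤ => TwTheta_br u k * x.coeff k) (by
    refine ⟨x.order, fun k hk => HahnSeries.order_le_of_coeff_ne_zero ?_⟩
    intro h0
    apply hk
    show TwTheta_br u k * x.coeff k = 0
    rw [h0, mul_zero])

theorem TwTheta_h_coeff {R : Type*} [CommRing R] (u : Rˣ) (x : LaurentSeries R) (k : ℤ) :
    (TwTheta_h u x).coeff k = TwTheta_br u k * x.coeff k := rfl

theorem TwTheta_h_map {R S : Type*} [CommRing R] [CommRing S] (f : R →+* S) (u : Rˣ)
    (x : LaurentSeries R) :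
    coeffMap f (TwTheta_h u x) = TwTheta_h (Units.map (f : R →* S) u) (coeffMap f x) := by
  ext k
  rw [ModularCurve.coeffMap_coeff, TwTheta_h_coeff, TwTheta_h_coeff, ModularCurve.coeffMap_coeff,
    map_mul, TwTheta_br_map]

theorem TwTheta_tw_sub {R : Type*} [CommRing R] (u : Rˣ) (x : LaurentSeries R) :
    tw u x - x = HahnSeries.single 0 ((u : R) - 1) * TwTheta_h u x := by
  ext k
  rw [HahnSeries.coeff_single_zero_mul, HahnSeries.coeff_sub, Fermat.Agent.ES.Mid.tw_coeff,
    TwTheta_h_coeff, ← mul_assoc, TwTheta_br_mul]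
  ring

theorem TwTheta_coeff_single_mul_lau (R : Type*) [CommRing R] (n : ℤ) (P : PowerSeries ℤ) (m : ℕ) :
    (HahnSeries.single n (1 : R) * lau R P).coeff (n + m) = ((PowerSeries.coeff m P : ℤ) : R) := by
  rw [add_comm, HahnSeries.coeff_single_mul_add, one_mul, Fermat.Agent.KL.Haupt.lau_apply,
    HahnSeries.ofPowerSeries_apply_coeff, PowerSeries.coeff_map]
  rfl

theorem TwTheta_coeff_single_mul_lau_lt (R : Type*) [CommRing R] (n : ℤ) (P : PowerSeries ℤ)
    (k : ℤ) (hk : k < n) : (HahnSeries.single n (1 : R) * lau R P).coeff k = 0 := by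
  have h : k = (k - n) + n := by ring
  rw [h, HahnSeries.coeff_single_mul_add, one_mul, Fermat.Agent.KL.Haupt.lau_apply,
    ModularCurve.ofPowerSeries_coeff_of_neg _ (by omega)]

theorem TwTheta_h_one (R : Type*) [CommRing R] (n : ℤ) (P : PowerSeries ℤ) :
    TwTheta_h (1 : Rˣ) (HahnSeries.single n 1 * lau R P)
      = HahnSeries.single n 1 * lau R (Fermat.Agent.S16.theta P + (n : PowerSeries ℤ) * P) := by
  ext k
  rw [TwTheta_h_coeff, TwTheta_br_one]
  rcases lt_or_ge k n with hk | hk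
  · rw [TwTheta_coeff_single_mul_lau_lt R n _ k hk, TwTheta_coeff_single_mul_lau_lt R n _ k hk,
      mul_zero]
  · obtain ⟨m, rfl⟩ : ∃ m : ℕ, k = n + m := ⟨(k - n).toNat, by omega⟩
    rw [TwTheta_coeff_single_mul_lau, TwTheta_coeff_single_mul_lau, map_add,
      Fermat.Agent.S16.coeff_theta]
    have h1 : (n : PowerSeries ℤ) * P = PowerSeries.C n * P := by
      congr 1
      exact (map_intCast (PowerSeries.C (R := ℤ)) n).symm
    rw [h1, PowerSeries.coeff_C_mul]
    push_cast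
    ring

theorem twTheta : Stmt_twTheta := by
  intro A r hr hA ζ hζ n P
  set u := Fermat.Agent.S36.Val.GVOps_unit A hr.pos ζ hζ with hu
  refine ⟨TwTheta_h u (HahnSeries.single n 1 * lau A P), ?_, ?_⟩
  · rw [ModularCurve.algebraMap_laurentSeries_eq_single]
    have h1 : inc A (TwTheta_h u (HahnSeries.single n 1 * lau A P))
        = TwTheta_h ζ (HahnSeries.single n 1 * lau Qbar P) := by
      show coeffMap A.subtype _ = _
      rw [TwTheta_h_map, Fermat.Agent.S36.Val.GVOps_map_subtype A hr.pos ζ hζ, map_mul,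
        ModularCurve.coeffMap_single, map_one, Fermat.Agent.KL.Haupt.coeffMap_lau]
    rw [h1, TwTheta_tw_sub]
  · show coeffMap (resA A) _ = _
    rw [TwTheta_h_map, Fermat.Agent.S36.Val.GVOps_map_residue A hr hA ζ hζ, map_mul,
      ModularCurve.coeffMap_single, map_one, Fermat.Agent.KL.Haupt.coeffMap_lau, TwTheta_h_one]

end Fermat.Agent.CAR.Unit

end
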