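import Fermat.Agent.CAR.Unit.Interface4
import Fermat.Agent.CAR.Unit.ListCalc
import Fermat.Agent.S36.Val.GVApi

/-!
# S36 / CAR / Unit, task UNIT-R4 : `t(q^(r²)) - t(q)` is a unit on the components `A` and `C`
-/

set_option autoImplicit false

namespace Fermat.Agent.CAR.Unit

open Fermat.Agent.S24 (Qbar FF)
open Fermat.Agent.S36.Val
open Fermat.Agent.S36.Base (IE AE FE emb cmE)
open Fermat.Agent.INJ.Inst (kA)
open Fermat.Agent.KL.Haupt (lau)

section

variable {A : ValuationSubring Qbar} {F : Type*} [Field F] (φ : F →+* LaurentSeries Qbar)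
  (h : ∀ x, Sat A (φ x))

theorem R4_unit_sub {x x' : F} {y y' : LaurentSeries Qbar} {b b' : LaurentSeries (kA A)}
    (hx : φ x = y) (hx' : φ x' = y') (hy : GInt A y ∧ gred A y = b)
    (hy' : GInt A y' ∧ gred A y' = b') (hb : b ≠ b') : (gv φ h).valuation (x - x') = 1 := by
  rw [gv_eq_one_iff, map_sub, hx, hx']
  exact ⟨hy.1.sub hy'.1, by rw [gred_sub hy.1 hy'.1, hy.2, hy'.2]; exact sub_ne_zero.2 hb⟩

end

theorem R4_coeff (R : Type) [CommRing R] (m : ℤ) (l : List (ℕ × ℤ)) (i : ℤ) :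
    (etaLser R m l).coeff i = (lau R (etaLps l)).coeff (i - m) := by
  rw [etaLser, HahnSeries.coeff_single_mul, one_mul]

theorem R4_coeff_self (R : Type) [CommRing R] (m : ℤ) (l : List (ℕ × ℤ)) :
    (etaLser R m l).coeff m = 1 := by
  rw [R4_coeff, sub_self, Fermat.Agent.KL.Haupt.lau_apply]
  have h := HahnSeries.ofPowerSeries_apply_coeff (Γ := ℤ)
    ((etaLps l).map (Int.castRingHom R)) 0
  rw [Nat.cast_zero] at h
  rw [h, PowerSeries.coeff_map, PowerSeries.coeff_zero_eq_constantCoeff_apply,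
    listCalc.2.2.2.2.2.2 l]
  simp

theorem R4_coeff_lt (R : Type) [CommRing R] (m : ℤ) (l : List (ℕ × ℤ)) (i : ℤ) (hi : i < m) :
    (etaLser R m l).coeff i = 0 := by
  rw [R4_coeff, Fermat.Agent.KL.Haupt.lau_apply, HahnSeries.ofPowerSeries_apply,
    HahnSeries.embDomain_of_notMem_range]
  rintro ⟨k, hk⟩
  have : ((k : ℕ) : ℤ) = i - m := hk
  omega

theorem R4_ne (k : Type) [Field k] (m m' : ℤ) (l l' : List (ℕ × ℤ)) (h : m ≠ m') :
    etaLser k m l ≠ etaLser k m' l' := by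
  intro he
  rcases lt_or_gt_of_ne h with hlt | hlt
  · have h1 := R4_coeff_self k m l
    rw [he, R4_coeff_lt k m' l' m hlt] at h1
    exact zero_ne_one h1
  · have h1 := R4_coeff_self k m' l'
    rw [← he, R4_coeff_lt k m l m' hlt] at h1
    exact zero_ne_one h1

theorem valBeta (_hS : Stmt_serCalc) (hG : Stmt_gaussEta) (hP : Stmt_phiT) (hE : Stmt_eltE)
    (hM : Stmt_MU) : Stmt_valBeta := by
  intro A r M _ _ _ _ C a n l T0 T2 hMU haM hn h0 h2
  obtain ⟨-, -, hLev, hSc, -⟩ := hM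
  have hMU1 : MU (r ^ 2 * M) (r * n) (scaleL r l) := by
    refine hLev (r * a) (r ^ 2 * M) _ _ ?_ (hSc a r n l C.hr.pos hMU)
    rw [pow_two, mul_assoc]
    exact Nat.mul_dvd_mul_left r (haM.trans (Dvd.intro_left r rfl))
  obtain ⟨T1, h1⟩ := hE A (r ^ 2 * M) (r * n) (scaleL r l) hMU1
  obtain ⟨⟨hA0, -, hA2⟩, -, ⟨hC0, -, hC2⟩⟩ := hP A r M C a n l T0 T1 T2 hMU haM h0 h1 h2
  have g0 := hG A n l
  have g2 := hG A (r ^ 2 * n) (scaleL (r ^ 2) l)
  have hne : (r : ℤ) ^ 2 * n ≠ n := by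
    intro he
    have h3 : ((r : ℤ) ^ 2 - 1) * n = 0 := by linear_combination he
    rcases mul_eq_zero.1 h3 with h4 | h4
    · have h5 : (2 : ℤ) ≤ r := by exact_mod_cast C.hr.two_le
      nlinarith
    · exact hn h4
  have sA : ∀ x, Sat A (phiA A (r ^ 2 * M) x) := fun _ => sat_incl A (r ^ 2 * M) _
  have sC : ∀ x, Sat A (phiC A C.W2 x) := fun _ => sat_incl A (r ^ 2 * M) _
  exact ⟨R4_unit_sub (phiA A (r ^ 2 * M)) sA hA2 hA0 g2 g0 (R4_ne _ _ _ _ _ hne),
    R4_unit_sub (phiC A C.W2) sC hC2 hC0 g0 g2 (R4_ne _ _ _ _ _ hne.symm)⟩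

end Fermat.Agent.CAR.Unit
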