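import Fermat.Agent.CAR.Unit.Interface3
import Fermat.Agent.S36.Val.GVApi
import Fermat.Agent.S36.Val.GVOps
import Fermat.Agent.S36.Val.JTw

/-!
# S36 / CAR / Unit, task UNIT-Q2 : valuations and Frobenius congruences of `t(z)`, `t(rz)`, `t(r²z)`
-/

set_option autoImplicit false

namespace Fermat.Agent.CAR.Unit

open Fermat.Agent.S24 (Qbar FF)
open Fermat.Agent.S36.Val
open Fermat.Agent.S36.Base (IE AE FE emb cmE)
open Fermat.Agent.INJ.Inst (kA)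
open Fermat.Agent.ES.Mid (tw)

section

variable {A : ValuationSubring Qbar} {F : Type*} [Field F] (φ : F →+* LaurentSeries Qbar)
  (h : ∀ x, Sat A (φ x))

theorem Q2_unit {x : F} {y : LaurentSeries Qbar} {b : LaurentSeries (kA A)} (hx : φ x = y)
    (hy : GInt A y ∧ gred A y = b) (hb : b ≠ 0) : (gv φ h).valuation x = 1 := by
  rw [gv_eq_one_iff, hx]
  exact ⟨hy.1, by rw [hy.2]; exact hb⟩

theorem Q2_cong {x x' : F} {y y' : LaurentSeries Qbar} {b b' : LaurentSeries (kA A)}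
    (hx : φ x = y) (hx' : φ x' = y') (hy : GInt A y ∧ gred A y = b)
    (hy' : GInt A y' ∧ gred A y' = b') (m : ℕ) (hb : b = b' ^ m) :
    (gv φ h).valuation (x - x' ^ m) < 1 := by
  rw [gv_lt_one_iff, map_sub, map_pow, hx, hx']
  exact ⟨hy.1.sub (hy'.1.pow m),
    by rw [gred_sub hy.1 (hy'.1.pow m), gred_pow hy'.1, hy.2, hy'.2, hb, sub_self]⟩

theorem Q2_cong1 {x x' : F} {y y' : LaurentSeries Qbar} {b : LaurentSeries (kA A)}
    (hx : φ x = y) (hx' : φ x' = y') (hy : GInt A y ∧ gred A y = b)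
    (hy' : GInt A y' ∧ gred A y' = b) : (gv φ h).valuation (x - x') < 1 := by
  rw [gv_lt_one_iff, map_sub, hx, hx']
  exact ⟨hy.1.sub hy'.1, by rw [gred_sub hy.1 hy'.1, hy.2, hy'.2, sub_self]⟩

end

theorem Q2_scaleL_sq (r : ℕ) (l : List (ℕ × ℤ)) : scaleL (r ^ 2) l = scaleL r (scaleL r l) := by
  unfold scaleL
  rw [List.map_map]
  refine List.map_congr_left fun p _ => ?_
  show (r ^ 2 * p.1, p.2) = (r * (r * p.1), p.2)
  rw [pow_two, mul_assoc]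

theorem Q2_posL_scaleL {r : ℕ} (hr : 0 < r) {l : List (ℕ × ℤ)} (hl : PosL l) :
    PosL (scaleL r l) := by
  intro p hp
  unfold scaleL at hp
  rw [List.mem_map] at hp
  obtain ⟨p', hp', rfl⟩ := hp
  exact Nat.mul_pos hr (hl p' hp')

theorem valT (hS : Stmt_serCalc) (hG : Stmt_gaussEta) (hP : Stmt_phiT) : Stmt_valT := by
  intro A r M _ _ _ _ C a n l T0 T1 T2 hMU haM h0 h1 h2
  obtain ⟨⟨hA0, hA1, hA2⟩, ⟨hM0, hM1, hM2⟩, ⟨hC0, hC1, hC2⟩⟩ :=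
    hP A r M C a n l T0 T1 T2 hMU haM h0 h1 h2
  obtain ⟨-, -, -, -, hFrob, hne⟩ := hS
  have hchar : (r : kA A) = 0 := by
    have := JTw_charP A C.hr C.hA
    exact CharP.cast_eq_zero _ r
  have g0 := hG A n l
  have g1 := hG A (r * n) (scaleL r l)
  have g2 := hG A (r ^ 2 * n) (scaleL (r ^ 2) l)
  have g0' : GInt A (tw C.D.ζ (etaLser Qbar n l)) ∧
      gred A (tw C.D.ζ (etaLser Qbar n l)) = etaLser (kA A) n l := by
    have := stmt_GVTw A r C.hr C.hA C.D.ζ C.D.prim.pow_eq_one _ g0.1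
    exact ⟨this.1, this.2.trans g0.2⟩
  have b0 := hne (kA A) n l
  have b1 := hne (kA A) (r * n) (scaleL r l)
  have b2 := hne (kA A) (r ^ 2 * n) (scaleL (r ^ 2) l)
  have f1 : etaLser (kA A) (r * n) (scaleL r l) = etaLser (kA A) n l ^ r :=
    hFrob (kA A) r n l C.hr hchar hMU.pos
  have f2 : etaLser (kA A) (r ^ 2 * n) (scaleL (r ^ 2) l) =
      etaLser (kA A) (r * n) (scaleL r l) ^ r := by
    rw [Q2_scaleL_sq, show (r : ℤ) ^ 2 * n = r * (r * n) by ring]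
    exact hFrob (kA A) r (r * n) (scaleL r l) C.hr hchar (Q2_posL_scaleL C.hr.pos hMU.pos)
  have sA : ∀ x, Sat A (phiA A (r ^ 2 * M) x) := fun _ => sat_incl A (r ^ 2 * M) _
  have sM : ∀ x, Sat A (phiM A C.D x) := fun _ => C.hS _
  have sC : ∀ x, Sat A (phiC A C.W2 x) := fun _ => sat_incl A (r ^ 2 * M) _
  refine ⟨?_, ⟨?_, ?_⟩, ⟨?_, ?_⟩, ⟨?_, ?_⟩⟩
  · intro X
    fin_cases X
    · exact ⟨Q2_unit (phiA A (r ^ 2 * M)) sA hA0 g0 b0, Q2_unit (phiA A (r ^ 2 * M)) sA hA1 g1 b1,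
        Q2_unit (phiA A (r ^ 2 * M)) sA hA2 g2 b2⟩
    · exact ⟨Q2_unit (phiM A C.D) sM hM0 g0 b0, Q2_unit (phiM A C.D) sM hM1 g1 b1,
        Q2_unit (phiM A C.D) sM hM2 g0' b0⟩
    · exact ⟨Q2_unit (phiC A C.W2) sC hC0 g2 b2, Q2_unit (phiC A C.W2) sC hC1 g1 b1,
        Q2_unit (phiC A C.W2) sC hC2 g0 b0⟩
  · exact Q2_cong (phiA A (r ^ 2 * M)) sA hA1 hA0 g1 g0 r f1
  · exact Q2_cong (phiA A (r ^ 2 * M)) sA hA2 hA1 g2 g1 r f2
  · exact Q2_cong (phiM A C.D) sM hM1 hM0 g1 g0 r f1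
  · exact Q2_cong1 (phiM A C.D) sM hM2 hM0 g0' g0
  · exact Q2_cong (phiC A C.W2) sC hC1 hC2 g1 g0 r f1
  · exact Q2_cong (phiC A C.W2) sC hC0 hC1 g2 g1 r f2

end Fermat.Agent.CAR.Unit
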