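import Fermat.Agent.CAR.Unit.Interface3
import Fermat.Agent.S36.Val.JTw

/-!
# S36 / CAR / Unit, M4 : Wilson, `r / (ζ - 1)^(r-1) ≡ -1 mod 𝔪_A`
-/

set_option autoImplicit false

namespace Fermat.Agent.CAR.Unit

open Fermat.Agent.S24 (Qbar)
open Fermat.Agent.S36.Val (resA JTw_charP JTw_mem_of_pow)
open Fermat.Agent.INJ.Inst (kA)
open Finset

theorem wilson : Stmt_wilson := by
  intro A r hr hA ζ hζ
  have hζ' : IsPrimitiveRoot (ζ : Qbar) r := by rwa [IsPrimitiveRoot.coe_units_iff]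
  have hzr : (ζ : Qbar) ^ r = 1 := hζ'.pow_eq_one
  have hz : (ζ : Qbar) ∈ A := JTw_mem_of_pow A hr.pos hzr
  have hchar : CharP (kA A) r := JTw_charP A hr hA
  have hfact : Fact r.Prime := ⟨hr⟩
  obtain ⟨n, rfl⟩ : ∃ n, r = n + 1 := ⟨r - 1, by have := hr.pos; omega⟩
  obtain ⟨zA, hzA⟩ : ∃ zA : A, zA = ⟨(ζ : Qbar), hz⟩ := ⟨_, rfl⟩
  have hzAc : (zA : Qbar) = (ζ : Qbar) := by rw [hzA]
  -- the residue of `ζ` is `1`
  have hres : resA A zA = 1 := by
    have h1 : resA A zA ^ (n + 1) = 1 := by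
      rw [← map_pow]
      have : zA ^ (n + 1) = 1 := Subtype.ext (by push_cast; rw [hzAc, hzr])
      rw [this, map_one]
    have h3 : (resA A zA - 1) ^ (n + 1) = 0 := by
      rw [sub_pow_char, h1, one_pow, sub_self]
    exact sub_eq_zero.1 (pow_eq_zero_iff (Nat.succ_ne_zero n) |>.mp h3)
  refine ⟨(-1) ^ n * ∏ k ∈ range n, ∑ j ∈ range (k + 1), zA ^ j, ?_, ?_⟩
  · have h := hζ'.prod_pow_sub_one_eq_order
    have h2 : ∀ k ∈ range n, (ζ : Qbar) ^ (k + 1) - 1
        = (∑ j ∈ range (k + 1), (ζ : Qbar) ^ j) * ((ζ : Qbar) - 1) := fun k _ =>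
      (geom_sum_mul _ _).symm
    rw [prod_congr rfl h2, prod_mul_distrib, prod_const, card_range] at h
    push_cast
    rw [hzAc, ← h]
    ring
  · have hw : ((n.factorial : ℕ) : kA A) = -1 := by
      have h := congrArg (ZMod.castHom (dvd_refl (n + 1)) (kA A)) (ZMod.wilsons_lemma (n + 1))
      rw [Nat.add_sub_cancel, map_natCast, map_neg, map_one] at h
      exact h
    have hp : ∏ k ∈ range n, ((k + 1 : ℕ) : kA A) = ((n.factorial : ℕ) : kA A) := by
      rw [← Nat.cast_prod, Finset.prod_range_add_one_eq_factorial]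
    rw [map_mul, map_pow, map_neg, map_one, map_prod]
    have h3 : ∀ k ∈ range n, resA A (∑ j ∈ range (k + 1), zA ^ j) = ((k + 1 : ℕ) : kA A) := by
      intro k _
      rw [map_sum]
      simp [hres]
    rw [prod_congr rfl h3, hp, hw, ← pow_succ]
    exact neg_one_pow_char (kA A) (n + 1)

end Fermat.Agent.CAR.Unit
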