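import Fermat.Agent.CAR.Unit.Main
import Fermat.Agent.CAR.Unit.Jacobi
import Fermat.Agent.CAR.Unit.SerCalc
import Fermat.Agent.CAR.Unit.GaussEta
import Fermat.Agent.CAR.Unit.TwTheta
import Fermat.Agent.CAR.Unit.Wilson
import Fermat.Agent.CAR.Unit.MUInst
import Fermat.Agent.CAR.Unit.EltE
import Fermat.Agent.CAR.Unit.IntJE
import Fermat.Agent.CAR.Unit.IntE
import Fermat.Agent.CAR.Unit.MidZeta
import Fermat.Agent.CAR.Unit.PhiEta
import Fermat.Agent.CAR.Unit.PhiX
import Fermat.Agent.CAR.Unit.ValX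
import Fermat.Agent.CAR.Unit.ValT
import Fermat.Agent.CAR.Unit.Beta4
import Fermat.Agent.CAR.Unit.IntJA
import Fermat.Agent.CAR.Unit.RelT4
import Fermat.Agent.CAR.Unit.IntT4
import Fermat.Agent.CAR.Unit.ValBeta
import Fermat.Agent.CAR.Unit.FactsXInst
import Fermat.Agent.CAR.Unit.FactsBInst
import Fermat.Agent.S36.Val.All

/-!
# S36 / CAR / Unit : the final output of [UNIT], unconditionally (helper37)

`U.facts : Stmt_Facts` : for every context `C : Val.Ctx A r M` with `auxLevel r ∣ M` there are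
`X : Reg.FactsX (AE A) (FE A (r² M)) r C.ord (jE A (r² M) 1)` and a `Reg.FactsB … X.aM`.
-/

set_option autoImplicit false

namespace Fermat.Agent.CAR.Unit.U

open Fermat.Agent.CAR.Unit
open Fermat.Agent.S36

theorem u4 : Stmt_u4 := Unit.u4_eq' hasQ4
theorem serCalc : Stmt_serCalc := Unit.serCalc listCalc frob
theorem gaussEta : Stmt_gaussEta := Unit.gaussEta serCalc
theorem mu : Stmt_MU := Unit.mu listCalc listNum xL_inv slash4 inv9
theorem eltE : Stmt_eltE := Unit.eltE serCalc etaL_elt Val.all_Descent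
theorem intE : Stmt_intE := Unit.intE serCalc etaL_elt intJE
theorem midZeta : Stmt_midZeta := Unit.midZeta Val.stmt_DeltaFun
theorem phiEta : Stmt_phiEta := Unit.phiEta serCalc etaL_good Val.stmt_TransportInv
theorem phiX : Stmt_phiX := Unit.phiX mu phiEta repX_AL repX_delta midZeta
theorem phiT : Stmt_phiT := Unit.phiT mu phiEta repT midZeta
theorem valX : Stmt_valX := Unit.valX serCalc listNum gaussEta phiX
theorem ordX : Stmt_ordX := Unit.ordX valX Val.stmt_OrdOf Val.all_Main1
theorem valT : Stmt_valT := Unit.valT serCalc gaussEta phiT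
theorem beta4 : Stmt_beta4 :=
  Unit.beta4 serCalc gaussEta w1 mu eltE phiX phiT twTheta wilson star4
theorem intJA : Stmt_IntJA := Unit.intJA Base.stmt_Unram
theorem relT4 : Stmt_relT4 := Unit.relT4 serCalc u4
theorem intT4 : Stmt_intT4 := Unit.intT4 relT4
theorem valBeta : Stmt_valBeta := Unit.valBeta serCalc gaussEta phiT eltE mu
theorem factsX : Stmt_factsX := Unit.factsX valX ordX intE intJA mu Val.stmt_OrdOf Val.all_Main1
theorem factsB4 : Stmt_factsB4 :=
  Unit.factsB4 beta4 valBeta valT ordX w1 intE intJA intT4 mu eltE Val.stmt_OrdOf Val.all_Main1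

/-- **the final output of [UNIT]**. -/
theorem facts : Stmt_Facts := Unit.facts factsX factsB4 factsB2 w1 eltE mu

end Fermat.Agent.CAR.Unit.U
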