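import Fermat.Agent.CAR.Unit.Interface

/-!
# S36 / CAR / Unit / F : the cusp `0`: `γ` with `c` prime to the level (helper54)
-/

set_option autoImplicit false

namespace Fermat.Agent.CAR.Unit

open CongruenceSubgroup Complex
open UpperHalfPlane hiding I
open scoped MatrixGroups Real

theorem ODD_entries (γ : SL(2, ℤ)) :
    (γ * ModularGroup.S⁻¹) 1 0 = - γ 1 1 ∧ (γ * ModularGroup.S⁻¹) 1 1 = γ 1 0 := by
  constructor
  · simp [ModularGroup.S, Matrix.SpecialLinearGroup.coe_mul, Matrix.mul_apply, Fin.sum_univ_two,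
      Matrix.SpecialLinearGroup.coe_inv, Matrix.adjugate_fin_two]
  · simp [ModularGroup.S, Matrix.SpecialLinearGroup.coe_mul, Matrix.mul_apply, Fin.sum_univ_two,
      Matrix.SpecialLinearGroup.coe_inv, Matrix.adjugate_fin_two]

theorem ODD_smul (γ : SL(2, ℤ)) (z : ℍ) :
    γ • z = (γ * ModularGroup.S⁻¹) • (ModularGroup.S • z) := by
  rw [← mul_smul, inv_mul_cancel_right]

theorem ODD_coe_S (z : ℍ) : ((ModularGroup.S • z : ℍ) : ℂ) = -1 / (z : ℂ) := by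
  rw [modular_S_smul]
  show (-(z : ℂ))⁻¹ = -1 / (z : ℂ)
  rw [inv_neg, neg_div, one_div]

theorem ODD_mem (N : ℕ) (γ : SL(2, ℤ)) (h : (N : ℤ) ∣ γ 1 1) :
    γ * ModularGroup.S⁻¹ ∈ Gamma0 N := by
  rw [Gamma0_mem, (ODD_entries γ).1, Int.cast_neg, neg_eq_zero,
    ZMod.intCast_zmod_eq_zero_iff_dvd]
  exact h

theorem ODD_den (γ : SL(2, ℤ)) (z : ℍ) :
    den (γ * ModularGroup.S⁻¹) ((ModularGroup.S • z : ℍ) : ℂ) = den γ z / (z : ℂ) := by
  have hz : (z : ℂ) ≠ 0 := z.ne_zero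
  rw [den, den, (ODD_entries γ).1, (ODD_entries γ).2, ODD_coe_S]
  push_cast
  field_simp
  ring

theorem ODD_arg (a : ℂ) (ha : a ≠ 0) (z : ℍ) : -1 / (z : ℂ) = -1 / (a * ((z : ℂ) / a)) := by
  rw [mul_div_cancel₀ _ ha]

theorem ODD_im (a : ℝ) (ha : 0 < a) (z : ℍ) : 0 < ((z : ℂ) / (a : ℂ)).im := by
  rw [Complex.div_ofReal_im]
  exact div_pos z.im_pos ha

theorem odd4 (h1 : Stmt_f4_slash) (h2 : Stmt_slash4) (h3 : Stmt_frk4) : Stmt_odd4 := by
  intro γ _ hd z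
  have hz : (z : ℂ) ≠ 0 := z.ne_zero
  have hmem := ODD_mem 4 γ (by exact_mod_cast hd)
  have him : 0 < ((z : ℂ) / 4).im := by
    have := ODD_im 4 (by norm_num) z
    simpa using this
  obtain ⟨hf, ht⟩ := h3 ((z : ℂ) / 4) him
  rw [← ODD_arg 4 (by norm_num) z] at hf ht
  constructor
  · have h4 := h2 lt4 0 (Or.inl ⟨Or.inl rfl, rfl⟩) _ hmem (ModularGroup.S • z)
    rw [← ODD_smul, zpow_zero, one_mul, ODD_coe_S] at h4
    show etaL lt4 _ * _ = _
    rw [h4]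
    exact ht
  · have h4 := h1 _ hmem (ModularGroup.S • z)
    rw [← ODD_smul, ODD_den, (ODD_entries γ).2, ODD_coe_S, hf] at h4
    rw [h4]
    field_simp
    ring

theorem odd9 (h1 : Stmt_inv9) (h2 : Stmt_frk9) : Stmt_odd9 := by
  intro γ _ hd z
  have hmem := ODD_mem 9 γ (by exact_mod_cast hd)
  have him : 0 < ((z : ℂ) / 9).im := by
    have := ODD_im 9 (by norm_num) z
    simpa using this
  obtain ⟨-, -, ht⟩ := h2 ((z : ℂ) / 9) him
  rw [← ODD_arg 9 (by norm_num) z] at ht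
  have h4 := (h1 _ hmem (ModularGroup.S • z)).1
  rw [← ODD_smul, ODD_coe_S] at h4
  rw [h4]
  exact ht

end Fermat.Agent.CAR.Unit
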