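import Fermat.Agent.CAR.Unit.Interface

/-!
# S36 / CAR / Unit, task UNIT-I6 : `η(z + 1/2)` and `t4(z + 1/2) = - t4 - 16`
-/

set_option autoImplicit false

namespace Fermat.Agent.CAR.Unit

open Complex
open scoped Real

local notation "η" => ModularForm.eta
local notation "𝕢" => Function.Periodic.qParam

noncomputable section

/-- `∏ (1 - q^(n+1))`. -/
def I6_P (q : ℂ) : ℂ := ∏' n : ℕ, (1 - q ^ (n + 1))

/-- `∏ (1 - q^(2m+1))`. -/
def I6_O (q : ℂ) : ℂ := ∏' m : ℕ, (1 - q ^ (2 * m + 1))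

theorem I6_multipliable_odd {q : ℂ} (hq : ‖q‖ < 1) :
    Multipliable fun m : ℕ => 1 - q ^ (2 * m + 1) := by
  apply multipliable_one_add_of_summable (f := fun m => -q ^ (2 * m + 1))
  have h1 : Summable fun n : ℕ => ‖q‖ ^ n := summable_geometric_of_lt_one (norm_nonneg _) hq
  have h2 : Summable fun m : ℕ => ‖q‖ ^ (2 * m + 1) :=
    h1.comp_injective (i := fun m : ℕ => 2 * m + 1) (fun a b h => by simpa using h)
  simpa using h2

theorem I6_sq_lt {q : ℂ} (hq : ‖q‖ < 1) : ‖q ^ 2‖ < 1 := by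
  rw [norm_pow]
  exact pow_lt_one₀ (norm_nonneg _) hq two_ne_zero

theorem I6_pow_aux (q : ℂ) (k : ℕ) : q ^ (2 * k + 1 + 1) = (q ^ 2) ^ (k + 1) := by
  rw [← pow_mul]
  ring_nf

theorem I6_P_split {q : ℂ} (hq : ‖q‖ < 1) : I6_P q = I6_O q * I6_P (q ^ 2) := by
  have he : HasProd (fun k : ℕ => 1 - q ^ (2 * k + 1)) (I6_O q) :=
    (I6_multipliable_odd hq).hasProd
  have ho : HasProd (fun k : ℕ => 1 - q ^ (2 * k + 1 + 1)) (I6_P (q ^ 2)) := by
    have := (ModularForm.multipliable_one_sub_pow (I6_sq_lt hq)).hasProd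
    simp only [I6_pow_aux]
    exact this
  have h := HasProd.even_mul_odd (f := fun n : ℕ => 1 - q ^ (n + 1)) he ho
  exact h.tprod_eq

theorem I6_O_mul {q : ℂ} (hq : ‖q‖ < 1) : I6_O q * I6_O (-q) = I6_O (q ^ 2) := by
  have hq' : ‖-q‖ < 1 := by rwa [norm_neg]
  rw [I6_O, I6_O, ← (I6_multipliable_odd hq).tprod_mul (I6_multipliable_odd hq'), I6_O]
  refine tprod_congr fun m => ?_
  rw [Odd.neg_pow ⟨m, rfl⟩, ← pow_mul]
  ring

theorem I6_P_identity {q : ℂ} (hq : ‖q‖ < 1) :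
    I6_P (-q) * (I6_P q * I6_P (q ^ 4)) = I6_P (q ^ 2) ^ 3 := by
  have hq' : ‖-q‖ < 1 := by rwa [norm_neg]
  have h1 := I6_P_split hq
  have h2 := I6_P_split hq'
  have h3 := I6_P_split (I6_sq_lt hq)
  have h4 := I6_O_mul hq
  rw [neg_sq] at h2
  rw [← pow_mul] at h3
  norm_num at h3
  rw [h2, h1]
  calc I6_O (-q) * I6_P (q ^ 2) * (I6_O q * I6_P (q ^ 2) * I6_P (q ^ 4))
      = (I6_O q * I6_O (-q)) * I6_P (q ^ 4) * I6_P (q ^ 2) ^ 2 := by ring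
    _ = I6_P (q ^ 2) ^ 3 := by rw [h4, ← h3]; ring

theorem I6_eta_eq (z : ℂ) : η z = 𝕢 24 z * I6_P (𝕢 1 z) := rfl

theorem etaHalf : Stmt_etaHalf := by
  intro z hz
  have hq : ‖𝕢 1 z‖ < 1 := by
    simpa using UpperHalfPlane.norm_qParam_lt_one 1 ⟨z, hz⟩
  have e1 : 𝕢 1 (z + 1 / 2) = -𝕢 1 z := by
    simp only [Function.Periodic.qParam]
    have : 2 * (π : ℂ) * I * (z + 1 / 2) / ((1 : ℝ) : ℂ) = 2 * π * I * z / ((1 : ℝ) : ℂ) + π * I := by
      push_cast; ring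
    rw [this, Complex.exp_add, Complex.exp_pi_mul_I]
    ring
  have e2 : 𝕢 1 (2 * z) = 𝕢 1 z ^ 2 := by
    simp only [Function.Periodic.qParam]
    rw [← Complex.exp_nat_mul]
    congr 1
    push_cast; ring
  have e4 : 𝕢 1 (4 * z) = 𝕢 1 z ^ 4 := by
    simp only [Function.Periodic.qParam]
    rw [← Complex.exp_nat_mul]
    congr 1
    push_cast; ring
  have e5 : 𝕢 24 (z + 1 / 2) * (𝕢 24 z * 𝕢 24 (4 * z)) = ee (1 / 48) * 𝕢 24 (2 * z) ^ 3 := by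
    simp only [Function.Periodic.qParam, ee]
    rw [← Complex.exp_nat_mul, ← Complex.exp_add, ← Complex.exp_add, ← Complex.exp_add]
    congr 1
    push_cast; ring
  rw [I6_eta_eq, I6_eta_eq, I6_eta_eq, I6_eta_eq, e1, e2, e4]
  have := I6_P_identity hq
  calc 𝕢 24 (z + 1 / 2) * I6_P (-𝕢 1 z) * (𝕢 24 z * I6_P (𝕢 1 z) * (𝕢 24 (4 * z) * I6_P (𝕢 1 z ^ 4)))
      = (𝕢 24 (z + 1 / 2) * (𝕢 24 z * 𝕢 24 (4 * z))) *
          (I6_P (-𝕢 1 z) * (I6_P (𝕢 1 z) * I6_P (𝕢 1 z ^ 4))) := by ring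
    _ = ee (1 / 48) * (𝕢 24 (2 * z) * I6_P (𝕢 1 z ^ 2)) ^ 3 := by rw [e5, this]; ring

theorem tau4 (h : Stmt_etaHalf) (hu : Stmt_u4) (hT : Stmt_etaT) : Stmt_tau4 := by
  intro z hz
  have hu1 := hu.1 z hz
  have h1 := h z hz
  have n1 : η z ≠ 0 := ModularForm.eta_ne_zero hz
  have n2 : η (2 * z) ≠ 0 := ModularForm.eta_ne_zero (by
    show 0 < (2 * z).im
    simpa using hz)
  have n4 : η (4 * z) ≠ 0 := ModularForm.eta_ne_zero (by
    show 0 < (4 * z).im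
    simpa using hz)
  have h2 : η (4 * (z + 1 / 2)) = ee (1 / 24) ^ 2 * η (4 * z) := by
    have : 4 * (z + 1 / 2) = 4 * z + 1 + 1 := by ring
    rw [this, hT, hT]
    ring
  have h3 : η (z + 1 / 2) = ee (1 / 48) * η (2 * z) ^ 3 / (η z * η (4 * z)) := by
    rw [eq_div_iff (mul_ne_zero n1 n4)]
    exact h1
  have ne24 : ee (1 / 24) ≠ 0 := Complex.exp_ne_zero _
  have hee : ee (1 / 48) ^ 8 = - ee (1 / 24) ^ 16 := by
    simp only [ee]
    rw [← Complex.exp_nat_mul, ← Complex.exp_nat_mul]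
    have : ((8 : ℕ) : ℂ) * (2 * π * I * (1 / 48)) = ((16 : ℕ) : ℂ) * (2 * π * I * (1 / 24)) - π * I := by
      push_cast; ring
    rw [this, Complex.exp_sub, Complex.exp_pi_mul_I]
    ring
  have ht : t4 (z + 1 / 2) = - u4 z := by
    simp only [t4, u4, etaL, lt4, lu4, List.map_cons, List.map_nil, List.prod_cons, List.prod_nil]
    push_cast
    rw [one_mul, one_mul, h2, h3]
    generalize ee (1 / 48) = a at hee ⊢
    generalize ee (1 / 24) = b at hee ne24 ⊢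
    generalize η (2 * z) = X at n2 ⊢
    generalize η z = Y at n1 ⊢
    generalize η (4 * z) = Z at n4 ⊢
    have e8 : ∀ w : ℂ, w ^ (8 : ℤ) = w ^ (8 : ℕ) := fun w => zpow_ofNat w 8
    have e24 : ∀ w : ℂ, w ^ (24 : ℤ) = w ^ (24 : ℕ) := fun w => zpow_ofNat w 24
    have e8' : ∀ w : ℂ, w ^ (-8 : ℤ) = (w ^ (8 : ℕ))⁻¹ := fun w => by
      rw [zpow_neg, zpow_ofNat]
    have e16' : ∀ w : ℂ, w ^ (-16 : ℤ) = (w ^ (16 : ℕ))⁻¹ := fun w => by
      rw [zpow_neg, zpow_ofNat]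
    rw [e8, e24, e8', e8', e16', div_pow, mul_pow, hee]
    field_simp
  rw [ht, hu1]
  ring

end

end Fermat.Agent.CAR.Unit

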