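import Fermat.Agent.CAR.Unit.Interface
import Fermat.Agent.KL.HauptTrunc

/-! # S36 / CAR / Unit : UNIT-I5, `u9 = t9 ^ 2 + 9 t9 + 27`. -/

set_option autoImplicit false

namespace Fermat.Agent.CAR.Unit

open CongruenceSubgroup Complex
open UpperHalfPlane hiding I
open scoped MatrixGroups Real
open Fermat.Agent.KL.Haupt

local notation "η" => ModularForm.eta

/-! ### formal part -/

theorem U9_constantCoeff_Eps (d : ℕ) : PowerSeries.constantCoeff (Eps d) = 1 := by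
  unfold Eps
  split_ifs with h
  · simp
  · rw [PowerSeries.constantCoeff_expand, ModularCurve.constantCoeff_etaProd]

theorem U9_Eps_mul_EpsInv (d : ℕ) : Eps d * EpsInv d = 1 :=
  PowerSeries.mul_invOfUnit _ _ (by rw [U9_constantCoeff_Eps]; rfl)

theorem U9_lf9 : etaLps lf9 = Eps 1 ^ 3 * EpsInv 3 := by
  simp [etaLps, lf9]

theorem U9_lf9s : etaLps lf9s = Eps 9 ^ 3 * EpsInv 3 := by
  simp [etaLps, lf9s]

theorem U9_lt9 : etaLps lt9 = Eps 1 ^ 3 * EpsInv 9 ^ 3 := by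
  simp [etaLps, lt9]

theorem U9_lu9 : etaLps lu9 = Eps 3 ^ 12 * (EpsInv 1 ^ 3 * EpsInv 9 ^ 9) := by
  simp [etaLps, lu9]

theorem U9_lG9 : etaLps lG9 = Eps 3 ^ 10 * (EpsInv 1 ^ 3 * EpsInv 9 ^ 3) := by
  simp [etaLps, lG9]

theorem U9_coeff_etaProd_of_lt {n : ℕ} (hn : n < 6) :
    ModularCurve.etaProd.coeff n = ((1 : PowerSeries ℤ) - PowerSeries.X - PowerSeries.X ^ 2
      + PowerSeries.X ^ 5).coeff n := by
  have h : mk6 (ModularCurve.etaProd - ((1 : PowerSeries ℤ) - PowerSeries.X - PowerSeries.X ^ 2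
      + PowerSeries.X ^ 5)) = 0 := by
    rw [map_sub, mk6_etaProd]
    simp only [map_add, map_sub, map_pow, map_one]
    ring
  have := (mk6_eq_zero_iff _).1 h n hn
  rwa [map_sub, sub_eq_zero] at this

theorem U9_coeff_etaProd_zero : ModularCurve.etaProd.coeff 0 = 1 := by
  rw [U9_coeff_etaProd_of_lt (by norm_num)]
  simp

theorem U9_coeff_etaProd_one : ModularCurve.etaProd.coeff 1 = -1 := by
  rw [U9_coeff_etaProd_of_lt (by norm_num)]
  simp [PowerSeries.coeff_X_pow, PowerSeries.coeff_X, PowerSeries.coeff_one]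

theorem U9_mk6_E1 : mk6 (Eps 1) = 1 - x6 - x6 ^ 2 + x6 ^ 5 := by
  have : Eps 1 = ModularCurve.etaProd := by
    unfold Eps
    rw [dif_neg one_ne_zero, PowerSeries.expand_one_apply]
  rw [this, mk6_etaProd]

theorem U9_mk6_E3 : mk6 (Eps 3) = 1 - x6 ^ 3 := by
  have : Eps 3 = PowerSeries.expand 3 three_ne_zero ModularCurve.etaProd := by
    unfold Eps
    rw [dif_neg three_ne_zero]
  rw [this, mk6_eq]
  simp only [PowerSeries.coeff_expand]
  norm_num [U9_coeff_etaProd_zero, U9_coeff_etaProd_one]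
  ring

theorem U9_mk6_E9 : mk6 (Eps 9) = 1 := by
  have : Eps 9 = PowerSeries.expand 9 (by norm_num) ModularCurve.etaProd := by
    unfold Eps
    rw [dif_neg (by norm_num)]
  rw [this, mk6_eq]
  simp only [PowerSeries.coeff_expand]
  norm_num [U9_coeff_etaProd_zero, U9_coeff_etaProd_one]

theorem U9_mk6_E1i : mk6 (EpsInv 1) = 1 + x6 + 2 * x6 ^ 2 + 3 * x6 ^ 3 + 5 * x6 ^ 4 + 7 * x6 ^ 5 := by
  have hx := x6_pow
  have h := congrArg mk6 (U9_Eps_mul_EpsInv 1)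
  rw [map_mul, map_one, U9_mk6_E1] at h
  linear_combination (1 + x6 + 2 * x6 ^ 2 + 3 * x6 ^ 3 + 5 * x6 ^ 4 + 7 * x6 ^ 5) * h
    + mk6 (EpsInv 1) * (11 + 5 * x6 - 3 * x6 ^ 2 - 5 * x6 ^ 3 - 7 * x6 ^ 4) * hx

theorem U9_mk6_E3i : mk6 (EpsInv 3) = 1 + x6 ^ 3 := by
  have hx := x6_pow
  have h := congrArg mk6 (U9_Eps_mul_EpsInv 3)
  rw [map_mul, map_one, U9_mk6_E3] at h
  linear_combination (1 + x6 ^ 3) * h + mk6 (EpsInv 3) * hx

theorem U9_mk6_E9i : mk6 (EpsInv 9) = 1 := by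
  have h := congrArg mk6 (U9_Eps_mul_EpsInv 9)
  rw [map_mul, map_one, U9_mk6_E9] at h
  linear_combination h

theorem U9_mk6_id : mk6 (etaLps lG9 - (etaLps lf9 ^ 2
    + 9 * (PowerSeries.X * (etaLps lf9 * etaLps lf9s))
    + 27 * (PowerSeries.X ^ 2 * etaLps lf9s ^ 2))) = 0 := by
  have hx := x6_pow
  rw [U9_lG9, U9_lf9, U9_lf9s]
  simp only [map_sub, map_add, map_mul, map_pow, map_ofNat, U9_mk6_E1, U9_mk6_E3, U9_mk6_E9,
    U9_mk6_E1i, U9_mk6_E3i, U9_mk6_E9i]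
  linear_combination ((-19) + (-63) * x6 + (-198) * x6 ^ 2 + (-294) * x6 ^ 3 + (-297) * x6 ^ 4 + (-198) * x6 ^ 5 + (76) * x6 ^ 6 + (840) * x6 ^ 7 + (1836) * x6 ^ 8 + (3275) * x6 ^ 9 + (2274) * x6 ^ 10 + (-1386) * x6 ^ 11 + (-6286) * x6 ^ 12 + (-9273) * x6 ^ 13 + (-7251) * x6 ^ 14 + (-5975) * x6 ^ 15 + (2070) * x6 ^ 16 + (16182) * x6 ^ 17 + (39081) * x6 ^ 18 + (38391) * x6 ^ 19 + (-2736) * x6 ^ 20 + (-66452) * x6 ^ 21 + (-91584) * x6 ^ 22 + (-33138) * x6 ^ 23 + (57851) * x6 ^ 24 + (109377) * x6 ^ 25 + (57570) * x6 ^ 26 + (-24114) * x6 ^ 27 + (-78819) * x6 ^ 28 + (-48837) * x6 ^ 29 + (-788) * x6 ^ 30 + (34848) * x6 ^ 31 + (23754) * x6 ^ 32 + (5647) * x6 ^ 33 + (-8766) * x6 ^ 34 + (-6369) * x6 ^ 35 + (-2381) * x6 ^ 36 + (966) * x6 ^ 37 + (735) * x6 ^ 38 + (343) * x6 ^ 39) * hx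

theorem U9_dedekindPsi_nine : ModularCurve.dedekindPsi 9 = 12 := by
  have h : Nat.divisors 9 = {1, 3, 9} := by decide
  have h9 : ¬ Squarefree 9 := by
    intro hs
    have := hs 3 ⟨1, by norm_num⟩
    simp at this
  rw [ModularCurve.dedekindPsi, h, Finset.sum_filter]
  simp [Nat.prime_three.squarefree, h9]

/-- a modular form with vanishing `q`-expansion vanishes. -/
theorem U9_fun_zero {N : ℕ} [NeZero N] {k : ℤ} {f : ℍ → ℂ} {p : PowerSeries ℤ} (hf : HasQ N k f p)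
    (hp : p = 0) : f = 0 := by
  have h0 : hf.isMF.toModularForm = 0 := by
    apply ModularForm.sturm_bound_Gamma0 N
    intro n _
    rw [S20.IsMF.coe_toModularForm, hf.qexp, hp]
    simp
  have := congrArg (fun F : ModularForm (Gamma0 N : Subgroup (GL (Fin 2) ℝ)) k => (⇑F : ℍ → ℂ)) h0
  simpa using this

theorem U9_alg {R : Type*} [CommRing R] (a a' b b' c c' X : R) (e3 : b * b' = 1) (e9 : c * c' = 1)
    (h0 : b ^ 10 * (a' ^ 3 * c' ^ 3) - ((a ^ 3 * b') ^ 2 + 9 * (X * (a ^ 3 * b' * (c ^ 3 * b')))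
      + 27 * (X ^ 2 * (c ^ 3 * b') ^ 2)) = 0) :
    b ^ 12 * (a' ^ 3 * c' ^ 9) = (a ^ 3 * c' ^ 3) ^ 2 + 9 * (X * (a ^ 3 * c' ^ 3)) + 27 * X ^ 2 := by
  have hb2 : b ^ 2 * b' ^ 2 = 1 := by rw [← mul_pow, e3, one_pow]
  have hc3 : c ^ 3 * c' ^ 3 = 1 := by rw [← mul_pow, e9, one_pow]
  have hc6 : c ^ 6 * c' ^ 6 = 1 := by rw [← mul_pow, e9, one_pow]
  linear_combination (b ^ 2 * c' ^ 6) * h0 + a ^ 6 * c' ^ 6 * hb2
    + 9 * X * a ^ 3 * c' ^ 3 * (c ^ 3 * c' ^ 3 * hb2 + hc3)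
    + 27 * X ^ 2 * (c ^ 6 * c' ^ 6 * hb2 + hc6)

theorem u9_eq (h : Stmt_HasQ9) (_hB : Stmt_etaG_basic) (_hTG : Stmt_etaL_toG) : Stmt_u9 := by
  obtain ⟨h1, h2, h3, h4⟩ := h
  have hG := h4.sub ((h1.add (h2.intSmul 9)).add (h3.intSmul 27))
  have h0 := hG.eq_zero (by
    intro n hn
    rw [U9_dedekindPsi_nine] at hn
    have hn' : n < 6 := lt_of_le_of_lt hn (by decide)
    have := (mk6_eq_zero_iff _).1 U9_mk6_id n hn'
    rw [← this]
    congr 1)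
  have hf0 := U9_fun_zero hG h0
  constructor
  · intro z hz
    have hz1 : η z ≠ 0 := ModularForm.eta_ne_zero hz
    have hz3 : η (3 * z) ≠ 0 := ModularForm.eta_ne_zero (by
      show 0 < (3 * z).im
      simpa using hz)
    have hz9 : η (9 * z) ≠ 0 := ModularForm.eta_ne_zero (by
      show 0 < (9 * z).im
      simpa using hz)
    have hval := congrFun hf0 ⟨z, hz⟩
    simp only [Pi.sub_apply, Pi.add_apply, Pi.smul_apply, Pi.zero_apply, onH, Pi.pow_apply,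
      Pi.mul_apply, f9, f9s, etaL, lf9, lf9s, lG9, List.map_cons,
      List.map_nil, List.prod_cons, List.prod_nil] at hval
    simp only [u9, t9, etaL, lu9, lt9, List.map_cons, List.map_nil, List.prod_cons, List.prod_nil]
    simp only [Nat.cast_one, one_mul, Nat.cast_ofNat, Int.cast_ofNat, smul_eq_mul, mul_one,
      zpow_neg, zpow_ofNat, ← inv_pow] at hval ⊢
    have key := U9_alg (η z) (η z)⁻¹ (η (3 * z)) (η (3 * z))⁻¹ (η (9 * z)) (η (9 * z))⁻¹ 1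
      (mul_inv_cancel₀ hz3) (mul_inv_cancel₀ hz9) (by rw [← hval]; ring)
    rw [key]
    ring
  · have e3 := U9_Eps_mul_EpsInv 3
    have e9 := U9_Eps_mul_EpsInv 9
    push_cast at h0
    rw [U9_lG9, U9_lf9, U9_lf9s] at h0
    rw [U9_lu9, U9_lt9]
    exact U9_alg _ _ _ _ _ _ _ e3 e9 h0

end Fermat.Agent.CAR.Unit
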