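import Fermat.Agent.CAR.Unit.Interface
import Fermat.Agent.CAR.Unit.EtaBasic
import Fermat.Agent.CAR.Unit.Level9
import Fermat.Agent.CAR.Unit.U9
import Fermat.Agent.CAR.Unit.RepOps

/-!
# S36 / CAR / Unit, task UNIT-I7 : `b(ω q) = b(q) + 3 (1 - ω) c(q)` and `τ` on `t9`
-/

set_option autoImplicit false

namespace Fermat.Agent.CAR.Unit

open CongruenceSubgroup Complex Filter Asymptotics
open UpperHalfPlane hiding I
open scoped MatrixGroups Real Manifold ModularForm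
open Fermat.Agent.S24.QX (Nice)
open Fermat.Agent.KL.Haupt
open Fermat.Agent.ES.Mid.HA2 (aff)

local notation "η" => ModularForm.eta

/-! ### generalised eta quotients of weight two on `Γ₀(9)` -/

theorem I7_denom (γ : SL(2, ℤ)) (z : ℍ) : denom γ z = den γ z := by
  rw [ModularGroup.denom_apply, den]

theorem I7_isMF (h2 : Stmt_etaG_bdd) (h5 : Stmt_etaG_basic) (l : List (ℕ × ℤ × ℕ × ℤ))
    (hpos : PosG l) (hwt : wt2G l = 2 * 2) (F : ℂ → ℂ) (hF : ∀ z, F z = etaG l z)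
    (hinv : ∀ γ ∈ Gamma0 9, ∀ z : ℍ, F ((γ • z : ℍ) : ℂ) = den γ z ^ 2 * F z)
    (hord : ∀ a c : ℤ, 0 ≤ ordG l a c) : S20.IsMF (Gamma0 9) 2 (onH F) := by
  have e : F = etaG l := funext hF
  refine ⟨mdiff_onH (e ▸ (h5 l hpos).1), fun γ hγ => ?_, fun g => ?_⟩
  · funext z
    rw [ModularForm.SL_slash_apply, I7_denom]
    show F ((γ • z : ℍ) : ℂ) * den γ z ^ (-2 : ℤ) = F z
    have hd : den γ z ≠ 0 := E9_den_ne_zero γ z
    rw [hinv γ hγ z, zpow_neg]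
    field_simp
  · rw [e]
    exact h2 l 2 g hpos hwt (hord _ _)

theorem I7_etaG_append (l l' : List (ℕ × ℤ × ℕ × ℤ)) (z : ℂ) :
    etaG (l ++ l') z = etaG l z * etaG l' z := by
  simp only [etaG, List.map_append, List.prod_append]

theorem I7_ordG_append (l l' : List (ℕ × ℤ × ℕ × ℤ)) (a c : ℤ) :
    ordG (l ++ l') a c = ordG l a c + ordG l' a c := by
  simp only [ordG, List.map_append, List.sum_append]

theorem I7_wt2G_append (l l' : List (ℕ × ℤ × ℕ × ℤ)) :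
    wt2G (l ++ l') = wt2G l + wt2G l' := by
  simp only [wt2G, List.map_append, List.sum_append]

theorem I7_posG_append {l l' : List (ℕ × ℤ × ℕ × ℤ)} (h : PosG l) (h' : PosG l') :
    PosG (l ++ l') := by
  intro p hp
  rcases List.mem_append.1 hp with hp | hp
  · exact h p hp
  · exact h' p hp

def I7_lb : List (ℕ × ℤ × ℕ × ℤ) := [(1, 0, 1, 3), (3, 0, 1, -1)]
def I7_ls : List (ℕ × ℤ × ℕ × ℤ) := [(9, 0, 1, 3), (3, 0, 1, -1)]
def I7_lp : List (ℕ × ℤ × ℕ × ℤ) := [(3, 1, 3, 3), (3, 1, 1, -1)]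

theorem I7_f9_eq (z : ℂ) : f9 z = etaG I7_lb z := by
  rw [E9_f9_eq]
  simp [etaG, I7_lb, zpow_ofNat]

theorem I7_f9s_eq (z : ℂ) : f9s z = etaG I7_ls z := by
  rw [E9_f9s_eq]
  simp [etaG, I7_ls, zpow_ofNat]

theorem I7_f9p_eq (z : ℂ) : f9p z = etaG I7_lp z := by
  rw [f9p, E9_f9_eq]
  have e1 : z + 1 / 3 = (3 * z + 1) / 3 := by ring
  have e2 : 3 * ((3 * z + 1) / 3) = 3 * z + 1 := by ring
  rw [e1, e2]
  simp [etaG, I7_lp, zpow_ofNat]

theorem I7_gcd_le {x y x' y' : ℤ} (hx : (Int.gcd x y : ℤ) ∣ x') (hy : (Int.gcd x y : ℤ) ∣ y')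
    (h0 : x' ≠ 0 ∨ y' ≠ 0) : ((Int.gcd x y : ℕ) : ℝ) ≤ ((Int.gcd x' y' : ℕ) : ℝ) := by
  have h1 : (Int.gcd x y : ℤ) ∣ (Int.gcd x' y' : ℤ) := Int.dvd_coe_gcd hx hy
  have h2 : Int.gcd x y ∣ Int.gcd x' y' := Int.natCast_dvd_natCast.1 h1
  exact_mod_cast Nat.le_of_dvd (Int.gcd_pos_iff.2 h0) h2

theorem I7_ord_b (a c : ℤ) : 0 ≤ ordG I7_lb a c := by
  by_cases h0 : a = 0 ∧ c = 0
  · obtain ⟨rfl, rfl⟩ := h0
    simp [ordG, I7_lb]
  · have h1 : ((Int.gcd (3 * a) c : ℕ) : ℝ) ≤ ((Int.gcd (3 * a) (3 * c) : ℕ) : ℝ) := by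
      refine I7_gcd_le (Int.gcd_dvd_left _ _) (Dvd.dvd.mul_left (Int.gcd_dvd_right _ _) _) ?_
      by_contra h
      push Not at h
      exact h0 ⟨by omega, by omega⟩
    rw [Int.gcd_mul_left] at h1
    have h2 : (0 : ℝ) ≤ ((Int.gcd (3 * a) c : ℕ) : ℝ) := Nat.cast_nonneg _
    simp only [ordG, I7_lb, List.map_cons, List.map_nil, List.sum_cons, List.sum_nil]
    push_cast at h1 ⊢
    simp only [one_mul, zero_mul, add_zero]
    nlinarith

theorem I7_ord_s (a c : ℤ) : 0 ≤ ordG I7_ls a c := by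
  by_cases h0 : a = 0 ∧ c = 0
  · obtain ⟨rfl, rfl⟩ := h0
    simp [ordG, I7_ls]
  · have h1 : ((Int.gcd (3 * a) c : ℕ) : ℝ) ≤ ((Int.gcd (9 * a) c : ℕ) : ℝ) := by
      refine I7_gcd_le ?_ (Int.gcd_dvd_right _ _) ?_
      · have : (9 : ℤ) * a = 3 * (3 * a) := by ring
        rw [this]
        exact Dvd.dvd.mul_left (Int.gcd_dvd_left _ _) _
      · by_contra h
        push Not at h
        exact h0 ⟨by omega, by omega⟩
    have h2 : (0 : ℝ) ≤ ((Int.gcd (3 * a) c : ℕ) : ℝ) := Nat.cast_nonneg _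
    simp only [ordG, I7_ls, List.map_cons, List.map_nil, List.sum_cons, List.sum_nil]
    push_cast at h1 ⊢
    simp only [one_mul, zero_mul, add_zero]
    nlinarith

theorem I7_ord_p (a c : ℤ) : 0 ≤ ordG I7_lp a c := by
  by_cases h0 : a = 0 ∧ c = 0
  · obtain ⟨rfl, rfl⟩ := h0
    simp [ordG, I7_lp]
  · have h1 : ((Int.gcd (3 * a + c) c : ℕ) : ℝ) ≤ ((Int.gcd (3 * a + c) (3 * c) : ℕ) : ℝ) := by
      refine I7_gcd_le (Int.gcd_dvd_left _ _) (Dvd.dvd.mul_left (Int.gcd_dvd_right _ _) _) ?_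
      by_contra h
      push Not at h
      exact h0 ⟨by omega, by omega⟩
    have h2 : (0 : ℝ) ≤ ((Int.gcd (3 * a + c) c : ℕ) : ℝ) := Nat.cast_nonneg _
    simp only [ordG, I7_lp, List.map_cons, List.map_nil, List.sum_cons, List.sum_nil]
    push_cast at h1 ⊢
    simp only [one_mul, add_zero]
    nlinarith

theorem I7_pos_b : PosG I7_lb := by simp [PosG, I7_lb]
theorem I7_pos_s : PosG I7_ls := by simp [PosG, I7_ls]
theorem I7_pos_p : PosG I7_lp := by simp [PosG, I7_lp]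
theorem I7_wt_b : wt2G I7_lb = 2 := by simp [wt2G, I7_lb]
theorem I7_wt_s : wt2G I7_ls = 2 := by simp [wt2G, I7_ls]
theorem I7_wt_p : wt2G I7_lp = 2 := by simp [wt2G, I7_lp]

/-- a product of two weight one units with character `χ₋₃` is a modular form of weight two. -/
theorem I7_isMF_mul (h2 : Stmt_etaG_bdd) (h5 : Stmt_etaG_basic) (l l' : List (ℕ × ℤ × ℕ × ℤ))
    (hpos : PosG l) (hpos' : PosG l') (hwt : wt2G l = 2) (hwt' : wt2G l' = 2) (F G : ℂ → ℂ)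
    (hF : ∀ z, F z = etaG l z) (hG : ∀ z, G z = etaG l' z)
    (hFi : ∀ γ ∈ Gamma0 9, ∀ z : ℍ, F ((γ • z : ℍ) : ℂ) = chi3 (γ 1 1) * den γ z * F z)
    (hGi : ∀ γ ∈ Gamma0 9, ∀ z : ℍ, G ((γ • z : ℍ) : ℂ) = chi3 (γ 1 1) * den γ z * G z)
    (hord : ∀ a c : ℤ, 0 ≤ ordG l a c) (hord' : ∀ a c : ℤ, 0 ≤ ordG l' a c) :
    S20.IsMF (Gamma0 9) 2 (onH F * onH G) := by
  have h := I7_isMF h2 h5 (l ++ l') (I7_posG_append hpos hpos')
    (by rw [I7_wt2G_append, hwt, hwt']; norm_num) (fun z => F z * G z)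
    (fun z => by rw [I7_etaG_append, hF, hG])
    (fun γ hγ z => by
      show F _ * G _ = den γ z ^ 2 * (F z * G z)
      rw [hFi γ hγ z, hGi γ hγ z]
      linear_combination (den γ z ^ 2 * F z * G z) * E9_chi3_sq (γ 1 1))
    (fun a c => by
      rw [I7_ordG_append]
      exact add_nonneg (hord a c) (hord' a c))
  exact h

/-! ### low coefficients -/

theorem I7_mk6_lf9 : mk6 (etaLps lf9 - ((1 : PowerSeries ℤ) - 3 * PowerSeries.X
    + 6 * PowerSeries.X ^ 3 - 3 * PowerSeries.X ^ 4)) = 0 := by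
  have hx := x6_pow
  rw [U9_lf9]
  simp only [map_sub, map_add, map_mul, map_pow, map_ofNat, map_one, U9_mk6_E1, U9_mk6_E3i]
  linear_combination ((-2) + (-3) * x6 + (6) * x6 ^ 2 + (-4) * x6 ^ 3 + (3) * x6 ^ 5
    + (3) * x6 ^ 7 + (-3) * x6 ^ 8 + (-2) * x6 ^ 9 + x6 ^ 12) * hx

theorem I7_mk6_lf9s : mk6 (PowerSeries.X * etaLps lf9s - (PowerSeries.X + PowerSeries.X ^ 4)) = 0 := by
  rw [U9_lf9s]
  simp only [map_sub, map_add, map_mul, map_pow, U9_mk6_E9, U9_mk6_E3i]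
  ring

theorem I7_coeff_lf9 {n : ℕ} (hn : n < 6) : (etaLps lf9).coeff n =
    ((1 : PowerSeries ℤ) - 3 * PowerSeries.X + 6 * PowerSeries.X ^ 3
      - 3 * PowerSeries.X ^ 4).coeff n := by
  have := (mk6_eq_zero_iff _).1 I7_mk6_lf9 n hn
  rwa [map_sub, sub_eq_zero] at this

theorem I7_coeff_lf9s {n : ℕ} (hn : n < 6) : (PowerSeries.X * etaLps lf9s).coeff n =
    ((PowerSeries.X : PowerSeries ℤ) + PowerSeries.X ^ 4).coeff n := by
  have := (mk6_eq_zero_iff _).1 I7_mk6_lf9s n hn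
  rwa [map_sub, sub_eq_zero] at this

theorem I7_poly_coeff (n : ℕ) : ((1 : PowerSeries ℤ) - 3 * PowerSeries.X + 6 * PowerSeries.X ^ 3
      - 3 * PowerSeries.X ^ 4).coeff n =
    (if n = 0 then 1 else 0) - 3 * (if n = 1 then 1 else 0) + 6 * (if n = 3 then 1 else 0)
      - 3 * (if n = 4 then 1 else 0) := by
  have h3 : (3 : PowerSeries ℤ) = PowerSeries.C 3 := (map_ofNat _ 3).symm
  have h6 : (6 : PowerSeries ℤ) = PowerSeries.C 6 := (map_ofNat _ 6).symm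
  rw [h3, h6]
  simp only [map_sub, map_add, PowerSeries.coeff_C_mul, PowerSeries.coeff_X_pow,
    PowerSeries.coeff_X, PowerSeries.coeff_one]

theorem I7_lf9_0 : (etaLps lf9).coeff 0 = 1 := by
  rw [I7_coeff_lf9 (by norm_num), I7_poly_coeff]
  norm_num

theorem I7_lf9_1 : (etaLps lf9).coeff 1 = -3 := by
  rw [I7_coeff_lf9 (by norm_num), I7_poly_coeff]
  norm_num

theorem I7_lf9_2 : (etaLps lf9).coeff 2 = 0 := by
  rw [I7_coeff_lf9 (by norm_num), I7_poly_coeff]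
  norm_num

theorem I7_lf9s_0 : (PowerSeries.X * etaLps lf9s).coeff 0 = 0 := by
  rw [I7_coeff_lf9s (by norm_num)]
  simp

theorem I7_lf9s_1 : (PowerSeries.X * etaLps lf9s).coeff 1 = 1 := by
  rw [I7_coeff_lf9s (by norm_num)]
  simp [PowerSeries.coeff_X_pow, PowerSeries.coeff_X]

theorem I7_lf9s_2 : (PowerSeries.X * etaLps lf9s).coeff 2 = 0 := by
  rw [I7_coeff_lf9s (by norm_num)]
  simp [PowerSeries.coeff_X_pow, PowerSeries.coeff_X]

/-! ### the identity -/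

theorem I7_onH_f9p : onH f9p = aff 1 ((1 / 3 : ℚ) : ℝ) (onH f9) := by
  rw [H2_aff_onH]
  funext z
  show f9 ((z : ℂ) + 1 / 3) = f9 ((z : ℂ) + ((1 / 3 : ℚ) : ℂ))
  push_cast
  rfl

theorem I7_nice_smul {f : ℍ → ℂ} (c : ℂ) (hf : Nice f) : Nice (c • f) := by
  have : c • f = (fun _ => c) * f := by
    funext z
    simp
  rw [this]
  exact (Nice.const c).mul hf

/-- **UNIT-I7 (a)**. -/
theorem f9p_eq (h1 : Stmt_slash9) (h2 : Stmt_etaG_bdd) (h4 : Stmt_etaL_qexp)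
    (h5 : Stmt_etaG_basic) (_h6 : Stmt_etaL_toG) (_h7 : Stmt_rep_shift) : Stmt_f9p_eq := by
  obtain ⟨nb, qb⟩ := h4 lf9 0 (by simp [PosL, lf9]) (by simp [deg24, lf9])
  obtain ⟨ns, qs⟩ := h4 lf9s 1 (by simp [PosL, lf9s]) (by simp [deg24, lf9s])
  rw [pow_zero, one_mul] at qb
  rw [pow_one] at qs
  change Nice (onH f9) at nb
  change Nice (onH f9s) at ns
  change qExpansion 1 (onH f9) = _ at qb
  change qExpansion 1 (onH f9s) = _ at qs
  have np : Nice (onH f9p) := by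
    rw [I7_onH_f9p]
    exact Fermat.Agent.ES.Mid.HA2.nice_shift nb _
  set c : ℂ := 3 * (1 - ee (1 / 3)) with hc
  set D : ℍ → ℂ := onH f9p + (-1 : ℂ) • onH f9 + (-c) • onH f9s with hD
  have nD : Nice D := (np.add (I7_nice_smul _ nb)).add (I7_nice_smul _ ns)
  have mf : S20.IsMF (Gamma0 9) 2 (D * onH f9) := by
    have m1 := I7_isMF_mul h2 h5 I7_lp I7_lb I7_pos_p I7_pos_b I7_wt_p I7_wt_b f9p f9 I7_f9p_eq
      I7_f9_eq (h1 f9p (by simp)) (h1 f9 (by simp)) I7_ord_p I7_ord_b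
    have m2 := I7_isMF_mul h2 h5 I7_lb I7_lb I7_pos_b I7_pos_b I7_wt_b I7_wt_b f9 f9 I7_f9_eq
      I7_f9_eq (h1 f9 (by simp)) (h1 f9 (by simp)) I7_ord_b I7_ord_b
    have m3 := I7_isMF_mul h2 h5 I7_ls I7_lb I7_pos_s I7_pos_b I7_wt_s I7_wt_b f9s f9 I7_f9s_eq
      I7_f9_eq (h1 f9s (by simp)) (h1 f9 (by simp)) I7_ord_s I7_ord_b
    have := (m1.sub m2).sub (m3.smul c)
    convert this using 1
    funext z
    simp only [hD, Pi.mul_apply, Pi.add_apply, Pi.sub_apply, Pi.smul_apply, smul_eq_mul]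
    ring
  have qD : ∀ n ≤ 2, (qExpansion 1 D).coeff n = 0 := by
    intro n hn
    rw [hD, qExpansion_add (np.add (I7_nice_smul _ nb)).analyticAt (I7_nice_smul _ ns).analyticAt,
      qExpansion_add np.analyticAt (I7_nice_smul _ nb).analyticAt, qExpansion_smul nb.analyticAt,
      qExpansion_smul ns.analyticAt, map_add,
      map_add, PowerSeries.coeff_smul, PowerSeries.coeff_smul, I7_onH_f9p,
      Fermat.Agent.ES.Mid.HA2.qExpansion_shift_coeff nb, qb, qs, PowerSeries.coeff_map,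
      PowerSeries.coeff_map]
    have hw : Complex.exp (2 * Real.pi * Complex.I * (((1 / 3 : ℚ) : ℝ) : ℂ)) = ee (1 / 3) := by
      rw [ee]
      push_cast
      rfl
    rw [hw]
    interval_cases n
    · rw [I7_lf9_0, I7_lf9s_0]
      simp
    · rw [I7_lf9_1, I7_lf9s_1]
      simp only [hc, eq_intCast, Int.cast_neg, Int.cast_ofNat, Int.cast_one, smul_eq_mul]
      ring
    · rw [I7_lf9_2, I7_lf9s_2]
      simp
  have h0 : mf.toModularForm = 0 := by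
    apply ModularForm.sturm_bound_Gamma0 9
    intro n hn
    rw [S20.index_Gamma0 9 (by norm_num), U9_dedekindPsi_nine] at hn
    have hn2 : n ≤ 2 := le_trans hn (by decide)
    rw [S20.IsMF.coe_toModularForm, qExpansion_mul nD.analyticAt nb.analyticAt,
      PowerSeries.coeff_mul]
    refine Finset.sum_eq_zero fun p hp => ?_
    rw [qD p.1 (by have := Finset.HasAntidiagonal.mem_antidiagonal.1 hp; omega), zero_mul]
  have h0' : D * onH f9 = 0 := by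
    have := congrArg (fun F : ModularForm (Gamma0 9 : Subgroup (GL (Fin 2) ℝ)) 2 => (⇑F : ℍ → ℂ)) h0
    simpa using this
  intro z hz
  have hv := congrFun h0' ⟨z, hz⟩
  have hne : f9 z ≠ 0 := E9_f9_ne hz
  simp only [hD, Pi.mul_apply, Pi.add_apply, Pi.zero_apply, Pi.smul_apply, smul_eq_mul, onH] at hv
  have hv' : f9p z + -1 * f9 z + -c * f9s z = 0 := (mul_eq_zero.1 hv).resolve_right hne
  linear_combination hv'

/-! ### `τ` on the Hauptmodul -/

theorem I7_f9s_shift (hT : Stmt_etaL_T) (z : ℂ) : f9s (z + 1 / 3) = ee (1 / 3) * f9s z := by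
  have e : ∀ w, f9s w = f3s (3 * w) := by
    intro w
    rw [E9_f9s_eq, E9_f3s_eq]
    congr 3
    ring
  have h := hT lf3s (3 * z)
  have hd : ((deg24 lf3s : ℤ) : ℂ) / 24 = 1 / 3 := by
    have : deg24 lf3s = 8 := by simp [deg24, lf3s]
    rw [this]
    norm_num
  rw [hd] at h
  rw [e, e z]
  have e2 : 3 * (z + 1 / 3) = 3 * z + 1 := by ring
  rw [e2]
  exact h

/-- **UNIT-I7 (b)**. -/
theorem tau9 (h : Stmt_f9p_eq) (hT : Stmt_etaL_T) : Stmt_tau9 := by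
  intro z hz
  have hz' : 0 < (z + 1 / 3).im := by
    have : (z + 1 / 3).im = z.im := by simp
    rw [this]
    exact hz
  have k1 := E9_t9_mul hz'
  have k2 := E9_t9_mul hz
  have k3 : f9 (z + 1 / 3) = f9 z + 3 * (1 - ee (1 / 3)) * f9s z := h z hz
  have hs : f9s z ≠ 0 := E9_f9s_ne hz
  have hw : ee (-1 / 3) * ee (1 / 3) = 1 := by
    rw [← B1_ee_add]
    have : (-1 / 3 : ℂ) + 1 / 3 = 0 := by ring
    rw [this, B1_ee_zero]
  rw [I7_f9s_shift hT, k3, ← k2] at k1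
  have key : t9 (z + 1 / 3) * ee (1 / 3) = t9 z + 3 * (1 - ee (1 / 3)) := by
    apply mul_right_cancel₀ hs
    linear_combination k1
  linear_combination ee (-1 / 3) * key - (t9 (z + 1 / 3) + 3) * hw

end Fermat.Agent.CAR.Unit
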