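import Fermat.Agent.CAR.Unit.Interface3
import Fermat.Agent.S36.Val.GVApi
import Fermat.Agent.S36.Val.GVOps
import Fermat.Agent.S36.Val.JTw

/-!
# S36 / CAR / Unit, task UNIT-Q1 : valuations and congruences of `aA = r x₂`, `aC = 1/x₁`,
`aM = x₁/x₂` (`Stmt_valX`, `Stmt_ordX`)
-/

set_option autoImplicit false

namespace Fermat.Agent.CAR.Unit

open Fermat.Agent
open Fermat.Agent.S24 (Qbar FF)
open Fermat.Agent.S36.Val
open Fermat.Agent.S36.Base (IE AE FE emb cmE)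
open Fermat.Agent.INJ.Inst (kA)
open Fermat.Agent.ES.Mid (tw)
open Fermat.Agent.CAR (NR.IsUnif)

theorem Q1_scale_sq (r : ℕ) (l : List (ℕ × ℤ)) : scaleL (r ^ 2) l = scaleL r (scaleL r l) := by
  unfold scaleL
  rw [List.map_map]
  apply List.map_congr_left
  intro p _
  simp [pow_two, mul_assoc]

/-- the reductions of the series in terms of `fb = etaLser k 0 lf`. -/
theorem Q1_ser (hS : Stmt_serCalc) (hN : Stmt_listNum) (k : Type) [Field k] (r : ℕ) (hr : r.Prime)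
    (hk : (r : k) = 0) (lf : List (ℕ × ℤ)) (hpos : PosL lf) :
    etaLser k 0 lf ≠ 0 ∧
    etaLser k 0 (negL (scaleL r lf)) = (etaLser k 0 lf ^ r)⁻¹ ∧
    etaLser k 0 (lx1 lf r) = etaLser k 0 lf ^ r * (etaLser k 0 lf)⁻¹ ∧
    etaLser k 0 (lx2 lf r) = (etaLser k 0 lf ^ r) ^ r * (etaLser k 0 lf ^ r)⁻¹ := by
  obtain ⟨-, hmul, hinv, -, hfrob, hne⟩ := hS
  obtain ⟨-, -, hsc⟩ := hN
  have hpos' : PosL (scaleL r lf) := (hsc r lf).2.2 hr.pos hpos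
  have hF : ∀ l, PosL l → etaLser k 0 (scaleL r l) = etaLser k 0 l ^ r := by
    intro l hl
    have := hfrob k r 0 l hr hk hl
    rwa [mul_zero] at this
  have hI : ∀ l, etaLser k 0 (negL l) = (etaLser k 0 l)⁻¹ := by
    intro l
    have := hinv k 0 l
    rw [neg_zero] at this
    exact eq_inv_of_mul_eq_one_right this
  have hM : ∀ l l', etaLser k 0 (l ++ l') = etaLser k 0 l * etaLser k 0 l' := by
    intro l l'
    have := hmul k 0 0 l l'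
    rw [add_zero] at this
    exact this.symm
  refine ⟨hne k 0 lf, ?_, ?_, ?_⟩
  · rw [hI, hF lf hpos]
  · rw [lx1, hM, hI, hF lf hpos]
  · rw [lx2, hM, hI, Q1_scale_sq, hF _ hpos', hF lf hpos]

theorem Q1_smul (ε : Qbar) {r : ℕ} (hr : r ≠ 0) (Y : LaurentSeries Qbar) :
    (r : LaurentSeries Qbar) * ((ε * (r : Qbar)⁻¹) • Y) = ε • Y := by
  have hr' : (r : Qbar) ≠ 0 := Nat.cast_ne_zero.2 hr
  rw [← nsmul_eq_mul, ← Nat.cast_smul_eq_nsmul Qbar, smul_smul]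
  congr 1
  field_simp

/-- `± Y` is a Gauss unit if `Y` is. -/
theorem Q1_pm {A : ValuationSubring Qbar} {ε : Qbar} (hε : ε = 1 ∨ ε = -1)
    {Y : LaurentSeries Qbar} (h1 : GInt A Y) (h2 : gred A Y ≠ 0) :
    GInt A (ε • Y) ∧ gred A (ε • Y) ≠ 0 := by
  rcases hε with rfl | rfl
  · rw [one_smul]; exact ⟨h1, h2⟩
  · rw [neg_smul, one_smul]
    exact ⟨h1.neg, by rw [gred_neg h1]; exact neg_ne_zero.2 h2⟩

theorem Q1_field1 {K : Type*} [Field K] (f : K) (r : ℕ) :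
    f * (f ^ r)⁻¹ = (f ^ r * f⁻¹)⁻¹ := by
  rw [mul_inv, inv_inv, mul_comm]

theorem Q1_field2 {K : Type*} [Field K] (f : K) (hf : f ≠ 0) (r : ℕ) (hr : 0 < r) :
    (f ^ r * f⁻¹) / ((f ^ r) ^ r * (f ^ r)⁻¹) = ((f ^ r * f⁻¹)⁻¹) ^ (r - 1) := by
  obtain ⟨s, rfl⟩ : ∃ s, r = s + 1 := ⟨r - 1, by omega⟩
  rw [Nat.add_sub_cancel]
  have h1 : f ^ (s + 1) * f⁻¹ = f ^ s := by
    rw [pow_succ, mul_assoc, mul_inv_cancel₀ hf, mul_one]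
  have h2 : (f ^ (s + 1)) ^ (s + 1) * (f ^ (s + 1))⁻¹ = (f ^ (s + 1)) ^ s := by
    rw [pow_succ (f ^ (s + 1)) s, mul_assoc, mul_inv_cancel₀ (pow_ne_zero _ hf), mul_one]
  rw [h1, h2, inv_pow, ← pow_mul, ← pow_mul, div_eq_iff (pow_ne_zero _ hf),
    inv_mul_eq_div, eq_div_iff (pow_ne_zero _ hf), ← pow_add]
  congr 1
  ring

theorem valX (hS : Stmt_serCalc) (hN : Stmt_listNum) (hG : Stmt_gaussEta) (hP : Stmt_phiX) :
    Stmt_valX := by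
  intro A r M _ _ _ _ C a lf χ X1 X2 hW ha h1 h2
  obtain ⟨pA1, pA2, pM1, ⟨εM, hεM, pM2⟩, ⟨εC1, hεC1, pC1⟩, ⟨εC2, hεC2, pC2⟩⟩ :=
    hP A r M C a lf χ X1 X2 hW ha h1 h2
  have hchar : ((r : ℕ) : kA A) = 0 := by
    have := JTw_charP A C.hr C.hA
    exact CharP.cast_eq_zero _ r
  obtain ⟨hfb, e3, e1, e2⟩ := Q1_ser hS hN (kA A) r C.hr hchar lf hW.pos
  have hne : ∀ (n : ℤ) l, etaLser (kA A) n l ≠ 0 := fun n l => hS.2.2.2.2.2 (kA A) n l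
  have hU : ∀ (n : ℤ) l, GInt A (etaLser Qbar n l) ∧ gred A (etaLser Qbar n l) ≠ 0 := by
    intro n l
    refine ⟨(hG A n l).1, ?_⟩
    rw [(hG A n l).2]
    exact hne n l
  have hr0 : r ≠ 0 := C.hr.ne_zero
  have k0 : ∀ x, (C.O 0).valuation x = 1 ↔
      GInt A (phiA A (r ^ 2 * M) x) ∧ gred A (phiA A (r ^ 2 * M) x) ≠ 0 :=
    fun x => gv_eq_one_iff (phiA A (r ^ 2 * M)) (fun _ => sat_incl A (r ^ 2 * M) _) x
  have k1 : ∀ x, (C.O 1).valuation x = 1 ↔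
      GInt A (phiM A C.D x) ∧ gred A (phiM A C.D x) ≠ 0 :=
    fun x => gv_eq_one_iff (phiM A C.D) (fun _ => C.hS _) x
  have k2 : ∀ x, (C.O 2).valuation x = 1 ↔
      GInt A (phiC A C.W2 x) ∧ gred A (phiC A C.W2 x) ≠ 0 :=
    fun x => gv_eq_one_iff (phiC A C.W2) (fun _ => sat_incl A (r ^ 2 * M) _) x
  have l0 : ∀ x, (C.O 0).valuation x < 1 ↔
      GInt A (phiA A (r ^ 2 * M) x) ∧ gred A (phiA A (r ^ 2 * M) x) = 0 :=
    fun x => gv_lt_one_iff (phiA A (r ^ 2 * M)) (fun _ => sat_incl A (r ^ 2 * M) _) x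
  have l1 : ∀ x, (C.O 1).valuation x < 1 ↔
      GInt A (phiM A C.D x) ∧ gred A (phiM A C.D x) = 0 :=
    fun x => gv_lt_one_iff (phiM A C.D) (fun _ => C.hS _) x
  -- the series `Y = f(ζ q) / f(q^r)`
  obtain ⟨Y, hY⟩ : ∃ Y, Y = tw C.D.ζ (etaLser Qbar 0 lf) * etaLser Qbar 0 (negL (scaleL r lf)) :=
    ⟨_, rfl⟩
  have htw := stmt_GVTw A r C.hr C.hA C.D.ζ C.D.prim.pow_eq_one (etaLser Qbar 0 lf) (hG A 0 lf).1
  have hYi : GInt A Y := by rw [hY]; exact htw.1.mul (hG A 0 _).1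
  have hYr : gred A Y = etaLser (kA A) 0 lf * (etaLser (kA A) 0 lf ^ r)⁻¹ := by
    rw [hY, gred_mul htw.1 (hG A 0 _).1, htw.2, (hG A 0 lf).2, (hG A 0 _).2, e3]
  have hYn : gred A Y ≠ 0 := by
    rw [hYr]; exact mul_ne_zero hfb (inv_ne_zero (pow_ne_zero _ hfb))
  rw [← hY] at pM2
  have qM2 : phiM A C.D ((r : FE A (r ^ 2 * M)) * X2) = εM • Y := by
    rw [map_mul, map_natCast, pM2, Q1_smul εM hr0]
  have qC1 : phiC A C.W2 ((r : FE A (r ^ 2 * M)) * X1)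
      = εC1 • etaLser Qbar 0 (negL (lx2 lf r)) := by
    rw [map_mul, map_natCast, pC1, Q1_smul εC1 hr0]
  have qC2 : phiC A C.W2 ((r : FE A (r ^ 2 * M)) * X2)
      = εC2 • etaLser Qbar 0 (negL (lx1 lf r)) := by
    rw [map_mul, map_natCast, pC2, Q1_smul εC2 hr0]
  refine ⟨⟨?_, ?_⟩, ⟨?_, ?_⟩, ⟨?_, ?_⟩, ?_, ?_⟩
  · rw [k0, pA1]; exact hU _ _
  · rw [k0, pA2]; exact hU _ _
  · rw [k1, pM1]; exact hU _ _
  · rw [k1, qM2]; exact Q1_pm hεM hYi hYn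
  · rw [k2, qC1]; exact Q1_pm hεC1 (hU _ _).1 (hU _ _).2
  · rw [k2, qC2]; exact Q1_pm hεC2 (hU _ _).1 (hU _ _).2
  · -- `r x₂ ≡ ± 1 / x₁` on the middle component
    have hZi : GInt A (etaLser Qbar 0 (lx1 lf r))⁻¹ := (hU 0 _).1.inv (hU 0 _).2
    have hZr : gred A (etaLser Qbar 0 (lx1 lf r))⁻¹ = gred A Y := by
      rw [gred_inv (hU 0 _).1 (hU 0 _).2, (hG A 0 _).2, e1, hYr, Q1_field1]
    rcases hεM with rfl | rfl
    · refine ⟨1, Or.inl rfl, ?_⟩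
      rw [l1, map_sub, qM2, one_mul, map_inv₀, pM1, one_smul]
      exact ⟨hYi.sub hZi, by rw [gred_sub hYi hZi, hZr, sub_self]⟩
    · refine ⟨-1, Or.inr rfl, ?_⟩
      have : phiM A C.D ((r : FE A (r ^ 2 * M)) * X2 - -1 * X1⁻¹)
          = -(Y - (etaLser Qbar 0 (lx1 lf r))⁻¹) := by
        rw [map_sub, qM2, map_mul, map_neg, map_one, map_inv₀, pM1, neg_smul, one_smul]
        ring
      rw [l1, this]
      exact ⟨(hYi.sub hZi).neg, by rw [gred_neg (hYi.sub hZi), gred_sub hYi hZi, hZr, sub_self,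
        neg_zero]⟩
  · -- `x₁ / x₂ ≡ x₁^(-(r-1))` on the component `A`
    have i1 := hU 0 (lx1 lf r)
    have i2 := hU 0 (lx2 lf r)
    have j1 : GInt A (etaLser Qbar 0 (lx1 lf r) / etaLser Qbar 0 (lx2 lf r)) := by
      rw [div_eq_mul_inv]; exact i1.1.mul (i2.1.inv i2.2)
    have j2 : GInt A ((etaLser Qbar 0 (lx1 lf r))⁻¹ ^ (r - 1)) := (i1.1.inv i1.2).pow _
    rw [l0, map_sub, map_div₀, map_pow, map_inv₀, pA1, pA2]
    refine ⟨j1.sub j2, ?_⟩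
    rw [gred_sub j1 j2, gred_pow (i1.1.inv i1.2), gred_inv i1.1 i1.2, div_eq_mul_inv,
      gred_mul i1.1 (i2.1.inv i2.2), gred_inv i2.1 i2.2, (hG A 0 _).2, (hG A 0 _).2, e1, e2,
      ← div_eq_mul_inv, Q1_field2 _ hfb r C.hr.pos, sub_self]

/-- abstract calculus of `ordOf`. -/
theorem Q1_ord_abs (hO : S36.Val.Stmt_OrdOf) (L : Type) [Field L] (W : ValuationSubring L) (ϖ : L)
    (hU : NR.IsUnif W ϖ) :
    (∀ z : L, W.valuation z = 1 → ordOf W ϖ z = 0) ∧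
    (∀ x y : L, x ≠ 0 → y ≠ 0 → ordOf W ϖ (x * y) = ordOf W ϖ x + ordOf W ϖ y) ∧
    (∀ x : L, x ≠ 0 → ordOf W ϖ x⁻¹ = - ordOf W ϖ x) := by
  obtain ⟨-, h2, h3, -, -, -⟩ := hO L W ϖ hU
  have h0 : ∀ z : L, W.valuation z = 1 → ordOf W ϖ z = 0 := fun z hz =>
    h2 z 0 (by rw [hz, zpow_zero])
  refine ⟨h0, h3, fun x hx => ?_⟩
  have h4 := h3 x x⁻¹ hx (inv_ne_zero hx)
  rw [mul_inv_cancel₀ hx, h0 1 (map_one _)] at h4
  omega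

/-- the abstract computation behind `ordX`. -/
theorem Q1_ordX_abs (hO : S36.Val.Stmt_OrdOf) (L : Type) [Field L] (O : Fin 3 → ValuationSubring L)
    (u : Fin 3 → L) (hU : ∀ X, NR.IsUnif (O X) (u X)) (ρ X1 X2 : L) (n : ℤ)
    (hρ : ordOf (O 0) (u 0) ρ = 1 ∧ ordOf (O 1) (u 1) ρ = n ∧ ordOf (O 2) (u 2) ρ = 1)
    (h0 : (O 0).valuation X1 = 1 ∧ (O 0).valuation X2 = 1)
    (h1 : (O 1).valuation X1 = 1 ∧ (O 1).valuation (ρ * X2) = 1)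
    (h2 : (O 2).valuation (ρ * X1) = 1 ∧ (O 2).valuation (ρ * X2) = 1) :
    (ordOf (O 0) (u 0) (ρ * X2) = 1 ∧ ordOf (O 1) (u 1) (ρ * X2) = 0 ∧
      ordOf (O 2) (u 2) (ρ * X2) = 0) ∧
    (ordOf (O 0) (u 0) X1⁻¹ = 0 ∧ ordOf (O 1) (u 1) X1⁻¹ = 0 ∧ ordOf (O 2) (u 2) X1⁻¹ = 1) ∧
    (ordOf (O 0) (u 0) (X1 / X2) = 0 ∧ ordOf (O 1) (u 1) (X1 / X2) = n ∧
      ordOf (O 2) (u 2) (X1 / X2) = 0) := by
  have hX1 : X1 ≠ 0 := by
    rintro rfl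
    rw [map_zero] at h0
    exact zero_ne_one h0.1
  have hX2 : X2 ≠ 0 := by
    rintro rfl
    rw [map_zero] at h0
    exact zero_ne_one h0.2
  have hρ0 : ρ ≠ 0 := by
    rintro rfl
    rw [zero_mul, map_zero] at h1
    exact zero_ne_one h1.2
  obtain ⟨a0, m0, i0⟩ := Q1_ord_abs hO L (O 0) (u 0) (hU 0)
  obtain ⟨a1, m1, i1⟩ := Q1_ord_abs hO L (O 1) (u 1) (hU 1)
  obtain ⟨a2, m2, i2⟩ := Q1_ord_abs hO L (O 2) (u 2) (hU 2)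
  have b01 := a0 X1 h0.1
  have b02 := a0 X2 h0.2
  have b11 := a1 X1 h1.1
  have b12 := a1 _ h1.2
  have b21 := a2 _ h2.1
  have b22 := a2 _ h2.2
  have c12 := m1 ρ X2 hρ0 hX2
  have c21 := m2 ρ X1 hρ0 hX1
  have c22 := m2 ρ X2 hρ0 hX2
  have d0 := m0 X1 X2⁻¹ hX1 (inv_ne_zero hX2)
  have d1 := m1 X1 X2⁻¹ hX1 (inv_ne_zero hX2)
  have d2 := m2 X1 X2⁻¹ hX1 (inv_ne_zero hX2)
  rw [div_eq_mul_inv]
  rw [i0 X2 hX2] at d0
  rw [i1 X2 hX2] at d1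
  rw [i2 X2 hX2] at d2
  obtain ⟨r0, r1, r2⟩ := hρ
  refine ⟨⟨?_, b12, b22⟩, ⟨?_, ?_, ?_⟩, ?_, ?_, ?_⟩
  · rw [m0 ρ X2 hρ0 hX2]; omega
  · rw [i0 X1 hX1]; omega
  · rw [i1 X1 hX1]; omega
  · rw [i2 X1 hX1]; omega
  · omega
  · omega
  · omega

theorem ordX (hV : Stmt_valX) (hO : S36.Val.Stmt_OrdOf) (hM1 : S36.Val.Stmt_Main1) :
    Stmt_ordX := by
  intro A r M _ _ _ _ C a lf χ X1 X2 hW ha h1 h2
  obtain ⟨v0, v1, v2, -, -⟩ := hV A r M C a lf χ X1 X2 hW ha h1 h2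
  obtain ⟨hU, hρ, -⟩ := hM1 A r M C
  exact Q1_ordX_abs hO (FE A (r ^ 2 * M)) C.O C.unif hU (r : FE A (r ^ 2 * M)) X1 X2 ((r : ℤ) - 1)
    hρ v0 v1 v2

end Fermat.Agent.CAR.Unit
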