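import Fermat.Agent.CAR.Unit.Interface

/-!
# S36 / CAR / Unit : UNIT-K1, assembly of the weight one units (helper9)
-/

set_option autoImplicit false

namespace Fermat.Agent.CAR.Unit

open CongruenceSubgroup Complex
open UpperHalfPlane hiding I
open scoped MatrixGroups Real

theorem WUInst_posG {l : List (ℕ × ℤ)} (hl : PosL l) : PosG (toG l) := by
  intro p hp
  obtain ⟨p', hp', rfl⟩ := List.mem_map.1 hp
  exact ⟨hl p' hp', Nat.one_pos⟩

theorem WUInst_basic (hB : Stmt_etaG_basic) (hTG : Stmt_etaL_toG) {l : List (ℕ × ℤ)}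
    (hl : PosL l) :
    DifferentiableOn ℂ (etaL l) {z : ℂ | 0 < z.im} ∧ ∀ z : ℂ, 0 < z.im → etaL l z ≠ 0 := by
  have e : etaL l = etaG (toG l) := funext (hTG l)
  rw [e]
  exact hB _ (WUInst_posG hl)

theorem WUInst_pos_lf4 : PosL lf4 := by
  intro p hp
  simp only [lf4, List.mem_cons, List.not_mem_nil, or_false] at hp
  rcases hp with rfl | rfl | rfl <;> norm_num

theorem WUInst_pos_lf9 : PosL lf9 := by
  intro p hp
  simp only [lf9, List.mem_cons, List.not_mem_nil, or_false] at hp
  rcases hp with rfl | rfl <;> norm_num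

theorem WUInst_chi4_sq (d : ℤ) : chi4 d ^ 2 = 1 := by
  unfold chi4
  split_ifs <;> norm_num

theorem WUInst_chi3_sq (d : ℤ) : chi3 d ^ 2 = 1 := by
  unfold chi3
  split_ifs <;> norm_num

theorem WUInst_chi4_one : chi4 1 = 1 := by
  unfold chi4
  norm_num

theorem WUInst_chi3_one : chi3 1 = 1 := by
  unfold chi3
  norm_num

theorem WUInst_ee_ne_zero (x : ℂ) : ee x ≠ 0 := Complex.exp_ne_zero _

/-- translation by a real number. -/
theorem WUInst_shift {f : ℂ → ℂ} (c : ℂ) (hc : c.im = 0)
    (h : DifferentiableOn ℂ f {z : ℂ | 0 < z.im} ∧ ∀ z : ℂ, 0 < z.im → f z ≠ 0) :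
    DifferentiableOn ℂ (fun z => f (z + c)) {z : ℂ | 0 < z.im} ∧
      ∀ z : ℂ, 0 < z.im → f (z + c) ≠ 0 := by
  have him : ∀ z : ℂ, 0 < z.im → 0 < (z + c).im := fun z hz => by
    rw [Complex.add_im, hc, add_zero]; exact hz
  refine ⟨?_, fun z hz => h.2 _ (him z hz)⟩
  exact h.1.comp ((differentiable_id.add_const c).differentiableOn) fun z hz => him z hz

theorem wu4 (h1 : Stmt_f4_slash) (h2 : Stmt_frk4) (hB : Stmt_etaG_basic) (hTG : Stmt_etaL_toG) :
    Stmt_WU4 := by
  have hb := WUInst_basic hB hTG WUInst_pos_lf4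
  exact
    { diff := hb.1
      ne_zero := hb.2
      ne_zero' := hb.2
      slash := h1
      chi_sq := WUInst_chi4_sq
      chi_one := WUInst_chi4_one
      frk := fun z hz => by
        have := (h2 z hz).1
        push_cast
        exact this
      C_ne := by simp }

theorem wu9 (h1 : Stmt_slash9) (h2 : Stmt_frk9) (hB : Stmt_etaG_basic) (hTG : Stmt_etaL_toG) :
    Stmt_WU9 := by
  have hb := WUInst_basic hB hTG WUInst_pos_lf9
  have hp := WUInst_shift (f := f9) (1 / 3) (by norm_num) hb
  have hm : DifferentiableOn ℂ f9m {z : ℂ | 0 < z.im} ∧ ∀ z : ℂ, 0 < z.im → f9m z ≠ 0 := by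
    have := WUInst_shift (f := f9) (-(1 / 3)) (by norm_num) hb
    simp only [← sub_eq_add_neg] at this
    exact this
  constructor
  · exact
      { diff := hp.1
        ne_zero := hp.2
        ne_zero' := hm.2
        slash := h1 f9p (Or.inr (Or.inr (Or.inl rfl)))
        chi_sq := WUInst_chi3_sq
        chi_one := WUInst_chi3_one
        frk := fun z hz => by
          have := (h2 z hz).1
          push_cast
          exact this
        C_ne := mul_ne_zero (by norm_num) (WUInst_ee_ne_zero _) }
  · exact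
      { diff := hm.1
        ne_zero := hm.2
        ne_zero' := hp.2
        slash := h1 f9m (Or.inr (Or.inr (Or.inr rfl)))
        chi_sq := WUInst_chi3_sq
        chi_one := WUInst_chi3_one
        frk := fun z hz => by
          have := (h2 z hz).2.1
          push_cast
          exact this
        C_ne := mul_ne_zero (by norm_num) (WUInst_ee_ne_zero _) }

end Fermat.Agent.CAR.Unit
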